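import Mathlib
import Fermat.Agent.Lf.Main
import Fermat.Agent.LG.KX7

/-!
# Lifting: the characters obtained are parabolic
-/

set_option autoImplicit false
set_option linter.unusedSectionVars false

open ModularCurve Fermat.Agent.ModFun IntermediateField Fermat.Agent.LG
open IsLocalRing Fermat.Agent.Flat AlgebraicCurve Fermat.Agent.FunField
open Fermat.Agent.ESCore (HauptFn haupt2 haupt3 ιC XG)
open CongruenceSubgroup (Gamma0)

noncomputable section

namespace Fermat.Agent.MZ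

section Place

variable {K F : Type*} [Field K] [Field F] [Algebra K F]

theorem sep_exists_place {t : F} (h : Sep K t) (V : ValuationSubring F) (hV : V ≠ ⊤)
    (hK : ∀ a : K, algebraMap K F a ∈ V) : ∃ v : Place K F, v.toValuationSubring = V := by
  rcases V.mem_or_inv_mem t with ht | ht
  · have := h.fd
    have := h.sep
    exact exists_place_eq h.trans V hV hK ht
  · have := h.inv.fd
    have := h.inv.sep
    exact exists_place_eq h.inv.trans V hV hK ht

theorem exists_ord_eq (v : Place K F) (n : ℤ) : ∃ f : F, f ≠ 0 ∧ v.ord f = n := by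
  obtain ⟨π, hπ⟩ := IsDiscreteValuationRing.exists_irreducible v.toValuationSubring
  have h1 : (π : F) ≠ 0 := by simpa [ne_eq, ZeroMemClass.coe_eq_zero] using hπ.ne_zero
  refine ⟨(π : F) ^ n, zpow_ne_zero _ h1, ?_⟩
  rw [v.ord_zpow, v.ord_coe_irreducible hπ, mul_one]

end Place

section Closed

variable {K : Type*} [Field K] [IsAlgClosed K] [CharZero K] {ι : K →+* ℂ} {N : ℕ} [NeZero N]

theorem sep_jF (ι : K →+* ℂ) : Sep K (jF K N) := by
  obtain ⟨ζ, hζ⟩ := exists_zeta ι N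
  have : FiniteDimensional K⟮jF K N⟯ (F0 K N) := finiteDimensional_F0 hζ
  exact ⟨transcendental_jF, this, isSeparable_adjoin_simple _⟩

/-- if the orders of `y ^ m` are divisible by `m`, the character of `y` is parabolic -/
theorem isPar_of_dvd {m : ℕ} (hm : 0 < m) {χ : Gamma0 N →* ℂˣ} (hχ : χ ^ m = 1)
    {y : LaurentSeries K} (hy : XSer ι N χ y) (hy0 : y ≠ 0)
    (hdvd : ∀ v : Place K (F0 K N), (m : ℤ) ∣ v.ord (⟨y ^ m, hy.pow_mem_F0 hχ⟩ : F0 K N)) :
    IsPar χ := by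
  obtain ⟨ζ, hζ⟩ := exists_zeta ι N
  refine isPar_of_unit hζ hm hχ hy hy0 fun V hV hK => ?_
  obtain ⟨v, rfl⟩ := sep_exists_place (sep_jF (N := N) ι) V hV hK
  obtain ⟨k, hk⟩ := hdvd v
  obtain ⟨f, hf0, hf⟩ := exists_ord_eq v (-k)
  have hz0 : (⟨y ^ m, hy.pow_mem_F0 hχ⟩ : F0 K N) ≠ 0 :=
    fun h => pow_ne_zero m hy0 (congrArg Subtype.val h)
  have h1 : v.ord (f ^ m * ⟨y ^ m, hy.pow_mem_F0 hχ⟩) = 0 := by
    rw [v.ord_mul (pow_ne_zero _ hf0) hz0, ord_pow, hf, hk]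
    ring
  refine ⟨f, hf0, mem_of_ord_nonneg v h1.ge, mem_of_ord_nonneg v ?_⟩
  rw [v.ord_inv, h1, neg_zero]

/-- divisible functions are, up to powers, powers of series with parabolic character -/
theorem exists_xSer_par {m : ℕ} (hm : 0 < m) {f : F0 K N} (hf : f ≠ 0)
    (hdvd : ∀ v : Place K (F0 K N), (m : ℤ) ∣ v.ord f) :
    ∃ χ ∈ XG N m, IsPar χ ∧ ∃ y : LaurentSeries K, y ≠ 0 ∧ XSer ι N χ y ∧ ∃ u : F0 K N, u ≠ 0 ∧
      y ^ m = (f : LaurentSeries K) * (u : LaurentSeries K) ^ m := by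
  obtain ⟨χ, hχ, y, hy0, hy, u, hu0, h⟩ := CD.exists_xSer_of_dvd_gen (ι := ι) hm hf hdvd
  refine ⟨χ, hχ, isPar_of_dvd hm hχ.1 hy hy0 fun v => ?_, y, hy0, hy, u, hu0, h⟩
  have h1 : (⟨y ^ m, hy.pow_mem_F0 hχ.1⟩ : F0 K N) = f * u ^ m := Subtype.ext h
  rw [h1, v.ord_mul hf (pow_ne_zero _ hu0), ord_pow]
  exact dvd_add (hdvd v) (dvd_mul_right _ _)

end Closed

end Fermat.Agent.MZ
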