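import Mathlib
import Fermat.Agent.Flat.Model
import Fermat.Agent.CD.LdA

/-!
# Uniqueness of the Gauss valuation in extensions
-/

set_option autoImplicit false
set_option linter.unusedSectionVars false

open Polynomial IsLocalRing Fermat.Agent.Flat

noncomputable section

namespace Fermat.Agent.MZ

section Int

variable {F₁ F : Type*} [Field F₁] [Field F] [Algebra F₁ F]

/-- integrality through valuation rings -/
theorem isIntegralElem_of_val {R : Type*} [CommRing R] (g : R →+* F) {x : F}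
    (h : ∀ V : ValuationSubring F, (∀ r, g r ∈ V) → x ∈ V) : g.IsIntegralElem x := by
  have h1 : x ∈ (⨅ V : {V : ValuationSubring F // (Set.range g) ⊆ V.toSubring},
      V.1.toSubring) := by
    rw [Subring.mem_iInf]
    rintro ⟨V, hV⟩
    exact h V fun r => hV ⟨r, rfl⟩
  rw [iInf_valuationSubring_superset] at h1
  have h2 : IsIntegral (Subring.closure (Set.range g)) x := h1
  obtain ⟨P, hP, hPx⟩ := h2
  have h3 : ∀ a : Subring.closure (Set.range g), ∃ r : R, g r = (a : F) := by
    rintro ⟨a, ha⟩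
    have h4 : Subring.closure (Set.range g) ≤ g.range := Subring.closure_le.mpr (by
      rintro _ ⟨r, rfl⟩
      exact ⟨r, rfl⟩)
    exact h4 ha
  have h5 : P.map (Subring.closure (Set.range g)).subtype ∈ Polynomial.lifts g := by
    rw [Polynomial.lifts_iff_coeff_lifts]
    intro n
    rw [Polynomial.coeff_map]
    exact h3 _
  obtain ⟨Q, hQ, -, hQm⟩ := Polynomial.lifts_and_natDegree_eq_and_monic h5 (hP.map _)
  refine ⟨Q, hQm, ?_⟩
  rw [← Polynomial.eval_map, hQ, Polynomial.eval_map]
  exact hPx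

theorem mem_of_isIntegral (V : ValuationSubring F) {x : F} (hx : IsIntegral V x) : x ∈ V := by
  obtain ⟨y, hy⟩ := (IsIntegrallyClosed.isIntegral_iff (K := F)).1 hx
  rw [← hy]
  exact y.2

theorem val_eq_top [Algebra.IsAlgebraic F₁ F] (V : ValuationSubring F)
    (h : ∀ x : F₁, algebraMap F₁ F x ∈ V) : V = ⊤ := by
  ext x
  refine ⟨fun _ => ValuationSubring.mem_top x, fun _ => ?_⟩
  obtain ⟨P, hP, hPx⟩ := (Algebra.IsAlgebraic.isAlgebraic (R := F₁) x).isIntegral
  refine mem_of_isIntegral V ⟨P.map ((algebraMap F₁ F).codRestrict V.toSubring h),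
    hP.map _, ?_⟩
  rw [Polynomial.eval₂_map]
  exact hPx

/-- monic relations with coefficients in a valuation ring -/
theorem mem_of_monic (V : ValuationSubring F) {x : F} (P : F[X]) (hP : P.Monic)
    (hc : ∀ n, P.coeff n ∈ V) (hx : P.eval x = 0) : x ∈ V := by
  have h5 : P ∈ Polynomial.lifts V.subtype := by
    rw [Polynomial.lifts_iff_coeff_lifts]
    intro n
    exact ⟨⟨_, hc n⟩, rfl⟩
  obtain ⟨Q, hQ, -, hQm⟩ := Polynomial.lifts_and_natDegree_eq_and_monic h5 hP
  refine mem_of_isIntegral V ⟨Q, hQm, ?_⟩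
  rw [← hQ, Polynomial.eval_map] at hx
  exact hx

end Int

section Pre

variable {Ω κ F E : Type*} [Field Ω] [Field κ] [Field F] [Field E] [Algebra Ω F] [Algebra κ E]
  {A : ValuationSubring Ω} {r : A →+* κ} {W : Subring F} {ρ : W →+* E} {t : F} {tb : E} {d : ℕ}
  {e : Fin d → F}

theorem pre_mem_of_val (h : Pre r W ρ t tb e) (V : ValuationSubring F)
    (hA : ∀ a ∈ A, algebraMap Ω F a ∈ V) (ht : t ∈ V)
    (hinv : ∀ Q : A[X], Q.map r ≠ 0 → (h.evW Q : F)⁻¹ ∈ V) {x : F} (hx : x ∈ W) : x ∈ V := by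
  have hev : ∀ P : A[X], (h.evW P : F) ∈ V := by
    intro P
    rw [h.coe_evW, Polynomial.aeval_def, Polynomial.eval₂_eq_sum_range]
    refine sum_mem fun i _ => mul_mem ?_ (pow_mem ht _)
    rw [Polynomial.coeff_map]
    exact hA _ (P.coeff i).2
  have he0 : ∃ i, e i ≠ 0 := by
    by_contra hcon
    push Not at hcon
    obtain ⟨Q, P, hQ, h1⟩ := h.span 1
    rw [Finset.sum_eq_zero fun i _ => by rw [hcon i, mul_zero], mul_one] at h1
    exact hQ ((aeval_eq_zero_iff h.tr).mp h1)
  apply mem_of_isIntegral V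
  refine isIntegral_of_smul_mem_submodule (A := F) (M := F)
    (Submodule.span V (Set.range e)) ?_ (Submodule.fg_span (Set.finite_range e)) x ?_
  · obtain ⟨i, hi⟩ := he0
    intro hbot
    apply hi
    have h1 : e i ∈ Submodule.span V (Set.range e) := Submodule.subset_span ⟨i, rfl⟩
    rw [hbot] at h1
    exact (Submodule.mem_bot V).mp h1
  · intro n hn
    induction hn using Submodule.span_induction with
    | mem n hn =>
      obtain ⟨i, rfl⟩ := hn
      have hxe : x * e i ∈ W := mul_mem hx (h.eW i)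
      obtain ⟨Q, P, hQ, h1⟩ := h.span' (x * e i)
      obtain ⟨P', hP'⟩ := h.exists_coeff hxe h1
      have hQ0 : (h.evW Q : F) ≠ 0 := by
        intro h0
        have h1 : h.evW Q = 0 := Subtype.ext h0
        have h2 := h.ρ_evW Q
        rw [h1, map_zero] at h2
        exact hQ ((aeval_eq_zero_iff h.trb).mp h2.symm)
      have h2 : x * e i = ∑ j, ((h.evW Q : F)⁻¹ * (h.evW (P' j) : F)) * e j := by
        apply mul_left_cancel₀ hQ0
        rw [h1, Finset.mul_sum]
        refine Finset.sum_congr rfl fun j _ => ?_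
        rw [h.coe_evW (P' j), hP', mul_assoc, ← mul_assoc, mul_inv_cancel₀ hQ0, one_mul]
      rw [smul_eq_mul, h2]
      refine sum_mem fun j _ => ?_
      have h3 := Submodule.smul_mem (Submodule.span V (Set.range e))
        (⟨_, mul_mem (hinv Q hQ) (hev (P' j))⟩ : V) (Submodule.subset_span ⟨j, rfl⟩)
      exact h3
    | zero => rw [smul_zero]; exact zero_mem _
    | add a b _ _ ha hb => rw [smul_add]; exact add_mem ha hb
    | smul c a _ ha =>
      rw [smul_comm]
      exact Submodule.smul_mem _ c ha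

variable {F₁ : Type*} [Field F₁] [Algebra Ω F₁] [Algebra F₁ F] [IsScalarTower Ω F₁ F]

/-- The Gauss valuation is the unique extension of its restriction. -/
theorem pre_mem_of_le [Algebra.IsAlgebraic F₁ F] (h : Pre r W ρ t tb e)
    (hArch : CD.Arch A.toSubring) {j : F₁} (hjW : algebraMap F₁ F j ∈ W)
    (hj : Transcendental κ (ρ ⟨_, hjW⟩)) {P : ℤ[X]} (hP : P.Monic) {k : ℕ} (hk0 : 0 < k)
    (hk : k < P.natDegree) (hP0 : (P.coeff 0 : κ) ≠ 0)
    (hrel : algebraMap F₁ F j * t ^ k = aeval t P)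
    (V : ValuationSubring F) (hV : ∀ x : F₁, algebraMap F₁ F x ∈ W → algebraMap F₁ F x ∈ V)
    {x : F} (hx : x ∈ W) : x ∈ V := by
  by_cases hVt : V = ⊤
  · rw [hVt]; exact ValuationSubring.mem_top x
  have hΩ : ∀ c : Ω, algebraMap Ω F c ∈ V → c ∈ A := by
    intro c hc
    by_contra hcA
    apply hVt
    have hc0 : c ≠ 0 := by
      rintro rfl
      exact hcA (zero_mem _)
    have h1 : ∀ a : Ω, algebraMap Ω F a ∈ V := by
      intro a
      by_cases ha : a = 0
      · rw [ha, map_zero]; exact zero_mem _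
      have h2 : ∃ i : ℕ, a⁻¹ * c ^ i ∉ A := by
        by_contra hcon
        push Not at hcon
        exact hcA (hArch a⁻¹ c (inv_ne_zero ha) hcon)
      obtain ⟨i, hi⟩ := h2
      have h3 := (A.mem_or_inv_mem (a⁻¹ * c ^ i)).resolve_left hi
      have h4 : algebraMap Ω F (a⁻¹ * c ^ i)⁻¹ ∈ V := by
        rw [IsScalarTower.algebraMap_apply Ω F₁ F]
        apply hV
        rw [← IsScalarTower.algebraMap_apply Ω F₁ F]
        exact h.alg _ h3
      have h5 : a = (a⁻¹ * c ^ i)⁻¹ * c ^ i := by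
        have := pow_ne_zero i hc0
        field_simp
      rw [h5, map_mul, map_pow]
      exact mul_mem h4 (pow_mem hc i)
    refine val_eq_top (F₁ := F₁) V fun y => ?_
    by_cases hy0 : y = 0
    · rw [hy0, map_zero]; exact zero_mem _
    obtain ⟨c', hc', hW, -⟩ := h.scale (algebraMap F₁ F y)
      (by rwa [Ne, map_eq_zero])
    have h6 : algebraMap F₁ F (algebraMap Ω F₁ c' * y) ∈ V := by
      apply hV
      rw [map_mul, ← IsScalarTower.algebraMap_apply Ω F₁ F]
      exact hW
    have h7 : algebraMap F₁ F y = algebraMap Ω F c'⁻¹ *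
        algebraMap F₁ F (algebraMap Ω F₁ c' * y) := by
      rw [map_mul, ← IsScalarTower.algebraMap_apply Ω F₁ F, ← mul_assoc, ← map_mul,
        inv_mul_cancel₀ hc', map_one, one_mul]
    rw [h7]
    exact mul_mem (h1 _) h6
  have hAV : ∀ a ∈ A, algebraMap Ω F a ∈ V := by
    intro a ha
    rw [IsScalarTower.algebraMap_apply Ω F₁ F]
    apply hV
    rw [← IsScalarTower.algebraMap_apply Ω F₁ F]
    exact h.alg a ha
  have hjV : algebraMap F₁ F j ∈ V := hV j hjW
  have hd2 : ∀ y : F₁, ∀ hy : algebraMap F₁ F y ∈ W, ρ ⟨_, hy⟩ ≠ 0 →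
      (algebraMap F₁ F y)⁻¹ ∈ V := by
    intro y hy h0
    rw [← map_inv₀]
    apply hV
    rw [map_inv₀]
    exact h.runit ⟨_, hy⟩ h0
  -- polynomials in `j`
  have hd3 : ∀ Q : A[X], Q.map r ≠ 0 →
      (aeval (algebraMap F₁ F j) (Q.map A.subtype) : F)⁻¹ ∈ V := by
    intro Q hQ
    have h1 : (aeval (algebraMap F₁ F j) (Q.map A.subtype) : F) =
        algebraMap F₁ F (aeval j (Q.map A.subtype)) := Polynomial.aeval_algebraMap_apply F j _
    have h2 : (⟨_, hjW⟩ : W) = ⟨algebraMap F₁ F j, hjW⟩ := rfl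
    have h3 : ((Polynomial.eval₂ h.jA ⟨algebraMap F₁ F j, hjW⟩ Q : W) : F) =
        aeval (algebraMap F₁ F j) (Q.map A.subtype) := by
      change W.subtype (Polynomial.eval₂ h.jA ⟨_, hjW⟩ Q) = _
      rw [Polynomial.hom_eval₂, Polynomial.aeval_def, Polynomial.eval₂_map]
      rfl
    have h4 : ρ (Polynomial.eval₂ h.jA ⟨algebraMap F₁ F j, hjW⟩ Q) =
        aeval (ρ ⟨_, hjW⟩) (Q.map r) := by
      rw [Polynomial.hom_eval₂, Polynomial.aeval_def, Polynomial.eval₂_map]
      congr 1
      ext a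
      exact h.ralg a _
    have hmem : algebraMap F₁ F (aeval j (Q.map A.subtype)) ∈ W := by
      rw [← h1, ← h3]
      exact Subtype.mem _
    rw [h1]
    refine hd2 _ hmem ?_
    have h5 : (⟨_, hmem⟩ : W) = Polynomial.eval₂ h.jA ⟨algebraMap F₁ F j, hjW⟩ Q := by
      apply Subtype.ext
      rw [h3, h1]
    rw [h5, h4]
    intro h0
    exact hQ ((aeval_eq_zero_iff hj).mp h0)
  have hZ : ∀ n : ℤ, (n : F) ∈ V := fun n => by
    have : ((n : V) : F) = (n : F) := by push_cast; rfl
    rw [← this]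
    exact Subtype.mem _
  have htV : t ∈ V := by
    refine mem_of_monic V (P.map (Int.castRingHom F) -
      Polynomial.C (algebraMap F₁ F j) * X ^ k) ?_ ?_ ?_
    · apply Polynomial.Monic.sub_of_left (hP.map _)
      refine lt_of_le_of_lt (Polynomial.degree_C_mul_X_pow_le _ _) ?_
      rw [Polynomial.degree_eq_natDegree (hP.map _).ne_zero, hP.natDegree_map]
      exact_mod_cast hk
    · intro n
      rw [Polynomial.coeff_sub, Polynomial.coeff_map, Polynomial.coeff_C_mul,
        Polynomial.coeff_X_pow]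
      refine sub_mem (hZ _) (mul_mem hjV ?_)
      split_ifs
      · exact one_mem _
      · exact zero_mem _
    · rw [Polynomial.eval_sub, Polynomial.eval_mul, Polynomial.eval_C, Polynomial.eval_pow,
        Polynomial.eval_X, hrel, Polynomial.eval_map]
      exact sub_self _
  refine pre_mem_of_val h V hAV htV (fun Q hQ => ?_) hx
  -- the residue field of `V`
  by_contra hcon
  let fA : A →+* ResidueField V := (residue V).comp
    (((algebraMap Ω F).comp A.subtype).codRestrict V.toSubring fun a => hAV a a.2)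
  have hfA : ∀ a : A, fA a = residue V ⟨algebraMap Ω F a, hAV a a.2⟩ := fun a => rfl
  have hker : ∀ a ∈ RingHom.ker r, a ∈ RingHom.ker fA := by
    intro a ha
    rw [RingHom.mem_ker] at ha ⊢
    rw [hfA, residue_eq_zero_iff]
    intro hu
    have h1 : (algebraMap Ω F (a : Ω))⁻¹ ∈ V := by
      obtain ⟨u, hu⟩ := hu
      have h2 : ((u : V) : F) * ((u⁻¹ : Vˣ) : V) = 1 := congrArg Subtype.val u.mul_inv
      rw [hu] at h2
      rw [← eq_inv_of_mul_eq_one_right h2]
      exact Subtype.mem _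
    rw [← map_inv₀] at h1
    have h3 := hΩ _ h1
    by_cases ha0 : (a : Ω) = 0
    · have ha0' : a = 0 := Subtype.ext ha0
      rw [ha0'] at hu
      have : (⟨algebraMap Ω F ((0 : A) : Ω), hAV _ (0 : A).2⟩ : V) = 0 := by
        apply Subtype.ext
        simp
      rw [this] at hu
      exact not_isUnit_zero hu
    have h4 : a * ⟨(a : Ω)⁻¹, h3⟩ = 1 := Subtype.ext (mul_inv_cancel₀ ha0)
    have h5 := congrArg r h4
    rw [map_mul, ha, zero_mul, map_one] at h5
    exact zero_ne_one h5
  let φ : κ →+* ResidueField V := r.liftOfSurjective h.surj ⟨fA, hker⟩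
  have hφ : ∀ a, φ (r a) = fA a := fun a => by
    have := RingHom.liftOfRightInverse_comp_apply r (Function.surjInv h.surj)
      (Function.rightInverse_surjInv h.surj) ⟨fA, hker⟩ a
    exact this
  have hφr : φ.comp r = fA := RingHom.ext hφ
  let _ := φ.toAlgebra
  have hφalg : algebraMap κ (ResidueField V) = φ := rfl
  set t' : ResidueField V := residue V ⟨t, htV⟩ with ht'
  set j' : ResidueField V := residue V ⟨_, hjV⟩ with hj'
  -- evaluation
  have heval : ∀ (Q : A[X]) (y : F) (hy : y ∈ V) (hQy : aeval y (Q.map A.subtype) ∈ V),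
      residue V ⟨_, hQy⟩ = aeval (residue V ⟨y, hy⟩) (Q.map r) := by
    intro Q y hy hQy
    have h2 : aeval (residue V ⟨y, hy⟩) (Q.map r) =
        Polynomial.eval₂ fA (residue V ⟨y, hy⟩) Q := by
      rw [Polynomial.aeval_def, Polynomial.eval₂_map, hφalg, hφr]
    rw [h2]
    have h1 : (⟨_, hQy⟩ : V) = Polynomial.eval₂ (((algebraMap Ω F).comp A.subtype).codRestrict
        V.toSubring fun a => hAV a a.2) ⟨y, hy⟩ Q := by
      apply Subtype.ext
      change aeval y (Q.map A.subtype) = V.subtype (Polynomial.eval₂ _ _ Q)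
      rw [Polynomial.hom_eval₂, Polynomial.aeval_def, Polynomial.eval₂_map]
      rfl
    rw [h1, Polynomial.hom_eval₂]
  have hQt : aeval t (Q.map A.subtype) ∈ V := by
    rw [Polynomial.aeval_def, Polynomial.eval₂_eq_sum_range]
    refine sum_mem fun i _ => mul_mem ?_ (pow_mem htV _)
    rw [Polynomial.coeff_map]
    exact hAV _ (Q.coeff i).2
  have hQ1 : aeval t' (Q.map r) = 0 := by
    rw [← heval Q t htV hQt, residue_eq_zero_iff]
    intro hu
    apply hcon
    rw [h.coe_evW]
    obtain ⟨u, hu⟩ := hu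
    have h2 : ((u : V) : F) * ((u⁻¹ : Vˣ) : V) = 1 := congrArg Subtype.val u.mul_inv
    rw [hu] at h2
    rw [← eq_inv_of_mul_eq_one_right h2]
    exact Subtype.mem _
  have ht'alg : IsAlgebraic κ t' := ⟨Q.map r, hQ, hQ1⟩
  have hrel' : j' * t' ^ k = aeval t' P := by
    have h1 : (⟨_, hjV⟩ : V) * ⟨t, htV⟩ ^ k = aeval (⟨t, htV⟩ : V) P := by
      apply Subtype.ext
      have h2 : ((aeval (⟨t, htV⟩ : V) P : V) : F) = aeval t P := by
        change V.subtype (aeval (⟨t, htV⟩ : V) P) = _
        rw [Polynomial.aeval_def, Polynomial.hom_eval₂, Polynomial.aeval_def]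
        congr 1
      rw [h2, ← hrel]
      push_cast
      rfl
    have h3 := congrArg (residue V) h1
    rw [map_mul, map_pow] at h3
    rw [hj', ht', h3, Polynomial.aeval_def, Polynomial.hom_eval₂, Polynomial.aeval_def]
    congr 1
  have hj'alg : IsAlgebraic κ j' := by
    have ht0 : t' ≠ 0 := by
      intro h0
      rw [h0, zero_pow hk0.ne', mul_zero, Polynomial.aeval_def, Polynomial.eval₂_at_zero] at hrel'
      apply hP0
      apply φ.injective
      rw [map_zero, map_intCast, hrel']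
      simp
    have h1 : j' = aeval t' P / t' ^ k := by
      rw [← hrel', mul_div_cancel_right₀ _ (pow_ne_zero _ ht0)]
    rw [h1]
    have h2 : IsAlgebraic κ (aeval t' P) := by
      have h3 : aeval t' P = aeval t' (P.map (Int.castRingHom κ)) := by
        rw [Polynomial.aeval_def, Polynomial.aeval_def, Polynomial.eval₂_map]
        congr 1
        exact RingHom.ext_int _ _
      rw [h3]
      have h4 : aeval t' (P.map (Int.castRingHom κ)) ∈ IntermediateField.adjoin κ {t'} :=
        IntermediateField.algebra_adjoin_le_adjoin κ _ (Polynomial.aeval_mem_adjoin_singleton κ _)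
      have h5 : Algebra.IsAlgebraic κ (IntermediateField.adjoin κ {t'}) :=
        IntermediateField.isAlgebraic_adjoin fun x hx => by
          rw [Set.mem_singleton_iff] at hx
          rw [hx]
          exact ht'alg.isIntegral
      have h6 := h5.isAlgebraic ⟨_, h4⟩
      exact h6.algebraMap
    rw [div_eq_mul_inv]
    exact h2.mul (ht'alg.pow k).inv
  obtain ⟨Q₂, hQ₂, hQ₂j⟩ := hj'alg
  obtain ⟨Q₃, rfl⟩ := Polynomial.map_surjective r h.surj Q₂
  have hQ3 : aeval (algebraMap F₁ F j) (Q₃.map A.subtype) ∈ V := by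
    rw [Polynomial.aeval_def, Polynomial.eval₂_eq_sum_range]
    refine sum_mem fun i _ => mul_mem ?_ (pow_mem hjV _)
    rw [Polynomial.coeff_map]
    exact hAV _ (Q₃.coeff i).2
  have h7 := heval Q₃ _ hjV hQ3
  rw [hQ₂j, residue_eq_zero_iff] at h7
  apply h7
  have h8 := hd3 Q₃ hQ₂
  by_cases h9 : aeval (algebraMap F₁ F j) (Q₃.map A.subtype) = 0
  · exfalso
    have h10 : ρ (Polynomial.eval₂ h.jA ⟨algebraMap F₁ F j, hjW⟩ Q₃) =
        aeval (ρ ⟨_, hjW⟩) (Q₃.map r) := by
      rw [Polynomial.hom_eval₂, Polynomial.aeval_def, Polynomial.eval₂_map]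
      congr 1
      ext a
      exact h.ralg a _
    have h11 : Polynomial.eval₂ h.jA ⟨algebraMap F₁ F j, hjW⟩ Q₃ = 0 := by
      apply Subtype.ext
      change W.subtype (Polynomial.eval₂ h.jA ⟨_, hjW⟩ Q₃) = _
      rw [Polynomial.hom_eval₂]
      rw [Polynomial.aeval_def, Polynomial.eval₂_map] at h9
      exact h9
    rw [h11, map_zero] at h10
    exact hQ₂ ((aeval_eq_zero_iff hj).mp h10.symm)
  · exact isUnit_iff_exists_inv.mpr ⟨⟨_, h8⟩, Subtype.ext (mul_inv_cancel₀ h9)⟩

end Pre

end Fermat.Agent.MZ
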