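import Mathlib
import Fermat.Agent.MZ.NormA

/-!
# Norms and reduction
-/

set_option autoImplicit false
set_option linter.unusedSectionVars false

open Polynomial IsLocalRing Fermat.Agent.Flat

noncomputable section

namespace Fermat.Agent.MZ

theorem prod_one_add {R ι : Type*} [CommRing R] (S : Subring R) (s : Finset ι) (a : ι → R) {c : R}
    (hc : c ∈ S) (ha : ∀ i ∈ s, a i ∈ S) : ∃ b ∈ S, ∏ i ∈ s, (1 + c * a i) = 1 + c * b := by
  classical
  induction s using Finset.induction_on with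
  | empty => exact ⟨0, zero_mem _, by simp⟩
  | insert i s hi ih =>
    obtain ⟨b, hb, h⟩ := ih fun j hj => ha j (Finset.mem_insert_of_mem hj)
    have hi' := ha i (Finset.mem_insert_self i s)
    refine ⟨a i + b + c * a i * b, add_mem (add_mem hi' hb) (mul_mem (mul_mem hc hi') hb), ?_⟩
    rw [Finset.prod_insert hi, h]
    ring

/-- norms of integral elements -/
theorem isIntegralElem_norm' {R G F : Type*} [CommRing R] [Field G] [Field F] [Algebra G F]
    (g : R →+* G) {x : F} (hx : ((algebraMap G F).comp g).IsIntegralElem x) :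
    g.IsIntegralElem (Algebra.norm G x) := by
  let _ := g.toAlgebra
  let _ := ((algebraMap G F).comp g).toAlgebra
  have : IsScalarTower R G F := IsScalarTower.of_algebraMap_eq fun _ => rfl
  have h1 : IsIntegral R x := hx
  exact Algebra.isIntegral_norm G h1

theorem mem_of_isIntegralElem {K : Type*} [Field K] (V : ValuationSubring K) {x : K}
    (hx : V.subtype.IsIntegralElem x) : x ∈ V := mem_of_isIntegral V hx

/-- norms of `1 + c u` -/
theorem norm_one_add_aux {G F : Type*} [Field G] [Field F] [Algebra G F] [FiniteDimensional G F]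
    [Algebra.IsSeparable G F] (V : ValuationSubring G) {c : G} (hc : c ∈ V) {u : F}
    (hu : ((algebraMap G F).comp V.subtype).IsIntegralElem u) :
    ∃ w ∈ V, Algebra.norm G (1 + algebraMap G F c * u) = 1 + c * w := by
  by_cases hc0 : c = 0
  · exact ⟨0, zero_mem _, by rw [hc0, map_zero, zero_mul, add_zero, map_one, zero_mul, add_zero]⟩
  let Ω' := AlgebraicClosure G
  let S : Subring Ω' := (integralClosure V Ω').toSubring
  have hint : ∀ σ : F →ₐ[G] Ω', σ u ∈ S := by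
    intro σ
    obtain ⟨P, hP, hPu⟩ := hu
    refine ⟨P, hP, ?_⟩
    have h1 : algebraMap V Ω' = (σ : F →+* Ω').comp ((algebraMap G F).comp V.subtype) := by
      ext a
      change algebraMap G Ω' a = σ (algebraMap G F a)
      rw [σ.commutes]
    have h2 := congrArg σ hPu
    rw [map_zero] at h2
    rw [h1, ← h2]
    exact (Polynomial.hom_eval₂ _ _ (σ : F →+* Ω') u).symm
  have hcS : algebraMap G Ω' c ∈ S :=
    (isIntegral_algebraMap (R := V) (A := Ω') (x := ⟨c, hc⟩) : _)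
  obtain ⟨b, hb, h⟩ := prod_one_add S (Finset.univ : Finset (F →ₐ[G] Ω')) (fun σ => σ u) hcS
    fun σ _ => hint σ
  have h3 : algebraMap G Ω' (Algebra.norm G (1 + algebraMap G F c * u)) =
      1 + algebraMap G Ω' c * b := by
    rw [Algebra.norm_eq_prod_embeddings G Ω', ← h]
    refine Finset.prod_congr rfl fun σ _ => ?_
    rw [map_add, map_mul, map_one, σ.commutes]
  obtain ⟨w, hw⟩ : ∃ w, w = (Algebra.norm G (1 + algebraMap G F c * u) - 1) / c := ⟨_, rfl⟩
  have h4 : Algebra.norm G (1 + algebraMap G F c * u) = 1 + c * w := by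
    rw [hw]
    field_simp
    ring
  have h5 : algebraMap G Ω' w = b := by
    have h6 : algebraMap G Ω' c ≠ 0 := by rwa [Ne, map_eq_zero]
    apply mul_left_cancel₀ h6
    rw [h4, map_add, map_mul, map_one] at h3
    exact add_left_cancel h3
  refine ⟨w, mem_of_isIntegral V ?_, h4⟩
  obtain ⟨P, hP, hPb⟩ : IsIntegral V b := hb
  refine ⟨P, hP, (algebraMap G Ω').injective ?_⟩
  rw [Polynomial.hom_eval₂, map_zero, h5]
  exact hPb

section Pre

variable {Ω κ F E : Type*} [Field Ω] [Field κ] [Field F] [Field E] [Algebra Ω F] [Algebra κ E]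
  {A : ValuationSubring Ω} {r : A →+* κ} {W : Subring F} {ρ : W →+* E} {t : F} {tb : E} {d : ℕ}
  {e : Fin d → F} {F₁ : Type*} [Field F₁] [Algebra Ω F₁] [Algebra F₁ F] [IsScalarTower Ω F₁ F]

/-- the restriction of the Gauss valuation -/
def preV (h : Pre r W ρ t tb e) (F₁ : Type*) [Field F₁] [Algebra F₁ F] : ValuationSubring F₁ :=
  h.val.comap (algebraMap F₁ F)

theorem mem_preV (h : Pre r W ρ t tb e) {x : F₁} : x ∈ preV h F₁ ↔ algebraMap F₁ F x ∈ W :=
  Iff.rfl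

/-- uniqueness of the extension -/
def Uniq (_h : Pre r W ρ t tb e) (F₁ : Type*) [Field F₁] [Algebra F₁ F] : Prop :=
  ∀ V : ValuationSubring F, (∀ x : F₁, algebraMap F₁ F x ∈ W → algebraMap F₁ F x ∈ V) →
    ∀ x ∈ W, x ∈ V

theorem Uniq.isIntegralElem {h : Pre r W ρ t tb e} (hU : Uniq h F₁) {x : F} (hx : x ∈ W) :
    ((algebraMap F₁ F).comp (preV h F₁).subtype).IsIntegralElem x :=
  isIntegralElem_of_val _ fun V hV => hU V (fun y hy => hV ⟨y, hy⟩) x hx

theorem Uniq.norm_mem {h : Pre r W ρ t tb e} (hU : Uniq h F₁) {x : F} (hx : x ∈ W) :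
    algebraMap F₁ F (Algebra.norm F₁ x) ∈ W :=
  mem_of_isIntegralElem (preV h F₁) (isIntegralElem_norm' _ (hU.isIntegralElem hx))

variable [FiniteDimensional F₁ F] [Algebra.IsSeparable F₁ F]

theorem Uniq.norm_one_add {h : Pre r W ρ t tb e} (hU : Uniq h F₁) {x : F} (hx : x ∈ W)
    (hρ : ρ ⟨x, hx⟩ = 0) (h1 : algebraMap F₁ F (Algebra.norm F₁ (1 + x)) ∈ W) :
    ρ ⟨_, h1⟩ = 1 := by
  by_cases hx0 : x = 0
  · have h2 : (⟨_, h1⟩ : W) = 1 := by
      apply Subtype.ext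
      change algebraMap F₁ F (Algebra.norm F₁ (1 + x)) = 1
      rw [hx0, add_zero, map_one, map_one]
    rw [h2, map_one]
  obtain ⟨c', hc', hW, hρ'⟩ := h.scale x hx0
  have hnot : c' ∉ A := by
    intro hc'A
    apply hρ'
    have h2 : (⟨algebraMap Ω F c' * x, hW⟩ : W) = ⟨algebraMap Ω F c', h.alg c' hc'A⟩ * ⟨x, hx⟩ :=
      rfl
    rw [h2, map_mul, hρ, mul_zero]
  have hcA : c'⁻¹ ∈ A := (A.mem_or_inv_mem c').resolve_left hnot
  have hrc : r ⟨c'⁻¹, hcA⟩ = 0 := by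
    by_contra h0
    apply hnot
    have h2 := h.unit _ h0
    rwa [inv_inv] at h2
  have hcW : algebraMap Ω F c'⁻¹ ∈ W := h.alg _ hcA
  have hcV : algebraMap Ω F₁ c'⁻¹ ∈ preV h F₁ := by
    rw [mem_preV, ← IsScalarTower.algebraMap_apply Ω F₁ F]
    exact hcW
  obtain ⟨w, hw, hN⟩ := norm_one_add_aux (preV h F₁) hcV (hU.isIntegralElem hW)
  have h3 : algebraMap F₁ F (algebraMap Ω F₁ c'⁻¹) * (algebraMap Ω F c' * x) = x := by
    rw [← IsScalarTower.algebraMap_apply Ω F₁ F, ← mul_assoc, ← map_mul, inv_mul_cancel₀ hc',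
      map_one, one_mul]
  rw [h3] at hN
  have hwW : algebraMap F₁ F w ∈ W := hw
  have h4 : (⟨_, h1⟩ : W) = 1 + ⟨algebraMap Ω F c'⁻¹, hcW⟩ * ⟨algebraMap F₁ F w, hwW⟩ := by
    apply Subtype.ext
    change algebraMap F₁ F (Algebra.norm F₁ (1 + x)) =
      1 + algebraMap Ω F c'⁻¹ * algebraMap F₁ F w
    rw [hN, map_add, map_mul, map_one, ← IsScalarTower.algebraMap_apply Ω F₁ F]
  rw [h4, map_add, map_mul, map_one, h.ralg ⟨c'⁻¹, hcA⟩ hcW, hrc, map_zero, zero_mul, add_zero]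

/-- the norm is compatible with the reduction -/
theorem Uniq.norm_congr {h : Pre r W ρ t tb e} (hU : Uniq h F₁) {x y : F} (hx : x ∈ W)
    (hy : y ∈ W) (hxy : ρ ⟨x, hx⟩ = ρ ⟨y, hy⟩) (h0 : ρ ⟨y, hy⟩ ≠ 0) :
    ρ ⟨_, hU.norm_mem hx⟩ = ρ ⟨_, hU.norm_mem hy⟩ := by
  have hyi : y⁻¹ ∈ W := h.runit ⟨y, hy⟩ h0
  have hy0 : y ≠ 0 := by
    rintro rfl
    exact h0 (map_zero ρ)
  have hz : x * y⁻¹ - 1 ∈ W := sub_mem (mul_mem hx hyi) (one_mem _)
  have hρz : ρ ⟨_, hz⟩ = 0 := by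
    have h1 : (⟨x * y⁻¹ - 1, hz⟩ : W) = ⟨x, hx⟩ * ⟨y⁻¹, hyi⟩ - ⟨y, hy⟩ * ⟨y⁻¹, hyi⟩ := by
      apply Subtype.ext
      change x * y⁻¹ - 1 = x * y⁻¹ - y * y⁻¹
      rw [mul_inv_cancel₀ hy0]
    rw [h1, map_sub, map_mul, map_mul, hxy, sub_self]
  have h2 := hU.norm_one_add hz hρz (hU.norm_mem (add_mem (one_mem _) hz))
  have h3 : x = y * (1 + (x * y⁻¹ - 1)) := by
    field_simp
    ring
  have h4 : (⟨_, hU.norm_mem hx⟩ : W) =
      ⟨_, hU.norm_mem hy⟩ * ⟨_, hU.norm_mem (add_mem (one_mem _) hz)⟩ := by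
    apply Subtype.ext
    change algebraMap F₁ F (Algebra.norm F₁ x) = algebraMap F₁ F (Algebra.norm F₁ y) *
      algebraMap F₁ F (Algebra.norm F₁ (1 + (x * y⁻¹ - 1)))
    rw [← map_mul, ← map_mul, ← h3]
  rw [h4, map_mul, h2, mul_one]

end Pre

end Fermat.Agent.MZ
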