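import Mathlib
import Fermat.Agent.MZ.NormB
import Fermat.Agent.MZ.LiftM0
import Fermat.Agent.Flat.Mult

/-!
# Orders of norms
-/

set_option autoImplicit false
set_option linter.unusedSectionVars false

open Polynomial IsLocalRing Fermat.Agent.Flat AlgebraicCurve Fermat.Agent.FunField

noncomputable section

namespace Fermat.Agent.MZ

section

variable {K F : Type*} [Field K] [Field F] [Algebra K F] {g C : ℤ}

/-- functions with prescribed orders -/
theorem exists_ord_eq_on [Infinite K] (hC : Crv K F g C) (T : Finset (Place K F))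
    (n : Place K F → ℤ) : ∃ y : F, y ≠ 0 ∧ ∀ v ∈ T, v.ord y = n v := by
  classical
  by_cases hT : T.Nonempty
  · obtain ⟨w, hw⟩ := id hT
    let D₀ : Divisor K F := ∑ v ∈ T, Finsupp.single v (- n v)
    have hD₀ : ∀ v ∈ T, D₀ v = - n v := by
      intro v hv
      rw [Finsupp.finsetSum_apply, Finset.sum_eq_single v]
      · rw [Finsupp.single_eq_same]
      · intro u _ hu
        exact Finsupp.single_eq_of_ne hu.symm
      · intro h
        exact absurd hv h
    let k : ℤ := |C| + 1 + |dg D₀|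
    let E : Divisor K F := Finsupp.single w k
    have hE : dg E = k := dg_single _ _
    obtain ⟨f, -, hf0, hf⟩ := hC.exists_section (D := E) (by
      rw [hE]
      have := le_abs_self C
      have := abs_nonneg (dg D₀)
      omega) T hT
    obtain ⟨f', -, hf'0, hf'⟩ := hC.exists_section (D := D₀ + E) (by
      rw [map_add, hE]
      have := le_abs_self C
      have := neg_abs_le (dg D₀)
      omega) T hT
    refine ⟨f' / f, div_ne_zero hf'0 hf0, fun v hv => ?_⟩
    rw [div_eq_mul_inv, v.ord_mul hf'0 (inv_ne_zero hf0), v.ord_inv, hf v hv, hf' v hv,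
      Finsupp.add_apply, hD₀ v hv]
    ring
  · rw [Finset.not_nonempty_iff_eq_empty] at hT
    subst hT
    exact ⟨1, one_ne_zero, fun v hv => absurd hv (Finset.notMem_empty v)⟩

variable {F₁ : Type*} [Field F₁] [Algebra K F₁] [Algebra F₁ F] [IsScalarTower K F₁ F]

/-- orders of norms -/
theorem dvd_ord_norm [Infinite K] [FiniteDimensional F₁ F] (hC : Crv K F g C) {t : F}
    (ht : Sep K t) {m : ℕ} {z : F} (hz0 : z ≠ 0) (hz : ∀ v : Place K F, (m : ℤ) ∣ v.ord z)
    (v : Place K F₁) : (m : ℤ) ∣ v.ord (Algebra.norm F₁ z) := by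
  classical
  obtain ⟨π, hπ0, hπ⟩ := exists_ord_eq v 1
  have hπF : algebraMap F₁ F π ≠ 0 := by rwa [Ne, map_eq_zero]
  choose n hn using hz
  obtain ⟨y, hy0, hy⟩ := exists_ord_eq_on hC (hC.fin (algebraMap F₁ F π)).toFinset n
  have key : ∀ u : F, u ≠ 0 → (∀ w : Place K F, w.ord (algebraMap F₁ F π) ≠ 0 → w.ord u = 0) →
      0 ≤ v.ord (Algebra.norm F₁ u) := by
    intro u hu0 hu
    have h1 : ((algebraMap F₁ F).comp v.toValuationSubring.subtype).IsIntegralElem u := by
      refine isIntegralElem_of_val _ fun V hV => ?_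
      by_cases hVt : V = ⊤
      · rw [hVt]; exact ValuationSubring.mem_top u
      obtain ⟨w, rfl⟩ := sep_exists_place ht V hVt fun a => by
        rw [IsScalarTower.algebraMap_apply K F₁ F]
        exact hV ⟨_, v.algebraMap_mem' a⟩
      apply mem_of_ord_nonneg
      rw [hu w]
      intro h0
      -- then `w` contains everything
      apply hVt
      refine val_eq_top (F₁ := F₁) _ fun x => ?_
      by_cases hx0 : x = 0
      · rw [hx0, map_zero]; exact zero_mem _
      have h2 : x * π ^ (-v.ord x) ∈ v.toValuationSubring := by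
        apply mem_of_ord_nonneg
        rw [v.ord_mul hx0 (zpow_ne_zero _ hπ0), v.ord_zpow, hπ]
        simp
      have h3 : algebraMap F₁ F (x * π ^ (-v.ord x)) ∈ w.toValuationSubring := hV ⟨_, h2⟩
      apply mem_of_ord_nonneg
      have h4 := ord_nonneg_of_mem w h3
      have hxF : algebraMap F₁ F x ≠ 0 := by rwa [Ne, map_eq_zero]
      rw [map_mul, map_zpow₀, w.ord_mul hxF (zpow_ne_zero _ hπF), w.ord_zpow, h0, mul_zero,
        add_zero] at h4
      exact h4
    have h2 := mem_of_isIntegralElem v.toValuationSubring (isIntegralElem_norm' _ h1)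
    exact ord_nonneg_of_mem v h2
  have hN : ∀ u : F, u ≠ 0 → Algebra.norm F₁ u ≠ 0 := fun u hu => by
    rwa [Ne, Algebra.norm_eq_zero_iff]
  -- the unit
  have hy' : ∀ w : Place K F, w.ord (algebraMap F₁ F π) ≠ 0 → w.ord y = n w := fun w hw =>
    hy w ((hC.fin (algebraMap F₁ F π)).mem_toFinset.mpr hw)
  have hu : ∀ w : Place K F, w.ord (algebraMap F₁ F π) ≠ 0 → w.ord (z * (y ^ m)⁻¹) = 0 := by
    intro w hw
    rw [w.ord_mul hz0 (inv_ne_zero (pow_ne_zero _ hy0)), w.ord_inv, ord_pow, hy' w hw, hn]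
    ring
  have hu0 : z * (y ^ m)⁻¹ ≠ 0 := mul_ne_zero hz0 (inv_ne_zero (pow_ne_zero _ hy0))
  have h1 := key _ hu0 hu
  have h2 := key _ (inv_ne_zero hu0) fun w hw => by rw [w.ord_inv, hu w hw, neg_zero]
  have h3 : Algebra.norm F₁ (z * (y ^ m)⁻¹)⁻¹ = (Algebra.norm F₁ (z * (y ^ m)⁻¹))⁻¹ := by
    apply eq_inv_of_mul_eq_one_right
    rw [← map_mul, mul_inv_cancel₀ hu0, map_one]
  rw [h3, v.ord_inv] at h2
  have h4 : v.ord (Algebra.norm F₁ (z * (y ^ m)⁻¹)) = 0 := by omega
  have h5 : z = z * (y ^ m)⁻¹ * y ^ m := by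
    rw [mul_assoc, inv_mul_cancel₀ (pow_ne_zero _ hy0), mul_one]
  rw [h5, map_mul, map_pow, v.ord_mul (hN _ hu0) (pow_ne_zero _ (hN _ hy0)), h4, zero_add, ord_pow]
  exact dvd_mul_right _ _

end

end Fermat.Agent.MZ
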