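import Mathlib
import Fermat.Agent.LG.Th2

/-!
# Degrees between levels differing by powers of two and three
-/

set_option autoImplicit false
set_option linter.unusedSectionVars false

open Fermat.Agent.LG Fermat.Agent.ModFun

noncomputable section

namespace Fermat.Agent.MZ

theorem psi_step {r M : ℕ} (hr : r.Prime) (hM : M ≠ 0) :
    ModularCurve.dedekindPsi (r * M) = ModularCurve.dedekindPsi M * r ∨
      ModularCurve.dedekindPsi (r * M) = ModularCurve.dedekindPsi M * (r + 1) := by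
  obtain ⟨a, M', hM', rfl⟩ := Nat.exists_eq_pow_mul_and_not_dvd hM r hr.ne_one
  have hco : r.Coprime M' := (Nat.Prime.coprime_iff_not_dvd hr).mpr hM'
  have e : r * (r ^ a * M') = r ^ (a + 1) * M' := by ring
  rw [e, Fermat.Agent.Gamma0Comb.dedekindPsi_mul (hco.pow_left (a + 1)),
    Fermat.Agent.Gamma0Comb.dedekindPsi_mul (hco.pow_left a)]
  rcases a with _ | a
  · right
    have h1 := Fermat.Agent.Gamma0Comb.dedekindPsi_prime_pow hr 0
    rw [zero_add, pow_one] at h1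
    rw [zero_add, pow_one, pow_zero, h1, ModularCurve.dedekindPsi_one]
    ring
  · left
    rw [Fermat.Agent.Gamma0Comb.dedekindPsi_prime_pow hr a,
      Fermat.Agent.Gamma0Comb.dedekindPsi_prime_pow hr (a + 1)]
    ring

theorem psi_mul (a : ℕ) (ha : ∀ r : ℕ, r.Prime → r ∣ a → r = 2 ∨ r = 3) (ha0 : a ≠ 0) :
    ∀ M : ℕ, M ≠ 0 → ∃ s : ℕ, ModularCurve.dedekindPsi (a * M) = ModularCurve.dedekindPsi M * s ∧
      ∀ p : ℕ, p.Prime → 5 ≤ p → ¬ p ∣ s := by
  induction a using Nat.recOnMul with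
  | zero => exact absurd rfl ha0
  | one =>
    exact fun M _ => ⟨1, by rw [one_mul, mul_one], fun p hp _ h => hp.one_lt.ne' (Nat.dvd_one.mp h)⟩
  | prime r hr =>
    intro M hM
    rcases ha r hr dvd_rfl with rfl | rfl
    · rcases psi_step hr hM with h | h
      · exact ⟨2, h, fun p hp h5 hd => absurd (Nat.le_of_dvd (by norm_num) hd) (by omega)⟩
      · exact ⟨3, h, fun p hp h5 hd => absurd (Nat.le_of_dvd (by norm_num) hd) (by omega)⟩
    · rcases psi_step hr hM with h | h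
      · exact ⟨3, h, fun p hp h5 hd => absurd (Nat.le_of_dvd (by norm_num) hd) (by omega)⟩
      · exact ⟨4, h, fun p hp h5 hd => absurd (Nat.le_of_dvd (by norm_num) hd) (by omega)⟩
  | mul a b iha ihb =>
    intro M hM
    have ha1 : a ≠ 0 := left_ne_zero_of_mul ha0
    have hb1 : b ≠ 0 := right_ne_zero_of_mul ha0
    obtain ⟨s, hs, hs'⟩ := ihb (fun r hr h => ha r hr (h.mul_left a)) hb1 M hM
    obtain ⟨s₁, hs₁, hs₁'⟩ := iha (fun r hr h => ha r hr (h.mul_right b)) ha1 (b * M)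
      (mul_ne_zero hb1 hM)
    refine ⟨s * s₁, ?_, fun p hp h5 hd => ?_⟩
    · rw [mul_assoc, hs₁, hs, mul_assoc]
    · rcases hp.dvd_mul.mp hd with h | h
      · exact hs' p hp h5 h
      · exact hs₁' p hp h5 h

theorem psi_dvd {M M₁ : ℕ} (hM : M ≠ 0) (hM₁ : M₁ ≠ 0) (h : M ∣ M₁) (h' : M₁ ∣ 36 * M) :
    ∃ s : ℕ, ModularCurve.dedekindPsi M₁ = ModularCurve.dedekindPsi M * s ∧
      ∀ p : ℕ, p.Prime → 5 ≤ p → ¬ p ∣ s := by
  obtain ⟨a, rfl⟩ := h
  have ha : a ∣ 36 := by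
    rw [mul_comm M a] at h'
    exact Nat.dvd_of_mul_dvd_mul_right (Nat.pos_of_ne_zero hM) h'
  rw [mul_comm M a]
  refine psi_mul a (fun r hr hra => ?_) (right_ne_zero_of_mul hM₁) M hM
  have h1 : r ∣ 2 ^ 2 * 3 ^ 2 := by
    have := hra.trans ha
    norm_num
    exact this
  rcases hr.dvd_mul.mp h1 with h2 | h2
  · exact Or.inl ((Nat.prime_dvd_prime_iff_eq hr Nat.prime_two).mp (hr.dvd_of_dvd_pow h2))
  · exact Or.inr ((Nat.prime_dvd_prime_iff_eq hr Nat.prime_three).mp (hr.dvd_of_dvd_pow h2))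

variable {K : Type*} [Field K] [IsAlgClosed K] [CharZero K]

/-- the degree of `X₀(M₁)` over `X₀(M)` -/
theorem finrank_level (ι : K →+* ℂ) {M M₁ : ℕ} [NeZero M] [NeZero M₁] (h : M ∣ M₁)
    (h' : M₁ ∣ 36 * M) :
    letI := algI (F0_mono (K := K) h)
    FiniteDimensional (F0 K M) (F0 K M₁) ∧
      ∀ p : ℕ, p.Prime → 5 ≤ p → ¬ p ∣ Module.finrank (F0 K M) (F0 K M₁) := by
  obtain ⟨h1, h2⟩ := finrank_LJ ι M
  obtain ⟨h3, h4⟩ := finrank_LJ ι M₁
  have t := tower_I (LJ_le_F0 (K := K) M) (F0_mono (K := K) h) (LJ_le_F0 (K := K) M₁)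
  obtain ⟨s, hs, hs'⟩ := psi_dvd (NeZero.ne M) (NeZero.ne M₁) h h'
  rw [hs] at h4
  obtain ⟨h5, h6⟩ := @finrank_quot (LJ K) (F0 K M) (F0 K M₁) _ _ _
    (algI (LJ_le_F0 (K := K) M)) (algI (F0_mono (K := K) h))
    (algI (LJ_le_F0 (K := K) M₁)) t h1 h3 _ _ h2 h4
  exact ⟨h5, fun p hp hp5 => by rw [h6]; exact hs' p hp hp5⟩

end Fermat.Agent.MZ
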