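import Mathlib
import Fermat.Agent.LG.WSer
import Fermat.Agent.CA.LC

/-!
The Hecke operators `T_l` on series; they commute with `w_q`.
-/

set_option autoImplicit false
set_option linter.unusedSectionVars false
set_option linter.unusedVariables false

open UpperHalfPlane hiding I J
open ModularForm Filter Matrix.SpecialLinearGroup
open scoped Manifold MatrixGroups ModularForm
open Fermat.Agent.Eis16 Fermat.Agent.ModFun Fermat.Agent.ESCore Fermat.Agent.ESCore.Gal
open CongruenceSubgroup (Gamma0 Gamma Gamma0_mem Gamma_mem Gamma_normal)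
open Fermat.Agent.LG

noncomputable section

namespace Fermat.Agent.MZ

/-! ### Hermite form -/

theorem exists_hermite_prime {N l : ℕ} (hl : l.Prime) (hN : ¬ l ∣ N) {A : GL (Fin 2) ℝ}
    {a b c d : ℤ} (h00 : (A : Matrix (Fin 2) (Fin 2) ℝ) 0 0 = a)
    (h01 : (A : Matrix (Fin 2) (Fin 2) ℝ) 0 1 = b) (h10 : (A : Matrix (Fin 2) (Fin 2) ℝ) 1 0 = c)
    (h11 : (A : Matrix (Fin 2) (Fin 2) ℝ) 1 1 = d) (hdet : a * d - b * c = l)
    (hc : (N : ℤ) ∣ c) : ∃ (γ : Gamma0 N) (x : Option (Fin l)), A = gam N γ * hdelta l x := by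
  have hl0 : (l : ℤ) ≠ 0 := by exact_mod_cast hl.ne_zero
  have hl0' : (l : ℝ) ≠ 0 := by exact_mod_cast hl.ne_zero
  by_cases hcase : (l : ℤ) ∣ a ∧ (l : ℤ) ∣ c
  · obtain ⟨⟨a', rfl⟩, ⟨c', rfl⟩⟩ := hcase
    have hd : a' * d - b * c' = 1 := by
      apply mul_left_cancel₀ hl0
      linarith
    have hc' : (N : ℤ) ∣ c' := by
      have hcop : IsCoprime (N : ℤ) (l : ℤ) := by
        rw [Nat.isCoprime_iff_coprime]
        exact ((Nat.Prime.coprime_iff_not_dvd hl).mpr hN).symm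
      exact hcop.dvd_of_dvd_mul_left hc
    let g : SL(2, ℤ) := ⟨!![a', b; c', d], by rw [Matrix.det_fin_two_of]; exact hd⟩
    have hg : g ∈ Gamma0 N := by
      rw [Gamma0_mem, ZMod.intCast_zmod_eq_zero_iff_dvd]
      exact hc'
    refine ⟨⟨g, hg⟩, none, ?_⟩
    have hD := isTri_heckeDiagMatrix (l := l) hl.ne_zero
    have e : hdelta l none = heckeDiagMatrix l := rfl
    rw [gam_apply, e]
    have g00 : g 0 0 = a' := rfl
    have g01 : g 0 1 = b := rfl
    have g10 : g 1 0 = c' := rfl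
    have g11 : g 1 1 = d := rfl
    ext i j
    rw [Units.val_mul, Matrix.mul_apply, Fin.sum_univ_two]
    fin_cases i <;> fin_cases j <;>
      simp only [Fin.zero_eta, Fin.isValue, Fin.mk_one, h00, h01, h10, h11, hD.h00, hD.h01,
        hD.h10, hD.h11, mapGL_entry, g00, g01, g10, g11] <;> push_cast <;> ring
  · have hcop : IsCoprime a c := by
      rw [Int.isCoprime_iff_gcd_eq_one]
      have h1 : ((Int.gcd a c : ℕ) : ℤ) ∣ (l : ℤ) := by
        rw [← hdet]
        exact dvd_sub ((Int.gcd_dvd_left a c).mul_right _) ((Int.gcd_dvd_right a c).mul_left _)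
      have h2 : Int.gcd a c ∣ l := by exact_mod_cast h1
      rcases (Nat.dvd_prime hl).mp h2 with h3 | h3
      · exact h3
      · exfalso
        apply hcase
        exact ⟨h3 ▸ Int.gcd_dvd_left a c, h3 ▸ Int.gcd_dvd_right a c⟩
    obtain ⟨u, v, huv⟩ := hcop
    set e := u * b + v * d with he
    have hlpos : (0 : ℤ) < l := by exact_mod_cast hl.pos
    obtain ⟨j, hj⟩ : ∃ j : ℕ, (j : ℤ) = e % l := ⟨(e % l).toNat, Int.toNat_of_nonneg
      (Int.emod_nonneg _ hl0)⟩
    have hjl : j < l := by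
      have := Int.emod_lt_of_pos e hlpos
      omega
    set k := e / l with hk
    have hek : e = j + k * l := by
      rw [hj, hk, mul_comm]
      exact (Int.emod_add_mul_ediv e l).symm
    let g : SL(2, ℤ) := ⟨!![a, a * k - v; c, c * k + u], by
      rw [Matrix.det_fin_two_of]; linear_combination huv⟩
    have hg : g ∈ Gamma0 N := by
      rw [Gamma0_mem, ZMod.intCast_zmod_eq_zero_iff_dvd]
      exact hc
    refine ⟨⟨g, hg⟩, some ⟨j, hjl⟩, ?_⟩
    have hD := isTri_heckeMatrix (l := l) hl.ne_zero j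
    have e1 : hdelta l (some ⟨j, hjl⟩) = heckeMatrix l j := rfl
    rw [gam_apply, e1]
    have g00 : g 0 0 = a := rfl
    have g01 : g 0 1 = a * k - v := rfl
    have g10 : g 1 0 = c := rfl
    have g11 : g 1 1 = c * k + u := rfl
    have r1 : (b : ℝ) = a * j + (a * k - v) * l := by
      have : b = a * j + (a * k - v) * l := by
        have h1 : b = a * e - v * l := by
          rw [he]; linear_combination (-b) * huv - v * hdet
        rw [h1, hek]; ring
      exact_mod_cast this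
    have r2 : (d : ℝ) = c * j + (c * k + u) * l := by
      have : d = c * j + (c * k + u) * l := by
        have h1 : d = c * e + u * l := by
          rw [he]; linear_combination (-d) * huv + u * hdet
        rw [h1, hek]; ring
      exact_mod_cast this
    ext i j'
    rw [Units.val_mul, Matrix.mul_apply, Fin.sum_univ_two]
    fin_cases i <;> fin_cases j'
    · simp only [Fin.zero_eta, Fin.isValue, h00, hD.h00, hD.h10, mapGL_entry, g00, g01]
      push_cast; ring
    · simp only [Fin.zero_eta, Fin.isValue, Fin.mk_one, h01, hD.h01, hD.h11, mapGL_entry, g00, g01]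
      rw [r1]; push_cast; ring
    · simp only [Fin.zero_eta, Fin.isValue, Fin.mk_one, h10, hD.h00, hD.h10, mapGL_entry, g10, g11]
      push_cast; ring
    · simp only [Fin.isValue, Fin.mk_one, h11, hD.h01, hD.h11, mapGL_entry, g10, g11]
      rw [r2]; push_cast; ring

section W

variable {q M N : ℕ} [NeZero q] [NeZero M] [NeZero N] (B : Bez q M)

/-- the commutation of the matrices -/
theorem Wm_comm (hN : N = q * M) {l : ℕ} (hl : l.Prime) (hlN : ¬ l ∣ N) (x : Option (Fin l)) :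
    ∃ (γ : Gamma0 N) (y : Option (Fin l)), B.Wm * hdelta l x = gam N γ * hdelta l y * B.Wm := by
  obtain ⟨α, β, δ, hD, hαδ⟩ : ∃ α β δ : ℤ, IsTri (hdelta l x) α β δ ∧ α * δ = l := by
    cases x with
    | none => exact ⟨_, _, _, isTri_heckeDiagMatrix hl.ne_zero, by ring⟩
    | some j => exact ⟨_, _, _, isTri_heckeMatrix hl.ne_zero j, by ring⟩
  obtain ⟨w00, w01, w10, w11⟩ := B.Wm_entries
  have hB' : (q : ℝ) * B.w - M * B.y = 1 := by exact_mod_cast B.det
  have hq0 : (q : ℝ) ≠ 0 := by exact_mod_cast NeZero.ne q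
  set A := B.Wm * hdelta l x * B.Wm⁻¹ with hA
  have hAW : A * B.Wm = B.Wm * hdelta l x := by rw [hA, inv_mul_cancel_right]
  have e00 := congrArg (fun g : GL (Fin 2) ℝ => (g : Matrix (Fin 2) (Fin 2) ℝ) 0 0) hAW
  have e01 := congrArg (fun g : GL (Fin 2) ℝ => (g : Matrix (Fin 2) (Fin 2) ℝ) 0 1) hAW
  have e10 := congrArg (fun g : GL (Fin 2) ℝ => (g : Matrix (Fin 2) (Fin 2) ℝ) 1 0) hAW
  have e11 := congrArg (fun g : GL (Fin 2) ℝ => (g : Matrix (Fin 2) (Fin 2) ℝ) 1 1) hAW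
  simp only [Units.val_mul, Matrix.mul_apply, Fin.sum_univ_two, hD.h00, hD.h01, hD.h10, hD.h11,
    w00, w01, w10, w11, mul_zero, add_zero] at e00 e01 e10 e11
  have a00 : (A : Matrix (Fin 2) (Fin 2) ℝ) 0 0 =
      ((B.w * q * α - M * q * β - M * B.y * δ : ℤ) : ℝ) := by
    push_cast
    linear_combination (-(A : Matrix (Fin 2) (Fin 2) ℝ) 0 0) * hB' + B.w * e00 - M * e01
  have a01 : (A : Matrix (Fin 2) (Fin 2) ℝ) 0 1 = ((q * β + B.y * δ - B.y * α : ℤ) : ℝ) := by
    push_cast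
    apply mul_left_cancel₀ hq0
    linear_combination (-(q : ℝ) * (A : Matrix (Fin 2) (Fin 2) ℝ) 0 1) * hB' + q * e01 - B.y * e00
  have a10 : (A : Matrix (Fin 2) (Fin 2) ℝ) 1 0 =
      ((q * M * (B.w * α - M * β - B.w * δ) : ℤ) : ℝ) := by
    push_cast
    linear_combination (-(A : Matrix (Fin 2) (Fin 2) ℝ) 1 0) * hB' + B.w * e10 - M * e11
  have a11 : (A : Matrix (Fin 2) (Fin 2) ℝ) 1 1 =
      ((M * q * β + q * B.w * δ - M * B.y * α : ℤ) : ℝ) := by
    push_cast
    apply mul_left_cancel₀ hq0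
    linear_combination (-(q : ℝ) * (A : Matrix (Fin 2) (Fin 2) ℝ) 1 1) * hB' + q * e11 - B.y * e10
  obtain ⟨γ, y, h⟩ := exists_hermite_prime hl hlN a00 a01 a10 a11 (by
    have hB := B.det
    rw [← hαδ]
    linear_combination (α * δ * (q * B.w - M * B.y + 1)) * hB) (by
      rw [hN]; push_cast
      exact Dvd.intro _ rfl)
  refine ⟨γ, y, ?_⟩
  rw [← h, hAW]

/-- conjugation by the Atkin–Lehner matrix -/
theorem exists_conj' (hN : N = q * M) (γ : Gamma0 N) :
    ∃ γ' : Gamma0 N, gam N γ * B.Wm = B.Wm * gam N γ' := by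
  have hdet := (γ : SL(2, ℤ)).det_coe
  rw [Matrix.det_fin_two] at hdet
  have hc : ((N : ℕ) : ℤ) ∣ (γ : SL(2, ℤ)) 1 0 :=
    (ZMod.intCast_zmod_eq_zero_iff_dvd _ _).mp (Gamma0_mem.mp γ.2)
  obtain ⟨e, he⟩ := hc
  have hNc : ((N : ℕ) : ℤ) = q * M := by rw [hN]; push_cast; rfl
  rw [hNc] at he
  have hB := B.det
  set a := (γ : SL(2, ℤ)) 0 0 with ha
  set b := (γ : SL(2, ℤ)) 0 1 with hb
  set d := (γ : SL(2, ℤ)) 1 1 with hd
  let g : SL(2, ℤ) := ⟨!![q * B.w * a - B.y * (q * M * e) + M * q * B.w * b - M * B.y * d,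
      B.y * B.w * a - B.y ^ 2 * (M * e) + q * B.w ^ 2 * b - B.w * B.y * d;
      q * (q * M * e) - q * M * a + M * q * d - M ^ 2 * q * b,
      B.y * (q * M * e) - M * B.y * a + q * B.w * d - q * B.w * M * b], by
    rw [he] at hdet
    rw [Matrix.det_fin_two_of]
    have h1 : (q * B.w - M * B.y) ^ 2 * (a * d - b * (q * M * e)) = 1 := by
      rw [hB, hdet]; norm_num
    linear_combination h1⟩
  have hg : g ∈ Gamma0 N := by
    rw [Gamma0_mem, ZMod.intCast_zmod_eq_zero_iff_dvd, hNc]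
    refine ⟨q * e - a + d - M * b, ?_⟩
    change q * (q * M * e) - q * M * a + M * q * d - M ^ 2 * q * b = _
    ring
  refine ⟨⟨g, hg⟩, ?_⟩
  obtain ⟨w00, w01, w10, w11⟩ := B.Wm_entries
  have hB' : (q : ℝ) * B.w - M * B.y = 1 := by exact_mod_cast hB
  have g00 : g 0 0 = q * B.w * a - B.y * (q * M * e) + M * q * B.w * b - M * B.y * d := rfl
  have g01 : g 0 1 = B.y * B.w * a - B.y ^ 2 * (M * e) + q * B.w ^ 2 * b - B.w * B.y * d := rfl
  have g10 : g 1 0 = q * (q * M * e) - q * M * a + M * q * d - M ^ 2 * q * b := rfl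
  have g11 : g 1 1 = B.y * (q * M * e) - M * B.y * a + q * B.w * d - q * B.w * M * b := rfl
  rw [gam_apply, gam_apply]
  ext i j
  rw [Units.val_mul, Units.val_mul, Matrix.mul_apply, Matrix.mul_apply, Fin.sum_univ_two,
    Fin.sum_univ_two]
  fin_cases i <;> fin_cases j
  · simp only [Fin.zero_eta, Fin.isValue, w00, w01, w10, mapGL_entry, g00, g10, ← ha, ← hb]
    push_cast
    linear_combination (-(q : ℝ) * a - q * M * b) * hB'
  · simp only [Fin.zero_eta, Fin.isValue, Fin.mk_one, w00, w01, w11, mapGL_entry, g01, g11,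
      ← ha, ← hb]
    push_cast
    linear_combination (-(B.y : ℝ) * a - q * B.w * b) * hB'
  · simp only [Fin.zero_eta, Fin.isValue, Fin.mk_one, w00, w10, w11, mapGL_entry, g00, g10, he,
      ← hd]
    push_cast
    linear_combination (-(q : ℝ) * q * M * e - q * M * d) * hB'
  · simp only [Fin.isValue, Fin.mk_one, w01, w10, w11, mapGL_entry, g01, g11, he, ← hd]
    push_cast
    linear_combination (-(B.y : ℝ) * q * M * e - q * B.w * d) * hB'

/-- **`T_l` and `w_q` commute** on invariant functions. -/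
theorem heckeMul_slash (hN : N = q * M) {l : ℕ} (hl : l.Prime) (hlN : ¬ l ∣ N) {f : ℍ → ℂ}
    (hf : ∀ (γ : Gamma0 N) (τ : ℍ), f ((γ : SL(2, ℤ)) • τ) = f τ) :
    heckeMul l (B.slash f) = B.slash (heckeMul l f) := by
  choose γ s hs using Wm_comm B hN hl hlN
  have hinj : Function.Injective s := by
    intro x x' hxx
    obtain ⟨γ', hγ'⟩ := exists_conj' B hN (γ x * (γ x')⁻¹)
    have h1 : B.Wm * hdelta l x = B.Wm * (gam N γ' * hdelta l x') := by
      rw [← mul_assoc, ← hγ', map_mul, map_inv, mul_assoc, hs x', hs x, hxx]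
      group
    exact (heckeSys hl hlN).inj x x' γ' (mul_left_cancel h1)
  have hbij : Function.Bijective s := (Fintype.bijective_iff_injective_and_card s).mpr ⟨hinj, rfl⟩
  funext τ
  change ∏ x, f (B.W (hdelta l x • τ)) = ∏ x, f (hdelta l x • B.W τ)
  rw [← Function.Bijective.prod_comp hbij fun x => f (hdelta l x • B.W τ)]
  refine Finset.prod_congr rfl fun x _ => ?_
  rw [← B.Wm_smul, ← B.Wm_smul, ← mul_smul, hs x, mul_smul, mul_smul]
  exact hf (γ x) _

end W

/-! ### Covariance -/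

theorem heckeMul_smul {N l : ℕ} (hl : l.Prime) (hN : ¬ l ∣ N) {χ : Gamma0 N →* ℂˣ} {f : ℍ → ℂ}
    (hf : ∀ (γ : Gamma0 N) (τ : ℍ), f ((γ : SL(2, ℤ)) • τ) = (χ γ : ℂ) * f τ)
    (γ : Gamma0 N) (τ : ℍ) :
    heckeMul l f ((γ : SL(2, ℤ)) • τ) = (heckeChar hl hN χ γ : ℂ) * heckeMul l f τ := by
  have h1 : ∀ x : Option (Fin l), f (hdelta l x • ((γ : SL(2, ℤ)) • τ)) =
      (χ ((heckeSys hl hN).coc γ x) : ℂ) * f (hdelta l ((heckeSys hl hN).tgt γ x) • τ) := by
    intro x
    have h2 := (heckeSys hl hN).spec γ x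
    rw [gam_apply, gam_apply] at h2
    have h3 : hdelta l x • ((γ : SL(2, ℤ)) • τ) =
        (((heckeSys hl hN).coc γ x : Gamma0 N) : SL(2, ℤ)) •
          (hdelta l ((heckeSys hl hN).tgt γ x) • τ) := by
      have h4 : hdelta l x • ((γ : SL(2, ℤ)) • τ) =
          (hdelta l x * Matrix.SpecialLinearGroup.mapGL ℝ (γ : SL(2, ℤ))) • τ := by
        rw [mul_smul]
        rfl
      have h5 : (heckeSys hl hN).δ x = hdelta l x := rfl
      rw [h4, ← h5, h2, mul_smul]
      rfl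
    rw [h3, hf]
  change ∏ x, f (hdelta l x • ((γ : SL(2, ℤ)) • τ)) = _ * ∏ x, f (hdelta l x • τ)
  rw [Finset.prod_congr rfl fun x _ => h1 x, Finset.prod_mul_distrib]
  congr 1
  · rw [heckeChar, CosetSys.trans_apply', Units.coe_prod]
  · exact Function.Bijective.prod_comp ((heckeSys hl hN).tgt_bijective γ)
      fun x => f (hdelta l x • τ)

theorem heckeDiag_smul_eq (l : ℕ) [NeZero l] (τ : ℍ) : heckeDiagMatrix l • τ = tri l 0 1 τ := by
  apply UpperHalfPlane.ext
  rw [ESCore.coe_heckeDiagMatrix_smul (NeZero.ne l), coe_tri]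
  push_cast
  ring

theorem heckeMul_eq (l : ℕ) [NeZero l] (f : ℍ → ℂ) :
    heckeMul l f = (fun τ => f (tri l 0 1 τ)) * heckeMulU l f := by
  funext τ
  rw [heckeMul_apply, Pi.mul_apply, heckeMulU_apply, heckeDiag_smul_eq]

theorem heckeMul_mem_MB {f : ℍ → ℂ} (hf : f ∈ MB) (l : ℕ) [NeZero l] : heckeMul l f ∈ MB := by
  rw [heckeMul_eq]
  exact mul_mem (MB_tri_one hf l) (heckeMulU_mem_MB hf l)

section Ser

variable {L : Type*} [Field L] {ι : L →+* ℂ}

/-- the operator `T_l` on series -/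
def tN (l : ℕ) [NeZero l] (ζ : Lˣ) (y : LaurentSeries L) : LaurentSeries L :=
  ModularCurve.qExpand L l y * uN l ζ y

theorem hasExp_heckeMul {l : ℕ} [NeZero l] {ζ : Lˣ} (hζ : IsPrimitiveRoot ζ l)
    {f : ℍ → ℂ} {y : LaurentSeries L} (h : HasExp ι (qN 1) f y) :
    HasExp ι (qN 1) (heckeMul l f) (tN l ζ y) := by
  rw [heckeMul_eq]
  refine HasExp.mul ?_ (hasExp_heckeMulU hζ h)
  refine h.qExpand (s' := qN 1) l (fun τ => tri l 0 1 τ) fun τ => ?_
  rw [qN_apply, qN_apply, Function.Periodic.qParam, Function.Periodic.qParam, ← Complex.exp_nat_mul,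
    coe_tri]
  congr 1
  push_cast
  ring

/-- **`T_l` on series with character.** -/
theorem _root_.Fermat.Agent.LG.XSer.tN {N l : ℕ} [NeZero N] [NeZero l] (hl : l.Prime)
    (hN : ¬ l ∣ N) {ζ : Lˣ} (hζ : IsPrimitiveRoot ζ l) {χ : Gamma0 N →* ℂˣ}
    {y : LaurentSeries L} (hy : XSer ι N χ y) : XSer ι N (heckeChar hl hN χ) (tN l ζ y) := by
  obtain ⟨f, hf, hf', hfy⟩ := hy
  exact ⟨heckeMul l f, heckeMul_mem_MB hf l, fun γ τ => heckeMul_smul hl hN hf' γ τ,
    hasExp_heckeMul hζ hfy⟩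

theorem tN_mul {l : ℕ} [NeZero l] {ζ : Lˣ} (hζ : IsPrimitiveRoot ζ l) (x y : LaurentSeries L) :
    tN l ζ (x * y) = tN l ζ x * tN l ζ y := by
  rw [tN, tN, tN, map_mul, uN_mul hζ]
  ring

theorem tN_one {l : ℕ} [NeZero l] {ζ : Lˣ} (hζ : IsPrimitiveRoot ζ l) :
    tN l ζ (1 : LaurentSeries L) = 1 := by
  rw [tN, map_one, uN_one hζ, one_mul]

/-- the operator as a homomorphism -/
def tNH {l : ℕ} [NeZero l] {ζ : Lˣ} (hζ : IsPrimitiveRoot ζ l) :
    LaurentSeries L →* LaurentSeries L where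
  toFun := tN l ζ
  map_one' := tN_one hζ
  map_mul' := tN_mul hζ

theorem tN_pow {l : ℕ} [NeZero l] {ζ : Lˣ} (hζ : IsPrimitiveRoot ζ l) (x : LaurentSeries L)
    (n : ℕ) : tN l ζ (x ^ n) = tN l ζ x ^ n := map_pow (tNH hζ) x n

theorem tN_ne_zero {l : ℕ} [NeZero l] {ζ : Lˣ} (hζ : IsPrimitiveRoot ζ l) {x : LaurentSeries L}
    (hx : x ≠ 0) : tN l ζ x ≠ 0 := by
  intro h0
  have h1 : tN l ζ (x * x⁻¹) = 0 := by rw [tN_mul hζ, h0, zero_mul]
  rw [mul_inv_cancel₀ hx, tN_one hζ] at h1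
  exact one_ne_zero h1

theorem coeffMap_tN {L' : Type*} [Field L'] {l : ℕ} [NeZero l] {ζ : Lˣ} (f : L →+* L')
    (x : LaurentSeries L) : ModularCurve.coeffMap f (tN l ζ x) =
      tN l (Units.map (f : L →* L') ζ) (ModularCurve.coeffMap f x) := by
  rw [tN, tN, map_mul, coeffMap_uN, coeffMap_qExpand']

/-- **`T_l` and `w_q` commute** on functions without poles in the upper half plane. -/
theorem wF_tN {q M N : ℕ} [NeZero q] [NeZero M] [NeZero N] (B : Bez q M) (hq : q.Prime)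
    (hN : N = q * M) {l : ℕ} [NeZero l] (hl : l.Prime) (hlN : ¬ l ∣ N) {ζ : Lˣ}
    (hζ : IsPrimitiveRoot ζ l) {x : LaurentSeries L} (hx : XSer ι N 1 x)
    (hx' : XSer ι N 1 (tN l ζ x)) :
    (B.wF ι hq hN ⟨tN l ζ x, hx'.mem_F0⟩ : LaurentSeries L) =
      tN l ζ (B.wF ι hq hN ⟨x, hx.mem_F0⟩ : LaurentSeries L) := by
  apply RingHom.injective (ModularCurve.coeffMap ι)
  obtain ⟨f, hf, hf', hfx⟩ := hx
  have hinv : ∀ (γ : Gamma0 N) (τ : ℍ), f ((γ : SL(2, ℤ)) • τ) = f τ := fun γ τ => by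
    rw [hf' γ τ]; simp
  have h1 := B.slash_smul dvd_rfl hN hf'
  obtain ⟨z, hz⟩ := exists_exp_of_MB (B.slash_mem_MB hf) 1 fun τ => by
    have h2 := h1 ⟨ModularGroup.T, by
      rw [← zpow_one ModularGroup.T, Gamma0_mem, ModularGroup.coe_T_zpow]; simp⟩ τ
    have h3 : (((1 : ℕ) : ℝ) +ᵥ τ : ℍ) = ModularGroup.T • τ := by
      rw [modular_T_smul, Nat.cast_one]
    rw [h3, h2, B.wChar_one, MonoidHom.one_apply, Units.val_one, one_mul]
  have hζ' : IsPrimitiveRoot (Units.map (ι : L →* ℂ) ζ) l :=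
    hζ.map_of_injective (Units.map_injective ι.injective)
  have h4 := hasExp_heckeMul (ι := RingHom.id ℂ) hζ' hz
  rw [heckeMul_slash B hN hl hlN hinv] at h4
  have h5 := B.wF_hasExp hq hN (h := ⟨tN l ζ x, hx'.mem_F0⟩) (hasExp_heckeMul hζ hfx) h4
  rw [h5, coeffMap_tN]
  congr 1
  exact (B.wF_hasExp hq hN (h := ⟨x, _⟩) hfx hz).symm

theorem leadingCoeff_twist (u : Lˣ) (x : LaurentSeries L) :
    (twist u x).leadingCoeff = (u ^ x.order : Lˣ) * x.leadingCoeff := by
  by_cases hx : x = 0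
  · rw [hx, map_zero, HahnSeries.leadingCoeff_zero, mul_zero]
  have ho : (twist u x).order = x.order := by
    apply le_antisymm
    · apply HahnSeries.order_le_of_coeff_ne_zero
      rw [twist_coeff]
      refine mul_ne_zero (Units.ne_zero _) ?_
      rw [← HahnSeries.leadingCoeff_eq]
      exact HahnSeries.leadingCoeff_ne_zero.mpr hx
    · by_contra hcon
      push Not at hcon
      have h1 : (twist u x) ≠ 0 := by
        rw [Ne, _root_.map_eq_zero]; exact hx
      have h2 := HahnSeries.leadingCoeff_ne_zero.mpr h1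
      rw [HahnSeries.leadingCoeff_eq, twist_coeff, HahnSeries.coeff_eq_zero_of_lt_order hcon,
        mul_zero] at h2
      exact h2 rfl
  rw [HahnSeries.leadingCoeff_eq, ho, twist_coeff, ← HahnSeries.leadingCoeff_eq]

/-- the leading coefficient of `T_l y` -/
theorem leadingCoeff_tN {l : ℕ} [NeZero l] {ζ : Lˣ} (hζ : IsPrimitiveRoot ζ l)
    (x : LaurentSeries L) : ∃ k : ℤ, (tN l ζ x).leadingCoeff =
      (ζ ^ k : Lˣ) * x.leadingCoeff ^ (l + 1) := by
  have h1 : (uN l ζ x).leadingCoeff = (twN l ζ x).leadingCoeff := by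
    rw [← qExpand_uN hζ, CA.leadingCoeff_qExpand]
  have h2 : ∀ s : Finset (Fin l), ∃ k : ℤ,
      (∏ j ∈ s, twist (ζ ^ (j : ℕ)) x).leadingCoeff = (ζ ^ k : Lˣ) * x.leadingCoeff ^ s.card := by
    classical
    intro s
    induction s using Finset.induction_on with
    | empty => exact ⟨0, by simp⟩
    | insert i s hi ih =>
      obtain ⟨k, hk⟩ := ih
      refine ⟨i * x.order + k, ?_⟩
      rw [Finset.prod_insert hi, HahnSeries.leadingCoeff_mul, hk, leadingCoeff_twist,
        Finset.card_insert_of_notMem hi, zpow_add, ← zpow_natCast ζ, ← zpow_mul, Units.val_mul]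
      ring
  obtain ⟨k, hk⟩ := h2 Finset.univ
  refine ⟨k, ?_⟩
  rw [tN, HahnSeries.leadingCoeff_mul, CA.leadingCoeff_qExpand, h1, twN, hk, Finset.card_univ,
    Fintype.card_fin]
  ring

end Ser

end Fermat.Agent.MZ
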