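import Mathlib
import Fermat.Agent.MZ.LiftM0

/-!
# Lifting, with parabolic characters
-/

set_option autoImplicit false
set_option linter.unusedSectionVars false
set_option synthInstance.maxHeartbeats 400000

noncomputable section

namespace Fermat.Agent.MZ

open AlgebraicCurve IsDedekindDomain IntermediateField WithZero Module Fermat.Agent.FunField
open Polynomial (aeval)
open Fermat.Agent.LG Fermat.Agent.ModFun Fermat.Agent.Geo Fermat.Agent.Flat Fermat.Agent.Lf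
open Fermat.Agent.ESCore (HauptFn haupt2 haupt3 ιC XG)
open IsLocalRing ModularCurve

/-- The field of algebraic numbers. -/
local notation "Qb" => AlgebraicClosure ℚ

variable {A : ValuationSubring Qb} {q : ℕ} {p : ℕ} [Fact p.Prime] {κ : ℤ}
  {N : ℕ} [NeZero N]

/-- **Lifting** of functions on the reduction whose divisor is divisible by `m`. -/
theorem lift_pre {H : HauptFn p κ} {hp : p ∣ N} {d : ℕ} {e : Fin d → F0 Qb N}
    (h : Pre (residue A) (W0 A N) (ρ0 A N) (tF H hp) (tS (ResidueField A) p κ) e)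
    (hq : q.Prime) (hA : A.LiesOverPrime q) (hqN : ¬ q ∣ N)
    {S : Set ℤ} {k : ℕ} {Q : Polynomial ℤ} (hH : HautData H S k Q)
    (hS : ∀ c ∈ S, ∀ c' ∈ S, c ≠ c' → IsUnit ((c - c' : ℤ) : A.comap (algebraMap (KI A) Qb)))
    {m : ℕ} (hm : 0 < m) (hqm : ¬ q ∣ m) {yb : LaurentSeries (ResidueField A)} (hyb : yb ≠ 0)
    (hym : yb ^ m ∈ h.Fb)
    (hdvd : ∀ v : Place (ResidueField A) h.Fb, (m : ℤ) ∣ v.ord (⟨yb ^ m, hym⟩ : h.Fb)) :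
    ∃ χ ∈ XG N m, IsPar χ ∧ ∃ y : LaurentSeries Qb, y ≠ 0 ∧ XSer ιC N χ y ∧ ∃ hy : y ∈ gA A,
        ∃ f ∈ h.Fb, f ≠ 0 ∧ gAR ⟨y, hy⟩ = f * yb := by
  obtain ⟨P⟩ := CD.exists_bigPlace hq hA
  have := P.charZeroΩ
  obtain ⟨w, n, z, f₁, hf₁, hwz, hv, hu, hf₁w⟩ :=
    exists_sec P h hq hA hqN hH hS hm hqm hyb hym hdvd
  have hz0 : z ≠ 0 := by
    rintro rfl
    have h0 : HahnSeries.ofPowerSeries ℤ _ (PowerSeries.map P.j w) ^ m = 0 := by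
      rw [hwz]
      exact zero_mul _
    have h1 := HahnSeries.ofPowerSeries_injective (Γ := ℤ) ((pow_eq_zero_iff hm.ne').mp h0 |>.trans
      (map_zero _).symm)
    have h2 : w = 0 := PowerSeries.map_injective _ P.j_inj (by rw [h1, map_zero])
    rw [h2, map_zero] at hu
    exact not_isUnit_zero hu
  obtain ⟨χ, hχ, ⟨y₁, hy₁0, hy₁, u, hu0, hyu⟩, y, hy0, hy, hyA, f, hf, hf0, hfw⟩ :=
    CD.ld_core_gen P hq hA h hm hwz hv hu
  have hpar : IsPar χ := by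
    refine isPar_of_dvd hm hχ.1 hy₁ hy₁0 fun v => ?_
    have h1 : (⟨y₁ ^ m, hy₁.pow_mem_F0 hχ.1⟩ : F0 P.Ω N) = z * u ^ m := Subtype.ext hyu
    rw [h1, v.ord_mul hz0 (pow_ne_zero _ hu0), ord_pow]
    exact dvd_add (hv v) (dvd_mul_right _ _)
  refine ⟨χ, hχ, hpar, y, hy0, hy, hyA, f₁ / f, div_mem f₁.2 hf, div_ne_zero (fun h0 => hf₁
    (Subtype.ext h0)) hf0, ?_⟩
  rw [← hf₁w] at hfw
  have h1 := mul_right_cancel₀ (pow_ne_zero n xs_ne) hfw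
  rw [div_mul_eq_mul_div, eq_div_iff hf0, h1]

/-- **Lifting** of functions on the reduction whose divisor is divisible by `m`. -/
theorem lift_main {H : HauptFn p κ} (hp : p ∣ N)
    (hq : q.Prime) (hA : A.LiesOverPrime q) (hqN : ¬ q ∣ N)
    {S : Set ℤ} {k : ℕ} {Q : Polynomial ℤ} (hH : HautData H S k Q)
    (hS : ∀ c ∈ S, ∀ c' ∈ S, c ≠ c' → IsUnit ((c - c' : ℤ) : A.comap (algebraMap (KI A) Qb)))
    {m : ℕ} (hm : 0 < m) (hqm : ¬ q ∣ m) {yb : LaurentSeries (ResidueField A)} (hyb : yb ≠ 0)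
    (hym : yb ^ m ∈ FbK A N)
    (hdvd : ∀ v : Place (ResidueField A) (FbK A N), (m : ℤ) ∣ v.ord (⟨yb ^ m, hym⟩ : FbK A N)) :
    ∃ χ ∈ XG N m, IsPar χ ∧ ∃ y : LaurentSeries Qb, y ≠ 0 ∧ XSer ιC N χ y ∧ ∃ hy : y ∈ gA A,
        ∃ f ∈ FbK A N, f ≠ 0 ∧ gAR ⟨y, hy⟩ = f * yb := by
  obtain ⟨d, e, h⟩ := exists_pre (H := H) hq hA hqN hp hH hS
  have key : ∀ F : IntermediateField (ResidueField A) (LaurentSeries (ResidueField A)),
      h.Fb = F → ∀ hym : yb ^ m ∈ F,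
      (∀ v : Place (ResidueField A) F, (m : ℤ) ∣ v.ord (⟨yb ^ m, hym⟩ : F)) →
      ∃ χ ∈ XG N m, IsPar χ ∧ ∃ y : LaurentSeries Qb, y ≠ 0 ∧ XSer ιC N χ y ∧ ∃ hy : y ∈ gA A,
        ∃ f ∈ F, f ≠ 0 ∧ gAR ⟨y, hy⟩ = f * yb := by
    rintro _ rfl hym hdvd
    exact lift_pre h hq hA hqN hH hS hm hqm hyb hym hdvd
  exact key _ (Fb_eq h) hym hdvd

/-- Lifting, even level. -/
theorem lift2 (hN : 2 ∣ N) (hq : q.Prime) (hA : A.LiesOverPrime q) (hqN : ¬ q ∣ N)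
    {m : ℕ} (hm : 0 < m) (hqm : ¬ q ∣ m) {yb : LaurentSeries (ResidueField A)} (hyb : yb ≠ 0)
    (hym : yb ^ m ∈ FbK A N)
    (hdvd : ∀ v : Place (ResidueField A) (FbK A N), (m : ℤ) ∣ v.ord (⟨yb ^ m, hym⟩ : FbK A N)) :
    ∃ χ ∈ XG N m, IsPar χ ∧ ∃ y : LaurentSeries Qb, y ≠ 0 ∧ XSer ιC N χ y ∧ ∃ hy : y ∈ gA A,
        ∃ f ∈ FbK A N, f ≠ 0 ∧ gAR ⟨y, hy⟩ = f * yb := by
  have : Fact (Nat.Prime 2) := ⟨Nat.prime_two⟩
  exact lift_main hN hq hA hqN haut2 (haut2_isUnit hq hA fun h => hqN (h ▸ hN)) hm hqm hyb hym hdvd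

/-- Lifting, level divisible by three. -/
theorem lift3 (hN : 3 ∣ N) (hq : q.Prime) (hA : A.LiesOverPrime q) (hqN : ¬ q ∣ N)
    {m : ℕ} (hm : 0 < m) (hqm : ¬ q ∣ m) {yb : LaurentSeries (ResidueField A)} (hyb : yb ≠ 0)
    (hym : yb ^ m ∈ FbK A N)
    (hdvd : ∀ v : Place (ResidueField A) (FbK A N), (m : ℤ) ∣ v.ord (⟨yb ^ m, hym⟩ : FbK A N)) :
    ∃ χ ∈ XG N m, IsPar χ ∧ ∃ y : LaurentSeries Qb, y ≠ 0 ∧ XSer ιC N χ y ∧ ∃ hy : y ∈ gA A,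
        ∃ f ∈ FbK A N, f ≠ 0 ∧ gAR ⟨y, hy⟩ = f * yb := by
  have : Fact (Nat.Prime 3) := ⟨Nat.prime_three⟩
  exact lift_main hN hq hA hqN haut3 (haut3_isUnit hq hA fun h => hqN (h ▸ hN)) hm hqm hyb hym hdvd

end Fermat.Agent.MZ
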