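import Mathlib
import Fermat.Agent.CD.LdD

/-!
# Roots of Laurent series, and the archimedean property of the places of `ℚ̄`
-/

set_option autoImplicit false
set_option linter.unusedSectionVars false

open Polynomial IsLocalRing

noncomputable section

namespace Fermat.Agent.MZ

section Root

variable {K : Type*} [Field K] [IsAlgClosed K]

theorem exists_ps_root {m : ℕ} (hm : (m : K) ≠ 0) {u : PowerSeries K}
    (hu : PowerSeries.constantCoeff u ≠ 0) : ∃ v : PowerSeries K, v ^ m = u := by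
  have hm0 : m ≠ 0 := by
    rintro rfl
    exact hm Nat.cast_zero
  obtain ⟨a, ha⟩ := IsAlgClosed.exists_pow_nat_eq (PowerSeries.constantCoeff u)
    (Nat.pos_of_ne_zero hm0)
  have ha0 : a ≠ 0 := by
    rintro rfl
    rw [zero_pow hm0] at ha
    exact hu ha.symm
  have hmR : IsUnit (m : PowerSeries K) := by
    rw [PowerSeries.isUnit_iff_constantCoeff, map_natCast]
    exact isUnit_iff_ne_zero.mpr hm
  have hau : IsUnit (PowerSeries.C a) := by
    rw [PowerSeries.isUnit_iff_constantCoeff, PowerSeries.constantCoeff_C]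
    exact isUnit_iff_ne_zero.mpr ha0
  have hH : HenselianRing (PowerSeries K) (Ideal.span {PowerSeries.X}) := inferInstance
  obtain ⟨x, hx, -⟩ := hH.is_henselian (Polynomial.X ^ m - Polynomial.C u)
    (Polynomial.monic_X_pow_sub_C u hm0) (PowerSeries.C a) (by
      rw [Polynomial.eval_sub, Polynomial.eval_pow, Polynomial.eval_X, Polynomial.eval_C,
        Ideal.mem_span_singleton, PowerSeries.X_dvd_iff, map_sub, map_pow,
        PowerSeries.constantCoeff_C, ha, sub_self]) (by
      rw [Polynomial.derivative_sub, Polynomial.derivative_C, sub_zero,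
        Polynomial.derivative_X_pow, Polynomial.eval_mul, Polynomial.eval_pow, Polynomial.eval_X,
        Polynomial.eval_C]
      exact (hmR.mul (hau.pow _)).map _)
  refine ⟨x, ?_⟩
  rw [Polynomial.IsRoot, Polynomial.eval_sub, Polynomial.eval_pow, Polynomial.eval_X,
    Polynomial.eval_C, sub_eq_zero] at hx
  exact hx

/-- roots of Laurent series -/
theorem exists_ls_root {m : ℕ} (hm : (m : K) ≠ 0) {y : LaurentSeries K} (hy : y ≠ 0)
    (hd : (m : ℤ) ∣ y.order) : ∃ w : LaurentSeries K, w ^ m = y := by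
  obtain ⟨k, hk⟩ := hd
  have h1 := LaurentSeries.single_order_mul_powerSeriesPart y
  have h2 : PowerSeries.constantCoeff (LaurentSeries.powerSeriesPart y) ≠ 0 := by
    rw [← PowerSeries.coeff_zero_eq_constantCoeff, LaurentSeries.powerSeriesPart_coeff,
      Nat.cast_zero, add_zero]
    exact HahnSeries.coeff_order_eq_zero.not.mpr hy
  obtain ⟨v, hv⟩ := exists_ps_root hm h2
  refine ⟨HahnSeries.single k 1 * HahnSeries.ofPowerSeries ℤ K v, ?_⟩
  rw [mul_pow, HahnSeries.single_pow, one_pow, ← map_pow (HahnSeries.ofPowerSeries ℤ K), hv]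
  have h3 : m • k = y.order := by rw [hk, nsmul_eq_mul]
  rw [h3]
  exact h1

end Root

local notation "Qb" => AlgebraicClosure ℚ

variable {A : ValuationSubring Qb} {q : ℕ}

/-- the places of `ℚ̄` are archimedean -/
theorem arch_A (hq : q.Prime) (hA : A.LiesOverPrime q) : CD.Arch A.toSubring := by
  intro d f hd hdf
  by_contra hf
  have hf1 : 1 < A.valuation f := by
    rw [← not_le, A.valuation_le_one_iff]
    exact hf
  have hf0 : f ≠ 0 := by
    rintro rfl
    rw [map_zero] at hf1
    exact absurd hf1 (not_lt.mpr zero_le)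
  have h1 : ∀ i : ℕ, A.valuation (d * f ^ i) ≤ 1 := fun i =>
    (A.valuation_le_one_iff _).mpr (hdf i)
  have hvq : A.valuation (q : Qb) < 1 := hA
  have hq0 : A.valuation (q : Qb) ≠ 0 := CD.val_q_ne_zero hq
  obtain ⟨t, ht, s, hs⟩ := EC.exists_pow_val (v := A.valuation) hq hvq hd
  obtain ⟨t', ht', s', hs'⟩ := EC.exists_pow_val (v := A.valuation) hq hvq hf0
  have key : ∀ n : ℤ, A.valuation (q : Qb) ^ n ≤ 1 → 0 ≤ n := by
    intro n hn
    by_contra hcon
    push Not at hcon
    obtain ⟨k, rfl⟩ : ∃ k : ℕ, n = -k := ⟨n.natAbs, by omega⟩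
    have hk : k ≠ 0 := by omega
    rw [zpow_neg, zpow_natCast, inv_le_one₀ (pow_pos (zero_lt_iff.mpr hq0) _)] at hn
    exact absurd (pow_lt_one₀ zero_le hvq hk) (not_lt.mpr hn)
  have hs'0 : s' < 0 := by
    by_contra hcon
    push Not at hcon
    obtain ⟨k, rfl⟩ : ∃ k : ℕ, s' = k := ⟨s'.natAbs, by omega⟩
    rw [zpow_natCast] at hs'
    have h3 : 1 < A.valuation f ^ t' := one_lt_pow₀ hf1 ht'.ne'
    rw [hs'] at h3
    exact absurd h3 (not_lt.mpr (pow_le_one₀ zero_le hvq.le))
  have h3 : ∀ i : ℕ, 0 ≤ s * t' + s' * (t * i) := by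
    intro i
    apply key
    have h4 : A.valuation (d * f ^ i) ^ (t * t') ≤ 1 := pow_le_one₀ zero_le (h1 i)
    have h5 : A.valuation (d * f ^ i) ^ (t * t') =
        A.valuation (q : Qb) ^ (s * t' + s' * (t * i)) := by
      rw [map_mul, map_pow, mul_pow, pow_mul, hs, ← pow_mul, zpow_add₀ hq0, zpow_mul, zpow_natCast]
      congr 1
      have e : i * (t * t') = t' * (t * i) := by ring
      rw [e, pow_mul, hs', zpow_mul]
      congr 1
    rw [h5] at h4
    exact h4
  have h5 : (s * t' : ℤ) ≤ ((s * t').natAbs : ℤ) := Int.le_natAbs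
  obtain ⟨n, hn⟩ : ∃ n : ℕ, n = (s * t').natAbs + 1 := ⟨_, rfl⟩
  have h4 := h3 n
  have hn1 : (n : ℤ) = ((s * t').natAbs : ℤ) + 1 := by rw [hn]; push_cast; rfl
  have h7 : (1 : ℤ) ≤ t := by exact_mod_cast ht
  have h8 : (0 : ℤ) ≤ n := Int.natCast_nonneg n
  have h9 : (n : ℤ) ≤ t * n := le_mul_of_one_le_left h8 h7
  have h10 : s' * (t * n) ≤ -1 * (t * n) :=
    mul_le_mul_of_nonneg_right (by omega) (h8.trans h9)
  omega

end Fermat.Agent.MZ
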