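import Mathlib
import Fermat.Agent.MZ.OrdNorm
import Fermat.Agent.MZ.Root
import Fermat.Agent.MZ.Deg
import Fermat.Agent.MZ.LiftM1
import Fermat.Agent.Flat.PMod

/-!
# Lifting at a level without Hauptmodul
-/

set_option autoImplicit false
set_option linter.unusedSectionVars false
set_option synthInstance.maxHeartbeats 400000
set_option linter.style.haveILetI false

noncomputable section

namespace Fermat.Agent.MZ

open AlgebraicCurve IsDedekindDomain IntermediateField WithZero Module Fermat.Agent.FunField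
open Polynomial (aeval)
open Fermat.Agent.LG Fermat.Agent.ModFun Fermat.Agent.Geo Fermat.Agent.Flat Fermat.Agent.Lf
open Fermat.Agent.ESCore (HauptFn haupt2 haupt3 ιC XG)
open IsLocalRing ModularCurve

/-- The field of algebraic numbers. -/
local notation "Qb" => AlgebraicClosure ℚ

section Abs

variable {Ω κ F E : Type*} [Field Ω] [Field κ] [Field F] [Field E] [Algebra Ω F] [Algebra κ E]
  {A : ValuationSubring Ω} {r : A →+* κ} {W : Subring F} {ρ : W →+* E} {t : F} {tb : E} {d : ℕ}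
  {e : Fin d → F} {F₁ : Type*} [Field F₁] [Algebra Ω F₁] [Algebra F₁ F] [IsScalarTower Ω F₁ F]
  [FiniteDimensional F₁ F] [Algebra.IsSeparable F₁ F]

theorem liftM_abs [Infinite Ω] (h : Pre r W ρ t tb e) (hU : Uniq h F₁) {g C : ℤ}
    (hC : Crv Ω F g C) {s : F} (hs : Sep Ω s) {p : ℕ} (hp : p.Prime)
    (hn : ¬ p ∣ Module.finrank F₁ F) {z : F} (hzW : z ∈ W) (hz : ρ ⟨z, hzW⟩ ≠ 0)
    (hdvd : ∀ v : Place Ω F, (p : ℤ) ∣ v.ord z) {f₁ : F} (hf₁ : f₁ ∈ W) {h₀ : F₁}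
    (hh₀ : algebraMap F₁ F h₀ ∈ W) (hred : ρ ⟨z, hzW⟩ = ρ ⟨f₁, hf₁⟩ ^ p * ρ ⟨_, hh₀⟩) :
    ∃ z' : F₁, z' ≠ 0 ∧ (∀ v : Place Ω F₁, (p : ℤ) ∣ v.ord z') ∧
      ∃ (f : F₁) (hf : algebraMap F₁ F f ∈ W) (hz' : algebraMap F₁ F z' ∈ W), ρ ⟨_, hf⟩ ≠ 0 ∧
        ρ ⟨_, hz'⟩ = ρ ⟨_, hf⟩ ^ p * ρ ⟨_, hh₀⟩ := by
  obtain ⟨n, hn'⟩ : ∃ n, n = Module.finrank F₁ F := ⟨_, rfl⟩
  rw [← hn'] at hn
  -- a multiple of the degree
  obtain ⟨n', k, hnk⟩ : ∃ n' k : ℕ, n * n' = 1 + k * p := by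
    have hco : Nat.Coprime n p := (Nat.Coprime.symm ((Nat.Prime.coprime_iff_not_dvd hp).mpr hn))
    obtain ⟨n', hn1⟩ := Nat.exists_mul_mod_eq_one_of_coprime hco hp.one_lt
    refine ⟨n', n * n' / p, ?_⟩
    have := Nat.div_add_mod (n * n') p
    rw [hn1.2] at this
    linarith [mul_comm p (n * n' / p)]
  have hz0 : z ≠ 0 := by
    rintro rfl
    exact hz (map_zero ρ)
  have hNz : Algebra.norm F₁ z ≠ 0 := by rwa [Ne, Algebra.norm_eq_zero_iff]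
  -- the comparison element
  have hx₁W : f₁ ^ p * algebraMap F₁ F h₀ ∈ W := mul_mem (pow_mem hf₁ p) hh₀
  have hx₁ : ρ ⟨_, hx₁W⟩ = ρ ⟨z, hzW⟩ := by
    rw [hred, ← map_pow, ← map_mul]
    rfl
  have h1 := hU.norm_congr hzW hx₁W hx₁.symm (by rw [hx₁]; exact hz)
  have h2 : (⟨_, hU.norm_mem hx₁W⟩ : W) = ⟨_, hU.norm_mem hf₁⟩ ^ p * ⟨_, hh₀⟩ ^ n := by
    apply Subtype.ext
    change algebraMap F₁ F (Algebra.norm F₁ (f₁ ^ p * algebraMap F₁ F h₀)) =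
      algebraMap F₁ F (Algebra.norm F₁ f₁) ^ p * algebraMap F₁ F h₀ ^ n
    rw [map_mul, map_pow, Algebra.norm_algebraMap, map_mul, map_pow, map_pow, hn']
  rw [h2, map_mul, map_pow, map_pow] at h1
  have hf0 : ρ ⟨f₁, hf₁⟩ ≠ 0 := by
    intro h0
    rw [hred, h0, zero_pow hp.ne_zero, zero_mul] at hz
    exact hz rfl
  have hh0 : ρ ⟨_, hh₀⟩ ≠ 0 := by
    intro h0
    rw [hred, h0, mul_zero] at hz
    exact hz rfl
  have hNf : ρ ⟨_, hU.norm_mem hf₁⟩ ≠ 0 := by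
    have h3 : f₁⁻¹ ∈ W := h.runit ⟨f₁, hf₁⟩ hf0
    have hf10 : f₁ ≠ 0 := by
      rintro rfl
      exact hf0 (map_zero ρ)
    have h4 : (⟨_, hU.norm_mem hf₁⟩ : W) * ⟨_, hU.norm_mem h3⟩ = 1 := by
      apply Subtype.ext
      change algebraMap F₁ F (Algebra.norm F₁ f₁) * algebraMap F₁ F (Algebra.norm F₁ f₁⁻¹) = 1
      rw [← map_mul, ← map_mul, mul_inv_cancel₀ hf10, map_one, map_one]
    intro h0
    have h5 := congrArg ρ h4
    rw [map_mul, h0, zero_mul, map_one] at h5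
    exact zero_ne_one h5
  have hfW : algebraMap F₁ F (Algebra.norm F₁ f₁ ^ n' * h₀ ^ k) ∈ W := by
    rw [map_mul, map_pow, map_pow]
    exact mul_mem (pow_mem (hU.norm_mem hf₁) _) (pow_mem hh₀ _)
  have hfe : (⟨_, hfW⟩ : W) = ⟨_, hU.norm_mem hf₁⟩ ^ n' * ⟨_, hh₀⟩ ^ k := by
    apply Subtype.ext
    change algebraMap F₁ F (Algebra.norm F₁ f₁ ^ n' * h₀ ^ k) = _
    rw [map_mul, map_pow, map_pow]
    rfl
  have hzW' : algebraMap F₁ F (Algebra.norm F₁ z ^ n') ∈ W := by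
    rw [map_pow]
    exact pow_mem (hU.norm_mem hzW) _
  have hze : (⟨_, hzW'⟩ : W) = ⟨_, hU.norm_mem hzW⟩ ^ n' := by
    apply Subtype.ext
    change algebraMap F₁ F (Algebra.norm F₁ z ^ n') = _
    rw [map_pow]
    rfl
  refine ⟨Algebra.norm F₁ z ^ n', pow_ne_zero _ hNz, fun v => ?_, Algebra.norm F₁ f₁ ^ n' * h₀ ^ k,
    hfW, hzW', ?_, ?_⟩
  · rw [ord_pow]
    exact Dvd.dvd.mul_left (dvd_ord_norm hC hs hz0 hdvd v) _
  · rw [hfe, map_mul, map_pow, map_pow]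
    exact mul_ne_zero (pow_ne_zero _ hNf) (pow_ne_zero _ hh0)
  · rw [hze, map_pow, h1, hfe, map_mul, map_pow, map_pow, mul_pow, mul_pow, ← pow_mul, ← pow_mul,
      ← pow_mul, ← pow_mul, hnk, pow_add, pow_one, mul_comm p n']
    ring

end Abs

section Level

variable {A : ValuationSubring Qb} {q : ℕ} {p : ℕ} [Fact p.Prime] {κ : ℤ}
  {M M₁ : ℕ} [NeZero M] [NeZero M₁]

theorem jq_gA : ∃ h : jqModC Qb ∈ gA A, gAR ⟨jqModC Qb, h⟩ = jqModC (ResidueField A) := by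
  have h1 : lA A (jqModC A) = jqModC Qb := coeffMap_jqModC _
  have h2 : lK A (jqModC A) = jqModC (ResidueField A) := coeffMap_jqModC _
  refine ⟨by rw [← h1]; exact lA_mem_gA _, ?_⟩
  rw [← h2, ← gAR_lA]
  congr 1
  exact Subtype.ext h1.symm

/-- the Gauss valuation of the level `M₁` is the unique extension of that of level `M` -/
theorem uniq_level {H : HauptFn p κ} {S : Set ℤ} {k : ℕ} {Q : Polynomial ℤ}
    (hH : HautData H S k Q) {hp : p ∣ M₁} {d : ℕ} {e : Fin d → F0 Qb M₁}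
    (h : Pre (residue A) (W0 A M₁) (ρ0 A M₁) (tF H hp) (tS (ResidueField A) p κ) e)
    (hq : q.Prime) (hA : A.LiesOverPrime q) (hM : M ∣ M₁) (hQ : Q.Monic) (hk0 : 0 < k)
    (hk : k < Q.natDegree) (hQ0 : ((Q.coeff 0 : ℤ) : ResidueField A) ≠ 0)
    (hfd : letI := algI (F0_mono (K := Qb) hM)
      FiniteDimensional (F0 Qb M) (F0 Qb M₁)) :
    letI := algI (F0_mono (K := Qb) hM)
    Uniq h (F0 Qb M) := by
  letI := algI (F0_mono (K := Qb) hM)
  haveI := hfd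
  haveI : IsScalarTower Qb (F0 Qb M) (F0 Qb M₁) :=
    IsScalarTower.of_algebraMap_eq fun _ => Subtype.ext rfl
  obtain ⟨hj, hjr⟩ := jq_gA (A := A)
  have hjW : algebraMap (F0 Qb M) (F0 Qb M₁) (jF Qb M) ∈ W0 A M₁ := hj
  intro V hV x hx
  refine pre_mem_of_le h (arch_A hq hA) hjW ?_ hQ hk0 hk hQ0 ?_ V hV hx
  · have h1 : ρ0 A M₁ ⟨algebraMap (F0 Qb M) (F0 Qb M₁) (jF Qb M), hjW⟩ =
        jqModC (ResidueField A) := hjr
    rw [h1, transcendental_iff_injective]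
    exact aeval_jq_injective _
  · apply Subtype.ext
    have h1 := hH.series ιC
    have h2 : ((aeval (tF H hp) Q : F0 Qb M₁) : LaurentSeries Qb) =
        Q.eval₂ (Int.castRingHom (LaurentSeries Qb)) (tS Qb p κ) := by
      change ((F0 Qb M₁).val : F0 Qb M₁ →+* LaurentSeries Qb) (aeval (tF H hp) Q) = _
      rw [Polynomial.aeval_def, Polynomial.hom_eval₂]
      congr 1
    rw [h2]
    rw [Polynomial.eval₂_map] at h1
    have h3 : (HahnSeries.C : Qb →+* LaurentSeries Qb).comp (Int.castRingHom Qb) =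
        Int.castRingHom (LaurentSeries Qb) := RingHom.ext_int _ _
    rw [h3] at h1
    exact h1

/-- elements of the field of reductions come from functions -/
theorem exists_of_mem_FbK {x : LaurentSeries (ResidueField A)} (hx : x ∈ FbK A M) :
    ∃ z : W0 A M, ρ0 A M z = x := by
  have hC : ∀ c : ResidueField A, ∃ z : W0 A M, ρ0 A M z = HahnSeries.C c := by
    intro c
    obtain ⟨a, rfl⟩ := residue_surjective c
    have h1 : ((algebraMap Qb (F0 Qb M) (a : Qb) : F0 Qb M) : LaurentSeries Qb) =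
        HahnSeries.C (a : Qb) := algebraMap_laurent Qb _
    refine ⟨⟨algebraMap Qb (F0 Qb M) (a : Qb), by rw [mem_W0, h1]; exact C_mem_gA a⟩, ?_⟩
    rw [ρ0_apply, ← gAR_C]
    congr 1
    exact Subtype.ext h1
  let S : IntermediateField (ResidueField A) (LaurentSeries (ResidueField A)) :=
    { toSubalgebra := { (ρ0 A M).range with
        algebraMap_mem' := fun c => by
          obtain ⟨z, hz⟩ := hC c
          refine ⟨z, ?_⟩
          rw [hz, algebraMap_laurent] }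
      inv_mem' := by
        rintro _ ⟨z, rfl⟩
        by_cases h0 : ρ0 A M z = 0
        · exact ⟨0, by rw [map_zero]; exact (by rw [h0, inv_zero] : (ρ0 A M z)⁻¹ = 0).symm⟩
        · have h1 : ((z : F0 Qb M)⁻¹ : F0 Qb M) ∈ W0 A M := inv_mem_gA (x := ⟨_, z.2⟩) h0
          refine ⟨⟨_, h1⟩, ?_⟩
          have hz0 : (z : F0 Qb M) ≠ 0 := by
            intro h2
            have h3 : z = 0 := Subtype.ext h2
            rw [h3, map_zero] at h0
            exact h0 rfl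
          have h2 : z * ⟨_, h1⟩ = 1 := Subtype.ext (mul_inv_cancel₀ hz0)
          have h3 := congrArg (ρ0 A M) h2
          rw [map_mul, map_one] at h3
          exact eq_inv_of_mul_eq_one_right h3 }
  have hle : FbK A M ≤ S := by
    rw [FbK, IntermediateField.adjoin_le_iff]
    rintro _ ⟨z, rfl⟩
    exact ⟨z, rfl⟩
  exact hle hx

theorem ρ0_mem_FbK (z : W0 A M) : ρ0 A M z ∈ FbK A M := IntermediateField.subset_adjoin _ _ ⟨z, rfl⟩

/-- roots of elements of `FbK` all of whose orders are divisible -/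
theorem exists_root_Fb {p : ℕ} (hq : q.Prime) (hA : A.LiesOverPrime q) (hqp : ¬ q ∣ p)
    {hb : LaurentSeries (ResidueField A)} (hb0 : hb ≠ 0) (hb1 : hb ∈ FbK A M)
    (hdvd : ∀ v : Place (ResidueField A) (FbK A M), (p : ℤ) ∣ v.ord (⟨hb, hb1⟩ : FbK A M)) :
    ∃ yb : LaurentSeries (ResidueField A), yb ^ p = hb := by
  have := isAlgClosed_residueA hq hA
  have hp0 : (p : ResidueField A) ≠ 0 := by
    intro h0
    have hvq : A.valuation (q : Qb) < 1 := hA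
    have h1 : residue A (q : A) = 0 := by
      rw [residue_eq_zero_iff, A.valuation_lt_one_iff]
      exact_mod_cast hvq
    have h2 : (q : ResidueField A) = 0 := by rw [← h1, map_natCast]
    have hco : IsCoprime (q : ℤ) (p : ℤ) :=
      Nat.isCoprime_iff_coprime.mpr ((Nat.Prime.coprime_iff_not_dvd hq).mpr hqp)
    obtain ⟨a, b, hab⟩ := hco
    have h3 := congrArg (Int.cast : ℤ → ResidueField A) hab
    push_cast at h3
    rw [h0, h2, mul_zero, mul_zero, add_zero] at h3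
    exact zero_ne_one h3
  refine exists_ls_root hp0 hb0 ?_
  exact dvd_of_val (K := ResidueField A) (F := FbK A M)
    (fun z => (z : LaurentSeries (ResidueField A)).order)
    (fun x y hx hy => HahnSeries.order_mul (fun h => hx (Subtype.ext h))
      (fun h => hy (Subtype.ext h)))
    (fun x y hx hy hxy => HahnSeries.min_order_le_order_add (fun h => hxy (Subtype.ext h)))
    (fun a ha => by
      change (algebraMap (ResidueField A) (LaurentSeries (ResidueField A)) a).order = 0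
      rw [algebraMap_laurent]
      exact HahnSeries.order_C) (f := ⟨hb, hb1⟩) (fun h => hb0 (congrArg Subtype.val h)) hdvd

theorem liftM_core {H : HauptFn p κ} {S : Set ℤ} {k : ℕ} {Q : Polynomial ℤ}
    (hH : HautData H S k Q) (hp : p ∣ M₁)
    (hS : ∀ c ∈ S, ∀ c' ∈ S, c ≠ c' → IsUnit ((c - c' : ℤ) : A.comap (algebraMap (KI A) Qb)))
    (hq : q.Prime) (hA : A.LiesOverPrime q) (hM : M ∣ M₁) (hM' : M₁ ∣ 36 * M) (hqM : ¬ q ∣ M₁)
    (hN : NoEll M₁) (hQ : Q.Monic) (hk0 : 0 < k)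
    (hk : k < Q.natDegree) (hQ0 : ((Q.coeff 0 : ℤ) : ResidueField A) ≠ 0)
    {m : ℕ} (hm : m.Prime) (hm5 : 5 ≤ m) (hqm : q ≠ m) {hb : LaurentSeries (ResidueField A)}
    (hbM : hb ∈ FbK A M) (hb0 : hb ≠ 0) (hb1 : hb ∈ FbK A M₁)
    (hdvd : ∀ v : Place (ResidueField A) (FbK A M₁), (m : ℤ) ∣ v.ord (⟨hb, hb1⟩ : FbK A M₁)) :
    ∃ χ ∈ XG M m, IsPar χ ∧ ∃ y : LaurentSeries Qb, y ≠ 0 ∧ XSer ιC M χ y ∧
      ∃ hy : y ^ m ∈ gA A, ∃ f ∈ FbK A M, f ≠ 0 ∧ gAR ⟨y ^ m, hy⟩ = f ^ m * hb := by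
  have hqm' : ¬ q ∣ m := fun h => hqm ((Nat.prime_dvd_prime_iff_eq hq hm).mp h)
  obtain ⟨yb, hyb⟩ := exists_root_Fb hq hA hqm' hb0 hb1 hdvd
  have hyb0 : yb ≠ 0 := by
    rintro rfl
    rw [zero_pow hm.ne_zero] at hyb
    exact hb0 hyb.symm
  obtain ⟨d, e, h⟩ := exists_pre (H := H) hq hA hqM hp hH hS
  -- lifting
  obtain ⟨χ₁, hχ₁, hpar₁, y₁, hy₁0, hy₁, hy₁A, f₁, hf₁, hf₁0, hred⟩ :=
    lift_main (H := H) (yb := yb) hp hq hA hqM hH hS hm.pos hqm' hyb0 (by rw [hyb]; exact hb1)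
      (fun v => by
        have h1 : (⟨yb ^ m, by rw [hyb]; exact hb1⟩ : FbK A M₁) = ⟨hb, hb1⟩ := Subtype.ext hyb
        rw [h1]
        exact hdvd v)
  obtain ⟨z, hz⟩ : ∃ z : F0 Qb M₁, (z : LaurentSeries Qb) = y₁ ^ m :=
    ⟨⟨y₁ ^ m, hy₁.pow_mem_F0 hχ₁.1⟩, rfl⟩
  have hzdvd : ∀ v : Place Qb (F0 Qb M₁), (m : ℤ) ∣ v.ord z := by
    intro v
    have h1 : z = powF ⟨χ₁, hχ₁⟩ hy₁ := Subtype.ext hz
    rw [h1]
    exact powF_dvd hN ⟨χ₁, hχ₁⟩ hpar₁ hy₁ hy₁0 v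
  have hzW : z ∈ W0 A M₁ := by
    rw [mem_W0, hz]
    exact pow_mem hy₁A m
  have hzρ : ρ0 A M₁ ⟨z, hzW⟩ = f₁ ^ m * hb := by
    have h1 : (⟨(z : LaurentSeries Qb), hzW⟩ : gA A) = ⟨y₁, hy₁A⟩ ^ m := Subtype.ext hz
    have h2 : ρ0 A M₁ ⟨z, hzW⟩ = gAR (⟨(z : LaurentSeries Qb), hzW⟩ : gA A) := rfl
    rw [h2, h1, map_pow, hred, mul_pow, hyb]
  obtain ⟨h₀, hh₀⟩ := exists_of_mem_FbK hbM
  obtain ⟨g₁, hg₁⟩ := exists_of_mem_FbK hf₁
  obtain ⟨hfd, hndvd⟩ := finrank_level ιC hM hM'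
  have hU := uniq_level hH h hq hA hM hQ hk0 hk hQ0 hfd
  letI := algI (F0_mono (K := Qb) hM)
  haveI := hfd
  haveI : IsScalarTower Qb (F0 Qb M) (F0 Qb M₁) :=
    IsScalarTower.of_algebraMap_eq fun _ => Subtype.ext rfl
  haveI : CharZero (F0 Qb M) := charZero_of_injective_algebraMap (algebraMap Qb (F0 Qb M)).injective
  haveI : Algebra.IsSeparable (F0 Qb M) (F0 Qb M₁) :=
    Algebra.IsAlgebraic.isSeparable_of_perfectField
  haveI : Infinite Qb := inferInstance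
  obtain ⟨g, C, hC⟩ := (sep_jF (N := M₁) ιC).exists_crv
  have hh₀W : algebraMap (F0 Qb M) (F0 Qb M₁) h₀ ∈ W0 A M₁ := h₀.2
  have hh₀ρ : ρ0 A M₁ ⟨_, hh₀W⟩ = hb := hh₀
  obtain ⟨z', hz'0, hz'dvd, f, hfW, hz'W, hf0, hfe⟩ := liftM_abs (F₁ := F0 Qb M) h hU hC
    (sep_jF (N := M₁) ιC) hm (hndvd m hm hm5) hzW
    (by rw [hzρ]; exact mul_ne_zero (pow_ne_zero _ hf₁0) hb0) hzdvd g₁.2 hh₀W
    (by rw [hzρ, hg₁, hh₀ρ])
  obtain ⟨χ, hχ, hpar, y, hy0, hy, u, hu0, hyu⟩ := exists_xSer_par (ι := ιC) hm.pos hz'0 hz'dvd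
  -- scaling
  obtain ⟨c, hc0, hcW, hcρ⟩ := h.scale (algebraMap (F0 Qb M) (F0 Qb M₁) u)
    (by rwa [Ne, map_eq_zero])
  have hcu : algebraMap Qb (F0 Qb M) c * u ∈ W0 A M := hcW
  have hcρ' : ρ0 A M ⟨_, hcu⟩ ≠ 0 := hcρ
  have hfW' : f ∈ W0 A M := hfW
  have hz'W' : z' ∈ W0 A M := hz'W
  have hf0' : ρ0 A M ⟨f, hfW'⟩ ≠ 0 := hf0
  have hfe' : ρ0 A M ⟨z', hz'W'⟩ = ρ0 A M ⟨f, hfW'⟩ ^ m * hb := by
    have h1 : ρ0 A M ⟨z', hz'W'⟩ = ρ0 A M ⟨f, hfW'⟩ ^ m * ρ0 A M₁ ⟨_, hh₀W⟩ := hfe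
    rw [h1, hh₀ρ]
  have hcC : (HahnSeries.C c : LaurentSeries Qb) ≠ 0 := by
    intro h0
    rw [← map_zero (HahnSeries.C : Qb →+* LaurentSeries Qb)] at h0
    exact hc0 (HahnSeries.C_injective h0)
  have hprod : (HahnSeries.C c * y) ^ m = ((z' * (algebraMap Qb (F0 Qb M) c * u) ^ m : F0 Qb M) :
      LaurentSeries Qb) := by
    rw [mul_pow, hyu]
    change _ = (z' : LaurentSeries Qb) *
      (algebraMap Qb (LaurentSeries Qb) c * (u : LaurentSeries Qb)) ^ m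
    rw [algebraMap_laurent]
    ring
  have hprodW : z' * (algebraMap Qb (F0 Qb M) c * u) ^ m ∈ W0 A M :=
    mul_mem hz'W' (pow_mem hcu m)
  refine ⟨χ, hχ, hpar, HahnSeries.C c * y, mul_ne_zero hcC hy0, ?_, ?_, ρ0 A M ⟨f, hfW'⟩ *
    ρ0 A M ⟨_, hcu⟩, mul_mem (ρ0_mem_FbK _) (ρ0_mem_FbK _), mul_ne_zero hf0' hcρ', ?_⟩
  · have h1 := (CD.xSer_C (ι := ιC) (N := M) c).mul hy
    rwa [char_one_mul] at h1
  · rw [hprod]
    exact hprodW
  · have h1 : (⟨(HahnSeries.C c * y) ^ m, by rw [hprod]; exact hprodW⟩ : gA A) =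
        ⟨((z' * (algebraMap Qb (F0 Qb M) c * u) ^ m : F0 Qb M) : LaurentSeries Qb), hprodW⟩ :=
      Subtype.ext hprod
    rw [h1]
    change ρ0 A M ⟨_, hprodW⟩ = _
    have h2 : (⟨_, hprodW⟩ : W0 A M) = ⟨z', hz'W'⟩ * ⟨_, hcu⟩ ^ m := rfl
    rw [h2, map_mul, map_pow, hfe']
    ring

end Level

section Main

variable {A : ValuationSubring Qb} {q : ℕ} {M M₁ : ℕ} [NeZero M] [NeZero M₁]

theorem natCast_residue_ne (hq : q.Prime) (hA : A.LiesOverPrime q) {r : ℕ} (hqr : ¬ q ∣ r) :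
    (r : ResidueField A) ≠ 0 := by
  intro h0
  have hvq : A.valuation (q : Qb) < 1 := hA
  have h1 : residue A (q : A) = 0 := by
    rw [residue_eq_zero_iff, A.valuation_lt_one_iff]
    exact_mod_cast hvq
  have h2 : (q : ResidueField A) = 0 := by rw [← h1, map_natCast]
  have hco : IsCoprime (q : ℤ) (r : ℤ) :=
    Nat.isCoprime_iff_coprime.mpr ((Nat.Prime.coprime_iff_not_dvd hq).mpr hqr)
  obtain ⟨a, b, hab⟩ := hco
  have h3 := congrArg (Int.cast : ℤ → ResidueField A) hab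
  push_cast at h3
  rw [h0, h2, mul_zero, mul_zero, add_zero] at h3
  exact zero_ne_one h3

/-- **Lifting at a level without Hauptmodul.** -/
theorem liftM (hq : q.Prime) (hA : A.LiesOverPrime q) (hM : M ∣ M₁) (hM' : M₁ ∣ 36 * M)
    (hqM : ¬ q ∣ M₁) (h49 : 4 ∣ M₁ ∨ 9 ∣ M₁)
    {m : ℕ} (hm : m.Prime) (hm5 : 5 ≤ m) (hqm : q ≠ m) {hb : LaurentSeries (ResidueField A)}
    (hbM : hb ∈ FbK A M) (hb0 : hb ≠ 0) (hb1 : hb ∈ FbK A M₁)
    (hdvd : ∀ v : Place (ResidueField A) (FbK A M₁), (m : ℤ) ∣ v.ord (⟨hb, hb1⟩ : FbK A M₁)) :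
    ∃ χ ∈ XG M m, IsPar χ ∧ ∃ y : LaurentSeries Qb, y ≠ 0 ∧ XSer ιC M χ y ∧
      ∃ hy : y ^ m ∈ gA A, ∃ f ∈ FbK A M, f ≠ 0 ∧ gAR ⟨y ^ m, hy⟩ = f ^ m * hb := by
  rcases h49 with h4 | h9
  · have : Fact (Nat.Prime 2) := ⟨Nat.prime_two⟩
    have h2 : 2 ∣ M₁ := (by norm_num : 2 ∣ 4).trans h4
    have hq2 : q ≠ 2 := fun h => hqM (h ▸ h2)
    have hmon : (Polynomial.X + Polynomial.C (256 : ℤ)).Monic := Polynomial.monic_X_add_C _
    refine liftM_core haut2 h2 (haut2_isUnit hq hA hq2) hq hA hM hM' hqM (noEll_of_four_dvd h4)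
      (hmon.pow 3) (by norm_num) ?_ ?_ hm hm5 hqm hbM hb0 hb1 hdvd
    · rw [hmon.natDegree_pow, Polynomial.natDegree_X_add_C]
      norm_num
    · have h5 : ((Polynomial.X + Polynomial.C (256 : ℤ)) ^ 3).coeff 0 = ((2 ^ 24 : ℕ) : ℤ) := by
        rw [Polynomial.coeff_zero_eq_eval_zero]
        simp
      rw [h5, Int.cast_natCast]
      refine natCast_residue_ne hq hA fun h => hq2 ?_
      exact (Nat.prime_dvd_prime_iff_eq hq Nat.prime_two).mp (hq.dvd_of_dvd_pow h)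
  · have : Fact (Nat.Prime 3) := ⟨Nat.prime_three⟩
    have h3 : 3 ∣ M₁ := (by norm_num : 3 ∣ 9).trans h9
    have hq3 : q ≠ 3 := fun h => hqM (h ▸ h3)
    have hmon : (Polynomial.X + Polynomial.C (27 : ℤ)).Monic := Polynomial.monic_X_add_C _
    have hmon' : (Polynomial.X + Polynomial.C (243 : ℤ)).Monic := Polynomial.monic_X_add_C _
    refine liftM_core haut3 h3 (haut3_isUnit hq hA hq3) hq hA hM hM' hqM (noEll_of_nine_dvd h9)
      (hmon.mul (hmon'.pow 3)) (by norm_num) ?_ ?_ hm hm5 hqm hbM hb0 hb1 hdvd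
    · rw [hmon.natDegree_mul (hmon'.pow 3), hmon'.natDegree_pow, Polynomial.natDegree_X_add_C,
        Polynomial.natDegree_X_add_C]
      norm_num
    · have h5 : ((Polynomial.X + Polynomial.C (27 : ℤ)) *
          (Polynomial.X + Polynomial.C (243 : ℤ)) ^ 3).coeff 0 = ((3 ^ 18 : ℕ) : ℤ) := by
        rw [Polynomial.coeff_zero_eq_eval_zero]
        simp
      rw [h5, Int.cast_natCast]
      refine natCast_residue_ne hq hA fun h => hq3 ?_
      exact (Nat.prime_dvd_prime_iff_eq hq Nat.prime_three).mp (hq.dvd_of_dvd_pow h)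

end Main

end Fermat.Agent.MZ
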