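import Mathlib
import Fermat.Agent.RJ.Good3
import Fermat.Agent.Flat.PMod
import Fermat.Agent.Lf.Fb
import Fermat.Agent.ESCore.ResLevel

/-!
A parabolic character whose class reduces to a `m`-th power is trivial.
-/

set_option autoImplicit false
set_option linter.unusedSectionVars false
set_option synthInstance.maxHeartbeats 400000
set_option maxHeartbeats 1000000

noncomputable section

namespace Fermat.Agent.MZ

open AlgebraicCurve IsDedekindDomain IntermediateField WithZero Module Fermat.Agent.FunField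
open Fermat.Agent.Flat Fermat.Agent.Conn Fermat.Agent.RJ Fermat.Agent.Lf
open Polynomial (aeval)
open Fermat.Agent.LG Fermat.Agent.ModFun Fermat.Agent.Geo
open Fermat.Agent.ESCore (HauptFn haupt2 haupt3 ιC XG resChar Gamma0_le_of_dvd)
open IsLocalRing ModularCurve
open CongruenceSubgroup (Gamma0)

/-- The field of algebraic numbers. -/
local notation "Qb" => AlgebraicClosure ℚ
/-- The absolute Galois group. -/
local notation "GQ" => (AlgebraicClosure ℚ ≃ₐ[ℚ] AlgebraicClosure ℚ)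

section

variable {A : ValuationSubring Qb} {q : ℕ}
  {p : ℕ} [Fact p.Prime] {κ : ℤ} {N : ℕ} [NeZero N]

theorem redPowK_of (hq : q.Prime) (hA : A.LiesOverPrime q) (hqN : ¬ q ∣ N) (hp : p ∣ N)
    {H : HauptFn p κ} {S : Set ℤ} {k : ℕ} {P : Polynomial ℤ} (hH : HautData H S k P)
    (hS : ∀ c ∈ S, ∀ c' ∈ S, c ≠ c' →
      IsUnit ((c - c' : ℤ) : A.comap (algebraMap (KI A) Qb))) {m : ℕ} (hm : m ≠ 0)
    (hmr : residue A (m : A) ≠ 0)
    (f : F0 Qb N) (hf : (f : LaurentSeries Qb) ∈ gA A) (hf0 : gAR ⟨_, hf⟩ ≠ 0)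
    (hdiv : ∀ v : Place Qb (F0 Qb N), (m : ℤ) ∣ v.ord f) {gb : LaurentSeries (ResidueField A)}
    (hgb : gb ∈ FbK A N) (hfg : gAR ⟨_, hf⟩ = gb ^ m) :
    ∃ u : F0 Qb N, f = u ^ m := by
  obtain ⟨S₀, hS₀, hSel⟩ := exists_finite_sel (N := N) (Nat.pos_of_ne_zero hm)
  let G := A.inertiaSubgroupIn ℚ
  let γ : G →* SemilinearAut Qb (F0 Qb N) := (galF0 N).comp G.subtype
  have hI := inert_residue hq hA
  have hac : IsAlgClosed (ResidueField A) := isAlgClosed_residueA hq hA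
  obtain ⟨Fb, W, ρ, t, tb, htW, htb, hG, hz⟩ := exists_goodCrv2 hq hA hqN hp hH hS γ
    (fun g a => rfl) (fun g x => rfl) (fun g x hx => mem_KI.mp hx g g.2) hI.stab
    (fun g a => hI.triv g a (hI.stab g a a.2))
  have hle : FbK A N ≤ Fb := by
    rw [FbK, IntermediateField.adjoin_le_iff]
    rintro _ ⟨z, rfl⟩
    obtain ⟨h1, h2⟩ := hz z.1 z.2
    rw [ρ0_apply]
    rw [← h2]
    exact (ρ ⟨z.1, h1⟩).2
  obtain ⟨h1, h2⟩ := hz f hf
  exact pow_of_red hG hI htW htb hm hmr hS₀ hSel (f := ⟨f, h1⟩) (gb := ⟨gb, hle hgb⟩)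
      (fun h0 => hf0 (by rw [← h2, h0]; rfl)) hdiv (Subtype.ext (h2.trans hfg))

theorem redPowK (hq : q.Prime) (hA : A.LiesOverPrime q) (hqN : ¬ q ∣ N) (h : 2 ∣ N ∨ 3 ∣ N) {m : ℕ}
    (hqm : ¬ q ∣ m)
    (f : F0 Qb N) (hf : (f : LaurentSeries Qb) ∈ gA A) (hf0 : gAR ⟨_, hf⟩ ≠ 0)
    (hdiv : ∀ v : Place Qb (F0 Qb N), (m : ℤ) ∣ v.ord f) {gb : LaurentSeries (ResidueField A)}
    (hgb : gb ∈ FbK A N) (hfg : gAR ⟨_, hf⟩ = gb ^ m) :
    ∃ u : F0 Qb N, f = u ^ m := by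
  have hm : m ≠ 0 := by
    rintro rfl
    exact hqm (dvd_zero q)
  have hdvr := isDVR_KI hq hA
  have hNu : IsUnit ((N : ℕ) : A.comap (algebraMap (KI A) Qb)) := isUnit_natCast hq hA hqN
  have hmr : residue A (m : A) ≠ 0 := by
    rw [residue_ne_zero_iff_isUnit]
    have h1 : IsUnit ((m : ℕ) : A.comap (algebraMap (KI A) Qb)) := isUnit_natCast hq hA hqm
    obtain ⟨u, hu⟩ := h1.exists_right_inv
    have h2 := congrArg (fun x : A.comap (algebraMap (KI A) Qb) =>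
      algebraMap (KI A) Qb (x : KI A)) hu
    refine IsUnit.of_mul_eq_one ⟨algebraMap (KI A) Qb (u : KI A), u.2⟩ (Subtype.ext ?_)
    push_cast at h2 ⊢
    exact h2
  rcases h with h | h
  · exact redPowK_of hq hA hqN h haut2 (sep2 h hNu) hm hmr f hf hf0 hdiv hgb hfg
  · exact redPowK_of hq hA hqN h haut3 (sep3 h hNu) hm hmr f hf hf0 hdiv hgb hfg

/-- **(INJ)** at levels with enough level structure -/
theorem inj_level (hq : q.Prime) (hA : A.LiesOverPrime q) (hqN : ¬ q ∣ N) (h : 4 ∣ N ∨ 9 ∣ N)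
    {m : ℕ} (hqm : ¬ q ∣ m) {δ : Gamma0 N →* ℂˣ} (hδm : δ ^ m = 1) (hδ : IsPar δ)
    {y : LaurentSeries Qb} (hy0 : y ≠ 0) (hy : XSer ιC N δ y) (hyA : y ^ m ∈ gA A)
    {g : LaurentSeries (ResidueField A)} (hg : g ∈ FbK A N) (hg0 : g ≠ 0)
    (hyg : gAR ⟨_, hyA⟩ = g ^ m) : δ = 1 := by
  have hNE : NoEll N := h.elim noEll_of_four_dvd noEll_of_nine_dvd
  have hm : m ≠ 0 := by
    rintro rfl
    exact hqm (dvd_zero q)
  have hF : y ^ m ∈ F0 Qb N := hy.pow_mem_F0 hδm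
  have hdiv : ∀ v : Place Qb (F0 Qb N), (m : ℤ) ∣ v.ord (⟨y ^ m, hF⟩ : F0 Qb N) := by
    intro v
    obtain ⟨ζ, hζ⟩ := exists_zeta_Qb N
    have h1 : (⟨y ^ m, hF⟩ : F0 Qb N) ≠ 0 := fun h => pow_ne_zero m hy0 (congrArg Subtype.val h)
    obtain ⟨f, hf, hf', hfy⟩ := id hy
    exact ord_dvd hζ hNE hδ hf hf' h1 (hfy.pow m) v
  obtain ⟨u, hu⟩ := redPowK hq hA hqN (h.imp (fun h => (by norm_num : (2:ℕ) ∣ 4).trans h)
    fun h => (by norm_num : (3:ℕ) ∣ 9).trans h) hqm ⟨y ^ m, hF⟩ hyA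
    (by rw [hyg]; exact pow_ne_zero m hg0) hdiv hg hyg
  have hu' : y ^ m = (u : LaurentSeries Qb) ^ m := congrArg Subtype.val hu
  have hu0' : (u : LaurentSeries Qb) ≠ 0 := fun h => by
    rw [h, zero_pow hm] at hu'
    exact pow_ne_zero m hy0 hu'
  have h1 : (y / (u : LaurentSeries Qb)) ^ m = 1 := by
    rw [div_pow, hu', div_self (pow_ne_zero m hu0')]
  have h3 : IsIntegral Qb (y / (u : LaurentSeries Qb)) := by
    refine IsIntegral.of_pow (Nat.pos_of_ne_zero hm) ?_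
    rw [h1]
    exact isIntegral_one
  obtain ⟨a, ha⟩ := minpoly.mem_range_of_degree_eq_one Qb _
    (IsAlgClosed.degree_eq_one_of_irreducible Qb (minpoly.irreducible h3))
  have h4 : y = algebraMap Qb (LaurentSeries Qb) a * u := by
    rw [ha, div_mul_cancel₀ _ hu0']
  have h5 : y ∈ F0 Qb N := by
    rw [h4]
    exact mul_mem ((F0 Qb N).algebraMap_mem a) u.2
  exact hy.eq_one_of_mem hy0 h5

theorem FbK_mono {A : ValuationSubring Qb} {N N' : ℕ} [NeZero N] [NeZero N'] (h : N ∣ N') :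
    FbK A N ≤ FbK A N' := by
  rw [FbK, IntermediateField.adjoin_le_iff]
  rintro _ ⟨z, rfl⟩
  exact IntermediateField.subset_adjoin _ _
    ⟨⟨⟨z.1.1, F0_mono h z.1.2⟩, z.2⟩, rfl⟩

end

section Index

theorem eq_one_of_resChar {N N' p r : ℕ} [NeZero N] [NeZero N'] (hp : p.Prime) (hp5 : 5 ≤ p)
    (hr : r = 2 ∨ r = 3) (hN' : N' = r ^ 2 * N) (h : N ∣ N') {δ : Gamma0 N →* ℂˣ}
    (hδ : δ ^ p = 1) (hres : resChar h δ = 1) : δ = 1 := by
  have hrp : r.Prime := by rcases hr with rfl | rfl <;> norm_num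
  have : Fact p.Prime := ⟨hp⟩
  by_contra hne
  obtain ⟨γ, hγ⟩ : ∃ γ, δ γ ≠ 1 := by
    by_contra hcon
    push Not at hcon
    exact hne (MonoidHom.ext hcon)
  -- `p` divides the index of the kernel
  have h1 : p ∣ δ.ker.index := by
    rw [Subgroup.index_ker]
    have h2 : orderOf (⟨δ γ, γ, rfl⟩ : δ.range) = p := by
      apply orderOf_eq_prime
      · apply Subtype.ext
        change δ γ ^ p = 1
        rw [← MonoidHom.pow_apply, hδ, MonoidHom.one_apply]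
      · intro h
        exact hγ (congrArg Subtype.val h)
    rw [← h2]
    exact orderOf_dvd_natCard _
  -- the index of the kernel divides the index of `Γ₀(N')`
  have h2 : (Gamma0 N').subgroupOf (Gamma0 N) ≤ δ.ker := by
    intro γ hγ
    have h3 : resChar h δ ⟨γ, hγ⟩ = 1 := by rw [hres]; rfl
    exact h3
  have h3 : δ.ker.index ∣ (Gamma0 N').relIndex (Gamma0 N) := Subgroup.index_dvd_of_le h2
  have h4 : (Gamma0 N').relIndex (Gamma0 N) * ModularCurve.dedekindPsi N =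
      ModularCurve.dedekindPsi N' := by
    rw [← Fermat.Agent.Gamma0Comb.index_Gamma0, ← Fermat.Agent.Gamma0Comb.index_Gamma0]
    exact Subgroup.relIndex_mul_index (Gamma0_le_of_dvd h)
  obtain ⟨a, R, hR, hNR⟩ := Nat.exists_eq_pow_mul_and_not_dvd (NeZero.ne N) r hrp.ne_one
  have hR0 : R ≠ 0 := by
    rintro rfl
    exact hR (dvd_zero r)
  have hco : ∀ b : ℕ, (r ^ b).Coprime R := fun b =>
    ((Nat.Prime.coprime_iff_not_dvd hrp).mpr hR).pow_left b
  have h5 : ModularCurve.dedekindPsi N = ModularCurve.dedekindPsi (r ^ a) *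
      ModularCurve.dedekindPsi R := by
    rw [hNR]
    exact Fermat.Agent.Gamma0Comb.dedekindPsi_mul (hco a)
  have h6 : ModularCurve.dedekindPsi N' = ModularCurve.dedekindPsi (r ^ (a + 1 + 1)) *
      ModularCurve.dedekindPsi R := by
    rw [hN', hNR, ← mul_assoc, ← pow_add, add_comm 2 a]
    exact Fermat.Agent.Gamma0Comb.dedekindPsi_mul (hco (a + 2))
  have hψR : ModularCurve.dedekindPsi R ≠ 0 := by
    have : NeZero R := ⟨hR0⟩
    rw [← Fermat.Agent.Gamma0Comb.index_Gamma0]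
    exact Subgroup.FiniteIndex.index_ne_zero
  have h7 : (Gamma0 N').relIndex (Gamma0 N) * ModularCurve.dedekindPsi (r ^ a) =
      ModularCurve.dedekindPsi (r ^ (a + 1 + 1)) := by
    apply Nat.eq_of_mul_eq_mul_right (Nat.pos_of_ne_zero hψR)
    rw [mul_assoc, ← h5, h4, h6]
  have h8 : p ∣ ModularCurve.dedekindPsi (r ^ (a + 1 + 1)) := by
    rw [← h7]
    exact ((h1.trans h3).mul_right _)
  rw [Fermat.Agent.Gamma0Comb.dedekindPsi_prime_pow hrp,
    show r ^ (a + 1 + 1) + r ^ (a + 1) = r ^ (a + 1) * (r + 1) by ring] at h8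
  rcases (Nat.Prime.dvd_mul hp).mp h8 with h9 | h9
  · have h10 := hp.dvd_of_dvd_pow h9
    rcases hr with rfl | rfl
    · exact absurd (Nat.le_of_dvd (by norm_num) h10) (by omega)
    · exact absurd (Nat.le_of_dvd (by norm_num) h10) (by omega)
  · rcases hr with rfl | rfl
    · exact absurd (Nat.le_of_dvd (by norm_num) h9) (by omega)
    · exact absurd (Nat.le_of_dvd (by norm_num) h9) (by omega)

end Index

section

variable {A : ValuationSubring Qb} {q : ℕ} {N : ℕ} [NeZero N]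

/-- **(INJ)** at all levels, for `p ≥ 5` -/
theorem inj_level' (hq : q.Prime) (hA : A.LiesOverPrime q) (hqN : ¬ q ∣ N) {p : ℕ}
    (hp : p.Prime) (hp5 : 5 ≤ p) (hqp : q ≠ p) {δ : Gamma0 N →* ℂˣ} (hδp : δ ^ p = 1)
    (hδ : IsPar δ) {y : LaurentSeries Qb} (hy0 : y ≠ 0) (hy : XSer ιC N δ y)
    (hyA : y ^ p ∈ gA A) {g : LaurentSeries (ResidueField A)} (hg : g ∈ FbK A N) (hg0 : g ≠ 0)
    (hyg : gAR ⟨_, hyA⟩ = g ^ p) : δ = 1 := by
  obtain ⟨r, hr, hqr⟩ : ∃ r : ℕ, (r = 2 ∨ r = 3) ∧ ¬ q ∣ r := by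
    by_cases h2 : q = 2
    · exact ⟨3, Or.inr rfl, by rw [h2]; norm_num⟩
    · exact ⟨2, Or.inl rfl, fun h => h2 ((Nat.prime_dvd_prime_iff_eq hq Nat.prime_two).mp h)⟩
  have hr0 : r ≠ 0 := by rcases hr with rfl | rfl <;> norm_num
  have : NeZero (r ^ 2 * N) := ⟨mul_ne_zero (pow_ne_zero 2 hr0) (NeZero.ne N)⟩
  have hd : N ∣ r ^ 2 * N := Dvd.intro_left _ rfl
  refine eq_one_of_resChar hp hp5 hr rfl hd hδp ?_
  have hqp' : ¬ q ∣ p := fun h => hqp ((Nat.prime_dvd_prime_iff_eq hq hp).mp h)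
  refine inj_level hq hA (fun h => ?_) ?_ hqp' ?_ ?_ hy0 ?_ hyA (FbK_mono hd hg) hg0 hyg
  · rcases (Nat.Prime.dvd_mul hq).mp h with h | h
    · exact hqr (hq.dvd_of_dvd_pow h)
    · exact hqN h
  · rcases hr with rfl | rfl
    · exact Or.inl (Dvd.intro _ rfl)
    · exact Or.inr (Dvd.intro _ rfl)
  · exact (map_pow (resChar hd) δ p).symm.trans ((congrArg (resChar hd) hδp).trans (map_one _))
  · exact fun γ hγ => hδ ⟨γ, Gamma0_le_of_dvd hd γ.2⟩ hγ
  · obtain ⟨f, hf, hf', hfy⟩ := hy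
    exact ⟨f, hf, fun γ τ => hf' ⟨γ, Gamma0_le_of_dvd hd γ.2⟩ τ, hfy⟩

end

end Fermat.Agent.MZ
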