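import Mathlib
import Fermat.Agent.MZ.Inj
import Fermat.Agent.MZ.Hecke
import Fermat.Agent.CD.LdB

/-!
The Hecke operators on reductions of series with character.
-/

set_option autoImplicit false
set_option linter.unusedSectionVars false
set_option synthInstance.maxHeartbeats 400000
set_option maxHeartbeats 1000000

noncomputable section

namespace Fermat.Agent.MZ

open AlgebraicCurve IsDedekindDomain IntermediateField WithZero Module Fermat.Agent.FunField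
open Fermat.Agent.Flat Fermat.Agent.Conn Fermat.Agent.RJ Fermat.Agent.Lf Fermat.Agent.CD
open Fermat.Agent.LG Fermat.Agent.ModFun Fermat.Agent.Geo
open Fermat.Agent.ESCore (HauptFn haupt2 haupt3 ιC XG resChar Gamma0_le_of_dvd heckeX)
open Fermat.Agent.ESCore
open IsLocalRing ModularCurve
open CongruenceSubgroup (Gamma0)
open scoped IntermediateField.algebraAdjoinAdjoin

/-- The field of algebraic numbers. -/
local notation "Qb" => AlgebraicClosure ℚ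
/-- The absolute Galois group. -/
local notation "GQ" => (AlgebraicClosure ℚ ≃ₐ[ℚ] AlgebraicClosure ℚ)

variable {A : ValuationSubring Qb} {q : ℕ} {N : ℕ} [NeZero N]

/-! ### scaling -/

theorem mem_gA_cf {x : LaurentSeries Qb} (hx : x ∈ cf A.toSubring) {n : ℤ} (hn : x.coeff n = 1) :
    ∃ a : LaurentSeries A, lA A a = x ∧ lK A a ≠ 0 := by
  obtain ⟨a, ha⟩ := hx
  have ha' : lA A a = x := ha
  refine ⟨a, ha', fun h0 => ?_⟩
  have h1 : (a.coeff n : Qb) = 1 := by rw [← hn, ← ha']; rfl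
  have h2 : a.coeff n = 1 := Subtype.ext h1
  have h3 : (lK A a).coeff n = 1 := by rw [lK_coeff, h2, map_one]
  rw [h0] at h3
  exact zero_ne_one h3

theorem exists_scale (hq : q.Prime) (hA : A.LiesOverPrime q) {z : LaurentSeries Qb}
    (hzF : z ∈ F0 Qb N) (hz : z ≠ 0) :
    ∃ c : Qb, c ≠ 0 ∧ ∃ h : HahnSeries.C c * z ∈ gA A, gAR ⟨_, h⟩ ≠ 0 := by
  obtain ⟨a, b, hb, hab⟩ := IsFractionRing.div_surjective
    (A := Algebra.adjoin Qb (gens Qb N)) (⟨z, hzF⟩ : IntermediateField.adjoin Qb (gens Qb N))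
  have hb0 : b ≠ 0 := nonZeroDivisors.ne_zero hb
  have hb0' : (b : LaurentSeries Qb) ≠ 0 := fun h => hb0 (Subtype.ext h)
  have h1 : (b : LaurentSeries Qb) * z = a := by
    have h2 := congrArg (fun z : IntermediateField.adjoin Qb (gens Qb N) =>
      (z : LaurentSeries Qb)) hab
    change (a : LaurentSeries Qb) / (b : LaurentSeries Qb) = z at h2
    rw [← h2, mul_div_cancel₀ _ hb0']
  have ha0' : (a : LaurentSeries Qb) ≠ 0 := by
    rw [← h1]; exact mul_ne_zero hb0' hz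
  obtain ⟨c, hc0, hc, n, hn⟩ := exists_norm (N := N) hq hA a.2 ha0'
  obtain ⟨c', hc0', hc', n', hn'⟩ := exists_norm (N := N) hq hA b.2 hb0'
  obtain ⟨α, hα, hα0⟩ := mem_gA_cf hc hn
  obtain ⟨β, hβ, hβ0⟩ := mem_gA_cf hc' hn'
  have hCc' : (HahnSeries.C c' : LaurentSeries Qb) ≠ 0 := by
    rw [Ne, map_eq_zero_iff _ HahnSeries.C_injective]; exact hc0'
  have h3 : lA A β * (HahnSeries.C (c / c') * z) = lA A α := by
    rw [hα, hβ, ← h1, map_div₀]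
    field_simp
  refine ⟨c / c', div_ne_zero hc0 hc0', ⟨α, β, hβ0, h3⟩, ?_⟩
  rw [gAR_eq (x := ⟨HahnSeries.C (c / c') * z, ⟨α, β, hβ0, h3⟩⟩) hβ0 h3]
  exact div_ne_zero hα0 hβ0

theorem mem_A_of_C {c : Qb} (h : (HahnSeries.C c : LaurentSeries Qb) ∈ gA A) : c ∈ A := by
  obtain ⟨a, b, hb, hab⟩ := h
  have hb' : ∃ n, residue A (b.coeff n) ≠ 0 := by
    by_contra hcon
    push Not at hcon
    exact hb (by ext n; exact hcon n)
  obtain ⟨n, hn⟩ := hb'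
  have h1 := congrArg (fun x : LaurentSeries Qb => x.coeff n) hab
  simp only [lA_coeff] at h1
  rw [mul_comm, HahnSeries.C_mul_eq_smul, HahnSeries.coeff_smul, smul_eq_mul, lA_coeff] at h1
  rw [residue_ne_zero_iff_isUnit] at hn
  obtain ⟨u, hu⟩ := hn
  have h2 : c = (a.coeff n : Qb) * ((u⁻¹ : Aˣ) : A) := by
    rw [← h1, ← hu, mul_assoc]
    have h3 : ((u : A) : Qb) * (((u⁻¹ : Aˣ) : A) : Qb) = 1 := by
      have := congrArg (fun x : A => (x : Qb)) u.mul_inv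
      exact this
    rw [h3, mul_one]
  rw [h2]
  exact mul_mem (a.coeff n).2 ((u⁻¹ : Aˣ) : A).2

/-- a root of a unit of the Gauss ring lies in the Gauss ring -/
theorem mem_of_pow (hq : q.Prime) (hA : A.LiesOverPrime q) {u : LaurentSeries Qb}
    (huF : u ∈ F0 Qb N) {m : ℕ} (hm : 0 < m) (h : u ^ m ∈ gA A) (h0 : gAR ⟨_, h⟩ ≠ 0) :
    ∃ h' : u ∈ gA A, gAR ⟨_, h'⟩ ^ m = gAR ⟨_, h⟩ := by
  have hu0 : u ≠ 0 := by
    rintro rfl
    apply h0
    have e : (⟨0 ^ m, h⟩ : gA A) = 0 := Subtype.ext (zero_pow hm.ne')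
    rw [e, map_zero]
  obtain ⟨c, hc0, hc, hcr⟩ := exists_scale hq hA huF hu0
  -- `C (c ^ m)` is a unit of the Gauss ring
  have hC0 : (HahnSeries.C c : LaurentSeries Qb) ≠ 0 := by
    rw [Ne, map_eq_zero_iff _ HahnSeries.C_injective]; exact hc0
  have hinv : ((HahnSeries.C c * u : LaurentSeries Qb))⁻¹ ∈ gA A := inv_mem_gA (x := ⟨_, hc⟩) hcr
  have h1 : HahnSeries.C (c⁻¹ ^ m) ∈ gA A := by
    have e : (HahnSeries.C (c⁻¹ ^ m) : LaurentSeries Qb) =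
        u ^ m * ((HahnSeries.C c * u)⁻¹) ^ m := by
      rw [map_pow, map_inv₀, mul_inv, mul_pow, mul_left_comm, ← mul_pow u, mul_inv_cancel₀ hu0,
        one_pow, mul_one]
    rw [e]
    exact mul_mem h (pow_mem hinv m)
  have h2 : c⁻¹ ^ m ∈ A := mem_A_of_C h1
  have h3 : c⁻¹ ∈ A := by
    rw [← A.valuation_le_one_iff] at h2 ⊢
    rw [map_pow] at h2
    by_contra hcon
    rw [not_le] at hcon
    exact absurd h2 (not_le.mpr (one_lt_pow' hcon hm.ne'))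
  have h' : u ∈ gA A := by
    have e : u = HahnSeries.C ((⟨c⁻¹, h3⟩ : A) : Qb) * (HahnSeries.C c * u) := by
      change u = HahnSeries.C c⁻¹ * (HahnSeries.C c * u)
      rw [map_inv₀, inv_mul_cancel_left₀ hC0]
    rw [e]
    exact mul_mem (C_mem_gA _) hc
  refine ⟨h', ?_⟩
  rw [← map_pow]
  rfl

/-- elements of the field of reductions -/
theorem mem_FbK (hq : q.Prime) (hA : A.LiesOverPrime q) {x : LaurentSeries (ResidueField A)} :
    x ∈ FbK A N ↔ ∃ (z : LaurentSeries Qb) (_ : z ∈ F0 Qb N) (h : z ∈ gA A), gAR ⟨z, h⟩ = x := by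
  constructor
  · intro hx
    induction hx using IntermediateField.adjoin_induction with
    | mem x hx =>
      obtain ⟨z, rfl⟩ := hx
      exact ⟨z.1, z.1.2, z.2, rfl⟩
    | algebraMap a =>
      obtain ⟨c, rfl⟩ := residue_surjective a
      refine ⟨HahnSeries.C (c : Qb), ?_, C_mem_gA c, ?_⟩
      · have : (HahnSeries.C (c : Qb) : LaurentSeries Qb) = algebraMap Qb _ (c : Qb) :=
          (algebraMap_laurent Qb (c : Qb)).symm
        rw [this]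
        exact (F0 Qb N).algebraMap_mem _
      · rw [gAR_C, algebraMap_laurent]
    | add x y hx hy h1 h2 =>
      obtain ⟨z, hz, hzA, rfl⟩ := h1
      obtain ⟨z', hz', hzA', rfl⟩ := h2
      refine ⟨z + z', add_mem hz hz', add_mem hzA hzA', ?_⟩
      rw [← map_add]
      rfl
    | mul x y hx hy h1 h2 =>
      obtain ⟨z, hz, hzA, rfl⟩ := h1
      obtain ⟨z', hz', hzA', rfl⟩ := h2
      refine ⟨z * z', mul_mem hz hz', mul_mem hzA hzA', ?_⟩
      rw [← map_mul]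
      rfl
    | inv x hx h1 =>
      obtain ⟨z, hz, hzA, rfl⟩ := h1
      by_cases h0 : gAR ⟨z, hzA⟩ = 0
      · exact ⟨0, zero_mem _, zero_mem _, by
          rw [h0, inv_zero]
          exact map_zero gAR⟩
      · have hz0 : z ≠ 0 := by
          rintro rfl
          exact h0 (map_zero gAR)
        have h2 : z⁻¹ ∈ gA A := inv_mem_gA (x := ⟨z, hzA⟩) h0
        refine ⟨z⁻¹, inv_mem hz, h2, ?_⟩
        apply eq_inv_of_mul_eq_one_left
        rw [← map_mul]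
        have e : (⟨z⁻¹, h2⟩ : gA A) * ⟨z, hzA⟩ = 1 := Subtype.ext (inv_mul_cancel₀ hz0)
        rw [e, map_one]
  · rintro ⟨z, hz, hzA, rfl⟩
    exact IntermediateField.subset_adjoin _ _ ⟨⟨⟨z, hz⟩, hzA⟩, rfl⟩

/-! ### the Hecke operators -/

section T

variable {l : ℕ} [NeZero l] {ζ : Aˣ}

/-- the root of unity in `Qb` -/
def zQ (ζ : Aˣ) : Qbˣ := Units.map (A.subtype : A →* Qb) ζ

/-- the root of unity in the residue field -/
def zK (ζ : Aˣ) : (ResidueField A)ˣ := Units.map (residue A : A →* ResidueField A) ζ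

/-- the operator over `A` -/
def tA (l : ℕ) [NeZero l] (ζ : Aˣ) (y : LaurentSeries A) : LaurentSeries A :=
  ModularCurve.qExpand A l y * uN l ζ y

theorem lA_tA (y : LaurentSeries A) : lA A (tA l ζ y) = tN l (zQ ζ) (lA A y) := by
  rw [tA, tN, lA, map_mul, coeffMap_uN, ModularCurve.coeffMap_qExpand]
  rfl

theorem lK_tA (y : LaurentSeries A) : lK A (tA l ζ y) = tN l (zK ζ) (lK A y) := by
  rw [tA, tN, lK, map_mul, coeffMap_uN, ModularCurve.coeffMap_qExpand]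
  rfl

/-- the operator on the Gauss ring -/
theorem tN_gA (hζ : IsPrimitiveRoot (zQ ζ) l) (hζK : IsPrimitiveRoot (zK ζ) l)
    {x : LaurentSeries Qb} (hx : x ∈ gA A) :
    ∃ h : tN l (zQ ζ) x ∈ gA A, gAR ⟨_, h⟩ = tN l (zK ζ) (gAR ⟨x, hx⟩) := by
  obtain ⟨a, b, hb, hab⟩ := hx
  have hb' : lK A (tA l ζ b) ≠ 0 := by
    rw [lK_tA]
    exact tN_ne_zero hζK hb
  have h' : lA A (tA l ζ b) * tN l (zQ ζ) x = lA A (tA l ζ a) := by
    rw [lA_tA, lA_tA, ← tN_mul hζ, hab]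
  refine ⟨⟨_, _, hb', h'⟩, ?_⟩
  rw [gAR_eq (x := ⟨_, ⟨_, _, hb', h'⟩⟩) hb' h', gAR_eq (x := ⟨x, ⟨a, b, hb, hab⟩⟩) hb hab,
    lK_tA, lK_tA]
  rw [div_eq_iff (tN_ne_zero hζK hb), ← tN_mul hζK, div_mul_cancel₀ _ hb]

theorem tN_F0 (hl : l.Prime) (hlN : ¬ l ∣ N) (hζ : IsPrimitiveRoot (zQ ζ) l)
    {z : LaurentSeries Qb} (hz : z ∈ F0 Qb N) : tN l (zQ ζ) z ∈ F0 Qb N := by
  have key : ∀ x ∈ A0 Qb N, tN l (zQ ζ) x ∈ F0 Qb N := by
    intro x hx
    have hle : A0 Qb N ≤ holC ιC N := Algebra.adjoin_le gens_subset_holC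
    have h1 : XSer ιC N 1 x := xSer_one_iff.mpr (hle hx)
    have h2 := h1.tN hl hlN hζ
    rw [heckeChar_one] at h2
    exact h2.mem_F0
  obtain ⟨a, b, hb, hab⟩ := IsFractionRing.div_surjective
    (A := Algebra.adjoin Qb (gens Qb N)) (⟨z, hz⟩ : IntermediateField.adjoin Qb (gens Qb N))
  have hb0 : b ≠ 0 := nonZeroDivisors.ne_zero hb
  have hb0' : (b : LaurentSeries Qb) ≠ 0 := fun h => hb0 (Subtype.ext h)
  have h1 : (b : LaurentSeries Qb) * z = a := by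
    have h2 := congrArg (fun z : IntermediateField.adjoin Qb (gens Qb N) =>
      (z : LaurentSeries Qb)) hab
    change (a : LaurentSeries Qb) / (b : LaurentSeries Qb) = z at h2
    rw [← h2, mul_div_cancel₀ _ hb0']
  have h2 : tN l (zQ ζ) z = tN l (zQ ζ) (a : LaurentSeries Qb) / tN l (zQ ζ) (b : LaurentSeries Qb) := by
    rw [eq_div_iff (tN_ne_zero hζ hb0'), ← tN_mul hζ, mul_comm, h1]
  rw [h2]
  exact div_mem (key _ a.2) (key _ b.2)

theorem tN_FbK (hq : q.Prime) (hA : A.LiesOverPrime q) (hl : l.Prime) (hlN : ¬ l ∣ N)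
    (hζ : IsPrimitiveRoot (zQ ζ) l) (hζK : IsPrimitiveRoot (zK ζ) l)
    {f : LaurentSeries (ResidueField A)} (hf : f ∈ FbK A N) : tN l (zK ζ) f ∈ FbK A N := by
  obtain ⟨z, hz, hzA, rfl⟩ := (mem_FbK hq hA).mp hf
  obtain ⟨h1, h2⟩ := tN_gA hζ hζK hzA
  exact (mem_FbK hq hA).mpr ⟨_, tN_F0 hl hlN hζ hz, h1, h2⟩

/-- **(HRED)** -/
theorem hred (hq : q.Prime) (hA : A.LiesOverPrime q) {m : ℕ} (hm : 0 < m) (hl : l.Prime)
    (hlN : ¬ l ∣ N) (hζ : IsPrimitiveRoot (zQ ζ) l) (hζK : IsPrimitiveRoot (zK ζ) l)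
    {χ : Gamma0 N →* ℂˣ} (hχm : χ ^ m = 1) {a : ℤ} (hχ : heckeChar hl hlN χ = χ ^ a)
    {y : LaurentSeries Qb} (hy0 : y ≠ 0) (hy : XSer ιC N χ y) (hyA : y ^ m ∈ gA A)
    (h0 : gAR ⟨_, hyA⟩ ≠ 0) :
    ∃ g ∈ FbK A N, g ≠ 0 ∧
      tN l (zK ζ) (gAR ⟨_, hyA⟩) = gAR ⟨_, hyA⟩ ^ a * g ^ m := by
  have h1 := hy.tN hl hlN hζ
  rw [hχ] at h1
  -- the quotient
  have hF : tN l (zQ ζ) y / y ^ a ∈ F0 Qb N := by
    rcases le_or_gt 0 a with ha | ha
    · obtain ⟨n, rfl⟩ := Int.eq_ofNat_of_zero_le ha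
      rw [zpow_natCast]
      have h2 := hy.pow n
      have h3 : χ ^ (n : ℤ) = χ ^ n := zpow_natCast χ n
      rw [h3] at h1
      have h4 : (χ ^ n) ^ m = 1 := char_pow_pow hχm n
      exact XSer.div_mem hm h4 h2 (pow_ne_zero n hy0) h1
    · obtain ⟨n, hn⟩ : ∃ n : ℕ, a = -(n : ℤ) := ⟨a.natAbs, by omega⟩
      have h2 := h1.mul (hy.pow n)
      have h3 : χ ^ a * χ ^ n = 1 := by
        refine MonoidHom.ext fun g => ?_
        change χ g ^ a * χ g ^ n = 1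
        rw [hn, zpow_neg, zpow_natCast, inv_mul_cancel]
      rw [h3] at h2
      have h4 : tN l (zQ ζ) y / y ^ a = tN l (zQ ζ) y * y ^ n := by
        rw [hn, zpow_neg, zpow_natCast, div_inv_eq_mul]
      rw [h4]
      exact h2.mem_F0
  obtain ⟨h2, h3⟩ := tN_gA hζ hζK hyA
  have h4 : tN l (zK ζ) (gAR ⟨_, hyA⟩) ≠ 0 := tN_ne_zero hζK h0
  have hinv : (y ^ m)⁻¹ ∈ gA A := inv_mem_gA (x := ⟨_, hyA⟩) h0
  have hinvR : gAR ⟨_, hinv⟩ = (gAR ⟨_, hyA⟩)⁻¹ := by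
    apply eq_inv_of_mul_eq_one_left
    rw [← map_mul]
    have e : (⟨(y ^ m)⁻¹, hinv⟩ : gA A) * ⟨y ^ m, hyA⟩ = 1 :=
      Subtype.ext (inv_mul_cancel₀ (pow_ne_zero m hy0))
    rw [e, map_one]
  -- integral powers
  have hz : ∀ b : ℤ, ∃ h : (y ^ m) ^ b ∈ gA A, gAR ⟨_, h⟩ = gAR ⟨_, hyA⟩ ^ b := by
    intro b
    rcases le_or_gt 0 b with hb | hb
    · obtain ⟨n, rfl⟩ := Int.eq_ofNat_of_zero_le hb
      have e : (y ^ m) ^ ((n : ℕ) : ℤ) = (y ^ m) ^ n := zpow_natCast _ n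
      refine ⟨by rw [e]; exact pow_mem hyA n, ?_⟩
      have e' : (⟨(y ^ m) ^ ((n : ℕ) : ℤ), by rw [e]; exact pow_mem hyA n⟩ : gA A) =
        ⟨y ^ m, hyA⟩ ^ n := Subtype.ext e
      rw [e', map_pow]
      exact (zpow_natCast _ n).symm
    · obtain ⟨n, hn⟩ : ∃ n : ℕ, b = -(n : ℤ) := ⟨b.natAbs, by omega⟩
      have e : (y ^ m) ^ b = ((y ^ m)⁻¹) ^ n := by
        rw [hn, zpow_neg, zpow_natCast, inv_pow]
      refine ⟨by rw [e]; exact pow_mem hinv n, ?_⟩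
      have e' : (⟨(y ^ m) ^ b, by rw [e]; exact pow_mem hinv n⟩ : gA A) =
        ⟨(y ^ m)⁻¹, hinv⟩ ^ n := Subtype.ext e
      rw [e', map_pow, hinvR, hn, zpow_neg, zpow_natCast, inv_pow]
  obtain ⟨h5, h6⟩ := hz (-a)
  have e1 : (tN l (zQ ζ) y / y ^ a) ^ m = tN l (zQ ζ) (y ^ m) * (y ^ m) ^ (-a) := by
    rw [div_pow, ← tN_pow hζ, zpow_neg, div_eq_mul_inv]
    congr 2
    rw [← zpow_natCast (y ^ a), ← zpow_mul, ← zpow_natCast y m, ← zpow_mul, mul_comm]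
  have h7 : (tN l (zQ ζ) y / y ^ a) ^ m ∈ gA A := by
    rw [e1]; exact mul_mem h2 h5
  have h8 : gAR ⟨_, h7⟩ = tN l (zK ζ) (gAR ⟨_, hyA⟩) * gAR ⟨_, hyA⟩ ^ (-a) := by
    have e2 : (⟨_, h7⟩ : gA A) = ⟨_, h2⟩ * ⟨_, h5⟩ := Subtype.ext e1
    rw [e2, map_mul, h3, h6]
  have h9 : gAR ⟨_, h7⟩ ≠ 0 := by
    rw [h8]; exact mul_ne_zero h4 (zpow_ne_zero _ h0)
  obtain ⟨h10, h11⟩ := mem_of_pow hq hA hF hm h7 h9
  refine ⟨gAR ⟨_, h10⟩, (mem_FbK hq hA).mpr ⟨_, hF, h10, rfl⟩, ?_, ?_⟩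
  · intro h12
    rw [h12, zero_pow hm.ne'] at h11
    exact h9 h11.symm
  · rw [h11, h8, mul_left_comm, ← zpow_add₀ h0, add_neg_cancel, zpow_zero, mul_one]

end T

end Fermat.Agent.MZ
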