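import Mathlib

/-!
Fixed vectors of semilinear maps (Lang).
-/

set_option autoImplicit false

open Polynomial

namespace Fermat.Agent.MZ

variable {K : Type*} [Field K]

/-- the auxiliary polynomials -/
noncomputable def lp (Q : ℕ) (a : ℕ → K) : ℕ → K[X]
  | 0 => C (a 0) * X ^ Q
  | n + 1 => (lp Q a n) ^ Q + C (a (n + 1)) * X ^ Q

theorem lp_dvd {Q : ℕ} (hQ : 1 < Q) (a : ℕ → K) (n : ℕ) : (X : K[X]) ^ Q ∣ lp Q a n := by
  induction n with
  | zero => exact Dvd.intro_left _ rfl
  | succ n ih =>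
    refine dvd_add ?_ (Dvd.intro_left _ rfl)
    exact ih.trans (dvd_pow_self _ (by omega))

theorem lp_coeff {Q : ℕ} (hQ : 1 < Q) (a : ℕ → K) (n : ℕ) : (lp Q a n).coeff Q = a n := by
  cases n with
  | zero => rw [lp, coeff_C_mul, coeff_X_pow_self, mul_one]
  | succ n =>
    have h1 : (X : K[X]) ^ (Q * Q) ∣ (lp Q a n) ^ Q := by
      rw [pow_mul]
      exact pow_dvd_pow_of_dvd (lp_dvd hQ a n) Q
    have h2 : ((lp Q a n) ^ Q).coeff Q = 0 :=
      (X_pow_dvd_iff.mp h1) Q (by nlinarith)
    rw [lp, coeff_add, h2, coeff_C_mul, coeff_X_pow_self, mul_one, zero_add]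

theorem lp_eval_zero {Q : ℕ} (a : ℕ → K) (n : ℕ) (x : K) :
    (lp Q a (n + 1)).eval x = (lp Q a n).eval x ^ Q + a (n + 1) * x ^ Q := by
  rw [lp, eval_add, eval_pow, eval_mul, eval_C, eval_pow, eval_X]

theorem lp_eq_zero {Q : ℕ} (hQ : 1 < Q) (a : ℕ → K) {n : ℕ} (h : lp Q a n = 0) :
    ∀ i ≤ n, a i = 0 := by
  induction n with
  | zero =>
    intro i hi
    obtain rfl : i = 0 := by omega
    rw [← lp_coeff hQ a 0, h, coeff_zero]
  | succ n ih =>
    intro i hi
    have h1 : a (n + 1) = 0 := by rw [← lp_coeff hQ a (n + 1), h, coeff_zero]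
    rcases Nat.lt_or_ge n i with h2 | h2
    · obtain rfl : i = n + 1 := by omega
      exact h1
    · refine ih ?_ i h2
      rw [lp, h1, C_0, zero_mul, add_zero] at h
      exact eq_zero_of_pow_eq_zero h

/-- there is a non-zero solution -/
theorem exists_lp_root [IsAlgClosed K] {Q : ℕ} (hQ : 1 < Q) (a : ℕ → K) {n : ℕ}
    (h : lp Q a n ≠ 0) : ∃ x : K, x ≠ 0 ∧ (lp Q a n).eval x = x := by
  obtain ⟨S, hS⟩ := lp_dvd hQ a n
  have hS0 : S ≠ 0 := by
    rintro rfl
    exact h (by rw [hS, mul_zero])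
  have hd : ((X : K[X]) ^ (Q - 1) * S - 1).degree ≠ 0 := by
    intro h0
    have h1 : ((X : K[X]) ^ (Q - 1) * S).natDegree = 0 := by
      have h2 := natDegree_eq_of_degree_eq_some h0
      have h3 : (X : K[X]) ^ (Q - 1) * S = (X ^ (Q - 1) * S - 1) + C 1 := by simp
      rw [h3, natDegree_add_C, h2]
      rfl
    rw [natDegree_mul (pow_ne_zero _ X_ne_zero) hS0, natDegree_X_pow] at h1
    omega
  obtain ⟨x, hx⟩ := IsAlgClosed.exists_root _ hd
  rw [IsRoot.def, eval_sub, eval_mul, eval_pow, eval_X, eval_one, sub_eq_zero] at hx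
  refine ⟨x, ?_, ?_⟩
  · rintro rfl
    rw [zero_pow (by omega), zero_mul] at hx
    exact zero_ne_one hx
  · rw [hS, eval_mul, eval_pow, eval_X]
    obtain ⟨Q', rfl⟩ : ∃ Q', Q = Q' + 1 := ⟨Q - 1, by omega⟩
    rw [Nat.add_sub_cancel] at hx
    rw [pow_succ', mul_assoc, hx, mul_one]

/-- **Lang's theorem**: a semilinear injective map has non-zero fixed vectors. -/
theorem exists_fixed [IsAlgClosed K] {V : Type*} [AddCommGroup V] [Module K V]
    [FiniteDimensional K V] [Nontrivial V] {Q : ℕ} (hQ : 1 < Q) (Φ : V →+ V)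
    (hs : ∀ (a : K) (v : V), Φ (a • v) = a ^ Q • Φ v) (hinj : Function.Injective Φ) :
    ∃ v : V, v ≠ 0 ∧ Φ v = v := by
  classical
  obtain ⟨v, hv⟩ := exists_ne (0 : V)
  let u : ℕ → V := fun i => Φ^[i] v
  have hu : ∀ i, u (i + 1) = Φ (u i) := fun i => Function.iterate_succ_apply' Φ i v
  have hne : ∀ i, u i ≠ 0 := by
    intro i
    induction i with
    | zero => exact hv
    | succ i ih =>
      rw [hu]
      exact fun h => ih (hinj (h.trans (map_zero Φ).symm))
  -- the minimal relation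
  have hex : ∃ r, ¬ LinearIndependent K (fun i : Fin (r + 1) => u i) := by
    refine ⟨Module.finrank K V, fun h => ?_⟩
    have := h.fintype_card_le_finrank
    rw [Fintype.card_fin] at this
    omega
  obtain ⟨r, hr, hmin⟩ : ∃ r, ¬ LinearIndependent K (fun i : Fin (r + 1) => u i) ∧
      ∀ s < r, LinearIndependent K (fun i : Fin (s + 1) => u i) :=
    ⟨Nat.find hex, Nat.find_spec hex, fun s hs => not_not.mp (Nat.find_min hex hs)⟩
  have hr0 : r ≠ 0 := by
    rintro rfl
    apply hr
    rw [Fintype.linearIndependent_iff]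
    intro g hg i
    rw [Fin.sum_univ_one] at hg
    have h1 : g 0 = 0 := (smul_eq_zero.mp hg).resolve_right hv
    obtain rfl : i = 0 := Subsingleton.elim (α := Fin 1) i 0
    exact h1
  obtain ⟨n, rfl⟩ : ∃ n, r = n + 1 := ⟨r - 1, by omega⟩
  have hli := hmin n (by omega)
  have hmem : u (n + 1) ∈ Submodule.span K (Set.range (fun i : Fin (n + 1) => u i)) := by
    by_contra hcon
    apply hr
    have h1 := linearIndependent_finSnoc (K := K) (v := fun i : Fin (n + 1) => u i)
      (x := u (n + 1))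
    have h2 := h1.mpr ⟨hli, hcon⟩
    convert h2 using 1
    funext i
    refine Fin.lastCases ?_ (fun j => ?_) i
    · rw [Fin.snoc_last]; rfl
    · rw [Fin.snoc_castSucc]; rfl
  obtain ⟨c, hc⟩ := (Submodule.mem_span_range_iff_exists_fun K).mp hmem
  let a : ℕ → K := fun i => if h : i < n + 1 then c ⟨i, h⟩ else 0
  have ha : ∑ i ∈ Finset.range (n + 1), a i • u i = u (n + 1) := by
    rw [← hc, Finset.sum_range]
    refine Finset.sum_congr rfl fun i _ => ?_
    simp only [a]
    rw [dif_pos i.2]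
  have hlp : lp Q a n ≠ 0 := by
    intro h0
    apply hne (n + 1)
    rw [← ha]
    refine Finset.sum_eq_zero fun i hi => ?_
    rw [lp_eq_zero hQ a h0 i (by rw [Finset.mem_range] at hi; omega), zero_smul]
  obtain ⟨x, hx0, hx⟩ := exists_lp_root hQ a hlp
  let y : ℕ → K := fun i => (lp Q a i).eval x
  have hy0 : y 0 = a 0 * x ^ Q := by simp [y, lp]
  have hys : ∀ i, y (i + 1) = y i ^ Q + a (i + 1) * x ^ Q := fun i => lp_eval_zero a i x
  refine ⟨∑ i ∈ Finset.range (n + 1), y i • u i, ?_, ?_⟩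
  · intro h0
    have h1 : ∑ i : Fin (n + 1), y i • u i = 0 := by
      rw [← h0, Finset.sum_range]
    have h2 := Fintype.linearIndependent_iff.mp hli (fun i => y i) h1 ⟨n, by omega⟩
    exact hx0 (hx.symm.trans h2)
  · have h1 : ∀ k ≤ n, Φ (∑ i ∈ Finset.range (k + 1), y i • u i) + x ^ Q •
        ∑ i ∈ Finset.range (k + 1), a i • u i =
        ∑ i ∈ Finset.range (k + 1), y i • u i + y k ^ Q • u (k + 1) := by
      intro k
      induction k with
      | zero =>
        intro _
        simp only [zero_add, Finset.range_one, Finset.sum_singleton]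
        rw [hs, ← hu, hy0, smul_smul, mul_comm (x ^ Q), add_comm]
      | succ k ih =>
        intro hk
        rw [Finset.sum_range_succ, map_add, hs, ← hu, Finset.sum_range_succ (fun i => a i • u i),
          smul_add]
        have h2 := ih (by omega)
        have h3 : Φ (∑ i ∈ Finset.range (k + 1), y i • u i) + y (k + 1) ^ Q • u (k + 1 + 1) +
            (x ^ Q • ∑ i ∈ Finset.range (k + 1), a i • u i + x ^ Q • a (k + 1) • u (k + 1)) =
            (Φ (∑ i ∈ Finset.range (k + 1), y i • u i) +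
              x ^ Q • ∑ i ∈ Finset.range (k + 1), a i • u i) +
              (y (k + 1) ^ Q • u (k + 1 + 1) + x ^ Q • a (k + 1) • u (k + 1)) := by abel
        rw [h3, h2, Finset.sum_range_succ, hys k, add_smul, smul_smul, mul_comm (x ^ Q)]
        abel
    have h2 := h1 n le_rfl
    rw [ha] at h2
    have h3 : y n = x := hx
    rw [h3] at h2
    exact add_right_cancel h2

end Fermat.Agent.MZ
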