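import Mathlib
import Fermat.Agent.MZ.Lang
import Fermat.Agent.Flat.Riemann2
import Fermat.Prelude.Def_AlgebraicCurve_BaseChangeGalois

/-!
Finiteness of the classes of divisors of a curve over a finite field.
-/

set_option autoImplicit false
set_option linter.unusedSectionVars false

namespace Fermat.Agent.MZ

open AlgebraicCurve Fermat.Agent.FunField Fermat.Agent.Flat IntermediateField Module

variable {K F : Type*} [Field K] [Field F] [Algebra K F] [IsAlgClosed K] {t : F}

theorem ord_pow' (v : Place K F) (x : F) (n : ℕ) : v.ord (x ^ n) = n * v.ord x := ord_pow v x n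

theorem le_dg {E : Divisor K F} (hE : 0 ≤ E) (v : Place K F) : E v ≤ dg E := by
  by_cases hv : v ∈ E.support
  · rw [dg_apply]
    exact Finset.single_le_sum (f := fun w => E w) (fun w _ => hE w) hv
  · rw [Finsupp.notMem_support_iff] at hv
    rw [hv]
    exact dg_nonneg hE

theorem smul_iter (γ : SemilinearAut K F) {Q : ℕ} (hγ : ∀ a : K, SemilinearAut.baseAut γ a = a ^ Q)
    (ht : γ • t = t) (c : K) (k : ℕ) :
    (γ ^ k) • (t - algebraMap K F c) = t - algebraMap K F (c ^ Q ^ k) := by
  induction k with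
  | zero => rw [pow_zero, one_smul, pow_zero, pow_one]
  | succ k ih =>
    rw [pow_succ', mul_smul, ih, smul_sub, ht, SemilinearAut.smul_algebraMap, hγ, ← pow_mul,
      ← pow_succ]

theorem point_unique (v : Place K F) {c c' : K} (h : 0 < v.ord (t - algebraMap K F c))
    (h' : 0 < v.ord (t - algebraMap K F c')) : c = c' := by
  by_contra hne
  have h1 : v.ord (algebraMap K F (c - c')) = 0 := ord_algebraMap v _
  have h2 : v.adicValuation (t - algebraMap K F c) < 1 := by
    rw [adicValuation_lt_one_iff]; exact Or.inr h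
  have h3 : v.adicValuation (t - algebraMap K F c') < 1 := by
    rw [adicValuation_lt_one_iff]; exact Or.inr h'
  have h4 : algebraMap K F (c - c') = (t - algebraMap K F c') - (t - algebraMap K F c) := by
    rw [map_sub]; ring
  have h5 : v.adicValuation (algebraMap K F (c - c')) < 1 := by
    rw [h4]
    exact (Valuation.map_sub _ _ _).trans_lt (max_lt h3 h2)
  rw [adicValuation_lt_one_iff, h1] at h5
  rcases h5 with h5 | h5
  · rw [map_eq_zero] at h5
    exact hne (sub_eq_zero.mp h5)
  · exact lt_irrefl _ h5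

theorem finite_stable (h : Sep K t) {Q : ℕ} (hQ : 1 < Q) (γ : SemilinearAut K F)
    (hγ : ∀ a : K, SemilinearAut.baseAut γ a = a ^ Q) (ht : γ • t = t) (d : ℕ) :
    {E : Divisor K F | 0 ≤ E ∧ dg E = d ∧ ∀ v, E (γ • v) = E v}.Finite := by
  classical
  -- the possible points
  let S₀ : Set (Place K F) := {v | v.ord t < 0} ∪ ⋃ k ∈ Finset.Icc 1 d,
    ⋃ c ∈ {c : K | c ^ Q ^ k = c}, {v : Place K F | 0 < v.ord (t - algebraMap K F c)}
  have hS₀ : S₀.Finite := by
    refine Set.Finite.union ?_ ?_
    · obtain ⟨s, hs, -, -⟩ := h.aboveInf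
      exact s.finite_toSet.subset fun v hv => (hs v).mpr hv
    · refine Set.Finite.biUnion (Finset.finite_toSet _) fun k hk => ?_
      refine Set.Finite.biUnion ?_ fun c _ => ?_
      · have hk1 : 1 ≤ k := (Finset.mem_Icc.mp hk).1
        have hQk : 1 < Q ^ k := Nat.one_lt_pow (by omega) hQ
        have hne : (Polynomial.X ^ Q ^ k - Polynomial.X : Polynomial K) ≠ 0 := by
          intro h0
          have h1 := congrArg (fun p : Polynomial K => p.coeff 1) h0
          simp only [Polynomial.coeff_sub, Polynomial.coeff_X_pow, Polynomial.coeff_X_one,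
            Polynomial.coeff_zero] at h1
          rw [if_neg (by omega)] at h1
          simp at h1
        refine ((Polynomial.X ^ Q ^ k - Polynomial.X : Polynomial K).roots.toFinset.finite_toSet).subset
          fun c hc => ?_
        rw [Finset.mem_coe, Multiset.mem_toFinset, Polynomial.mem_roots hne]
        have hc' : c ^ Q ^ k = c := hc
        simp [hc']
      · obtain ⟨s, hs, -, -⟩ := h.above c
        exact s.finite_toSet.subset fun v hv => (hs v).mpr hv
  have key : ∀ E : Divisor K F, 0 ≤ E → dg E = d → (∀ v, E (γ • v) = E v) → ∀ v, E v ≠ 0 →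
      v ∈ S₀ := by
    intro E hE hd hst v hv
    have hpow : ∀ k : ℕ, E (γ ^ k • v) = E v := by
      intro k
      induction k with
      | zero => rw [pow_zero, one_smul]
      | succ k ih => rw [pow_succ', mul_smul, hst, ih]
    have hpos : 1 ≤ E v := by
      have := hE v
      have h0 : (0 : Divisor K F) v = 0 := rfl
      rw [h0] at this
      omega
    have hrep : ∃ i ∈ Finset.range (d + 1), ∃ j ∈ Finset.range (d + 1), i ≠ j ∧
        γ ^ i • v = γ ^ j • v := by
      by_contra hcon
      push Not at hcon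
      have hinj : Set.InjOn (fun i : ℕ => γ ^ i • v) (Finset.range (d + 1)) := by
        intro i hi j hj hij
        by_contra hne
        exact hcon i hi j hj hne hij
      have h1 : ∑ w ∈ (Finset.range (d + 1)).image (fun i : ℕ => γ ^ i • v), E w ≤ dg E := by
        rw [dg_apply]
        refine Finset.sum_le_sum_of_subset_of_nonneg ?_ fun w _ _ => hE w
        intro w hw
        obtain ⟨i, -, rfl⟩ := Finset.mem_image.mp hw
        rw [Finsupp.mem_support_iff, hpow]
        exact hv
      rw [Finset.sum_image hinj, Finset.sum_congr rfl fun i _ => hpow i, Finset.sum_const,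
        Finset.card_range, hd, nsmul_eq_mul] at h1
      push_cast at h1
      nlinarith
    obtain ⟨i, hi, j, hj, hne, hij⟩ := hrep
    -- the relation `γ ^ k • v = v`
    have hk : ∃ k ∈ Finset.Icc 1 d, γ ^ k • v = v := by
      rw [Finset.mem_range] at hi hj
      rcases lt_or_gt_of_ne hne with hlt | hlt
      · refine ⟨j - i, Finset.mem_Icc.mpr ⟨by omega, by omega⟩, ?_⟩
        have h1 : γ ^ i • (γ ^ (j - i) • v) = γ ^ i • v := by
          rw [← mul_smul, ← pow_add, Nat.add_sub_cancel' hlt.le, ← hij]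
        exact MulAction.injective _ h1
      · refine ⟨i - j, Finset.mem_Icc.mpr ⟨by omega, by omega⟩, ?_⟩
        have h1 : γ ^ j • (γ ^ (i - j) • v) = γ ^ j • v := by
          rw [← mul_smul, ← pow_add, Nat.add_sub_cancel' (le_of_lt hlt), hij]
        exact MulAction.injective _ h1
    obtain ⟨k, hk, hkv⟩ := hk
    rcases h.exists_point v with h1 | ⟨c, hc⟩
    · exact Or.inl h1
    · right
      refine Set.mem_biUnion hk (Set.mem_biUnion ?_ hc)
      have h2 := SemilinearAut.ord_smul (γ ^ k) v (t - algebraMap K F c)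
      rw [hkv, smul_iter γ hγ ht] at h2
      rw [← h2] at hc
      exact point_unique v hc (h2 ▸ hc)
  -- finiteness
  have hfin : Finite S₀ := hS₀
  let r : Divisor K F → (S₀ → ℤ) := fun E v => E v
  have himg : (r '' {E : Divisor K F | 0 ≤ E ∧ dg E = d ∧ ∀ v, E (γ • v) = E v}).Finite := by
    refine (Set.Finite.pi' (t := fun _ : S₀ => Set.Icc (0 : ℤ) d) fun _ =>
      Set.finite_Icc _ _).subset ?_
    rintro _ ⟨E, ⟨hE, hd, -⟩, rfl⟩ v
    exact ⟨hE v, hd ▸ le_dg hE v⟩
  refine Set.Finite.of_finite_image himg ?_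
  rintro E ⟨hE, hd, hst⟩ E' ⟨hE', hd', hst'⟩ heq
  ext v
  by_cases hv : v ∈ S₀
  · exact congrFun heq ⟨v, hv⟩
  · have h1 : E v = 0 := by
      by_contra h0
      exact hv (key E hE hd hst v h0)
    have h2 : E' v = 0 := by
      by_contra h0
      exact hv (key E' hE' hd' hst' v h0)
    rw [h1, h2]

theorem eq_of_mul_eq {m : ℕ} (hm : 0 < m) {a b : ℤ} (h : (m : ℤ) * a = m * b) : a = b :=
  mul_left_cancel₀ (by exact_mod_cast hm.ne') h

/-- a stable effective divisor in the class -/
theorem exists_stable (h : Sep K t) {Q : ℕ} (hQ : 1 < Q) (γ : SemilinearAut K F)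
    (hγ : ∀ a : K, SemilinearAut.baseAut γ a = a ^ Q) (ht : γ • t = t) {g C : ℤ}
    (hC : Crv K F g C) {n : ℕ} (hn : g ≤ n) {m : ℕ} (hm : 0 < m) {u f : F} (hu : u ≠ 0)
    (hf : f ≠ 0) (hord : ∀ v : Place K F, (m : ℤ) ∣ v.ord u) (huf : γ • u = u * f ^ m) :
    ∃ E : Divisor K F, (0 ≤ E ∧ dg E = ((n * finrank K⟮t⟯ F : ℕ) : ℤ) ∧ ∀ v, E (γ • v) = E v) ∧
      ∃ z : F, z ≠ 0 ∧ ∀ v : Place K F, m * E v = v.ord (u * z ^ m) + m * (n * pol (K := K) t v) := by
  classical
  have hfd := h.fd
  have hmZ : (m : ℤ) ≠ 0 := by exact_mod_cast hm.ne'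
  let D : Divisor K F := Finsupp.mapRange (fun a : ℤ => a / m) (Int.zero_ediv _) (dv u)
  have hD : ∀ v, m * D v = v.ord u := by
    intro v
    change (m : ℤ) * (dv u v / m) = _
    rw [dv_apply (hC.fin u), Int.mul_ediv_cancel' (hord v)]
  have hDm : m • D = dv (K := K) u := by
    ext v
    rw [Finsupp.smul_apply, nsmul_eq_mul, hD, dv_apply (hC.fin u)]
  have hdgD : dg D = 0 := by
    have h1 := hC.deg0 u hu
    rw [← hDm, map_nsmul, nsmul_eq_mul] at h1
    exact (mul_eq_zero.mp h1).resolve_left hmZ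
  let P : Divisor K F := n • pol (K := K) t
  have hP : ∀ v, P v = n * pol (K := K) t v := fun v => by
    change (n • pol (K := K) t) v = _
    rw [Finsupp.smul_apply, nsmul_eq_mul]
  have hdgP : dg P = ((n * finrank K⟮t⟯ F : ℕ) : ℤ) := by
    change dg (n • pol (K := K) t) = _
    rw [map_nsmul, h.dg_pol, nsmul_eq_mul]
    push_cast
    rfl
  have hPst : ∀ v : Place K F, P (γ • v) = P v := by
    intro v
    rw [hP, hP, pol_apply (hC.fin t), pol_apply (hC.fin t)]
    have := SemilinearAut.ord_smul γ v t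
    rw [ht] at this
    rw [this]
  have hDst : ∀ v : Place K F, D v = D (γ • v) + (γ • v).ord f := by
    intro v
    apply eq_of_mul_eq hm
    rw [mul_add, hD, hD, ← SemilinearAut.ord_smul γ v u, huf,
      (γ • v).ord_mul hu (pow_ne_zero _ hf), ord_pow]
  have hfin : 0 < finrank K⟮t⟯ F := finrank_pos
  -- the space
  have hV1 : FiniteDimensional K (riemannRochSpace (D + P)) := hC.fd _
  have hV2 : 0 < finrank K (riemannRochSpace (D + P)) := by
    have h1 := hC.lb (D + P)
    rw [map_add, hdgD, hdgP, zero_add] at h1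
    have h2 : g ≤ ((n * finrank K⟮t⟯ F : ℕ) : ℤ) := by
      refine hn.trans ?_
      exact_mod_cast Nat.le_mul_of_pos_right n hfin
    have h3 : (0 : ℤ) < finrank K (riemannRochSpace (D + P)) := by linarith
    exact_mod_cast h3
  have hV3 : Nontrivial (riemannRochSpace (D + P)) := finrank_pos_iff.mp hV2
  have hγ0 : ∀ z : F, z ≠ 0 → γ • z ≠ 0 := fun z hz h0 =>
    hz (SemilinearAut.toRingAut γ |>.injective (h0.trans (map_zero _).symm))
  have hmem : ∀ z ∈ riemannRochSpace (D + P), f * (γ • z) ∈ riemannRochSpace (D + P) := by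
    intro z hz
    by_cases hz0 : z = 0
    · rw [hz0, smul_zero, mul_zero]
      exact zero_mem _
    rw [mem_L' (mul_ne_zero hf (hγ0 z hz0))]
    rw [mem_L' hz0] at hz
    intro w
    obtain ⟨v, rfl⟩ : ∃ v, γ • v = w := ⟨γ⁻¹ • w, smul_inv_smul _ _⟩
    have h1 := hz v
    rw [(γ • v).ord_mul hf (hγ0 z hz0), SemilinearAut.ord_smul]
    rw [Finsupp.add_apply] at h1 ⊢
    rw [hPst]
    have h2 := hDst v
    linarith
  let Φ : riemannRochSpace (D + P) →+ riemannRochSpace (D + P) :=
    { toFun := fun z => ⟨f * (γ • (z : F)), hmem z z.2⟩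
      map_zero' := Subtype.ext (by
        change f * (γ • (0 : F)) = 0
        rw [smul_zero, mul_zero])
      map_add' := fun x y => Subtype.ext (by
        change f * (γ • ((x : F) + y)) = f * (γ • (x : F)) + f * (γ • (y : F))
        rw [smul_add, mul_add]) }
  obtain ⟨z, hz0, hz⟩ := exists_fixed (K := K) hQ Φ (fun a v => Subtype.ext (by
      change f * (γ • (a • (v : F))) = a ^ Q • (f * (γ • (v : F)))
      rw [Algebra.smul_def, smul_mul', SemilinearAut.smul_algebraMap, hγ, Algebra.smul_def]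
      ring)) (fun x y hxy => by
      have h1 : f * (γ • (x : F)) = f * (γ • (y : F)) := congrArg Subtype.val hxy
      exact Subtype.ext ((SemilinearAut.toRingAut γ).injective (mul_left_cancel₀ hf h1)))
  have hz0' : (z : F) ≠ 0 := fun h0 => hz0 (Subtype.ext h0)
  have hz' : f * (γ • (z : F)) = z := congrArg Subtype.val hz
  have hzL := (mem_L' hz0').mp z.2
  have hE : ∀ v : Place K F, m * (D + P + dv (K := K) (z : F)) v =
      v.ord (u * (z : F) ^ m) + m * (n * pol (K := K) t v) := by
    intro v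
    rw [Finsupp.add_apply, Finsupp.add_apply, mul_add, mul_add, hD, hP,
      v.ord_mul hu (pow_ne_zero _ hz0'), ord_pow, dv_apply (hC.fin (z : F))]
    ring
  refine ⟨D + P + dv (K := K) (z : F), ⟨?_, ?_, ?_⟩, z, hz0', hE⟩
  · intro v
    have h1 := hzL v
    rw [Finsupp.add_apply, dv_apply (hC.fin (z : F))]
    change (0 : ℤ) ≤ _
    linarith
  · rw [map_add, map_add, hdgD, hdgP, hC.deg0 _ hz0']
    ring
  · intro v
    apply eq_of_mul_eq hm
    rw [hE, hE, ← hP, ← hP, hPst]
    congr 1
    rw [← SemilinearAut.ord_smul γ v]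
    congr 1
    rw [smul_mul', smul_pow', huf]
    conv_lhs => rw [← hz']
    rw [mul_pow]
    ring

/-- **Finiteness of the class group of a curve over a finite field.** -/
theorem exists_exponent (h : Sep K t) {Q : ℕ} (hQ : 1 < Q) (γ : SemilinearAut K F)
    (hγ : ∀ a : K, SemilinearAut.baseAut γ a = a ^ Q) (ht : γ • t = t) :
    ∃ e : ℕ, 0 < e ∧ ∀ m : ℕ, 0 < m → ∀ u f : F, u ≠ 0 → f ≠ 0 →
      (∀ v : Place K F, (m : ℤ) ∣ v.ord u) → γ • u = u * f ^ m → ∃ g : F, u ^ e = g ^ m := by
  classical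
  obtain ⟨g₀, C, hC⟩ := h.exists_crv
  set n := g₀.toNat with hn
  have hn' : g₀ ≤ n := Int.self_le_toNat g₀
  have hfin := finite_stable h hQ γ hγ ht (n * finrank K⟮t⟯ F)
  set S := {E : Divisor K F | 0 ≤ E ∧ dg E = ((n * finrank K⟮t⟯ F : ℕ) : ℤ) ∧
    ∀ v, E (γ • v) = E v} with hS
  refine ⟨(hfin.toFinset.card).factorial, Nat.factorial_pos _, ?_⟩
  intro m hm u f hu hf hord huf
  have key : ∀ i : ℕ, ∃ E ∈ S, ∃ z : F, z ≠ 0 ∧ ∀ v : Place K F,
      m * E v = v.ord (u ^ i * z ^ m) + m * (n * pol (K := K) t v) := by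
    intro i
    obtain ⟨E, hE, z, hz⟩ := exists_stable h hQ γ hγ ht hC hn' hm (pow_ne_zero i hu)
      (pow_ne_zero i hf) (fun v => by
        rw [ord_pow]
        exact (hord v).mul_left _) (by
        rw [smul_pow', huf, mul_pow, ← pow_mul, ← pow_mul, mul_comm m i])
    exact ⟨E, hE, z, hz⟩
  choose E hE z hz0 hz using key
  have hcard : hfin.toFinset.card < (Finset.range (hfin.toFinset.card + 1)).card := by
    rw [Finset.card_range]; omega
  obtain ⟨i, hi, j, hj, hij, heq⟩ := Finset.exists_ne_map_eq_of_card_lt_of_maps_to hcard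
    (f := E) (fun i _ => by
      rw [Finset.mem_coe, Set.Finite.mem_toFinset]
      exact hE i)
  -- main step
  have main : ∀ i j : ℕ, i < j → E i = E j → ∃ g : F, u ^ (j - i) = g ^ m := by
    intro i j hlt heq
    have h1 : ∀ v : Place K F, v.ord (u ^ (j - i) * (z j / z i) ^ m) = 0 := by
      intro v
      have h2 := hz i v
      have h3 := hz j v
      rw [heq] at h2
      have h4 : v.ord (u ^ i * z i ^ m) = v.ord (u ^ j * z j ^ m) := by linarith
      have h5 : u ^ j * z j ^ m = (u ^ i * z i ^ m) * (u ^ (j - i) * (z j / z i) ^ m) := by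
        have h6 : u ^ j = u ^ i * u ^ (j - i) := by rw [← pow_add, Nat.add_sub_cancel' hlt.le]
        have := hz0 i
        rw [h6, div_pow]
        field_simp
      rw [h5, v.ord_mul (mul_ne_zero (pow_ne_zero _ hu) (pow_ne_zero _ (hz0 i)))
        (mul_ne_zero (pow_ne_zero _ hu) (pow_ne_zero _ (div_ne_zero (hz0 j) (hz0 i))))] at h4
      linarith
    obtain ⟨c, hc⟩ := hC.const _ fun v => (h1 v).ge
    obtain ⟨b, hb⟩ := IsAlgClosed.exists_pow_nat_eq c hm
    refine ⟨algebraMap K F b * (z i / z j), ?_⟩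
    rw [mul_pow, ← map_pow, hb, hc, mul_assoc, ← mul_pow]
    have := hz0 i
    have := hz0 j
    rw [show z j / z i * (z i / z j) = 1 by field_simp, one_pow, mul_one]
  obtain ⟨k, hk0, hk, g, hg⟩ : ∃ k, 0 < k ∧ k ≤ hfin.toFinset.card ∧ ∃ g : F, u ^ k = g ^ m := by
    rw [Finset.mem_range] at hi hj
    rcases lt_or_gt_of_ne hij with hlt | hlt
    · exact ⟨j - i, by omega, by omega, main i j hlt heq⟩
    · exact ⟨i - j, by omega, by omega, main j i hlt heq.symm⟩
  obtain ⟨l, hl⟩ := Nat.dvd_factorial hk0 hk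
  refine ⟨g ^ l, ?_⟩
  rw [hl, pow_mul, hg, ← pow_mul, ← pow_mul, mul_comm m l]

end Fermat.Agent.MZ
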