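import Mathlib
import Fermat.Agent.Lf.Fb
import Fermat.Agent.MZ.Fin
import Fermat.Agent.RT.TWPlaces
import Fermat.Agent.GaloisBasics.FrobeniusExists
import Fermat.Agent.Lf.Main

/-!
# Frobenius on the field of reductions
-/

set_option autoImplicit false
set_option linter.unusedSectionVars false

noncomputable section

namespace Fermat.Agent.MZ

open AlgebraicCurve IsDedekindDomain IntermediateField Module Fermat.Agent.FunField
open Polynomial (aeval)
open Fermat.Agent.LG Fermat.Agent.ModFun Fermat.Agent.Geo Fermat.Agent.Flat Fermat.Agent.Lf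
open Fermat.Agent.ESCore (HauptFn haupt2 haupt3 ιC XG)
open IsLocalRing ModularCurve
open scoped Pointwise

/-- The field of algebraic numbers. -/
local notation "Qb" => AlgebraicClosure ℚ

section Semi

variable {A A' : ValuationSubring Qb} (σ : Qb ≃+* Qb) (h : ∀ a, σ a ∈ A' ↔ a ∈ A)

/-- An automorphism mapping `A` to `A'`, as an isomorphism. -/
def eA : A ≃+* A' where
  toFun a := ⟨σ a, (h a).mpr a.2⟩
  invFun b := ⟨σ.symm b, (h _).mp (by rw [RingEquiv.apply_symm_apply]; exact b.2)⟩
  left_inv a := Subtype.ext (σ.symm_apply_apply _)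
  right_inv b := Subtype.ext (σ.apply_symm_apply _)
  map_mul' a b := Subtype.ext (map_mul σ _ _)
  map_add' a b := Subtype.ext (map_add σ _ _)

/-- The isomorphism of residue fields. -/
def sA : ResidueField A ≃+* ResidueField A' := ResidueField.mapEquiv (eA σ h)

theorem sA_residue (a : A) : sA σ h (residue A a) = residue A' (eA σ h a) := rfl

theorem coeffMap_lA (a : LaurentSeries A) :
    coeffMap (σ : Qb →+* Qb) (lA A a) = lA A' (coeffMap (eA σ h : A →+* A') a) := by
  ext n
  rfl

theorem lK_coeffMap (a : LaurentSeries A) :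
    lK A' (coeffMap (eA σ h : A →+* A') a) =
      coeffMap (sA σ h : ResidueField A →+* ResidueField A') (lK A a) := by
  ext n
  rfl

theorem coeffMap_inj {R S : Type*} [CommRing R] [CommRing S] {f : R →+* S}
    (hf : Function.Injective f) {x : LaurentSeries R} (hx : coeffMap f x = 0) : x = 0 := by
  ext n
  have := congrArg (fun z : LaurentSeries S => z.coeff n) hx
  rw [coeffMap_coeff, HahnSeries.coeff_zero] at this
  rw [HahnSeries.coeff_zero]
  exact (map_eq_zero_iff f hf).mp this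

/-- **Reduction is semilinear.** -/
theorem gAR_semi {y : LaurentSeries Qb} (hy : y ∈ gA A) :
    ∃ hy' : coeffMap (σ : Qb →+* Qb) y ∈ gA A',
      gAR ⟨_, hy'⟩ = coeffMap (sA σ h : ResidueField A →+* ResidueField A') (gAR ⟨y, hy⟩) := by
  obtain ⟨a, b, hb, hab⟩ := hy
  have hb' : lK A' (coeffMap (eA σ h : A →+* A') b) ≠ 0 := by
    rw [lK_coeffMap]
    exact fun h0 => hb (coeffMap_inj (sA σ h).injective h0)
  have h1 : lA A' (coeffMap (eA σ h : A →+* A') b) * coeffMap (σ : Qb →+* Qb) y =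
      lA A' (coeffMap (eA σ h : A →+* A') a) := by
    rw [← coeffMap_lA, ← coeffMap_lA, ← hab, map_mul]
  refine ⟨⟨_, _, hb', h1⟩, ?_⟩
  rw [gAR_eq (x := ⟨_, ⟨_, _, hb', h1⟩⟩) hb' h1, gAR_eq (x := ⟨y, ⟨a, b, hb, hab⟩⟩) hb hab,
    map_div₀, lK_coeffMap, lK_coeffMap]

variable {N : ℕ} [NeZero N]

theorem ρ0_semi (z : W0 A N) : ∃ hz : liftF (σ : Qb →+* Qb) N (z : F0 Qb N) ∈ W0 A' N,
    ρ0 A' N ⟨_, hz⟩ =
      coeffMap (sA σ h : ResidueField A →+* ResidueField A') (ρ0 A N z) := by
  obtain ⟨hy', h1⟩ := gAR_semi σ h z.2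
  exact ⟨hy', h1⟩

theorem coeffMap_mem_FbK {x : LaurentSeries (ResidueField A)} (hx : x ∈ FbK A N) :
    coeffMap (sA σ h : ResidueField A →+* ResidueField A') x ∈ FbK A' N := by
  induction hx using IntermediateField.adjoin_induction with
  | mem x hx =>
    obtain ⟨z, rfl⟩ := hx
    obtain ⟨hz, h1⟩ := ρ0_semi σ h z
    rw [← h1]
    exact IntermediateField.subset_adjoin _ _ ⟨_, rfl⟩
  | algebraMap a =>
    rw [algebraMap_laurent, HahnSeries.C_apply, coeffMap_single, ← HahnSeries.C_apply,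
      ← algebraMap_laurent]
    exact IntermediateField.algebraMap_mem _ _
  | add x y _ _ hx hy => rw [map_add]; exact add_mem hx hy
  | mul x y _ _ hx hy => rw [map_mul]; exact mul_mem hx hy
  | inv x _ hx => rw [map_inv₀]; exact inv_mem hx

end Semi

section Equiv

variable {A A' : ValuationSubring Qb} {N : ℕ} [NeZero N]

/-- The isomorphism of fields of reductions. -/
def fbE (s : ResidueField A ≃+* ResidueField A')
    (h : ∀ x ∈ FbK A N, coeffMap (s : ResidueField A →+* ResidueField A') x ∈ FbK A' N)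
    (h' : ∀ x ∈ FbK A' N, coeffMap (s.symm : ResidueField A' →+* ResidueField A) x ∈ FbK A N) :
    FbK A N ≃+* FbK A' N where
  toFun x := ⟨coeffMap (s : ResidueField A →+* ResidueField A') x, h x x.2⟩
  invFun x := ⟨coeffMap (s.symm : ResidueField A' →+* ResidueField A) x, h' x x.2⟩
  left_inv x := by
    apply Subtype.ext
    ext n
    change s.symm (s _) = _
    rw [RingEquiv.symm_apply_apply]
  right_inv x := by
    apply Subtype.ext
    ext n
    change s (s.symm _) = _
    rw [RingEquiv.apply_symm_apply]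
  map_mul' x y := Subtype.ext (map_mul (coeffMap (s : ResidueField A →+* ResidueField A'))
    (x : LaurentSeries (ResidueField A)) y)
  map_add' x y := Subtype.ext (map_add (coeffMap (s : ResidueField A →+* ResidueField A'))
    (x : LaurentSeries (ResidueField A)) y)

end Equiv

section Place

variable {K K' F F' : Type*} [Field K] [Field K'] [Field F] [Field F'] [Algebra K F]
  [Algebra K' F']

/-- Places along semilinear isomorphisms. -/
theorem exists_place_comap (s : K ≃+* K') (E : F ≃+* F')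
    (hE : ∀ a, E (algebraMap K F a) = algebraMap K' F' (s a)) (v' : Place K' F') :
    ∃ v : Place K F, ∀ z, z ≠ 0 → v.ord z = v'.ord (E z) := by
  obtain ⟨π, hπ⟩ := IsDiscreteValuationRing.exists_irreducible v'.toValuationSubring
  have hπ1 := v'.ord_coe_irreducible hπ
  have hπ0 : (π : F') ≠ 0 := by
    intro h0
    rw [h0, v'.ord_zero] at hπ1
    exact zero_ne_one hπ1
  have hE0 : ∀ z, z ≠ 0 → E z ≠ 0 := fun z hz => (map_ne_zero_iff E E.injective).mpr hz
  refine exists_place_of_val (fun z => v'.ord (E z)) ?_ ?_ ?_ (u := E.symm π) ?_ ?_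
  · intro x y hx hy
    change v'.ord (E (x * y)) = _
    rw [map_mul, v'.ord_mul (hE0 x hx) (hE0 y hy)]
  · intro x y hx hy hxy
    change _ ≤ v'.ord (E (x + y))
    rw [map_add]
    have h1 : E x + E y ≠ 0 := by rw [← map_add]; exact hE0 _ hxy
    rcases ord_add_le v' h1 with h2 | h2 | h2
    · exact h2
    · exact absurd h2 (hE0 x hx)
    · exact absurd h2 (hE0 y hy)
  · intro a _
    change v'.ord (E (algebraMap K F a)) = 0
    rw [hE, ord_algebraMap]
  · exact (map_ne_zero_iff E.symm E.symm.injective).mpr hπ0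
  · change v'.ord (E (E.symm π)) = 1
    rw [RingEquiv.apply_symm_apply, hπ1]

end Place

section Frobenius

variable {A : ValuationSubring Qb} {q : ℕ} {N : ℕ} [NeZero N]

theorem mem_iff_of_frob {φ : Qb ≃ₐ[ℚ] Qb} (hφ : A.IsFrobeniusAt φ q) (a : Qb) :
    (φ : Qb ≃+* Qb) a ∈ A ↔ a ∈ A := by
  have h1 : φ • A = A := hφ.mem_decompositionSubgroup
  have h2 := ValuationSubring.smul_mem_pointwise_smul_iff (g := φ) (S := A) (x := a)
  rw [h1] at h2
  exact h2

theorem sA_frob {φ : Qb ≃ₐ[ℚ] Qb} (hφ : A.IsFrobeniusAt φ q) (x : ResidueField A) :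
    sA (φ : Qb ≃+* Qb) (mem_iff_of_frob hφ) x = x ^ q := by
  obtain ⟨a, rfl⟩ := residue_surjective x
  rw [← hφ.smul_residue_eq, ← ResidueField.residue_smul, sA_residue]
  rfl

/-- (F1) reduction commutes with Frobenius. -/
theorem ρ0_frob {φ : Qb ≃ₐ[ℚ] Qb} (hφ : A.IsFrobeniusAt φ q)
    {f : ResidueField A →+* ResidueField A} (hf : ∀ a, f a = a ^ q) (z : W0 A N) :
    ∃ hz : liftF ((φ : Qb ≃+* Qb) : Qb →+* Qb) N (z : F0 Qb N) ∈ W0 A N,
      ρ0 A N ⟨_, hz⟩ = coeffMap f (ρ0 A N z) := by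
  obtain ⟨hz, h1⟩ := ρ0_semi (φ : Qb ≃+* Qb) (mem_iff_of_frob hφ) z
  refine ⟨hz, h1.trans ?_⟩
  congr 1
  congr 1
  ext a
  rw [hf]
  exact sA_frob hφ a

/-- (F1) the field of reductions is stable under Frobenius and its inverse. -/
theorem coeffMap_frob_mem_iff (hq : q.Prime) (hA : A.LiesOverPrime q)
    {f : ResidueField A →+* ResidueField A} (hf : ∀ a, f a = a ^ q)
    {x : LaurentSeries (ResidueField A)} : coeffMap f x ∈ FbK A N ↔ x ∈ FbK A N := by
  obtain ⟨φ, hφ⟩ := GaloisBasics.exists_isFrobeniusAt hq A hA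
  have hφ' : ∀ a, (φ : Qb ≃+* Qb).symm a ∈ A ↔ a ∈ A := fun a => by
    rw [← mem_iff_of_frob hφ, RingEquiv.apply_symm_apply]
  have hs : (sA (φ : Qb ≃+* Qb) (mem_iff_of_frob hφ) : ResidueField A →+* ResidueField A) = f := by
    ext a
    rw [hf]
    exact sA_frob hφ a
  constructor
  · intro hx
    have h1 := coeffMap_mem_FbK (φ : Qb ≃+* Qb).symm hφ' hx
    have h2 : coeffMap (sA (φ : Qb ≃+* Qb).symm hφ' : ResidueField A →+* ResidueField A)
        (coeffMap f x) = x := by
      rw [← hs]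
      ext n
      exact (sA (φ : Qb ≃+* Qb) (mem_iff_of_frob hφ)).symm_apply_apply _
    rwa [h2] at h1
  · intro hx
    rw [← hs]
    exact coeffMap_mem_FbK _ _ hx

/-- (F1) the semilinear automorphism. -/
theorem exists_semi (hq : q.Prime) (hA : A.LiesOverPrime q) :
    ∃ γ : SemilinearAut (ResidueField A) (FbK A N),
      (∀ a, SemilinearAut.baseAut γ a = a ^ (q ^ 2)) ∧
      ∀ (f : ResidueField A →+* ResidueField A) (_ : ∀ a, f a = a ^ (q ^ 2)) (x : FbK A N),
        ((γ • x : FbK A N) : LaurentSeries (ResidueField A)) =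
          coeffMap f (x : LaurentSeries (ResidueField A)) := by
  obtain ⟨φ, hφ⟩ := GaloisBasics.exists_isFrobeniusAt hq A hA
  set s := sA (φ : Qb ≃+* Qb) (mem_iff_of_frob hφ) with hs
  have h1 : ∀ x ∈ FbK A N, coeffMap (s : ResidueField A →+* ResidueField A) x ∈ FbK A N :=
    fun x hx => (coeffMap_frob_mem_iff hq hA (sA_frob hφ)).mpr hx
  have h2 : ∀ x ∈ FbK A N,
      coeffMap (s.symm : ResidueField A →+* ResidueField A) x ∈ FbK A N := by
    intro x hx
    rw [← coeffMap_frob_mem_iff hq hA (f := (s : ResidueField A →+* ResidueField A))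
      (sA_frob hφ)]
    have h3 : coeffMap (s : ResidueField A →+* ResidueField A)
        (coeffMap (s.symm : ResidueField A →+* ResidueField A) x) = x := by
      ext n
      exact s.apply_symm_apply _
    rwa [h3]
  let γ₁ : SemilinearAut (ResidueField A) (FbK A N) := ⟨(fbE s h1 h2, s), fun a => by
    apply Subtype.ext
    change coeffMap (s : ResidueField A →+* ResidueField A)
      (algebraMap (ResidueField A) (LaurentSeries (ResidueField A)) a) =
      algebraMap (ResidueField A) (LaurentSeries (ResidueField A)) (s a)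
    rw [algebraMap_laurent, algebraMap_laurent, HahnSeries.C_apply, coeffMap_single,
      HahnSeries.C_apply]
    rfl⟩
  refine ⟨γ₁ * γ₁, fun a => ?_, fun f hf x => ?_⟩
  · change s (s a) = _
    rw [hs, sA_frob hφ, sA_frob hφ, ← pow_mul, pow_two]
  · ext n
    change s (s ((x : LaurentSeries (ResidueField A)).coeff n)) =
      f ((x : LaurentSeries (ResidueField A)).coeff n)
    rw [hs, sA_frob hφ, sA_frob hφ, ← pow_mul, hf, pow_two]

end Frobenius

section Exp

variable {A : ValuationSubring Qb} {q : ℕ} {N : ℕ} [NeZero N]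

/-- The parameter on the field of reductions. -/
theorem exists_sepK {p : ℕ} [Fact p.Prime] {κ : ℤ} {H : HauptFn p κ} {hp : p ∣ N} {d : ℕ}
    {e : Fin d → F0 Qb N} [IsAlgClosed (ResidueField A)]
    (h : Pre (residue A) (W0 A N) (ρ0 A N) (tF H hp) (tS (ResidueField A) p κ) e) :
    ∃ t : FbK A N, (t : LaurentSeries (ResidueField A)) = tS (ResidueField A) p κ ∧
      Sep (ResidueField A) t := by
  have key : ∀ F : IntermediateField (ResidueField A) (LaurentSeries (ResidueField A)),
      h.Fb = F → ∃ t : F, (t : LaurentSeries (ResidueField A)) = tS (ResidueField A) p κ ∧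
        Sep (ResidueField A) t := by
    rintro _ rfl
    exact ⟨h.tbb, rfl, sep_tbb h⟩
  exact key _ (Fb_eq h)

/-- The statement for one place. -/
def ExpP (A : ValuationSubring Qb) (q N : ℕ) [NeZero N] (e : ℕ) : Prop :=
  ∀ (f : ResidueField A →+* ResidueField A), (∀ a, f a = a ^ (q ^ 2)) → ∀ m : ℕ, 0 < m →
    ∀ u g : FbK A N, u ≠ 0 → g ≠ 0 →
      (∀ v : Place (ResidueField A) (FbK A N), (m : ℤ) ∣ v.ord u) →
      coeffMap f (u : LaurentSeries (ResidueField A)) =
        u * (g : LaurentSeries (ResidueField A)) ^ m →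
      ∃ w : FbK A N, u ^ e = w ^ m

theorem exists_expP_of_pre (hq : q.Prime) (hA : A.LiesOverPrime q) {p : ℕ} [Fact p.Prime] {κ : ℤ}
    {H : HauptFn p κ} {hp : p ∣ N} {d : ℕ} {e : Fin d → F0 Qb N}
    (h : Pre (residue A) (W0 A N) (ρ0 A N) (tF H hp) (tS (ResidueField A) p κ) e) :
    ∃ e : ℕ, 0 < e ∧ ExpP A q N e := by
  have hac : IsAlgClosed (ResidueField A) := isAlgClosed_residueA hq hA
  obtain ⟨t, ht, hS⟩ := exists_sepK h
  obtain ⟨γ, hγ, hγ'⟩ := exists_semi (N := N) hq hA
  have hchar : CharP (ResidueField A) q := FrobDensity.charP_residue hq hA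
  have hexp : ExpChar (ResidueField A) q := ExpChar.prime hq
  have hf0 : ∀ a : ResidueField A, iterateFrobenius (ResidueField A) q 2 a = a ^ (q ^ 2) :=
    fun a => iterateFrobenius_def _ _ _
  obtain ⟨e, he, hE⟩ := exists_exponent hS (one_lt_pow₀ hq.one_lt two_ne_zero) γ hγ (by
    apply Subtype.ext
    rw [hγ' _ hf0, ht]
    exact coeffMap_tS _ p κ)
  refine ⟨e, he, fun f hf m hm u g hu hg hv huf => ?_⟩
  exact hE m hm u g hu hg hv (Subtype.ext ((hγ' f hf u).trans huf))

theorem exists_expP_A (hq : q.Prime) (hA : A.LiesOverPrime q) (hqN : ¬ q ∣ N)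
    (hN : 2 ∣ N ∨ 3 ∣ N) : ∃ e : ℕ, 0 < e ∧ ExpP A q N e := by
  rcases hN with hN | hN
  · have : Fact (Nat.Prime 2) := ⟨Nat.prime_two⟩
    obtain ⟨d, e, h⟩ := exists_pre hq hA hqN hN haut2 (haut2_isUnit hq hA fun h => hqN (h ▸ hN))
    exact exists_expP_of_pre hq hA h
  · have : Fact (Nat.Prime 3) := ⟨Nat.prime_three⟩
    obtain ⟨d, e, h⟩ := exists_pre hq hA hqN hN haut3 (haut3_isUnit hq hA fun h => hqN (h ▸ hN))
    exact exists_expP_of_pre hq hA h

theorem ExpP.conj {A' : ValuationSubring Qb} {e : ℕ} (hE : ExpP A' q N e) (hq : q.Prime)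
    (hA : A.LiesOverPrime q) (hA' : A'.LiesOverPrime q) : ExpP A q N e := by
  obtain ⟨g, hg⟩ := RT.exists_smul_eq hq hA hA'
  have hchar : CharP (ResidueField A') q := FrobDensity.charP_residue hq hA'
  have hexp : ExpChar (ResidueField A') q := ExpChar.prime hq
  have hσ : ∀ a, (g : Qb ≃+* Qb) a ∈ A' ↔ a ∈ A := fun a => by
    rw [hg]
    exact ValuationSubring.smul_mem_pointwise_smul_iff (g := g) (S := A) (x := a)
  have hσ' : ∀ a, (g : Qb ≃+* Qb).symm a ∈ A ↔ a ∈ A' := fun a => by
    rw [← hσ, RingEquiv.apply_symm_apply]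
  set s := sA (g : Qb ≃+* Qb) hσ with hs
  have h1 : ∀ x ∈ FbK A N, coeffMap (s : ResidueField A →+* ResidueField A') x ∈
      FbK A' N := fun x hx => coeffMap_mem_FbK _ _ hx
  have h2 : ∀ x ∈ FbK A' N, coeffMap (s.symm : ResidueField A' →+* ResidueField A) x ∈
      FbK A N := fun x hx => coeffMap_mem_FbK (g : Qb ≃+* Qb).symm hσ' hx
  intro f hf m hm u w hu hw hv huf
  set E := fbE s h1 h2 with hEdef
  have hE0 : ∀ z, z ≠ 0 → E z ≠ 0 := fun z hz => (map_ne_zero_iff E E.injective).mpr hz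
  have hf0 : ∀ a : ResidueField A',
      iterateFrobenius (ResidueField A') q 2 a = a ^ (q ^ 2) :=
    fun a => iterateFrobenius_def _ _ _
  obtain ⟨w', hw'⟩ := hE _ hf0 m hm (E u) (E w) (hE0 u hu) (hE0 w hw) (fun v' => by
    obtain ⟨v, hv'⟩ := exists_place_comap s E (fun a => by
      apply Subtype.ext
      change coeffMap (s : ResidueField A →+* ResidueField A')
        (algebraMap (ResidueField A) (LaurentSeries (ResidueField A)) a) =
        algebraMap (ResidueField A') (LaurentSeries (ResidueField A')) (s a)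
      rw [algebraMap_laurent, algebraMap_laurent, HahnSeries.C_apply, coeffMap_single,
        HahnSeries.C_apply]
      rfl) v'
    rw [← hv' u hu]
    exact hv v) (by
    have h3 := congrArg (coeffMap (s : ResidueField A →+* ResidueField A')) huf
    rw [map_mul, map_pow] at h3
    refine Eq.trans ?_ h3
    ext n
    change iterateFrobenius (ResidueField A') q 2
      (s ((u : LaurentSeries (ResidueField A)).coeff n)) =
      s (f ((u : LaurentSeries (ResidueField A)).coeff n))
    rw [hf0, hf, map_pow])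
  refine ⟨E.symm w', E.injective ?_⟩
  rw [map_pow, map_pow, RingEquiv.apply_symm_apply, hw']

/-- (F2) -/
theorem exists_expP (hq : q.Prime) (hqN : ¬ q ∣ N) (hN : 2 ∣ N ∨ 3 ∣ N) :
    ∃ e : ℕ, 0 < e ∧ ∀ A : ValuationSubring Qb, A.LiesOverPrime q → ExpP A q N e := by
  by_cases hex : ∃ A₀ : ValuationSubring Qb, A₀.LiesOverPrime q
  · obtain ⟨A₀, hA₀⟩ := hex
    obtain ⟨e, he, hE⟩ := exists_expP_A (N := N) hq hA₀ hqN hN
    exact ⟨e, he, fun A hA => hE.conj hq hA hA₀⟩
  · exact ⟨1, one_pos, fun A hA => absurd ⟨A, hA⟩ hex⟩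

end Exp

end Fermat.Agent.MZ
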