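import Mathlib
import Fermat.Agent.MP.End
import Fermat.Agent.MZ.Frob

/-!
Reductions of functions of level `qM` along the component of infinity.
-/

set_option autoImplicit false
set_option linter.unusedSectionVars false

open Fermat.Agent.ModFun IntermediateField Fermat.Agent.Geo IsLocalRing Fermat.Agent.ESCore
open Fermat.Agent.LG Fermat.Agent.Flat ModularCurve Fermat.Agent.Lf Fermat.Agent.MP
open Fermat.Agent.ESCore (HauptFn haupt2 haupt3 hdelta)
open CongruenceSubgroup (Gamma0 Gamma0_mem)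
open scoped MatrixGroups IntermediateField.algebraAdjoinAdjoin

noncomputable section

universe u

namespace Fermat.Agent.MZ

local notation "Qb" => AlgebraicClosure ℚ
local notation "GQ" => (AlgebraicClosure ℚ ≃ₐ[ℚ] AlgebraicClosure ℚ)

section Conc

variable {O L : Type u} [CommRing O] [IsDomain O] [IsDiscreteValuationRing O] [Field L]
  [Algebra O L] [IsFractionRing O L] {q : ℕ} [NeZero q] {p : ℕ} [Fact p.Prime] {κ : ℤ}
  {M N : ℕ} [NeZero M] [NeZero N] {H : HauptFn p κ} {S : Set ℤ} {k : ℕ} {P : Polynomial ℤ}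
  {π : O}

/-- The residue field of the component of infinity, over a discrete valuation ring. -/
theorem res_conc (B : Bez q M) (hH : HautData H S k P) (ι : L →+* ℂ) {ζ : Lˣ}
    (hζ : ι ζ = Complex.exp (2 * Real.pi * Complex.I / M)) (hMu : IsUnit (M : O)) (hπ : Prime π)
    (hS : ∀ c ∈ S, ∀ c' ∈ S, c ≠ c' → IsUnit ((c - c' : ℤ) : O))
    [PerfectField (ResidueField O)] [ExpChar (ResidueField O) q]
    (hq0 : (q : ResidueField O) = 0) (hq : q.Prime) (hqp : ¬ q ∣ p)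
    (hN : N = q * M) (hqM : q.Coprime M) (hpM : p ∣ M) {f : F0 L N}
    (hf : (f : LaurentSeries L) ∈ gV O L) :
    ∃ g : F0 L M, ∃ hg : (g : LaurentSeries L) ∈ gV O L,
      gR (⟨(f : LaurentSeries L), hf⟩ : gV O L) = gR (⟨(g : LaurentSeries L), hg⟩ : gV O L) := by
  have hle1 : Kt L p κ ≤ F0 L M := Kt_le_F0 H ι hpM
  have hle2 : F0 L M ≤ F0 L N := F0_mono (dvd₂ hN dvd_rfl)
  have hle4 : Kz L q p κ ≤ F0 L N := Kz_le_F0 H ι hN hpM
  let _ := algO O (Kt L p κ)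
  let _ := algO O (F0 L M)
  let _ := algO O (Kz L q p κ)
  let _ := algO O (F0 L N)
  let _ := algI hle1
  let _ := algI hle2
  let _ := algI hle4
  have t1 : IsScalarTower O (Kz L q p κ) (F0 L N) := tower_O O hle4
  have t2 : IsScalarTower O (Kt L p κ) (F0 L M) := tower_O O hle1
  have t3 : IsScalarTower O (F0 L M) (F0 L N) := tower_O O hle2
  have hld := lData (O := O) B hH ι hζ hMu hπ hS hq0 hq hqp hN hqM hpM hle1 hle2 hle4
  obtain ⟨-, -, hfin, -, -⟩ := goodRed_F0 ι hζ hMu hπ hpM hH hS hle1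
  have hfF := (finrank_F0_le hH ι hq hqp hN hqM hpM hle1 hle4 hfin).1
  have hcL : CharZero L := (ι.charZero_iff ι.injective).mpr inferInstance
  have hcI : ∀ E' : IntermediateField L (LaurentSeries L), CharZero E' := fun E' =>
    charZero_of_injective_algebraMap (algebraMap L E').injective
  have s1 : Algebra.IsSeparable (Kz L q p κ) (F0 L N) := sep_of_charZero (hcI _) hfF
  have hz := isParam_zK (L := L) (κ := κ) (p := p) O hq.two_le
  have hfP : f ∈ hld.P₁ := hld.mem_P₁.mpr hf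
  have hM : ∃ x' : F0 L M, f - algebraMap (F0 L M) (F0 L N) x' ∈ hld.P₁.nonunits ∧
      algebraMap (F0 L M) (F0 L N) x' ∈ hld.P₁ := LData.exists_M hld hz hπ (x := f) hfP
  obtain ⟨g, hg1, hg2⟩ := hM
  have hg3 : algebraMap (F0 L N) (LaurentSeries L) (algebraMap (F0 L M) (F0 L N) g) ∈ gV O L :=
    hld.mem_P₁.mp hg2
  have hf3 : algebraMap (F0 L N) (LaurentSeries L) f ∈ gV O L := hld.mem_P₁.mp hfP
  exact ⟨g, hg3, (sub_mem_nonunits_iff (hθ := hld.hgK) hf3 hg3).mp hg1⟩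

end Conc

section AR

variable {A : ValuationSubring Qb} {q : ℕ} {L : IntermediateField ℚ Qb}
  [IsDiscreteValuationRing (OL A L)] {M N : ℕ} [NeZero q] [NeZero M] [NeZero N]

theorem res_ar (h : Ar A q L) (B : Bez q M) (hN : N = q * M) (hqM : ¬ q ∣ M)
    (hlev : (q ≠ 2 ∧ 2 ∣ M) ∨ (q ≠ 3 ∧ 3 ∣ M)) {f : F0 L N}
    (hf : (f : LaurentSeries L) ∈ gV (OL A L) L) :
    ∃ g : F0 L M, ∃ hg : (g : LaurentSeries L) ∈ gV (OL A L) L,
      gR (⟨(f : LaurentSeries L), hf⟩ : gV (OL A L) L) =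
        gR (⟨(g : LaurentSeries L), hg⟩ : gV (OL A L) L) := by
  have i1 := h.isAlgClosed
  have i2 := h.expChar_residue
  obtain ⟨ζ, hζ⟩ := h.exists_zeta hqM
  have hMu : IsUnit (M : OL A L) := h.isUnit_natCast hqM
  have hq0 := h.natCast_residue
  have hq := h.hq
  have hcop : q.Coprime M := (Nat.Prime.coprime_iff_not_dvd hq).mpr hqM
  obtain ⟨π, hπ⟩ := IsDiscreteValuationRing.exists_prime (OL A L)
  have i3 : PerfectField (ResidueField (OL A L)) := inferInstance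
  rcases hlev with ⟨hq2, h2⟩ | ⟨hq3, h3⟩
  · exact res_conc (O := OL A L) B haut2 (ιL L) hζ hMu hπ (sep2 h2 hMu) hq0 hq
      (fun hd => hq2 ((Nat.prime_dvd_prime_iff_eq hq Nat.prime_two).mp hd)) hN hcop h2 hf
  · exact res_conc (O := OL A L) B haut3 (ιL L) hζ hMu hπ (sep3 h3 hMu) hq0 hq
      (fun hd => hq3 ((Nat.prime_dvd_prime_iff_eq hq Nat.prime_three).mp hd)) hN hcop h3 hf

end AR

section QB

variable {A : ValuationSubring Qb} {q : ℕ} {M N : ℕ} [NeZero q] [NeZero M] [NeZero N]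

theorem coeffMap_mem_F0 {L : IntermediateField ℚ Qb} (g : F0 L M) :
    coeffMap (algebraMap L Qb) (g : LaurentSeries L) ∈ F0 Qb M :=
  coeffMap_mem_adjoin (algebraMap L Qb) g.2

/-- **The residue field of the component of infinity of `X₀(qM)` is that of `X₀(M)`.** -/
theorem gAR_mem_FbK (hq : q.Prime) (hA : A.LiesOverPrime q) (hN : N = q * M)
    (hqM : ¬ q ∣ M) (hlev : (q ≠ 2 ∧ 2 ∣ M) ∨ (q ≠ 3 ∧ 3 ∣ M)) {f : LaurentSeries Qb}
    (hf : f ∈ F0 Qb N) (hfA : f ∈ gA A) : gAR (⟨f, hfA⟩ : gA A) ∈ FbK A M := by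
  obtain ⟨S₀, hS₀⟩ := exists_finset_F0 hf
  obtain ⟨L, h, hL⟩ := Ar.exists_of_finset hq hA S₀
  have hdvr := h.dvr
  obtain ⟨f', hf', rfl⟩ := hS₀ L hL
  have hfV : f' ∈ gV (OL A L) L := gV_of_gA (x := ⟨f', hf'⟩) hfA
  obtain ⟨B⟩ : Nonempty (Bez q M) := by
    exact nonempty_bez ((Nat.Prime.coprime_iff_not_dvd hq).mpr hqM)
  obtain ⟨g, hg, hfg⟩ := res_ar h B hN hqM hlev (f := ⟨f', hf'⟩) hfV
  obtain ⟨h1, h2⟩ := mem_gA_of_gV (A := A) (L := L) hfV
  obtain ⟨h3, h4⟩ := mem_gA_of_gV (A := A) (L := L) hg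
  have h5 : gAR (⟨_, h1⟩ : gA A) = gAR (⟨_, h3⟩ : gA A) := by
    rw [h2, h4]
    exact congrArg _ hfg
  have h6 : gAR (⟨_, hfA⟩ : gA A) = gAR (⟨_, h3⟩ : gA A) := h5
  rw [h6]
  exact IntermediateField.subset_adjoin _ _ ⟨(⟨⟨_, coeffMap_mem_F0 g⟩, h3⟩ : W0 A M), rfl⟩

end QB

end Fermat.Agent.MZ
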