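import Mathlib
import Fermat.Agent.MZ.Res
import Fermat.Agent.MZ.HRed

/-!
The relations satisfied by the reduction of a Kummer generator.
-/

set_option autoImplicit false
set_option linter.unusedSectionVars false

open Fermat.Agent.ModFun IntermediateField Fermat.Agent.Geo IsLocalRing Fermat.Agent.ESCore
open Fermat.Agent.LG Fermat.Agent.Flat ModularCurve Fermat.Agent.Lf Fermat.Agent.MP
open AlgebraicCurve
open CongruenceSubgroup (Gamma0 Gamma0_mem)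
open scoped MatrixGroups IntermediateField.algebraAdjoinAdjoin

noncomputable section

namespace Fermat.Agent.MZ

local notation "Qb" => AlgebraicClosure ℚ
local notation "GQ" => (AlgebraicClosure ℚ ≃ₐ[ℚ] AlgebraicClosure ℚ)

variable {A : ValuationSubring Qb}

theorem inv_gA {x : LaurentSeries Qb} (hx : x ∈ gA A) (h0 : gAR (⟨x, hx⟩ : gA A) ≠ 0) :
    ∃ h : x⁻¹ ∈ gA A, gAR (⟨x⁻¹, h⟩ : gA A) = (gAR (⟨x, hx⟩ : gA A))⁻¹ := by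
  have hx0 : x ≠ 0 := by
    rintro rfl
    exact h0 (map_zero gAR)
  have h2 : x⁻¹ ∈ gA A := inv_mem_gA (x := ⟨x, hx⟩) h0
  refine ⟨h2, ?_⟩
  apply eq_inv_of_mul_eq_one_left
  rw [← map_mul]
  have e : (⟨x⁻¹, h2⟩ : gA A) * ⟨x, hx⟩ = 1 := Subtype.ext (inv_mul_cancel₀ hx0)
  rw [e, map_one]

theorem pow_gA {x : LaurentSeries Qb} (hx : x ∈ gA A) (n : ℕ) :
    ∃ h : x ^ n ∈ gA A, gAR (⟨x ^ n, h⟩ : gA A) = (gAR (⟨x, hx⟩ : gA A)) ^ n := by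
  refine ⟨pow_mem hx n, ?_⟩
  rw [← map_pow]
  rfl

theorem mul_gA {x y : LaurentSeries Qb} (hx : x ∈ gA A) (hy : y ∈ gA A) :
    ∃ h : x * y ∈ gA A, gAR (⟨x * y, h⟩ : gA A) = gAR (⟨x, hx⟩ : gA A) * gAR (⟨y, hy⟩ : gA A) := by
  refine ⟨mul_mem hx hy, ?_⟩
  rw [← map_mul]
  rfl

theorem zpow_gA {x : LaurentSeries Qb} (hx : x ∈ gA A) (h0 : gAR (⟨x, hx⟩ : gA A) ≠ 0) (n : ℤ) :
    ∃ h : x ^ n ∈ gA A, gAR (⟨x ^ n, h⟩ : gA A) = (gAR (⟨x, hx⟩ : gA A)) ^ n := by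
  obtain ⟨k, rfl | rfl⟩ := n.eq_nat_or_neg
  · obtain ⟨h, h1⟩ := pow_gA hx k
    have e : x ^ (k : ℤ) = x ^ k := zpow_natCast x k
    have h' : x ^ (k : ℤ) ∈ gA A := by rw [e]; exact h
    refine ⟨h', ?_⟩
    have e2 : (⟨x ^ (k : ℤ), h'⟩ : gA A) = ⟨x ^ k, h⟩ := Subtype.ext e
    rw [e2, h1, zpow_natCast]
  · obtain ⟨hi, h1⟩ := inv_gA hx h0
    obtain ⟨h, h2⟩ := pow_gA hi k
    have e : x ^ (-(k : ℤ)) = (x⁻¹) ^ k := by rw [zpow_neg, zpow_natCast, inv_pow]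
    have h' : x ^ (-(k : ℤ)) ∈ gA A := by rw [e]; exact h
    refine ⟨h', ?_⟩
    have e2 : (⟨x ^ (-(k : ℤ)), h'⟩ : gA A) = ⟨(x⁻¹) ^ k, h⟩ := Subtype.ext e
    rw [e2, h2, h1, zpow_neg, zpow_natCast, inv_pow]

/-- **(R2)** the `U`-relation for the reduction. -/
theorem u_rel {q : ℕ} (hq : q.Prime) (hA : A.LiesOverPrime q) {M N : ℕ} [NeZero q] [NeZero M]
    [NeZero N] (B : Bez q M) (hN : N = q * M) (hqM : ¬ q ∣ M)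
    (hlev : (q ≠ 2 ∧ 2 ∣ M) ∨ (q ≠ 3 ∧ 3 ∣ M)) {m : ℕ} (hm : 0 < m) {χ : XG N m} (hχ : IsPar χ.1)
    {ε : ℤ} (hε : ε = 1 ∨ ε = -1) (hqN : q ∣ N) (hU : heckeXU hq.ne_zero hqN m χ = χ ^ ε)
    (hW : B.wChar dvd_rfl hN χ.1 = (χ ^ (-ε)).1)
    {y : LaurentSeries Qb} (hy0 : y ≠ 0) (hy : XSer ιC N χ.1 y) (hx : y ^ m ∈ gA A)
    (hx0 : gAR (⟨_, hx⟩ : gA A) ≠ 0) {f : ResidueField A →+* ResidueField A}
    (hf : ∀ a, f a = a ^ q) :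
    ∃ u ∈ FbK A M, u ≠ 0 ∧ coeffMap f (gAR (⟨_, hx⟩ : gA A)) = u ^ m * gAR (⟨_, hx⟩ : gA A) ^ ε := by
  obtain ⟨L, h, hμ, -, ζ, hζ, hdvr, y', hy', hy0', hyy, F, F', hF, hF', hUF, hWF⟩ :=
    exists_local_data' hq hA B hN hm hχ hε hqN hU hW hy0 hy ∅
  have i2 := h.expChar_residue
  have hUF' := hUF (zL_prim hζ)
  have hcoe : coeffMap (algebraMap L Qb) (y' ^ m) = y ^ m := by rw [map_pow, hyy]
  have hxV : y' ^ m ∈ gV (OL A L) L := gV_of_gA (x := ⟨y' ^ m, hy'.pow_mem_F0 χ.2.1⟩) (by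
    change coeffMap (algebraMap L Qb) (y' ^ m) ∈ gA A
    rw [hcoe]; exact hx)
  obtain ⟨h1, h2⟩ := mem_gA_of_gV (A := A) (L := L) hxV
  have h3 : gAR (⟨_, hx⟩ : gA A) = coeffMap subK (gR (⟨y' ^ m, hxV⟩ : gV (OL A L) L)) := by
    rw [← h2]
    congr 1
    exact Subtype.ext hcoe.symm
  have huV := uN_mem_gV hq h.natCast_residue hζ hxV
  have hgu := gR_uN hq h.natCast_residue hζ hxV
  obtain ⟨h4, h5⟩ := mem_gA_of_gV (A := A) (L := L) huV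
  have h6 : gAR (⟨_, h4⟩ : gA A) = coeffMap f (gAR (⟨_, hx⟩ : gA A)) := by
    rw [h5, hgu, h3]
    ext n
    change subK (frobenius _ q _) = f (subK _)
    rw [hf, frobenius_def, map_pow]
  -- the function over `Qb`
  obtain ⟨G, hG⟩ : ∃ G, G = coeffMap (algebraMap L Qb) (F : LaurentSeries L) := ⟨_, rfl⟩
  have hGF : G ∈ F0 Qb N := by rw [hG]; exact coeffMap_mem_F0 F
  have hrel : coeffMap (algebraMap L Qb) (uN q (zL L ζ) (y' ^ m)) = G ^ m * (y ^ m) ^ ε := by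
    have h7 := congrArg (fun z : F0 L N => coeffMap (algebraMap L Qb) (z : LaurentSeries L)) hUF'
    refine h7.trans ?_
    change coeffMap (algebraMap L Qb) ((F : LaurentSeries L) ^ m * _) = _
    rw [map_mul, map_pow, ← hG]
    congr 1
    have h8 : (((⟨y' ^ m, hy'.pow_mem_F0 χ.2.1⟩ : F0 L N) ^ ε : F0 L N) : LaurentSeries L) =
        (y' ^ m) ^ ε := by
      exact map_zpow₀ (F0 L N).val _ ε
    rw [h8, map_zpow₀, hcoe]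
  have hyQ : y ^ m ≠ 0 := pow_ne_zero _ hy0
  obtain ⟨h7, h8⟩ := zpow_gA hx hx0 (-ε)
  obtain ⟨h9, h10⟩ := mul_gA h4 h7
  have h11 : coeffMap (algebraMap L Qb) (uN q (zL L ζ) (y' ^ m)) * (y ^ m) ^ (-ε) = G ^ m := by
    rw [hrel, mul_assoc, ← zpow_add₀ hyQ, add_neg_cancel, zpow_zero, mul_one]
  have h12 : G ^ m ∈ gA A := by rw [← h11]; exact h9
  have h13 : gAR (⟨_, h12⟩ : gA A) =
      coeffMap f (gAR (⟨_, hx⟩ : gA A)) * gAR (⟨_, hx⟩ : gA A) ^ (-ε) := by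
    rw [← h6, ← h8, ← h10]
    congr 1
    exact Subtype.ext h11.symm
  have hf0 : coeffMap f (gAR (⟨_, hx⟩ : gA A)) ≠ 0 := (_root_.map_ne_zero _).mpr hx0
  have h14 : gAR (⟨_, h12⟩ : gA A) ≠ 0 := by
    rw [h13]
    exact mul_ne_zero hf0 (zpow_ne_zero _ hx0)
  obtain ⟨h15, h16⟩ := mem_of_pow hq hA hGF hm h12 h14
  refine ⟨gAR (⟨G, h15⟩ : gA A), gAR_mem_FbK hq hA hN hqM hlev hGF h15, ?_, ?_⟩
  · intro h0
    rw [h0, zero_pow hm.ne'] at h16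
    exact h14 h16.symm
  · rw [h16, h13, mul_assoc, ← zpow_add₀ hx0, neg_add_cancel, zpow_zero, mul_one]

/-- the `W`-relation. -/
theorem w_rel {q : ℕ} (hq : q.Prime) {M N : ℕ} [NeZero q] [NeZero M]
    [NeZero N] (B : Bez q M) (hN : N = q * M) {m : ℕ} (hm : 0 < m) {χ : XG N m} (hχ : IsPar χ.1)
    {ε : ℤ} (hε : ε = 1 ∨ ε = -1) (hW : B.wChar dvd_rfl hN χ.1 = (χ ^ (-ε)).1)
    {y : LaurentSeries Qb} (hy0 : y ≠ 0) (hy : XSer ιC N χ.1 y) :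
    ∃ f' : F0 Qb N, f' ≠ 0 ∧ B.wF ιC hq hN ⟨y ^ m, hy.pow_mem_F0 χ.2.1⟩ =
      f' ^ m * (⟨y ^ m, hy.pow_mem_F0 χ.2.1⟩ : F0 Qb N) ^ (-ε) := by
  obtain ⟨z, hz, hzm⟩ := B.exists_wSer hq hN hχ hm χ.2.1 hy
  have hwm : (B.wChar dvd_rfl hN χ.1) ^ m = 1 := by
    rw [hW]
    exact (χ ^ (-ε)).2.1
  have hch : (⟨y ^ m, hy.pow_mem_F0 χ.2.1⟩ : F0 Qb N) ≠ 0 := fun h0 =>
    pow_ne_zero m hy0 (congrArg Subtype.val h0)
  have hwrel : B.wF ιC hq hN ⟨y ^ m, hy.pow_mem_F0 χ.2.1⟩ = ⟨z ^ m, hz.pow_mem_F0 hwm⟩ :=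
    Subtype.ext hzm.symm
  have hz0 : z ≠ 0 := by
    rintro rfl
    have h2 := wF_ne_zero B hq hN ιC hch
    rw [hwrel] at h2
    exact h2 (Subtype.ext (zero_pow hm.ne'))
  obtain ⟨f', hf', hf'2⟩ := rel_pow hm χ.2.1 hwm hy hy0 hz hz0 (ε := -ε) (by
    rw [hW]
    rcases hε with rfl | rfl
    · right
      exact ⟨rfl, by rw [zpow_neg_one]; rfl⟩
    · left
      exact ⟨rfl, by rw [neg_neg, zpow_one]⟩)
  exact ⟨f', hf', hwrel.trans hf'2⟩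

/-- **(R3)** -/
theorem h12_of_pow {q : ℕ} (hq : q.Prime) (hA : A.LiesOverPrime q) {M N : ℕ} [NeZero q] [NeZero M]
    [NeZero N] (B : Bez q M) (hN : N = q * M) (hqM : ¬ q ∣ M)
    (hlev : (q ≠ 2 ∧ 2 ∣ M) ∨ (q ≠ 3 ∧ 3 ∣ M)) {m : ℕ} (hm : 0 < m) {χ : XG N m} (hχ : IsPar χ.1)
    {ε : ℤ} (hε : ε = 1 ∨ ε = -1) (hW : B.wChar dvd_rfl hN χ.1 = (χ ^ (-ε)).1)
    {y : LaurentSeries Qb} (hy0 : y ≠ 0) (hy : XSer ιC N χ.1 y) (hx : y ^ m ∈ gA A)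
    (hx0 : gAR (⟨_, hx⟩ : gA A) ≠ 0) {e : ℕ} {g : LaurentSeries (ResidueField A)}
    (hg : g ∈ FbK A M) (hge : gAR (⟨_, hx⟩ : gA A) ^ e = g ^ m)
    (hye : (y ^ e) ^ m ∈ F0 Qb N) :
    (∃ c : Qb, c ≠ 0 ∧ ∃ hx : (HahnSeries.C c * y ^ e) ^ m ∈ gA A,
      ∃ g ∈ FbK A M, g ≠ 0 ∧ gAR (⟨_, hx⟩ : gA A) = g ^ m) ∧
    (∃ c : Qb, c ≠ 0 ∧
      ∃ hx : HahnSeries.C (c ^ m) * (B.wF ιC hq hN ⟨(y ^ e) ^ m, hye⟩ : LaurentSeries Qb) ∈ gA A,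
        ∃ g ∈ FbK A M, g ≠ 0 ∧ gAR (⟨_, hx⟩ : gA A) = g ^ m) := by
  have hg0 : g ≠ 0 := by
    rintro rfl
    rw [zero_pow hm.ne'] at hge
    exact pow_ne_zero e hx0 hge
  constructor
  · obtain ⟨h1, h2⟩ := pow_gA hx e
    have e1 : (HahnSeries.C (1 : Qb) * y ^ e) ^ m = (y ^ m) ^ e := by
      rw [map_one, one_mul, ← pow_mul, ← pow_mul, mul_comm]
    refine ⟨1, one_ne_zero, by rw [e1]; exact h1, g, hg, hg0, ?_⟩
    rw [← hge, ← h2]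
    congr 1
    exact Subtype.ext e1
  · obtain ⟨f', hf', hwf⟩ := w_rel hq B hN hm hχ hε hW hy0 hy
    obtain ⟨c, hc0, hc, hcr⟩ := exists_scale hq hA f'.2 (fun h0 => hf' (Subtype.ext h0))
    obtain ⟨k1, k2⟩ := zpow_gA hx hx0 (-ε)
    obtain ⟨k3, k4⟩ := pow_gA hc m
    obtain ⟨k5, k6⟩ := mul_gA k3 k1
    obtain ⟨k7, k8⟩ := pow_gA k5 e
    have e1 : HahnSeries.C ((c ^ e) ^ m) *
        (B.wF ιC hq hN ⟨(y ^ e) ^ m, hye⟩ : LaurentSeries Qb) =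
        ((HahnSeries.C c * (f' : LaurentSeries Qb)) ^ m * (y ^ m) ^ (-ε)) ^ e := by
      have e2 : (⟨(y ^ e) ^ m, hye⟩ : F0 Qb N) = (⟨y ^ m, hy.pow_mem_F0 χ.2.1⟩ : F0 Qb N) ^ e :=
        Subtype.ext (by
          change (y ^ e) ^ m = (y ^ m) ^ e
          rw [← pow_mul, ← pow_mul, mul_comm])
      have e3 : (((⟨y ^ m, hy.pow_mem_F0 χ.2.1⟩ : F0 Qb N) ^ (-ε) : F0 Qb N) : LaurentSeries Qb) =
          (y ^ m) ^ (-ε) := map_zpow₀ (F0 Qb N).val _ (-ε)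
      have e4 : ((B.wF ιC hq hN ⟨(y ^ e) ^ m, hye⟩ : F0 Qb N) : LaurentSeries Qb) =
          ((f' : LaurentSeries Qb) ^ m * (y ^ m) ^ (-ε)) ^ e := by
        rw [e2, map_pow, hwf, ← e3]
        rfl
      have e5 : (HahnSeries.C ((c ^ e) ^ m) : LaurentSeries Qb) = ((HahnSeries.C c) ^ m) ^ e := by
        rw [map_pow, map_pow, ← pow_mul, ← pow_mul, mul_comm]
      rw [e4, e5, ← mul_pow, ← mul_assoc, ← mul_pow]
    have h7 : HahnSeries.C ((c ^ e) ^ m) *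
        (B.wF ιC hq hN ⟨(y ^ e) ^ m, hye⟩ : LaurentSeries Qb) ∈ gA A := by
      rw [e1]; exact k7
    refine ⟨c ^ e, pow_ne_zero _ hc0, h7, gAR (⟨_, hc⟩ : gA A) ^ e * g ^ (-ε), ?_, ?_, ?_⟩
    · refine mul_mem (pow_mem ?_ _) (zpow_mem hg _)
      refine gAR_mem_FbK hq hA hN hqM hlev ?_ hc
      rw [← algebraMap_laurent]
      exact mul_mem ((F0 Qb N).algebraMap_mem _) f'.2
    · exact mul_ne_zero (pow_ne_zero _ hcr) (zpow_ne_zero _ hg0)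
    · have h8 : gAR (⟨_, h7⟩ : gA A) = (gAR (⟨_, hc⟩ : gA A) ^ m *
          gAR (⟨_, hx⟩ : gA A) ^ (-ε)) ^ e := by
        rw [← k2, ← k4, ← k6, ← k8]
        congr 1
        exact Subtype.ext e1
      rw [h8, mul_pow, mul_pow, ← pow_mul, ← pow_mul, mul_comm m e]
      congr 1
      rw [← zpow_natCast, ← zpow_mul, mul_comm (-ε), zpow_mul, zpow_natCast, hge,
        ← zpow_natCast g m, ← zpow_mul, mul_comm, zpow_mul, zpow_natCast]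

/-- **(R4)** -/
theorem h12_of_expP {q : ℕ} (hq : q.Prime) (hA : A.LiesOverPrime q) {M N : ℕ} [NeZero q]
    [NeZero M] [NeZero N] (B : Bez q M) (hN : N = q * M) (hqM : ¬ q ∣ M)
    (hlev : (q ≠ 2 ∧ 2 ∣ M) ∨ (q ≠ 3 ∧ 3 ∣ M)) {m : ℕ} (hm : 0 < m) {χ : XG N m} (hχ : IsPar χ.1)
    {ε : ℤ} (hε : ε = 1 ∨ ε = -1) (hqN : q ∣ N) (hU : heckeXU hq.ne_zero hqN m χ = χ ^ ε)
    (hW : B.wChar dvd_rfl hN χ.1 = (χ ^ (-ε)).1)
    {y : LaurentSeries Qb} (hy0 : y ≠ 0) (hy : XSer ιC N χ.1 y) (hx : y ^ m ∈ gA A)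
    (hx0 : gAR (⟨_, hx⟩ : gA A) ≠ 0) (hxM : gAR (⟨_, hx⟩ : gA A) ∈ FbK A M)
    (hord : ∀ v : Place (ResidueField A) (FbK A M), (m : ℤ) ∣ v.ord ⟨_, hxM⟩)
    {e : ℕ} (hE : ExpP A q M e) (hye : (y ^ e) ^ m ∈ F0 Qb N) :
    (∃ c : Qb, c ≠ 0 ∧ ∃ hx : (HahnSeries.C c * y ^ e) ^ m ∈ gA A,
      ∃ g ∈ FbK A M, g ≠ 0 ∧ gAR (⟨_, hx⟩ : gA A) = g ^ m) ∧
    (∃ c : Qb, c ≠ 0 ∧
      ∃ hx : HahnSeries.C (c ^ m) * (B.wF ιC hq hN ⟨(y ^ e) ^ m, hye⟩ : LaurentSeries Qb) ∈ gA A,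
        ∃ g ∈ FbK A M, g ≠ 0 ∧ gAR (⟨_, hx⟩ : gA A) = g ^ m) := by
  have hchar : CharP (ResidueField A) q := FrobDensity.charP_residue hq hA
  have hexp : ExpChar (ResidueField A) q := ExpChar.prime hq
  obtain ⟨f, hf⟩ : ∃ f : ResidueField A →+* ResidueField A, ∀ a, f a = a ^ q :=
    ⟨frobenius _ q, fun a => rfl⟩
  obtain ⟨u, hu, hu0, hrel⟩ := u_rel hq hA B hN hqM hlev hm hχ hε hqN hU hW hy0 hy hx hx0 hf
  obtain ⟨hb, hhb⟩ : ∃ hb, hb = gAR (⟨_, hx⟩ : gA A) := ⟨_, rfl⟩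
  have hff : ∀ z, coeffMap (f.comp f) z = coeffMap f (coeffMap f z) := fun z => by
    ext n
    rfl
  have hfu : coeffMap f u ∈ FbK A M := (coeffMap_frob_mem_iff hq hA hf).mpr hu
  have hfu0 : coeffMap f u ≠ 0 := (_root_.map_ne_zero _).mpr hu0
  have hεε : ε * ε = 1 := by rcases hε with rfl | rfl <;> norm_num
  have h1 : coeffMap (f.comp f) hb = hb * (coeffMap f u * u ^ ε) ^ m := by
    rw [hff, hhb, hrel, map_mul, map_pow, map_zpow₀, hrel, mul_zpow, ← zpow_mul, hεε, zpow_one,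
      mul_pow, ← zpow_natCast (u ^ ε), ← zpow_mul, mul_comm ε, zpow_mul, zpow_natCast]
    ring
  obtain ⟨w, hw⟩ := hE (f.comp f) (fun a => by
    rw [RingHom.comp_apply, hf, hf, ← pow_mul, pow_two]) m hm ⟨_, hxM⟩
    ⟨coeffMap f u * u ^ ε, mul_mem hfu (zpow_mem hu _)⟩ (fun h0 => hx0 (congrArg Subtype.val h0))
    (fun h0 => mul_ne_zero hfu0 (zpow_ne_zero _ hu0) (congrArg Subtype.val h0)) hord (by
      rw [hhb] at h1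
      exact h1)
  exact h12_of_pow hq hA B hN hqM hlev hm hχ hε hW hy0 hy hx hx0 w.2
    (congrArg Subtype.val hw) hye

end Fermat.Agent.MZ
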