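import Mathlib
import Fermat.Agent.MZ.URel
import Fermat.Agent.MZ.LiftM

/-!
The residue field of the component of infinity of `X₀(qM)`: the count.
-/

set_option autoImplicit false
set_option linter.unusedSectionVars false

open Fermat.Agent.ModFun IntermediateField Fermat.Agent.Geo IsLocalRing Fermat.Agent.ESCore
open Fermat.Agent.LG Fermat.Agent.Flat ModularCurve Fermat.Agent.Lf Fermat.Agent.MP
open AlgebraicCurve

noncomputable section

namespace Fermat.Agent.MZ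

local notation "Qb" => AlgebraicClosure ℚ

section Abs

variable {E F Ξ : Type*} [Field E] [Field F] [Algebra E F] [Field Ξ]

/-- an abstract count: the residue field at a place of a pair is that of the base -/
theorem count_abs {q : ℕ} (hfd : FiniteDimensional E F) (hfr : Module.finrank E F ≤ q + 1)
    (W W₂ : Subring F) (ρ : W →+* Ξ) (ρ₂ : W₂ →+* Ξ) (φ : Ξ →+* Ξ)
    (hE : ∀ (e : E) (h : algebraMap E F e ∈ W), ∃ h₂ : algebraMap E F e ∈ W₂,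
      ρ₂ ⟨_, h₂⟩ = φ (ρ ⟨_, h⟩))
    (hsc : ∀ g : Fin 2 ⊕ Fin q → E, (∃ i, g i ≠ 0) → ∃ s : E,
      ∃ h : ∀ i, algebraMap E F (s * g i) ∈ W, ∃ i, ρ ⟨_, h i⟩ ≠ 0)
    (u : F) (hu : u ∈ W) (hu₂ : u ∈ W₂) (h1 : ρ ⟨u, hu⟩ = 1) (h2 : ρ₂ ⟨u, hu₂⟩ = 0)
    (y : Fin q → F) (hy : ∀ i, y i ∈ W) (hy₂ : ∀ i, y i ∈ W₂)
    (hind : ∀ c : Fin q → Ξ, ∑ i, φ (c i) * ρ₂ ⟨y i, hy₂ i⟩ = 0 → ∀ i, c i = 0)
    (a : F) (ha : a ∈ W) (k : ℕ) (hk : 0 < k) (hk₂ : u ^ k * a ∈ W₂)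
    (hk0 : ρ₂ ⟨_, hk₂⟩ = 0) :
    ∃ (e₀ e₁ : E) (h₀ : algebraMap E F e₀ ∈ W) (h₁ : algebraMap E F e₁ ∈ W),
      ρ ⟨_, h₁⟩ ≠ 0 ∧ ρ ⟨_, h₀⟩ + ρ ⟨_, h₁⟩ * ρ ⟨a, ha⟩ = 0 := by
  classical
  obtain ⟨b, hb⟩ : ∃ b : Fin 2 ⊕ Fin q → F,
      b = Sum.elim ![u ^ k, u ^ k * a] (fun i => (1 - u) * y i) := ⟨_, rfl⟩
  have hbW : ∀ j, b j ∈ W := by
    intro j
    rw [hb]
    rcases j with j | j
    · fin_cases j
      · exact pow_mem hu k
      · exact mul_mem (pow_mem hu k) ha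
    · exact mul_mem (sub_mem (one_mem _) hu) (hy j)
  have hbW₂ : ∀ j, b j ∈ W₂ := by
    intro j
    rw [hb]
    rcases j with j | j
    · fin_cases j
      · exact pow_mem hu₂ k
      · exact hk₂
    · exact mul_mem (sub_mem (one_mem _) hu₂) (hy₂ j)
  have hρ0 : ρ ⟨_, hbW (Sum.inl 0)⟩ = 1 := by
    have e : (⟨_, hbW (Sum.inl 0)⟩ : W) = ⟨u, hu⟩ ^ k := Subtype.ext ((congrFun hb _).trans rfl)
    rw [e, map_pow, h1, one_pow]
  have hρ1 : ρ ⟨_, hbW (Sum.inl 1)⟩ = ρ ⟨a, ha⟩ := by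
    have e : (⟨_, hbW (Sum.inl 1)⟩ : W) = ⟨u, hu⟩ ^ k * ⟨a, ha⟩ :=
      Subtype.ext ((congrFun hb _).trans rfl)
    rw [e, map_mul, map_pow, h1, one_pow, one_mul]
  have hρr : ∀ i, ρ ⟨_, hbW (Sum.inr i)⟩ = 0 := by
    intro i
    have e : (⟨_, hbW (Sum.inr i)⟩ : W) = (1 - ⟨u, hu⟩) * ⟨y i, hy i⟩ :=
      Subtype.ext ((congrFun hb _).trans rfl)
    rw [e, map_mul, map_sub, map_one, h1, sub_self, zero_mul]
  have hρ₂0 : ρ₂ ⟨_, hbW₂ (Sum.inl 0)⟩ = 0 := by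
    have e : (⟨_, hbW₂ (Sum.inl 0)⟩ : W₂) = ⟨u, hu₂⟩ ^ k := Subtype.ext ((congrFun hb _).trans rfl)
    rw [e, map_pow, h2, zero_pow hk.ne']
  have hρ₂1 : ρ₂ ⟨_, hbW₂ (Sum.inl 1)⟩ = 0 := by
    have e : (⟨_, hbW₂ (Sum.inl 1)⟩ : W₂) = ⟨_, hk₂⟩ := Subtype.ext ((congrFun hb _).trans rfl)
    rw [e, hk0]
  have hρ₂r : ∀ i, ρ₂ ⟨_, hbW₂ (Sum.inr i)⟩ = ρ₂ ⟨y i, hy₂ i⟩ := by
    intro i
    have e : (⟨_, hbW₂ (Sum.inr i)⟩ : W₂) = (1 - ⟨u, hu₂⟩) * ⟨y i, hy₂ i⟩ :=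
      Subtype.ext ((congrFun hb _).trans rfl)
    rw [e, map_mul, map_sub, map_one, h2, sub_zero, one_mul]
  have hdep : ¬ LinearIndependent E b := by
    intro hli
    have h3 := hli.fintype_card_le_finrank
    rw [Fintype.card_sum, Fintype.card_fin, Fintype.card_fin] at h3
    omega
  rw [Fintype.not_linearIndependent_iff] at hdep
  obtain ⟨g, hg, hg0⟩ := hdep
  obtain ⟨s, hs, hs0⟩ := hsc g hg0
  have hrel : ∑ j, algebraMap E F (s * g j) * b j = 0 := by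
    have h3 : ∑ j, algebraMap E F (s * g j) * b j = algebraMap E F s * ∑ j, g j • b j := by
      rw [Finset.mul_sum]
      refine Finset.sum_congr rfl fun j _ => ?_
      rw [map_mul, Algebra.smul_def, mul_assoc]
    rw [h3, hg, mul_zero]
  have hW : ∑ j, ρ ⟨_, hs j⟩ * ρ ⟨_, hbW j⟩ = 0 := by
    have h3 : ∑ j, (⟨_, hs j⟩ : W) * ⟨_, hbW j⟩ = 0 := by
      apply Subtype.ext
      rw [AddSubmonoidClass.coe_finsetSum]
      exact hrel
    have h4 := congrArg ρ h3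
    rw [map_sum, map_zero] at h4
    rw [← h4]
    exact Finset.sum_congr rfl fun j _ => (map_mul ρ _ _).symm
  choose hs₂ hs₂' using fun j => hE (s * g j) (hs j)
  have hW₂ : ∑ j, φ (ρ ⟨_, hs j⟩) * ρ₂ ⟨_, hbW₂ j⟩ = 0 := by
    have h3 : ∑ j, (⟨_, hs₂ j⟩ : W₂) * ⟨_, hbW₂ j⟩ = 0 := by
      apply Subtype.ext
      rw [AddSubmonoidClass.coe_finsetSum]
      exact hrel
    have h4 := congrArg ρ₂ h3
    rw [map_sum, map_zero] at h4
    rw [← h4]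
    refine Finset.sum_congr rfl fun j _ => ?_
    exact ((map_mul ρ₂ _ _).trans (congrArg (· * _) (hs₂' j))).symm
  rw [Fintype.sum_sum_type, Fin.sum_univ_two] at hW hW₂
  rw [hρ₂0, hρ₂1, mul_zero, mul_zero, add_zero, zero_add] at hW₂
  have h5 : ∀ i, ρ ⟨_, hs (Sum.inr i)⟩ = 0 := by
    apply hind
    rw [← hW₂]
    exact Finset.sum_congr rfl fun i _ => by rw [hρ₂r]
  rw [hρ0, hρ1, mul_one, Finset.sum_eq_zero (fun i _ => by rw [h5, zero_mul]), add_zero] at hW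
  refine ⟨_, _, hs (Sum.inl 0), hs (Sum.inl 1), ?_, hW⟩
  intro h0
  rw [h0, zero_mul, add_zero] at hW
  obtain ⟨i, hi⟩ := hs0
  rcases i with i | i
  · fin_cases i
    · exact hi hW
    · exact hi h0
  · exact hi (h5 i)

/-- the count, with the second place obtained from an automorphism -/
theorem count_w {q : ℕ} (hfd : FiniteDimensional E F) (hfr : Module.finrank E F ≤ q + 1)
    (W : Subring F) (ρ : W →+* Ξ) (φ : Ξ →+* Ξ) (w : F ≃+* F)
    (hE : ∀ (e : E) (h : algebraMap E F e ∈ W), ∃ h₂ : w (algebraMap E F e) ∈ W,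
      ρ ⟨_, h₂⟩ = φ (ρ ⟨_, h⟩))
    (hsc : ∀ g : Fin 2 ⊕ Fin q → E, (∃ i, g i ≠ 0) → ∃ s : E,
      ∃ h : ∀ i, algebraMap E F (s * g i) ∈ W, ∃ i, ρ ⟨_, h i⟩ ≠ 0)
    (u : F) (hu : u ∈ W) (hu₂ : w u ∈ W) (h1 : ρ ⟨u, hu⟩ = 1) (h2 : ρ ⟨w u, hu₂⟩ = 0)
    (y : Fin q → F) (hy : ∀ i, y i ∈ W) (hy₂ : ∀ i, w (y i) ∈ W)
    (hind : ∀ c : Fin q → Ξ, ∑ i, φ (c i) * ρ ⟨w (y i), hy₂ i⟩ = 0 → ∀ i, c i = 0)
    (a : F) (ha : a ∈ W) (k : ℕ) (hk : 0 < k) (hk₂ : w u ^ k * w a ∈ W)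
    (hk0 : ρ ⟨_, hk₂⟩ = 0) :
    ∃ (e₀ e₁ : E) (h₀ : algebraMap E F e₀ ∈ W) (h₁ : algebraMap E F e₁ ∈ W),
      ρ ⟨_, h₁⟩ ≠ 0 ∧ ρ ⟨_, h₀⟩ + ρ ⟨_, h₁⟩ * ρ ⟨a, ha⟩ = 0 := by
  have e1 : w (u ^ k * a) = w u ^ k * w a := by rw [map_mul, map_pow]
  have hk₂' : u ^ k * a ∈ W.comap (w : F →+* F) := by
    change w (u ^ k * a) ∈ W
    rw [e1]
    exact hk₂
  refine count_abs hfd hfr W (W.comap (w : F →+* F)) ρ
    (ρ.comp ((w : F →+* F).restrict (W.comap (w : F →+* F)) W fun _ hx => hx)) φ hE hsc u hu hu₂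
    h1 h2 y hy hy₂ hind a ha k hk hk₂' ?_
  rw [← hk0]
  change ρ ⟨w (u ^ k * a), _⟩ = _
  congr 1
  exact Subtype.ext e1

end Abs

/-- powers of `j` are independent over the series in `T ^ q` -/
theorem indep_qExpand {K : Type*} [Field K] {q : ℕ} [NeZero q] {t : LaurentSeries K} (ht0 : t ≠ 0)
    (ht : t.order = -1) (c : Fin q → LaurentSeries K)
    (h : ∑ i, qExpand K q (c i) * t ^ (i : ℕ) = 0) (i : Fin q) : c i = 0 := by
  classical
  by_contra hi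
  have hpow : ∀ n : ℕ, (t ^ n).order = -n := by
    intro n
    rw [HahnSeries.order_pow, ht]
    simp
  have hne : ∀ j, c j ≠ 0 → qExpand K q (c j) * t ^ (j : ℕ) ≠ 0 := fun j hj =>
    mul_ne_zero ((map_ne_zero_iff _ (qExpand_injective q)).mpr hj) (pow_ne_zero _ ht0)
  have hord : ∀ j, c j ≠ 0 → (qExpand K q (c j) * t ^ (j : ℕ)).order =
      q * (c j).order - j := by
    intro j hj
    rw [HahnSeries.order_mul ((map_ne_zero_iff _ (qExpand_injective q)).mpr hj)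
      (pow_ne_zero _ ht0), hpow]
    have h1 : (qExpand K q (c j)).order = q * (c j).order := by
      apply le_antisymm
      · apply HahnSeries.order_le_of_coeff_ne_zero
        rw [qExpand_coeff_mul]
        exact HahnSeries.coeff_order_eq_zero.not.mpr hj
      · by_contra hlt
        push Not at hlt
        have h2 : (qExpand K q (c j)).coeff (qExpand K q (c j)).order ≠ 0 :=
          HahnSeries.coeff_order_eq_zero.not.mpr
            ((map_ne_zero_iff _ (qExpand_injective q)).mpr hj)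
        by_cases hd : (q : ℤ) ∣ (qExpand K q (c j)).order
        · obtain ⟨m, hm⟩ := hd
          rw [hm, qExpand_coeff_mul] at h2
          have h3 : (c j).order ≤ m := HahnSeries.order_le_of_coeff_ne_zero h2
          rw [hm] at hlt
          have h4 : (0 : ℤ) < q := by exact_mod_cast Nat.pos_of_ne_zero (NeZero.ne q)
          exact absurd (mul_le_mul_of_nonneg_left h3 h4.le) (not_le.mpr hlt)
        · exact h2 (qExpand_coeff_of_not_dvd q _ hd)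
    rw [h1]
    ring
  set S := Finset.univ.filter fun j => c j ≠ 0 with hS
  have hSne : S.Nonempty := ⟨i, by simp [hS, hi]⟩
  obtain ⟨j₀, hj₀, hmin⟩ := Finset.exists_min_image S
    (fun j => (qExpand K q (c j) * t ^ (j : ℕ)).order) hSne
  have hj₀' : c j₀ ≠ 0 := (Finset.mem_filter.mp hj₀).2
  set d := (qExpand K q (c j₀) * t ^ (j₀ : ℕ)).order with hd
  have hc : (∑ j, qExpand K q (c j) * t ^ (j : ℕ)).coeff d =
      (qExpand K q (c j₀) * t ^ (j₀ : ℕ)).coeff d := by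
    rw [HahnSeries.coeff_sum]
    refine Finset.sum_eq_single_of_mem j₀ (Finset.mem_univ _) fun j _ hj => ?_
    by_cases hcj : c j = 0
    · rw [hcj, map_zero, zero_mul, HahnSeries.coeff_zero]
    · apply HahnSeries.coeff_eq_zero_of_lt_order
      refine lt_of_le_of_ne (hmin j (by simp [hS, hcj])) ?_
      rw [hd, hord j hcj, hord j₀ hj₀']
      intro he
      apply hj
      apply Fin.ext
      have h4 : (q : ℤ) ∣ (j : ℤ) - (j₀ : ℤ) :=
        ⟨(c j).order - (c j₀).order, by linarith⟩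
      have h5 : (j : ℤ) - (j₀ : ℤ) = 0 := by
        apply Int.eq_zero_of_abs_lt_dvd h4
        have h6 := j.2
        have h7 := j₀.2
        rw [abs_lt]
        constructor <;> omega
      omega
  rw [h, HahnSeries.coeff_zero] at hc
  exact HahnSeries.coeff_order_eq_zero.not.mpr (hne j₀ hj₀') hc.symm

end Fermat.Agent.MZ
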