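import Mathlib
import Fermat.Agent.MZ.Count
import Fermat.Agent.MZ.Deg

/-!
The residue field of the component of infinity of `X₀(qM)`, for arbitrary `M`.
-/

set_option autoImplicit false
set_option linter.unusedSectionVars false
set_option linter.style.haveILetI false

open Fermat.Agent.ModFun IntermediateField Fermat.Agent.Geo IsLocalRing Fermat.Agent.ESCore
open Fermat.Agent.LG Fermat.Agent.Flat ModularCurve Fermat.Agent.Lf Fermat.Agent.MP
open AlgebraicCurve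

noncomputable section

namespace Fermat.Agent.MZ

local notation "Qb" => AlgebraicClosure ℚ

section

variable {Ω : Type*} [Field Ω] {A : ValuationSubring Ω}

theorem qExpand_gA (q : ℕ) [NeZero q] {x : LaurentSeries Ω} (hx : x ∈ gA A) :
    ∃ h : qExpand Ω q x ∈ gA A, gAR (⟨_, h⟩ : gA A) =
      qExpand (ResidueField A) q (gAR (⟨x, hx⟩ : gA A)) := by
  obtain ⟨a, b, hb, hab⟩ := id hx
  have h1 : lA A (qExpand A q b) = qExpand Ω q (lA A b) := by
    rw [lA, ModularCurve.coeffMap_qExpand]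
  have h2 : lA A (qExpand A q a) = qExpand Ω q (lA A a) := by
    rw [lA, ModularCurve.coeffMap_qExpand]
  have h3 : lK A (qExpand A q b) = qExpand (ResidueField A) q (lK A b) := by
    rw [lK, ModularCurve.coeffMap_qExpand]
  have h4 : lK A (qExpand A q a) = qExpand (ResidueField A) q (lK A a) := by
    rw [lK, ModularCurve.coeffMap_qExpand]
  have hb' : lK A (qExpand A q b) ≠ 0 := by
    rw [h3]
    exact (map_ne_zero_iff _ (qExpand_injective q)).mpr hb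
  have h5 : lA A (qExpand A q b) * qExpand Ω q x = lA A (qExpand A q a) := by
    rw [h1, h2, ← map_mul, hab]
  refine ⟨⟨_, _, hb', h5⟩, ?_⟩
  rw [gAR_eq (x := ⟨_, ⟨_, _, hb', h5⟩⟩) hb' h5, gAR_eq (x := ⟨x, hx⟩) hb hab, map_div₀, h3, h4]

end

variable {A : ValuationSubring Qb} {q : ℕ} {M N : ℕ} [NeZero q] [NeZero M] [NeZero N]

theorem gAR_C_mul {c : Qb} (hc : c ∈ A) {x : LaurentSeries Qb} (hx : x ∈ gA A) :
    ∃ h : HahnSeries.C c * x ∈ gA A, gAR (⟨_, h⟩ : gA A) =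
      HahnSeries.C (residue A ⟨c, hc⟩) * gAR (⟨x, hx⟩ : gA A) := by
  obtain ⟨h, h'⟩ := mul_gA (C_mem_gA (⟨c, hc⟩ : A)) hx
  refine ⟨h, h'.trans ?_⟩
  rw [← gAR_C]

/-- scaling a finite family -/
theorem scale_fam (hq : q.Prime) (hA : A.LiesOverPrime q) {α : Type*} [Finite α]
    (g : α → F0 Qb M) (hg : ∃ i, g i ≠ 0) :
    ∃ s : Qb, (∀ i, HahnSeries.C s * (g i : LaurentSeries Qb) ∈ gA A) ∧
      ∃ i, ∃ h : HahnSeries.C s * (g i : LaurentSeries Qb) ∈ gA A,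
        gAR (⟨_, h⟩ : gA A) ≠ 0 := by
  classical
  have h1 : ∀ i, ∃ c : Qb, g i ≠ 0 → c ≠ 0 ∧
      ∃ h : HahnSeries.C c * (g i : LaurentSeries Qb) ∈ gA A, gAR (⟨_, h⟩ : gA A) ≠ 0 := by
    intro i
    by_cases hi : g i = 0
    · exact ⟨1, fun h => absurd hi h⟩
    · obtain ⟨c, hc, h⟩ := exists_scale hq hA (g i).2 (fun h => hi (Subtype.ext h))
      exact ⟨c, fun _ => ⟨hc, h⟩⟩
  choose c hc using h1
  obtain ⟨s, hs0, hs, i, hi⟩ := Flat.exists_scale (A := A) (fun i => if g i = 0 then 0 else (c i)⁻¹)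
    (by
      obtain ⟨i, hi⟩ := hg
      refine ⟨i, ?_⟩
      rw [if_neg hi]
      exact inv_ne_zero (hc i hi).1)
  refine ⟨s, fun i => ?_, i, ?_⟩
  · by_cases hi : g i = 0
    · rw [hi, ZeroMemClass.coe_zero, mul_zero]
      exact zero_mem _
    · have h2 := hs i
      rw [if_neg hi] at h2
      obtain ⟨hci, h3, -⟩ := hc i hi
      obtain ⟨h4, -⟩ := gAR_C_mul h2 h3
      have e : (HahnSeries.C (s * (c i)⁻¹) * (HahnSeries.C (c i) * (g i : LaurentSeries Qb))) =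
          HahnSeries.C s * (g i : LaurentSeries Qb) := by
        rw [← mul_assoc, ← map_mul, inv_mul_cancel_right₀ hci]
      rw [e] at h4
      exact h4
  · by_cases hgi : g i = 0
    · rw [if_pos hgi, mul_zero] at hi
      exact absurd hi zero_ne_one
    · rw [if_neg hgi] at hi
      obtain ⟨hci, h3, h4⟩ := hc i hgi
      have e : s = c i := by
        rw [← div_eq_mul_inv, div_eq_one_iff_eq hci] at hi
        exact hi
      rw [e]
      exact ⟨h3, h4⟩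

theorem exists_pow_small (hq : q.Prime) (hA : A.LiesOverPrime q) {x y : LaurentSeries Qb}
    (hxF : x ∈ F0 Qb N) (hyF : y ∈ F0 Qb N) (hx : x ∈ gA A) (hx0 : gAR (⟨x, hx⟩ : gA A) = 0) :
    ∃ k : ℕ, 0 < k ∧ ∃ h : x ^ k * y ∈ gA A, gAR (⟨_, h⟩ : gA A) = 0 := by
  by_cases hxz : x = 0
  · refine ⟨1, one_pos, ?_⟩
    have e : x ^ 1 * y = 0 := by rw [hxz, pow_one, zero_mul]
    have h : x ^ 1 * y ∈ gA A := by rw [e]; exact zero_mem _
    refine ⟨h, ?_⟩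
    have e2 : (⟨_, h⟩ : gA A) = 0 := Subtype.ext e
    rw [e2, map_zero]
  by_cases hyz : y = 0
  · refine ⟨1, one_pos, ?_⟩
    have e : x ^ 1 * y = 0 := by rw [hyz, mul_zero]
    have h : x ^ 1 * y ∈ gA A := by rw [e]; exact zero_mem _
    refine ⟨h, ?_⟩
    have e2 : (⟨_, h⟩ : gA A) = 0 := Subtype.ext e
    rw [e2, map_zero]
  obtain ⟨c, hc0, hc, hcr⟩ := exists_scale hq hA hxF hxz
  obtain ⟨d, hd0, hd, hdr⟩ := exists_scale hq hA hyF hyz
  have hcA : c ∉ A := by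
    intro hcA
    obtain ⟨h1, h2⟩ := gAR_C_mul hcA hx
    exact hcr (h2.trans (by rw [hx0, mul_zero]))
  have h3 : ¬ ∀ i : ℕ, d * c ^ i ∈ A.toSubring := fun h => hcA (arch_A hq hA d c hd0 h)
  push Not at h3
  obtain ⟨i, hi⟩ := h3
  have hi' : (d * c ^ i)⁻¹ ∈ A := (A.mem_or_inv_mem _).resolve_left hi
  have hne : d * c ^ i ≠ 0 := mul_ne_zero hd0 (pow_ne_zero _ hc0)
  obtain ⟨h4, -⟩ := gAR_C_mul hi' (mul_mem hd (pow_mem hc i))
  have e : HahnSeries.C (d * c ^ i)⁻¹ * (HahnSeries.C d * y * (HahnSeries.C c * x) ^ i) =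
      x ^ i * y := by
    have h5 : HahnSeries.C d * y * (HahnSeries.C c * x) ^ i =
        HahnSeries.C (d * c ^ i) * (x ^ i * y) := by
      rw [map_mul, map_pow, mul_pow]
      ring
    rw [h5, ← mul_assoc, ← map_mul, inv_mul_cancel₀ hne, map_one, one_mul]
  rw [e] at h4
  refine ⟨i + 1, Nat.succ_pos i, ?_⟩
  obtain ⟨h6, h7⟩ := mul_gA hx h4
  have e3 : x ^ (i + 1) * y = x * (x ^ i * y) := by ring
  have h8 : x ^ (i + 1) * y ∈ gA A := by rw [e3]; exact h6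
  refine ⟨h8, ?_⟩
  have e4 : (⟨_, h8⟩ : gA A) = ⟨_, h6⟩ := Subtype.ext e3
  rw [e4, h7, hx0, zero_mul]

theorem finrank_q (hq : q.Prime) (hN : N = q * M) :
    letI := algI (F0_mono (K := Qb) (dvd₂ hN dvd_rfl))
    FiniteDimensional (F0 Qb M) (F0 Qb N) ∧ Module.finrank (F0 Qb M) (F0 Qb N) ≤ q + 1 := by
  obtain ⟨h1, h2⟩ := finrank_LJ ιC M
  obtain ⟨h3, h4⟩ := finrank_LJ ιC N
  have t := tower_I (LJ_le_F0 (K := Qb) M) (F0_mono (K := Qb) (dvd₂ hN dvd_rfl))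
    (LJ_le_F0 (K := Qb) N)
  rcases psi_step hq (NeZero.ne M) with hs | hs
  · rw [show ModularCurve.dedekindPsi N = ModularCurve.dedekindPsi M * q by rw [hN, hs]] at h4
    obtain ⟨h5, h6⟩ := @finrank_quot (LJ Qb) (F0 Qb M) (F0 Qb N) _ _ _
      (algI (LJ_le_F0 (K := Qb) M)) (algI (F0_mono (K := Qb) (dvd₂ hN dvd_rfl)))
      (algI (LJ_le_F0 (K := Qb) N)) t h1 h3 _ _ h2 h4
    exact ⟨h5, by rw [h6]; exact Nat.le_succ q⟩
  · rw [show ModularCurve.dedekindPsi N = ModularCurve.dedekindPsi M * (q + 1) by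
      rw [hN, hs]] at h4
    obtain ⟨h5, h6⟩ := @finrank_quot (LJ Qb) (F0 Qb M) (F0 Qb N) _ _ _
      (algI (LJ_le_F0 (K := Qb) M)) (algI (F0_mono (K := Qb) (dvd₂ hN dvd_rfl)))
      (algI (LJ_le_F0 (K := Qb) N)) t h1 h3 _ _ h2 h4
    exact ⟨h5, by rw [h6]⟩

/-- **The residue field of the component of infinity of `X₀(qM)` is that of `X₀(M)`.** -/
theorem FbK_mul_le (hq : q.Prime) (hA : A.LiesOverPrime q) (hN : N = q * M) (hqM : ¬ q ∣ M) :
    FbK A N ≤ FbK A M := by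
  have hcop : q.Coprime M := (Nat.Prime.coprime_iff_not_dvd hq).mpr hqM
  obtain ⟨B⟩ : Nonempty (Bez q M) := nonempty_bez hcop
  have hchar : CharP (ResidueField A) q := FrobDensity.charP_residue hq hA
  have hexp : ExpChar (ResidueField A) q := ExpChar.prime hq
  have hle : F0 Qb M ≤ F0 Qb N := F0_mono (K := Qb) (dvd₂ hN dvd_rfl)
  letI := algI hle
  obtain ⟨hfd, hfr⟩ := finrank_q (M := M) hq hN
  obtain ⟨w, hw⟩ : ∃ w : F0 Qb N ≃+* F0 Qb N, w = B.wF ιC hq hN := ⟨_, rfl⟩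
  have hww : ∀ x, w (w x) = x := fun x => by rw [hw]; exact B.wF_wF hq hN x
  have hwl : ∀ x : F0 Qb M, (w (algebraMap (F0 Qb M) (F0 Qb N) x) : LaurentSeries Qb) =
      qExpand Qb q (x : LaurentSeries Qb) := fun x => by rw [hw]; exact B.wF_level hq hN hle x
  -- the function `j` and its transform
  obtain ⟨J, hJe⟩ : ∃ J : F0 Qb N, J = algebraMap (F0 Qb M) (F0 Qb N) (jF Qb M) := ⟨_, rfl⟩
  have hJc : (J : LaurentSeries Qb) = jqModC Qb := by rw [hJe]; rfl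
  have hwJc : (w J : LaurentSeries Qb) = qExpand Qb q (jqModC Qb) := by rw [hJe, hwl]; rfl
  obtain ⟨hj, hjr⟩ := jq_gA (A := A)
  obtain ⟨hj', hjr'⟩ := qExpand_gA q hj
  have hJW : J ∈ W0 A N := by rw [mem_W0, hJc]; exact hj
  have hwJW : w J ∈ W0 A N := by rw [mem_W0, hwJc]; exact hj'
  have hρJ : ρ0 A N ⟨J, hJW⟩ = jqModC (ResidueField A) := by
    rw [ρ0_apply, ← hjr]
    congr 1
    exact Subtype.ext hJc
  have hρwJ : ρ0 A N ⟨w J, hwJW⟩ = jqModC (ResidueField A) ^ q := by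
    have h1 : jqModC (ResidueField A) ^ q = qExpand (ResidueField A) q
        (jqModC (ResidueField A)) := by
      rw [pow_eq_qExpand, coeffMap_jqModC]
    rw [ρ0_apply, h1, ← hjr, ← hjr']
    congr 1
    exact Subtype.ext hwJc
  -- the function `g` and its transform
  obtain ⟨g, hg⟩ : ∃ g : W0 A N, g = ⟨w J, hwJW⟩ - ⟨J, hJW⟩ ^ q := ⟨_, rfl⟩
  obtain ⟨g', hg'⟩ : ∃ g' : W0 A N, g' = ⟨J, hJW⟩ - ⟨w J, hwJW⟩ ^ q := ⟨_, rfl⟩
  have hwg : w (g : F0 Qb N) = g' := by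
    rw [hg, hg']
    change w (w J - J ^ q) = J - (w J) ^ q
    rw [map_sub, hww, map_pow]
  have hwg' : w (g' : F0 Qb N) = g := by rw [← hwg, hww]
  have hρg : ρ0 A N g = 0 := by rw [hg, map_sub, map_pow, hρJ, hρwJ, sub_self]
  have hρg' : ρ0 A N g' ≠ 0 := by
    rw [hg', map_sub, map_pow, hρJ, hρwJ, ← pow_mul, sub_ne_zero]
    intro h1
    have h2 := congrArg HahnSeries.order h1
    rw [HahnSeries.order_pow, order_jq] at h2
    have h3 := hq.two_le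
    rw [nsmul_eq_mul] at h2
    push_cast at h2
    nlinarith
  have hρh : ρ0 A N (g + g') ≠ 0 := by rw [map_add, hρg, zero_add]; exact hρg'
  have hhi : ((g + g' : W0 A N) : F0 Qb N)⁻¹ ∈ W0 A N := inv_mem_gA (x := ⟨_, (g + g').2⟩) hρh
  have hh0 : ((g + g' : W0 A N) : F0 Qb N) ≠ 0 := by
    intro h1
    have h2 : (g + g' : W0 A N) = 0 := Subtype.ext h1
    rw [h2, map_zero] at hρh
    exact hρh rfl
  obtain ⟨hi, hhc⟩ : ∃ hi : W0 A N, (hi : F0 Qb N) = ((g + g' : W0 A N) : F0 Qb N)⁻¹ :=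
    ⟨⟨_, hhi⟩, rfl⟩
  have hρhi : ρ0 A N (g + g') * ρ0 A N hi = 1 := by
    rw [← map_mul]
    have h1 : (g + g') * hi = 1 := by
      apply Subtype.ext
      rw [Subring.coe_mul, hhc, Subring.coe_one]
      exact mul_inv_cancel₀ hh0
    rw [h1, map_one]
  have hwh : w ((g + g' : W0 A N) : F0 Qb N) = ((g + g' : W0 A N) : F0 Qb N) := by
    rw [Subring.coe_add, map_add, hwg, hwg', add_comm]
  -- the function `u`
  obtain ⟨u, hu⟩ : ∃ u : W0 A N, u = g' * hi := ⟨_, rfl⟩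
  obtain ⟨u', hu'⟩ : ∃ u' : W0 A N, u' = g * hi := ⟨_, rfl⟩
  have hwu : w (u : F0 Qb N) = (u' : F0 Qb N) := by
    rw [hu, hu', Subring.coe_mul, Subring.coe_mul, hhc, map_mul, map_inv₀, hwh, hwg']
  have hρu : ρ0 A N u = 1 := by
    rw [hu, map_mul]
    rw [map_add, hρg, zero_add] at hρhi
    exact hρhi
  have hwuW : w (u : F0 Qb N) ∈ W0 A N := by rw [hwu]; exact u'.2
  have hρwu : ρ0 A N ⟨_, hwuW⟩ = 0 := by
    have h1 : (⟨_, hwuW⟩ : W0 A N) = u' := Subtype.ext hwu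
    rw [h1, hu', map_mul, hρg, zero_mul]
  rw [FbK, IntermediateField.adjoin_le_iff]
  rintro _ ⟨z, rfl⟩
  obtain ⟨k, hk, hk1, hk2⟩ := exists_pow_small hq hA (w (u : F0 Qb N)).2 (w (z : F0 Qb N)).2
    hwuW hρwu
  have hE : ∀ (e : F0 Qb M) (h : algebraMap (F0 Qb M) (F0 Qb N) e ∈ W0 A N),
      ∃ h₂ : w (algebraMap (F0 Qb M) (F0 Qb N) e) ∈ W0 A N,
        ρ0 A N ⟨_, h₂⟩ = qExpand (ResidueField A) q (ρ0 A N ⟨_, h⟩) := by
    intro e h
    obtain ⟨h1, h2⟩ := qExpand_gA (A := A) q (x := (e : LaurentSeries Qb)) h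
    have h3 : w (algebraMap (F0 Qb M) (F0 Qb N) e) ∈ W0 A N := by
      rw [mem_W0, hwl]
      exact h1
    refine ⟨h3, Eq.trans ?_ h2⟩
    rw [ρ0_apply]
    congr 1
    exact Subtype.ext (hwl e)
  have hsc : ∀ f : Fin 2 ⊕ Fin q → F0 Qb M, (∃ i, f i ≠ 0) → ∃ s : F0 Qb M,
      ∃ h : ∀ i, algebraMap (F0 Qb M) (F0 Qb N) (s * f i) ∈ W0 A N,
        ∃ i, ρ0 A N ⟨_, h i⟩ ≠ 0 := by
    intro f hf
    obtain ⟨s, hs, i, hi, hi'⟩ := scale_fam hq hA f hf
    have hC : ∀ i, ((algebraMap (F0 Qb M) (F0 Qb N) (algebraMap Qb (F0 Qb M) s * f i) :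
        F0 Qb N) : LaurentSeries Qb) = HahnSeries.C s * (f i : LaurentSeries Qb) := by
      intro i
      change ((algebraMap Qb (F0 Qb M) s : F0 Qb M) : LaurentSeries Qb) * (f i) = _
      congr 1
      exact algebraMap_laurent Qb _
    refine ⟨algebraMap Qb (F0 Qb M) s, fun i => ?_, i, ?_⟩
    · rw [mem_W0, hC]
      exact hs i
    · intro h0
      apply hi'
      rw [← h0, ρ0_apply]
      congr 1
      exact Subtype.ext (hC i).symm
  have hy₂ : ∀ i : Fin q, w (w J ^ (i : ℕ)) ∈ W0 A N := by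
    intro i
    rw [map_pow, hww]
    exact pow_mem hJW _
  have hρy : ∀ i : Fin q, ρ0 A N ⟨w (w J ^ (i : ℕ)), hy₂ i⟩ =
      jqModC (ResidueField A) ^ (i : ℕ) := by
    intro i
    have e : (⟨w (w J ^ (i : ℕ)), hy₂ i⟩ : W0 A N) = ⟨J, hJW⟩ ^ (i : ℕ) := by
      apply Subtype.ext
      change w (w J ^ (i : ℕ)) = J ^ (i : ℕ)
      rw [map_pow, hww]
    rw [e, map_pow, hρJ]
  have hj0 : jqModC (ResidueField A) ≠ 0 := by
    intro h
    have := order_jq (K := ResidueField A)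
    rw [h, HahnSeries.order_zero] at this
    norm_num at this
  obtain ⟨e₀, e₁, h₀, h₁, h2, h3⟩ := count_w (q := q) hfd hfr (W0 A N) (ρ0 A N)
    (qExpand (ResidueField A) q) w hE hsc (u : F0 Qb N) u.2 hwuW hρu hρwu
    (fun i => w J ^ (i : ℕ)) (fun i => pow_mem hwJW _) hy₂
    (fun c hc => indep_qExpand hj0 order_jq c (by
      rw [← hc]
      exact Finset.sum_congr rfl fun i _ => by rw [hρy]))
    (z : F0 Qb N) z.2 k hk hk1 hk2
  have h4 : ρ0 A N z = -ρ0 A N ⟨_, h₀⟩ / ρ0 A N ⟨_, h₁⟩ := by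
    rw [eq_div_iff h2, eq_neg_iff_add_eq_zero, ← h3]
    ring
  change ρ0 A N z ∈ FbK A M
  rw [h4]
  exact div_mem (neg_mem (ρ0_mem_FbK (M := M) ⟨e₀, h₀⟩)) (ρ0_mem_FbK (M := M) ⟨e₁, h₁⟩)

end Fermat.Agent.MZ
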