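import Mathlib
import Fermat.Agent.MP.End
import Fermat.Agent.LG.Swap
import Fermat.Agent.MZ.LiftM
import Fermat.Agent.MZ.URel

/-!
A class with trivial reductions is locally trivial.
-/

set_option autoImplicit false
set_option linter.unusedSectionVars false
set_option linter.unusedVariables false

open Fermat.Agent.ModFun IntermediateField Fermat.Agent.Geo IsLocalRing Fermat.Agent.ESCore
open Fermat.Agent.LG Fermat.Agent.Flat ModularCurve Fermat.Agent.Lf Fermat.Agent.MP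
open CongruenceSubgroup (Gamma0 Gamma0_mem)
open scoped MatrixGroups IntermediateField.algebraAdjoinAdjoin

noncomputable section

namespace Fermat.Agent.MZ

local notation "Qb" => AlgebraicClosure ℚ
local notation "GQ" => (AlgebraicClosure ℚ ≃ₐ[ℚ] AlgebraicClosure ℚ)

variable {A : ValuationSubring Qb} {q M N : ℕ} [NeZero q] [NeZero M] [NeZero N]

theorem sp_of_Qb {L : IntermediateField ℚ Qb} [IsDiscreteValuationRing (OL A L)] {π : OL A L}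
    (hπ : Prime π) {m : ℕ} (hmu : IsUnit (m : OL A L)) {x g : F0 L N} (hg : g ≠ 0)
    (hx : coeffMap (algebraMap L Qb) ((g ^ m * x : F0 L N) : LaurentSeries L) ∈ gA A)
    (h1 : gAR (⟨_, hx⟩ : gA A) = 1) : Sp π m x := by
  obtain ⟨v, hv, hv1⟩ := exists_one_add hπ hx h1
  have hSpx : Sp π m (g ^ m * x) := by
    rw [hv1]
    exact sp_one_unit hπ hmu hv
  have h2 := Sp.mul_pow_self (inv_ne_zero hg) hSpx
  rwa [inv_pow, inv_mul_cancel_left₀ (pow_ne_zero _ hg)] at h2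

/-- a function which reduces to a power -/
theorem exists_inv_factor (hN : M ∣ N) {m : ℕ} {x : LaurentSeries Qb} {c : Qb} (hc : c ≠ 0)
    (hx : HahnSeries.C (c ^ m) * x ∈ gA A) {g : LaurentSeries (ResidueField A)}
    (hg : g ∈ FbK A M) (hg0 : g ≠ 0) (hgx : gAR (⟨_, hx⟩ : gA A) = g ^ m) :
    ∃ z ∈ F0 Qb N, z ≠ 0 ∧ ∃ hz : z ^ m * x ∈ gA A, gAR (⟨_, hz⟩ : gA A) = 1 := by
  obtain ⟨w, hw⟩ := exists_of_mem_FbK hg
  have hwA : ((w : F0 Qb M) : LaurentSeries Qb) ∈ gA A := w.2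
  have hwg : gAR (⟨((w : F0 Qb M) : LaurentSeries Qb), hwA⟩ : gA A) = g := hw
  have hw0 : gAR (⟨((w : F0 Qb M) : LaurentSeries Qb), hwA⟩ : gA A) ≠ 0 := by
    rw [hwg]; exact hg0
  obtain ⟨h1, h2⟩ := inv_gA hwA hw0
  obtain ⟨h3, h4⟩ := pow_gA h1 m
  obtain ⟨h5, h6⟩ := mul_gA h3 hx
  have hwne : ((w : F0 Qb M) : LaurentSeries Qb) ≠ 0 := by
    intro h0
    apply hw0
    have : (⟨((w : F0 Qb M) : LaurentSeries Qb), hwA⟩ : gA A) = 0 := Subtype.ext h0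
    rw [this, map_zero]
  have e : (HahnSeries.C c * (((w : F0 Qb M) : LaurentSeries Qb))⁻¹) ^ m * x =
      (((w : F0 Qb M) : LaurentSeries Qb))⁻¹ ^ m * (HahnSeries.C (c ^ m) * x) := by
    have e1 : (HahnSeries.C (c ^ m) : LaurentSeries Qb) = HahnSeries.C c ^ m := map_pow _ _ _
    rw [mul_pow, e1]
    ring
  have hcne : (HahnSeries.C c : LaurentSeries Qb) ≠ 0 :=
    fun h => hc (HahnSeries.C_injective (h.trans (map_zero _).symm))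
  refine ⟨HahnSeries.C c * (((w : F0 Qb M) : LaurentSeries Qb))⁻¹, ?_,
    mul_ne_zero hcne (inv_ne_zero hwne), by rw [e]; exact h5, ?_⟩
  · refine mul_mem ?_ (inv_mem (F0_mono (K := Qb) hN (w : F0 Qb M).2))
    rw [← Fermat.Agent.Flat.algebraMap_laurent]
    exact (F0 Qb N).algebraMap_mem c
  · have e2 : ∀ z : LaurentSeries Qb, z = (((w : F0 Qb M) : LaurentSeries Qb))⁻¹ ^ m *
        (HahnSeries.C (c ^ m) * x) → ∀ hz : z ∈ gA A, gAR (⟨z, hz⟩ : gA A) = 1 := by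
      rintro _ rfl hz
      rw [h6, h4, h2, hwg, hgx, inv_pow, inv_mul_cancel₀ (pow_ne_zero m hg0)]
    exact e2 _ e _

/-- **A class with trivial reductions is locally trivial.** -/
theorem lw_of_red (hq : q.Prime) (hA : A.LiesOverPrime q) (B : Bez q M) (hN : N = q * M)
    {m : ℕ} (hm : 0 < m) (hqm : ¬ q ∣ m) {ψ : XG N m} (hψ : IsPar ψ.1)
    {y : LaurentSeries Qb} (hy : XSer ιC N ψ.1 y) (hy0 : y ≠ 0)
    (h1 : ∃ c : Qb, c ≠ 0 ∧ ∃ hx : (HahnSeries.C c * y) ^ m ∈ gA A,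
      ∃ g ∈ FbK A M, g ≠ 0 ∧ gAR (⟨_, hx⟩ : gA A) = g ^ m)
    (h2 : ∃ c : Qb, c ≠ 0 ∧ ∃ hx : HahnSeries.C (c ^ m) *
        (B.wF ιC hq hN ⟨y ^ m, hy.pow_mem_F0 ψ.2.1⟩ : LaurentSeries Qb) ∈ gA A,
      ∃ g ∈ FbK A M, g ≠ 0 ∧ gAR (⟨_, hx⟩ : gA A) = g ^ m) :
    ∃ (L : IntermediateField ℚ Qb) (_ : Ar A q L) (_ : IsDiscreteValuationRing (OL A L))
      (π : OL A L), Prime π ∧ LW B hq hN π m ψ.1 := by
  classical
  have hMN : M ∣ N := hN ▸ dvd_mul_left M q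
  obtain ⟨c₁, hc₁, hx₁, g₁, hg₁, hg₁0, hgx₁⟩ := h1
  obtain ⟨c₂, hc₂, hx₂, g₂, hg₂, hg₂0, hgx₂⟩ := h2
  have e₁ : (HahnSeries.C c₁ * y) ^ m = HahnSeries.C (c₁ ^ m) * y ^ m := by
    have e1 : (HahnSeries.C (c₁ ^ m) : LaurentSeries Qb) = HahnSeries.C c₁ ^ m := map_pow _ _ _
    rw [mul_pow, e1]
  have hx₁' : HahnSeries.C (c₁ ^ m) * y ^ m ∈ gA A := by rw [← e₁]; exact hx₁
  have hgx₁' : gAR (⟨_, hx₁'⟩ : gA A) = g₁ ^ m := by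
    rw [← hgx₁]
    congr 1
    exact Subtype.ext e₁.symm
  obtain ⟨z₁, hz₁, hz₁0, hz₁A, hz₁R⟩ := exists_inv_factor hMN hc₁ hx₁' hg₁ hg₁0 hgx₁'
  obtain ⟨z₂, hz₂, hz₂0, hz₂A, hz₂R⟩ := exists_inv_factor hMN hc₂ hx₂ hg₂ hg₂0 hgx₂
  obtain ⟨S₁, hS₁⟩ := exists_finset_F0 hz₁
  obtain ⟨S₂, hS₂⟩ := exists_finset_F0 hz₂
  obtain ⟨S₃, hS₃⟩ := hy.finCoef hm ψ.2.1
  obtain ⟨L, h, hL⟩ := Ar.exists_of_finset hq hA (S₁ ∪ S₂ ∪ S₃)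
  have hdvr := h.dvr
  obtain ⟨π, hπ⟩ := IsDiscreteValuationRing.exists_prime (OL A L)
  have hmu : IsUnit (m : OL A L) := h.isUnit_natCast hqm
  obtain ⟨f₁, hf₁, hff₁⟩ := hS₁ L fun x hx => hL x (by simp [hx])
  obtain ⟨f₂, hf₂, hff₂⟩ := hS₂ L fun x hx => hL x (by simp [hx])
  obtain ⟨y', hyy, hy'⟩ := hy.descend (L := L) (FinCoef.mem hS₃ fun x hx => hL x (by simp [hx]))
  have hy'0 : y' ≠ 0 := by
    rintro rfl
    exact hy0 (hyy.symm.trans (map_zero _))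
  have hf₁0 : (⟨f₁, hf₁⟩ : F0 L N) ≠ 0 := by
    intro h0
    apply hz₁0
    rw [← hff₁, show f₁ = 0 from congrArg Subtype.val h0, map_zero]
  have hf₂0 : (⟨f₂, hf₂⟩ : F0 L N) ≠ 0 := by
    intro h0
    apply hz₂0
    rw [← hff₂, show f₂ = 0 from congrArg Subtype.val h0, map_zero]
  have k₁ : coeffMap (algebraMap L Qb) (((⟨f₁, hf₁⟩ : F0 L N) ^ m *
      ⟨y' ^ m, hy'.pow_mem_F0 ψ.2.1⟩ : F0 L N) : LaurentSeries L) = z₁ ^ m * y ^ m := by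
    have e1 : (((⟨f₁, hf₁⟩ : F0 L N) ^ m * ⟨y' ^ m, hy'.pow_mem_F0 ψ.2.1⟩ : F0 L N) :
        LaurentSeries L) = f₁ ^ m * y' ^ m := rfl
    rw [e1, map_mul, map_pow, map_pow, hff₁, hyy]
  have hw : coeffMap (algebraMap L Qb) (B.wF (ιL L) hq hN ⟨y' ^ m, hy'.pow_mem_F0 ψ.2.1⟩ :
      LaurentSeries L) = (B.wF ιC hq hN ⟨y ^ m, hy.pow_mem_F0 ψ.2.1⟩ : LaurentSeries Qb) :=
    B.wF_coeffMap hq hN (ιL L) ιC (algebraMap L Qb)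
      (h := ⟨y' ^ m, hy'.pow_mem_F0 ψ.2.1⟩) (h' := ⟨y ^ m, hy.pow_mem_F0 ψ.2.1⟩) (by
        change coeffMap (algebraMap L Qb) (y' ^ m) = y ^ m
        rw [map_pow, hyy])
  obtain ⟨W, hW⟩ : ∃ W, W = B.wF (ιL L) hq hN ⟨y' ^ m, hy'.pow_mem_F0 ψ.2.1⟩ := ⟨_, rfl⟩
  rw [← hW] at hw
  have k₂ : coeffMap (algebraMap L Qb) (((⟨f₂, hf₂⟩ : F0 L N) ^ m * W : F0 L N) :
      LaurentSeries L) = z₂ ^ m * (B.wF ιC hq hN ⟨y ^ m, hy.pow_mem_F0 ψ.2.1⟩ :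
        LaurentSeries Qb) := by
    have e1 : (((⟨f₂, hf₂⟩ : F0 L N) ^ m * W : F0 L N) : LaurentSeries L) =
        f₂ ^ m * (W : LaurentSeries L) := rfl
    rw [e1, map_mul, map_pow, hff₂, hw]
  have s₁ : Sp π m (⟨y' ^ m, hy'.pow_mem_F0 ψ.2.1⟩ : F0 L N) := by
    refine sp_of_Qb hπ hmu hf₁0 (by rw [k₁]; exact hz₁A) ?_
    rw [← hz₁R]
    congr 1
    exact Subtype.ext k₁
  have s₂ : Sp π m W := by
    refine sp_of_Qb hπ hmu hf₂0 (by rw [k₂]; exact hz₂A) ?_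
    rw [← hz₂R]
    congr 1
    exact Subtype.ext k₂
  rw [hW] at s₂
  exact ⟨L, h, hdvr, π, hπ, hψ, ψ.2.1, y', hy', hy'0, s₁, s₂⟩

/-- **The square of Frobenius on a class with trivial reductions.** -/
theorem cstar_red (hq : q.Prime) (hA : A.LiesOverPrime q) (hqM : ¬ q ∣ M) (hlev : GoodLev q M)
    (B : Bez q M) (hN : N = q * M)
    {m : ℕ} (hm : 0 < m) (hqm : ¬ q ∣ m) {ψ : XG N m} (hψ : IsPar ψ.1)
    {y : LaurentSeries Qb} (hy : XSer ιC N ψ.1 y) (hy0 : y ≠ 0)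
    (h1 : ∃ c : Qb, c ≠ 0 ∧ ∃ hx : (HahnSeries.C c * y) ^ m ∈ gA A,
      ∃ g ∈ FbK A M, g ≠ 0 ∧ gAR (⟨_, hx⟩ : gA A) = g ^ m)
    (h2 : ∃ c : Qb, c ≠ 0 ∧ ∃ hx : HahnSeries.C (c ^ m) *
        (B.wF ιC hq hN ⟨y ^ m, hy.pow_mem_F0 ψ.2.1⟩ : LaurentSeries Qb) ∈ gA A,
      ∃ g ∈ FbK A M, g ≠ 0 ∧ gAR (⟨_, hx⟩ : gA A) = g ^ m)
    {φ : GQ} (hφ : A.IsFrobeniusAt φ q) : galX N hm (φ * φ) ψ = ψ ^ (q ^ 2) := by
  obtain ⟨L, h, hdvr, π, hπ, hLW⟩ := lw_of_red hq hA B hN hm hqm hψ hy hy0 h1 h2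
  have hμ : ∀ ζ : Qb, ζ ^ m = 1 → ζ ∈ L := fun ζ hζ => h.le (root_mem_KI hq hA hqm hζ)
  refine cstar (B := B) (hq := hq) (hN := hN) h hqM hlev hm hμ hπ (χ := ψ) hLW
    (Or.inr ⟨φ, hφ, rfl⟩) ?_
  intro ζ hζ
  have h3 := frob_root hA hq hφ hqm hζ
  change φ (φ ζ) = _
  rw [h3, map_pow, h3, ← pow_mul, pow_two]

/-- **Frobenius on a class with trivial reductions.** -/
theorem swap_red (hq : q.Prime) (hA : A.LiesOverPrime q) (hqM : ¬ q ∣ M) (hlev : GoodLev q M)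
    (B : Bez q M) (hN : N = q * M)
    {m : ℕ} (hm : 0 < m) (hqm : ¬ q ∣ m) {ψ : XG N m} (hψ : IsPar ψ.1)
    {y : LaurentSeries Qb} (hy : XSer ιC N ψ.1 y) (hy0 : y ≠ 0)
    (h1 : ∃ c : Qb, c ≠ 0 ∧ ∃ hx : (HahnSeries.C c * y) ^ m ∈ gA A,
      ∃ g ∈ FbK A M, g ≠ 0 ∧ gAR (⟨_, hx⟩ : gA A) = g ^ m)
    (h2 : ∃ c : Qb, c ≠ 0 ∧ ∃ hx : HahnSeries.C (c ^ m) *
        (B.wF ιC hq hN ⟨y ^ m, hy.pow_mem_F0 ψ.2.1⟩ : LaurentSeries Qb) ∈ gA A,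
      ∃ g ∈ FbK A M, g ≠ 0 ∧ gAR (⟨_, hx⟩ : gA A) = g ^ m)
    {φ : GQ} (hφ : A.IsFrobeniusAt φ q) :
    B.wChar dvd_rfl hN (galX N hm φ ψ).1 * ψ.1 ^ q = 1 := by
  obtain ⟨L, h, hdvr, π, hπ, hLW⟩ := lw_of_red hq hA B hN hm hqm hψ hy hy0 h1 h2
  exact cstar_swap' h hqM hlev hm hqm hπ hLW hφ

end Fermat.Agent.MZ
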