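import Mathlib
import Fermat.Agent.MZ.Hecke
import Fermat.Agent.CD.Desc
import Fermat.Agent.LG.PowRoot
import Fermat.Agent.LG.LG1

/-!
Leading coefficients of the transforms under `w_q`.
-/

set_option autoImplicit false
set_option linter.unusedSectionVars false
set_option linter.unusedVariables false

open Matrix.SpecialLinearGroup
open scoped MatrixGroups
open Fermat.Agent.ModFun Fermat.Agent.ESCore
open CongruenceSubgroup (Gamma0 Gamma0_mem)
open Fermat.Agent.LG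

noncomputable section

namespace Fermat.Agent.MZ

section

variable {L : Type*} [Field L] {ι : L →+* ℂ} {q M N : ℕ} [NeZero q] [NeZero M] [NeZero N]

theorem leadingCoeff_C_mul {R : Type*} [Field R] (c : R) (x : LaurentSeries R) :
    (HahnSeries.C c * x).leadingCoeff = c * x.leadingCoeff := by
  rw [HahnSeries.leadingCoeff_mul, HahnSeries.C_apply, HahnSeries.leadingCoeff_of_single]

theorem leadingCoeff_coeffMap {R : Type*} [Field R] (f : L →+* R) (x : LaurentSeries L) :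
    (ModularCurve.coeffMap f x).leadingCoeff = f x.leadingCoeff := by
  by_cases hx : x = 0
  · rw [hx, map_zero, HahnSeries.leadingCoeff_zero, HahnSeries.leadingCoeff_zero, map_zero]
  have ho : (ModularCurve.coeffMap f x).order = x.order := by
    apply le_antisymm
    · apply HahnSeries.order_le_of_coeff_ne_zero
      rw [ModularCurve.coeffMap_coeff, Ne, map_eq_zero, ← HahnSeries.leadingCoeff_eq]
      exact HahnSeries.leadingCoeff_ne_zero.mpr hx
    · by_contra hcon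
      push Not at hcon
      have h1 : ModularCurve.coeffMap f x ≠ 0 := by
        rw [Ne, _root_.map_eq_zero]; exact hx
      have h2 := HahnSeries.leadingCoeff_ne_zero.mpr h1
      rw [HahnSeries.leadingCoeff_eq, ModularCurve.coeffMap_coeff,
        HahnSeries.coeff_eq_zero_of_lt_order hcon, map_zero] at h2
      exact h2 rfl
  rw [HahnSeries.leadingCoeff_eq, ho, ModularCurve.coeffMap_coeff, ← HahnSeries.leadingCoeff_eq]

theorem C_pow' {R : Type*} [Field R] (c : R) (n : ℕ) :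
    (HahnSeries.C c : LaurentSeries R) ^ n = HahnSeries.C (c ^ n) := (map_pow _ _ _).symm

theorem C_mul' {R : Type*} [Field R] (c d : R) :
    (HahnSeries.C c : LaurentSeries R) * HahnSeries.C d = HahnSeries.C (c * d) :=
  (map_mul _ _ _).symm

theorem coeffMap_C' {R : Type*} [Field R] (f : L →+* R) (a : L) :
    ModularCurve.coeffMap f (HahnSeries.C a) = HahnSeries.C (f a) := by
  rw [HahnSeries.C_apply, HahnSeries.C_apply, ModularCurve.coeffMap_single]

/-- the transform under `w_q` of a series, when the leading coefficient is an `m`-th power -/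
theorem exists_wSer_L (B : Bez q M) (hq : q.Prime) (hN : N = q * M) {χ : Gamma0 N →* ℂˣ}
    (hχ : IsPar χ) {m : ℕ} (hm : 0 < m) (hχm : χ ^ m = 1) {y : LaurentSeries L}
    (hy : XSer ι N χ y) (hy0 : y ≠ 0) {c : L}
    (hlc : (B.wF ι hq hN ⟨y ^ m, hy.pow_mem_F0 hχm⟩ : LaurentSeries L).leadingCoeff = c ^ m) :
    ∃ y'' : LaurentSeries L, XSer ι N (B.wChar dvd_rfl hN χ) y'' ∧
      y'' ^ m = (B.wF ι hq hN ⟨y ^ m, hy.pow_mem_F0 hχm⟩ : LaurentSeries L) := by
  obtain ⟨z, hz, hzm⟩ := B.exists_wSer_C hq hN hχ hχm hy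
  set W : LaurentSeries L := (B.wF ι hq hN ⟨y ^ m, hy.pow_mem_F0 hχm⟩ : LaurentSeries L) with hW
  have hh0 : (⟨y ^ m, hy.pow_mem_F0 hχm⟩ : F0 L N) ≠ 0 := fun h0 =>
    pow_ne_zero m hy0 (congrArg Subtype.val h0)
  have hW0 : W ≠ 0 := fun h0 => wF_ne_zero B hq hN ι hh0 (Subtype.ext h0)
  have hc0 : c ≠ 0 := by
    rintro rfl
    rw [zero_pow hm.ne'] at hlc
    exact HahnSeries.leadingCoeff_ne_zero.mpr hW0 hlc
  have hz0 : z ≠ 0 := by
    rintro rfl
    rw [zero_pow hm.ne'] at hzm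
    exact hW0 ((map_eq_zero_iff _ (RingHom.injective (ModularCurve.coeffMap ι))).mp hzm.symm)
  have hlz : z.leadingCoeff ≠ 0 := HahnSeries.leadingCoeff_ne_zero.mpr hz0
  have hlz2 : z.leadingCoeff ^ m = ι c ^ m := by
    rw [← CA.leadingCoeff_pow', hzm, leadingCoeff_coeffMap, hlc, map_pow]
  -- normalise
  set z₁ := HahnSeries.C (z.leadingCoeff)⁻¹ * z with hz₁
  have h1 : z₁.coeff z₁.order = 1 := by
    rw [← HahnSeries.leadingCoeff_eq, hz₁, leadingCoeff_C_mul, inv_mul_cancel₀ hlz]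
  have h2 : z₁ ^ m = ModularCurve.coeffMap ι (HahnSeries.C (c⁻¹ ^ m) * W) := by
    have e : (z.leadingCoeff)⁻¹ ^ m = ι (c⁻¹ ^ m) := by
      rw [inv_pow, hlz2, map_pow, map_inv₀, inv_pow]
    rw [hz₁, mul_pow, hzm, C_pow', e, map_mul, coeffMap_C']
  obtain ⟨z', hz'⟩ := exists_coeffMap_of_pow ι h1 hm h2
  have h3 : ModularCurve.coeffMap ι (HahnSeries.C c * z') =
      HahnSeries.C (ι c * (z.leadingCoeff)⁻¹) * z := by
    rw [map_mul, hz', hz₁, ← mul_assoc, coeffMap_C', C_mul']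
  refine ⟨HahnSeries.C c * z', ?_, ?_⟩
  · rw [← xSer_coeffMap_iff (ι' := RingHom.id ℂ) ι (RingHom.id_comp ι), h3]
    exact CD.xSer_C_mul _ hz
  · apply RingHom.injective (ModularCurve.coeffMap ι)
    rw [map_pow, h3, mul_pow, hzm, C_pow', mul_pow, inv_pow, hlz2,
      mul_inv_cancel₀ (pow_ne_zero _ ((map_ne_zero ι).mpr hc0)), map_one, one_mul]

/-- **The class in the group of components of `T_l ψ / ψ ^ (l + 1)` is trivial.** -/
theorem exists_ser_hecke (B : Bez q M) (hq : q.Prime) (hN : N = q * M) {ψ : Gamma0 N →* ℂˣ}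
    {m : ℕ} (hm : 0 < m) (hψm : ψ ^ m = 1) {y : LaurentSeries L}
    (hy : XSer ι N ψ y) (hy0 : y ≠ 0) {l : ℕ} [NeZero l] (hl : l.Prime) (hlN : ¬ l ∣ N) {ζ : Lˣ}
    (hζ : IsPrimitiveRoot ζ l) (hroot : ∀ k : ℤ, ∃ v : L, v ^ m = ((ζ ^ k : Lˣ) : L))
    {χ : Gamma0 N →* ℂˣ} (hχ : χ = heckeChar hl hlN ψ * ψ ^ ((m - 1) * (l + 1))) (hχm : χ ^ m = 1) :
    ∃ (y' : LaurentSeries L) (hy' : XSer ι N χ y') (c : L), y' ≠ 0 ∧
      (B.wF ι hq hN ⟨y' ^ m, hy'.pow_mem_F0 hχm⟩ : LaurentSeries L).leadingCoeff = c ^ m := by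
  set n := (m - 1) * (l + 1) with hn
  have hy' : XSer ι N χ (tN l ζ y * y ^ n) := by
    rw [hχ]
    exact (hy.tN hl hlN hζ).mul (hy.pow n)
  -- series with trivial character
  have hx : XSer ι N 1 (y ^ m) := by
    have := hy.pow m
    rwa [hψm] at this
  have hx' : XSer ι N 1 (tN l ζ (y ^ m)) := by
    have := hx.tN hl hlN hζ
    rwa [heckeChar_one] at this
  have e1 : (⟨(tN l ζ y * y ^ n) ^ m, hy'.pow_mem_F0 hχm⟩ : F0 L N) =
      ⟨tN l ζ (y ^ m), hx'.mem_F0⟩ * ⟨y ^ m, hx.mem_F0⟩ ^ n := by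
    apply Subtype.ext
    change (tN l ζ y * y ^ n) ^ m = tN l ζ (y ^ m) * (y ^ m) ^ n
    rw [mul_pow, tN_pow hζ, ← pow_mul, ← pow_mul, mul_comm n m]
  set W : LaurentSeries L := (B.wF ι hq hN ⟨y ^ m, hx.mem_F0⟩ : LaurentSeries L) with hW
  obtain ⟨k, hk⟩ := leadingCoeff_tN hζ W
  obtain ⟨v, hv⟩ := hroot k
  refine ⟨_, hy', v * W.leadingCoeff ^ (l + 1), mul_ne_zero (tN_ne_zero hζ hy0)
    (pow_ne_zero _ hy0), ?_⟩
  have e2 : (B.wF ι hq hN ⟨(tN l ζ y * y ^ n) ^ m, hy'.pow_mem_F0 hχm⟩ : LaurentSeries L) =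
      tN l ζ W * W ^ n := by
    rw [e1, map_mul, map_pow]
    change (B.wF ι hq hN ⟨tN l ζ (y ^ m), hx'.mem_F0⟩ : LaurentSeries L) *
      (B.wF ι hq hN ⟨y ^ m, hx.mem_F0⟩ : LaurentSeries L) ^ n = _
    rw [wF_tN B hq hN hl hlN hζ hx hx']
  rw [e2, HahnSeries.leadingCoeff_mul, hk, CA.leadingCoeff_pow', mul_pow, hv, mul_assoc, ← pow_mul,
    ← pow_add]
  congr 2
  rw [hn]
  obtain ⟨m', rfl⟩ : ∃ m', m = m' + 1 := ⟨m - 1, by omega⟩
  rw [Nat.add_sub_cancel]
  ring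

end

end Fermat.Agent.MZ
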