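import Mathlib
import Fermat.Agent.CA.CarI
import Fermat.Agent.CA.Ord
import Fermat.Agent.MZ.Lc
import Fermat.Agent.ESCore.ResLevel

/-!
Divisibility of the vertical part for the classes of level `qM`.
-/

set_option autoImplicit false
set_option linter.unusedSectionVars false
set_option linter.unusedVariables false

open IsLocalRing Polynomial ModularCurve IntermediateField

noncomputable section

universe u

namespace Fermat.Agent.MZ

open Fermat.Agent.Geo Fermat.Agent.LG Fermat.Agent.ModFun Fermat.Agent.CA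
open Fermat.Agent.ESCore (HauptFn haupt2 haupt3 resChar Gamma0_le_of_dvd)
open CongruenceSubgroup (Gamma0)

/-! ### change of level -/

theorem xSer_resChar {L : Type*} [Field L] {ι : L →+* ℂ} {N₁ N₂ : ℕ} [NeZero N₁] [NeZero N₂]
    (h : N₁ ∣ N₂) {χ : Gamma0 N₁ →* ℂˣ} {y : LaurentSeries L} (hy : XSer ι N₁ χ y) :
    XSer ι N₂ (resChar h χ) y := by
  obtain ⟨f, hf, hf', hfy⟩ := hy
  exact ⟨f, hf, fun γ τ => hf' ⟨γ, Gamma0_le_of_dvd h γ.2⟩ τ, hfy⟩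

theorem isPar_resChar {N₁ N₂ : ℕ} (h : N₁ ∣ N₂) {χ : Gamma0 N₁ →* ℂˣ} (hχ : IsPar χ) :
    IsPar (resChar h χ) := fun γ hγ => hχ ⟨γ, Gamma0_le_of_dvd h γ.2⟩ hγ

theorem resChar_pow {N₁ N₂ m : ℕ} (h : N₁ ∣ N₂) {χ : Gamma0 N₁ →* ℂˣ} (hχ : χ ^ m = 1) :
    (resChar h χ) ^ m = 1 :=
  (map_pow (resChar h) χ m).symm.trans ((congrArg (resChar h) hχ).trans (map_one _))

theorem qExpand_congr {K : Type*} [Field K] {a b : ℕ} [NeZero a] [NeZero b] (h : a = b)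
    (x : LaurentSeries K) : ModularCurve.qExpand K a x = ModularCurve.qExpand K b x := by
  subst h; rfl

theorem wF2_inc1 {K : Type u} [Field K] {q M N : ℕ} [NeZero q] [NeZero M] [NeZero N]
    (B₂ : Bez (q ^ 2) M) (B : Bez q M) (ι : K →+* ℂ) (hq : q.Prime) (hN : N = q ^ 2 * M)
    (x : F0 K (q * M)) : (B₂.wF2 ι hq hN (inc1 K hN x) : LaurentSeries K) =
      ModularCurve.qExpand K q (B.wF ι hq rfl x : LaurentSeries K) := by
  let f : F0 K (q * M) →+* LaurentSeries K :=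
    ((F0 K N).val.toRingHom.comp (B₂.wF2 ι hq hN : F0 K N →+* F0 K N)).comp (inc1 K hN)
  let g : F0 K (q * M) →+* LaurentSeries K :=
    ((ModularCurve.qExpand K q).comp (F0 K (q * M)).val.toRingHom).comp
      (B.wF ι hq rfl : F0 K (q * M) →+* F0 K (q * M))
  have h : f = g := by
    apply ringHom_ext_adjoin
    · intro a
      change ((B₂.wF2 ι hq hN (algebraMap K (F0 K N) a) : F0 K N) : LaurentSeries K) =
        ModularCurve.qExpand K q (B.wF ι hq rfl (algebraMap K (F0 K (q * M)) a) : LaurentSeries K)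
      rw [B₂.wF2_C, B.wF_C]
      change algebraMap K (LaurentSeries K) a =
        ModularCurve.qExpand K q (algebraMap K (LaurentSeries K) a)
      rw [ModularCurve.algebraMap_laurentSeries_eq_single, ModularCurve.qExpand_single, mul_zero]
    · rintro x ⟨d, hd0, hd, rfl⟩
      rcases dvd_cases hq hd with h | ⟨e, he, rfl⟩
      · change ((B₂.wF2 ι hq hN ⟨_, _⟩ : F0 K N) : LaurentSeries K) =
          ModularCurve.qExpand K q (B.wF ι hq rfl ⟨_, _⟩ : LaurentSeries K)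
        rw [B.wF_gen₁ hq rfl h]
        refine Eq.trans ((B₂.wPerm2 hq hN).wF_gen (B₂.swap_out h) (h.trans (dvd_sq₁ hN)) _) ?_
        rw [ModularCurve.qExpand_qExpand]
        exact qExpand_congr (by ring) _
      · have he0 : NeZero e := ⟨by rintro rfl; exact hd0.1 (Nat.mul_zero q)⟩
        change ((B₂.wF2 ι hq hN ⟨_, _⟩ : F0 K N) : LaurentSeries K) =
          ModularCurve.qExpand K q (B.wF ι hq rfl ⟨_, _⟩ : LaurentSeries K)
        rw [B.wF_gen₂ hq rfl he]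
        refine Eq.trans ((B₂.wPerm2 hq hN).wF_gen (B₂.swap_mid he)
          ((mul_dvd_mul_left q he).trans (dvd_sq₂ hN)) _) ?_
        rw [ModularCurve.qExpand_qExpand]
  exact congrArg (fun φ : F0 K (q * M) →+* LaurentSeries K => φ x) h

section

variable {O L O' L' : Type u} [CommRing O] [IsDomain O] [IsDiscreteValuationRing O]
    [Field L] [Algebra O L] [IsFractionRing O L] [CommRing O'] [IsDomain O']
    [IsDiscreteValuationRing O'] [Field L'] [Algebra O' L'] [IsFractionRing O' L']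
    {q M N p : ℕ} [NeZero q] [NeZero M] [NeZero N] [Fact p.Prime] {κ : ℤ}
    {i : L →+* L'} {i' : O →+* O'} {ζ : O'ˣ} {ι : L →+* ℂ} {ι' : L' →+* ℂ} {π : O}
    [Algebra O (Kt L p κ)] [Algebra O (F0 L M)] [Algebra O (F0 L N)]
    [Algebra (Kt L p κ) (F0 L M)] [Algebra (Kt L p κ) (F0 L N)] [Algebra (F0 L M) (F0 L N)]
    [IsScalarTower O (Kt L p κ) (F0 L M)] [IsScalarTower O (Kt L p κ) (F0 L N)]
    [IsScalarTower O (F0 L M) (F0 L N)] [IsScalarTower (Kt L p κ) (F0 L M) (F0 L N)]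

theorem inc1_mem0 {B : Bez (q ^ 2) M} {hq : q.Prime} {hN : N = q ^ 2 * M}
    {θ₁ : F0 L N →+* LaurentSeries L'}
    (D : L2 (O := O) (L := L) (O' := O') (L' := L') (K := Kt L p κ) (F := F0 L N) (F0 L M) q
      (tK L p κ) (tS O p κ) (algebraMap (F0 L N) (LaurentSeries L)) θ₁ i i' ζ
      (B.wF2 ι hq hN)) (x : F0 L (q * M)) :
    inc1 L hN x ∈ D.PP 0 ↔ (x : LaurentSeries L) ∈ gV O L := by
  change ((inc1 L hN x : F0 L N) : LaurentSeries L) ∈ gV O L ↔ _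
  rw [coe_inc1]

theorem inc1_mem1 {B : Bez (q ^ 2) M} {hq : q.Prime} {hN : N = q ^ 2 * M}
    {θ₁ : F0 L N →+* LaurentSeries L'} (hθ : IsTh i q M N (CA.zL L' ζ) θ₁)
    (D : L2 (O := O) (L := L) (O' := O') (L' := L') (K := Kt L p κ) (F := F0 L N) (F0 L M) q
      (tK L p κ) (tS O p κ) (algebraMap (F0 L N) (LaurentSeries L)) θ₁ i i' ζ
      (B.wF2 ι hq hN)) (x : F0 L (q * M)) (h : (x : LaurentSeries L) ∈ gV O L) :
    inc1 L hN x ∈ D.PP 1 := by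
  have := D.loc
  change θ₁ (inc1 L hN x) ∈ gV O' L'
  have h1 : θ₁ (inc1 L hN x) = coeffMap i (x : LaurentSeries L) := hθ.low_eq hN x
  rw [h1]
  exact (coeffMap_gV D.comp h).1

theorem inc1_mem2 {B₂ : Bez (q ^ 2) M} (B : Bez q M) {hq : q.Prime} {hN : N = q ^ 2 * M}
    {θ₁ : F0 L N →+* LaurentSeries L'}
    (D : L2 (O := O) (L := L) (O' := O') (L' := L') (K := Kt L p κ) (F := F0 L N) (F0 L M) q
      (tK L p κ) (tS O p κ) (algebraMap (F0 L N) (LaurentSeries L)) θ₁ i i' ζ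
      (B₂.wF2 ι hq hN)) (x : F0 L (q * M)) (h : (B.wF ι hq rfl x : LaurentSeries L) ∈ gV O L) :
    inc1 L hN x ∈ D.PP 2 := by
  change ((B₂.wF2 ι hq hN (inc1 L hN x) : F0 L N) : LaurentSeries L) ∈ gV O L
  rw [wF2_inc1 B₂ B]
  exact qExpand_mem_gV q h

variable [CharZero O]

/-- the valuation along the first component is divisible by `m` -/
theorem dvd_level (C : Cpt O (Kt L p κ) (F0 L M) (F0 L N)) {B : Bez (q ^ 2) M} (hq : q.Prime)
    {hN : N = q ^ 2 * M} {θ₁ : F0 L N →+* LaurentSeries L'} {hπ : Prime π}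
    [FiniteDimensional (Kt L p κ) (F0 L M)] [Algebra.IsSeparable (Kt L p κ) (F0 L M)]
    [FiniteDimensional (Kt L p κ) (F0 L N)] [Algebra.IsSeparable (Kt L p κ) (F0 L N)]
    (D : L2 (O := O) (L := L) (O' := O') (L' := L') (K := Kt L p κ) (F := F0 L N) (F0 L M) q
      (tK L p κ) (tS O p κ) (algebraMap (F0 L N) (LaurentSeries L)) θ₁ i i' ζ
      (B.wF2 ι hq hN)) {ht : IsParam O (tK L p κ)} {c : ℕ → ℤ[X]} {C₀ : ℤ} {X₁ : F0 L N}
    (hX₁ : (X₁ : LaurentSeries L) = qExpand L q (tS L p κ))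
    (T : Tri (M := F0 L M) ht hπ q c C₀ D.PP (B.wF2 ι hq hN) X₁) (hNE : NoEll N) {m : ℕ}
    (hm : 0 < m) {χ : Gamma0 (q * M) →* ℂˣ} (hχ : IsPar χ) (hχm : χ ^ m = 1)
    {y : LaurentSeries L} (hy : XSer ι (q * M) χ y) (hy0 : y ≠ 0) {n : ℤ}
    (hn : Vl (D.PP 0) (algebraMap O (F0 L N) π) (inc1 L hN ⟨y ^ m, hy.pow_mem_F0 hχm⟩) n) :
    (m : ℤ) ∣ n := by
  obtain ⟨Z, hZ, hs⟩ := exists_ps_inv (L := L) (p := p) (κ := κ)
  have cEt : ((algebraMap (Kt L p κ) (F0 L N) (tK L p κ) : F0 L N) : LaurentSeries L) =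
      tS L p κ := C.KF (tK L p κ)
  have hor : Hor π m (inc1 L hN ⟨y ^ m, hy.pow_mem_F0 hχm⟩) :=
    hor_of_isPar (N := N) C.OF hπ hNE (isPar_resChar (dvd_sq₂ hN) hχ) hm
      (resChar_pow (dvd_sq₂ hN) hχm) (xSer_resChar (dvd_sq₂ hN) hy) hy0
  refine T.dvd_val (θ := algebraMap (F0 L N) (LaurentSeries L)) D.θC (Z := Z) ?_ hZ ?_ hm hor hn
    (y := y) rfl
  · rw [map_inv₀, map_inv₀]
    change ((algebraMap (Kt L p κ) (F0 L N) (tK L p κ) : F0 L N) : LaurentSeries L)⁻¹ = _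
    rw [cEt, hs]
  · rw [map_div₀, map_pow]
    have h1 := D.θw (algebraMap (Kt L p κ) (F0 L M) (tK L p κ))
    rw [← IsScalarTower.algebraMap_apply (Kt L p κ) (F0 L M) (F0 L N)] at h1
    rw [h1]
    change Un O (qExpand L (q ^ 2) ((algebraMap (Kt L p κ) (F0 L N) (tK L p κ) : F0 L N) :
      LaurentSeries L) / (X₁ : LaurentSeries L) ^ q)
    rw [cEt, hX₁]
    exact un_quot

/-- the vertical part is divisible by `m` -/
theorem ver_level (C : Cpt O (Kt L p κ) (F0 L M) (F0 L N)) {B₂ : Bez (q ^ 2) M} (B : Bez q M)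
    (hq : q.Prime)
    {hN : N = q ^ 2 * M} {θ₁ : F0 L N →+* LaurentSeries L'} {hπ : Prime π}
    (hθ : IsTh i q M N (CA.zL L' ζ) θ₁)
    [FiniteDimensional (Kt L p κ) (F0 L M)] [Algebra.IsSeparable (Kt L p κ) (F0 L M)]
    [FiniteDimensional (Kt L p κ) (F0 L N)] [Algebra.IsSeparable (Kt L p κ) (F0 L N)]
    (D : L2 (O := O) (L := L) (O' := O') (L' := L') (K := Kt L p κ) (F := F0 L N) (F0 L M) q
      (tK L p κ) (tS O p κ) (algebraMap (F0 L N) (LaurentSeries L)) θ₁ i i' ζ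
      (B₂.wF2 ι hq hN)) {ht : IsParam O (tK L p κ)} {c : ℕ → ℤ[X]} {C₀ : ℤ} {X₁ : F0 L N}
    (hX₁ : (X₁ : LaurentSeries L) = qExpand L q (tS L p κ))
    (T : Tri (M := F0 L M) ht hπ q c C₀ D.PP (B₂.wF2 ι hq hN) X₁) (hNE : NoEll N) {m : ℕ}
    (hm : 0 < m) {χ : Gamma0 (q * M) →* ℂˣ} (hχ : IsPar χ) (hχm : χ ^ m = 1)
    {y : LaurentSeries L} (hy : XSer ι (q * M) χ y) (hy0 : y ≠ 0)
    {y'' : LaurentSeries L} (hy'' : XSer ι (q * M) (B.wChar dvd_rfl rfl χ) y'')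
    (hyy : y'' ^ m = (B.wF ι hq rfl ⟨y ^ m, hy.pow_mem_F0 hχm⟩ : LaurentSeries L)) :
    Ver D.PP m (inc1 L hN ⟨y ^ m, hy.pow_mem_F0 hχm⟩) := by
  set h : F0 L (q * M) := ⟨y ^ m, hy.pow_mem_F0 hχm⟩ with hh
  have hp0 : algebraMap O (F0 L N) π ≠ 0 := T.π_ne
  have hh0 : h ≠ 0 := fun h0 => pow_ne_zero m hy0 (congrArg Subtype.val h0)
  -- the element `π` in the field of level `qM`
  set ϖ : F0 L (q * M) := algebraMap L (F0 L (q * M)) (algebraMap O L π) with hϖ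
  have hϖi : inc1 L hN ϖ = algebraMap O (F0 L N) π := by
    apply Subtype.ext
    rw [coe_inc1, C.OF, hϖ, coe_algebraMap_L]
  have hϖw : B.wF ι hq rfl ϖ = ϖ := B.wF_C hq rfl _
  have hϖ0 : ϖ ≠ 0 := by
    intro h0
    rw [h0, map_zero] at hϖi
    exact hp0 hϖi.symm
  have hy''0 : y'' ≠ 0 := by
    rintro rfl
    rw [zero_pow hm.ne'] at hyy
    exact wF_ne_zero B hq rfl ι hh0 (Subtype.ext hyy.symm)
  have hwm : (B.wChar dvd_rfl rfl χ) ^ m = 1 := by rw [← B.wChar_pow, hχm, B.wChar_one]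
  have hw : B.wF ι hq rfl h = ⟨y'' ^ m, hy''.pow_mem_F0 hwm⟩ := Subtype.ext hyy.symm
  have hwh0 : B.wF ι hq rfl h ≠ 0 := wF_ne_zero B hq rfl ι hh0
  have hi0 : ∀ {x : F0 L (q * M)}, x ≠ 0 → inc1 L hN x ≠ 0 := fun hx =>
    (map_ne_zero (inc1 L hN)).mpr hx
  -- valuations
  obtain ⟨n, hn⟩ := T.uni0.exists_vl (hi0 hh0)
  obtain ⟨n', hn'⟩ := T.uni0.exists_vl (hi0 hwh0)
  obtain ⟨k, hk⟩ := dvd_level C hq D hX₁ T hNE hm hχ hχm hy hy0 hn
  rw [hw] at hn'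
  obtain ⟨k', hk'⟩ := dvd_level C hq D hX₁ T hNE hm (B.wChar_isPar dvd_rfl rfl hχ) hwm hy'' hy''0
    hn'
  rw [← hw] at hn'
  -- elements of the first valuation ring
  have key : ∀ {x : F0 L (q * M)} {n k : ℤ}, Vl (D.PP 0) (algebraMap O (F0 L N) π) (inc1 L hN x) n →
      n = m * k → (((ϖ ^ (-k)) ^ m * x : F0 L (q * M)) : LaurentSeries L) ∈ gV O L ∧
      ((((ϖ ^ (-k)) ^ m * x)⁻¹ : F0 L (q * M)) : LaurentSeries L) ∈ gV O L := by
    intro x n k hx hnk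
    have e : inc1 L hN ((ϖ ^ (-k)) ^ m * x) = inc1 L hN x / algebraMap O (F0 L N) π ^ n := by
      rw [map_mul, map_pow, map_zpow₀, hϖi, hnk, zpow_neg, inv_pow, ← zpow_natCast, ← zpow_mul,
        mul_comm k, div_eq_mul_inv, mul_comm]
    have h1 : UC (D.PP 0) (inc1 L hN x / algebraMap O (F0 L N) π ^ n)
      (inc1 L hN x / algebraMap O (F0 L N) π ^ n) := hx
    rw [← e] at h1
    have h2 := h1.inv
    rw [← map_inv₀] at h2
    exact ⟨(inc1_mem0 D _).mp h1.mem, (inc1_mem0 D _).mp h2⟩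
  obtain ⟨a1, a2⟩ := key hn hk
  obtain ⟨b1, b2⟩ := key hn' hk'
  have hz : ∀ k : ℤ, ϖ ^ k ≠ 0 := fun k => zpow_ne_zero _ hϖ0
  have hg : ∀ (k : ℤ) (j : Fin 3), inc1 L hN ((ϖ ^ k) ^ m * h) ∈ D.PP j →
      inc1 L hN ((ϖ ^ k) ^ m * h)⁻¹ ∈ D.PP j → ∃ g : F0 L N, g ≠ 0 ∧
      g ^ m * inc1 L hN h ∈ D.PP j ∧ (g ^ m * inc1 L hN h)⁻¹ ∈ D.PP j := by
    intro k j h1 h2
    refine ⟨inc1 L hN (ϖ ^ k), hi0 (hz k), ?_, ?_⟩
    · rw [← map_pow, ← map_mul]; exact h1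
    · rw [← map_pow, ← map_mul, ← map_inv₀]; exact h2
  have hb : ∀ k : ℤ, B.wF ι hq rfl ((ϖ ^ k) ^ m * h) = (ϖ ^ k) ^ m * B.wF ι hq rfl h := by
    intro k
    rw [map_mul, map_pow, map_zpow₀, hϖw]
  intro j
  match j with
  | 0 => exact hg (-k) 0 ((inc1_mem0 D _).mpr a1) ((inc1_mem0 D _).mpr a2)
  | 1 => exact hg (-k) 1 (inc1_mem1 hθ D _ a1) (inc1_mem1 hθ D _ a2)
  | 2 =>
    refine hg (-k') 2 (inc1_mem2 B D _ ?_) (inc1_mem2 B D _ ?_)
    · rw [hb]; exact b1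
    · rw [map_inv₀, hb]; exact b2

end

end Fermat.Agent.MZ
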