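import Mathlib
import Fermat.Agent.MZ.Ver

/-!
Orders of the reductions of the classes of level `qM`.
-/

set_option autoImplicit false
set_option linter.unusedSectionVars false
set_option linter.unusedVariables false

open IsLocalRing Polynomial ModularCurve IntermediateField

noncomputable section

universe u v

namespace Fermat.Agent.MZ

open Fermat.Agent.Geo Fermat.Agent.LG Fermat.Agent.ModFun Fermat.Agent.CA
open Fermat.Agent.ESCore (HauptFn haupt2 haupt3 resChar Gamma0_le_of_dvd)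
open CongruenceSubgroup (Gamma0)

variable {O L O' L' : Type u} [CommRing O] [IsDomain O] [IsDiscreteValuationRing O]
    [Field L] [Algebra O L] [IsFractionRing O L] [CommRing O'] [IsDomain O']
    [IsDiscreteValuationRing O'] [Field L'] [Algebra O' L'] [IsFractionRing O' L']
    {q M N p : ℕ} [NeZero q] [NeZero M] [NeZero N] [Fact p.Prime] {κ : ℤ}
    {i : L →+* L'} {i' : O →+* O'} {ζ : O'ˣ} {ι : L →+* ℂ} {ι' : L' →+* ℂ} {π : O}
    {H : HauptFn p κ} {S : Set ℤ} {k : ℕ} {P : Polynomial ℤ}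

theorem algL (k : Type*) [Field k] (a : k) :
    algebraMap k (LaurentSeries k) a = HahnSeries.C a := by
  rw [ModularCurve.algebraMap_laurentSeries_eq_single, HahnSeries.C_apply]

/-- the residue map in the first component -/
theorem exists_red {F M : Type u} [Field F] [Field M] [Algebra M F]
    {θ : F →+* LaurentSeries L} {hθ : ∀ x, θ x ∈ gK O L}
    (hres : ∀ x ∈ gW θ hθ, ∃ f : M, algebraMap M F f ∈ gW θ hθ ∧
      x - algebraMap M F f ∈ (gW θ hθ).nonunits)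
    {κ' : Type v} [Field κ'] {r : ResidueField O →+* κ'}
    {Fb : IntermediateField κ' (LaurentSeries κ')}
    (hFb : ∀ f : M, ∀ hf : θ (algebraMap M F f) ∈ gV O L,
      coeffMap r (gR (⟨θ (algebraMap M F f), hf⟩ : gV O L)) ∈ Fb) :
    ∃ ρ : gW θ hθ →+* Fb, ∀ x : gW θ hθ, ((ρ x : Fb) : LaurentSeries κ') =
      coeffMap r (gR (⟨θ x, x.2⟩ : gV O L)) := by
  let ρ₀ : gW θ hθ →+* LaurentSeries κ' := (coeffMap r).comp (gρ θ hθ)
  have hρ : ∀ x : gW θ hθ, ρ₀ x ∈ Fb := by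
    intro x
    obtain ⟨f, hf, hxf⟩ := hres x x.2
    have h1 : gρ θ hθ (x - ⟨algebraMap M F f, hf⟩) = 0 := (gρ_eq_zero_iff _).mpr hxf
    rw [map_sub, sub_eq_zero] at h1
    change coeffMap r (gρ θ hθ x) ∈ Fb
    rw [h1]
    exact hFb f hf
  exact ⟨ρ₀.codRestrict Fb.toSubfield.toSubring hρ, fun x => rfl⟩

/-- scaling of a series -/
theorem scale_of_vl {F : Type u} [Field F] {θ : F →+* LaurentSeries L}
    {hθ : ∀ x, θ x ∈ gK O L} [Algebra O F] (hπ : Prime π)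
    (hC : ∀ a : O, θ (algebraMap O F a) = HahnSeries.C (algebraMap O L a)) {x : F} {n : ℤ}
    (hn : Vl (gW θ hθ) (algebraMap O F π) x n) {m : ℕ} (hmn : (m : ℤ) ∣ n) {y : LaurentSeries L}
    (hy : θ x = y ^ m) :
    ∃ c : L, c ≠ 0 ∧ ∃ hx : (HahnSeries.C c * y) ^ m ∈ gV O L, gR (⟨_, hx⟩ : gV O L) ≠ 0 := by
  obtain ⟨k, hk⟩ := hmn
  have hπL : algebraMap O L π ≠ 0 := by
    rw [Ne, map_eq_zero_iff _ (IsFractionRing.injective O L)]
    exact hπ.ne_zero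
  have h1 : UC (gW θ hθ) (x / algebraMap O F π ^ n) (x / algebraMap O F π ^ n) := hn
  have h2 := h1.inv
  have e : θ (x / algebraMap O F π ^ n) =
      (HahnSeries.C ((algebraMap O L π) ^ (-k)) * y) ^ m := by
    have h3 : (((algebraMap O L π) ^ (-k)) ^ m : L) = (algebraMap O L π) ^ (-n) := by
      rw [← zpow_natCast, ← zpow_mul, hk]
      congr 1
      ring
    have h4 : (HahnSeries.C (((algebraMap O L π) ^ (-n) : L)) : LaurentSeries L) =
        (HahnSeries.C (algebraMap O L π)) ^ (-n) := map_zpow₀ HahnSeries.C _ _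
    rw [map_div₀, map_zpow₀, hC, hy, mul_pow, C_pow', h3, h4, zpow_neg, div_eq_mul_inv, mul_comm]
  have hmem : (HahnSeries.C ((algebraMap O L π) ^ (-k)) * y) ^ m ∈ gV O L := by
    rw [← e]
    exact h1.mem
  refine ⟨(algebraMap O L π) ^ (-k), zpow_ne_zero _ hπL, hmem, ?_⟩
  intro h0
  have h3 : ((HahnSeries.C ((algebraMap O L π) ^ (-k)) * y) ^ m)⁻¹ ∈ gV O L := by
    rw [← e, ← map_inv₀]
    exact h2
  have h4 : (HahnSeries.C ((algebraMap O L π) ^ (-k)) * y) ^ m ≠ 0 := by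
    rw [← e, Ne, map_eq_zero]
    exact h1.ne
  have h5 : (⟨_, hmem⟩ : gV O L) * ⟨_, h3⟩ = 1 := Subtype.ext (mul_inv_cancel₀ h4)
  have h6 := congrArg gR h5
  rw [map_mul, h0, zero_mul, map_one] at h6
  exact zero_ne_one h6

section

variable [Algebra O (Kt L p κ)] [Algebra O (F0 L M)] [Algebra O (F0 L N)]
    [Algebra (Kt L p κ) (F0 L M)] [Algebra (Kt L p κ) (F0 L N)] [Algebra (F0 L M) (F0 L N)]
    [IsScalarTower O (Kt L p κ) (F0 L M)] [IsScalarTower O (Kt L p κ) (F0 L N)]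
    [IsScalarTower O (F0 L M) (F0 L N)] [IsScalarTower (Kt L p κ) (F0 L M) (F0 L N)]

set_option maxHeartbeats 400000 in
theorem ord_core_gen [CharZero O] [PerfectField (ResidueField O)] [ExpChar (ResidueField O) q]
    (C : Cpt O (Kt L p κ) (F0 L M) (F0 L N)) (B₂ : Bez (q ^ 2) M) (B : Bez q M)
    (hH : HautData H S k P) (hι : ι'.comp i = ι)
    {ζM : Lˣ} (hζM : ι ζM = Complex.exp (2 * Real.pi * Complex.I / M)) (hMu : IsUnit (M : O))
    (hS : ∀ c ∈ S, ∀ c' ∈ S, c ≠ c' → IsUnit ((c - c' : ℤ) : O))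
    (hq0 : (q : ResidueField O) = 0) (hq : q.Prime) (hqp : ¬ q ∣ p)
    (hN : N = q ^ 2 * M) (hqM : ¬ q ∣ M) (hpM : p ∣ M) (hπ : Prime π) (hqπ : (q : O) = π)
    (comp : ∀ a, i (algebraMap O L a) = algebraMap O' L' (i' a)) (loc : IsLocalHom i')
    (inj' : Function.Injective i') (hζ : IsPrimitiveRoot ζ q) (ζirr : Irreducible ((ζ : O') - 1))
    (ζpow : ∃ v : O'ˣ, ((ζ : O') - 1) ^ (q - 1) = v * q)
    (hC0 : IsUnit (((κ ^ 2 * (p : ℤ) ^ 4 : ℤ)) : O))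
    [FiniteDimensional (Kt L p κ) (F0 L M)] [Algebra.IsSeparable (Kt L p κ) (F0 L M)]
    [FiniteDimensional (Kt L p κ) (F0 L N)] [Algebra.IsSeparable (Kt L p κ) (F0 L N)]
    (ht : IsParam O (tK L p κ)) (good : ∃ S : Set O, GoodRed ht hπ S (F0 L M))
    (huniq : ∀ W : ValuationSubring (F0 L M),
      Over (gaussVal ht hπ) (algebraMap O (Kt L p κ) π) W →
      ∀ x : F0 L M, x ∈ W ↔ (x : LaurentSeries L) ∈ gV O L)
    (hNC : ∀ θ₁ : F0 L N →+* LaurentSeries L', IsTh i q M N (CA.zL L' ζ) θ₁ →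
      ∀ (D : L2 (O := O) (L := L) (O' := O') (L' := L') (K := Kt L p κ) (F := F0 L N) (F0 L M) q
      (tK L p κ) (tS O p κ) (algebraMap (F0 L N) (LaurentSeries L)) θ₁ i i' ζ
      (B₂.wF2 ι hq hN)) (c : ℕ → ℤ[X]) (C₀ : ℤ) (X₁ : F0 L N),
      Tri (M := F0 L M) ht hπ q c C₀ D.PP (B₂.wF2 ι hq hN) X₁ →
      ∃ (a1 : F0 L (q * M)) (a2 cc d : F0 L N),
        NC (algebraMap (Kt L p κ) (F0 L N) (tK L p κ)) π q D.PP (B₂.wF2 ι hq hN)
          (inc1 L hN a1) a2 cc d)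
    (hNE : NoEll N) {m : ℕ} (hm : 0 < m)
    {χ : Gamma0 (q * M) →* ℂˣ} (hχ : IsPar χ) (hχm : χ ^ m = 1) {y : LaurentSeries L}
    (hy : XSer ι (q * M) χ y) (hy0 : y ≠ 0)
    {y'' : LaurentSeries L} (hy'' : XSer ι (q * M) (B.wChar dvd_rfl rfl χ) y'')
    (hyy : y'' ^ m = (B.wF ι hq rfl ⟨y ^ m, hy.pow_mem_F0 hχm⟩ : LaurentSeries L))
    {κ' : Type v} [Field κ'] {r : ResidueField O →+* κ'}
    {Fb : IntermediateField κ' (LaurentSeries κ')}
    (hFb : ∀ f ∈ F0 L M, ∀ hf : f ∈ gV O L, coeffMap r (gR (⟨f, hf⟩ : gV O L)) ∈ Fb)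
    (htb : tS κ' p κ ∈ Fb) :
    (∃ c : L, c ≠ 0 ∧ ∃ hx : (HahnSeries.C c * y) ^ m ∈ gV O L, gR (⟨_, hx⟩ : gV O L) ≠ 0) ∧
    ∀ hx : y ^ m ∈ gV O L, gR (⟨y ^ m, hx⟩ : gV O L) ≠ 0 →
    ∃ hmem : coeffMap r (gR (⟨y ^ m, hx⟩ : gV O L)) ∈ Fb, ∀ V : ValuationSubring Fb,
      (∀ a : κ', algebraMap κ' Fb a ∈ V) →
      ((∃ b : O, (⟨tS κ' p κ, htb⟩ : Fb) - algebraMap κ' Fb (r (residue O b)) ∈ V.nonunits) ∨
        (⟨tS κ' p κ, htb⟩ : Fb)⁻¹ ∈ V.nonunits) →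
      ∃ g : Fb, g ≠ 0 ∧ (⟨_, hmem⟩ : Fb) / g ^ m ∈ V ∧ ((⟨_, hmem⟩ : Fb) / g ^ m)⁻¹ ∈ V := by
  obtain ⟨θ₁, hθ⟩ := exists_isTh hι hq hqM hN
    (hζ.map_of_injective (f := Units.map (algebraMap O' L' : O' →* L'))
      (Units.map_injective (IsFractionRing.injective O' L')))
  have D := l2_conc C B₂ hH hι hζM hMu hπ hS hq0 hq hqp hN hqM hpM comp loc inj' hζ ζirr ζpow hθ
  have hD := D.complete ht hπ hqπ
  have huniq' : ∀ W : ValuationSubring (F0 L M),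
      Over (gaussVal ht hπ) (algebraMap O (Kt L p κ) π) W → ∀ x : F0 L M,
      x ∈ W ↔ (algebraMap (F0 L N) (LaurentSeries L)) (algebraMap (F0 L M) (F0 L N) x) ∈
        gV O L := by
    intro W hW x
    have e : (algebraMap (F0 L N) (LaurentSeries L)) (algebraMap (F0 L M) (F0 L N) x) =
        (x : LaurentSeries L) := C.MF x
    rw [e]
    exact huniq W hW x
  obtain ⟨c, X₁, hX₁, T⟩ := tri_conc C B₂ hq hqp hN H hθ hπ hqπ D ht hC0 (D.gmodel good huniq')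
  obtain ⟨a1, a2, cc, d, hNC'⟩ := hNC θ₁ hθ D c _ X₁ T
  -- the element
  obtain ⟨h, hh⟩ : ∃ h : F0 L (q * M), h = ⟨y ^ m, hy.pow_mem_F0 hχm⟩ := ⟨_, rfl⟩
  have hh0 : h ≠ 0 := fun h0 => pow_ne_zero m hy0 (congrArg Subtype.val (hh.symm.trans h0))
  have hor : Hor π m (inc1 L hN ⟨y ^ m, hy.pow_mem_F0 hχm⟩) :=
    hor_of_isPar (N := N) C.OF hπ hNE (isPar_resChar (dvd_sq₂ hN) hχ) hm
      (resChar_pow (dvd_sq₂ hN) hχm) (xSer_resChar (dvd_sq₂ hN) hy) hy0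
  have hver := ver_level C B hq hθ D hX₁ T hNE hm hχ hχm hy hy0 hy'' hyy
  rw [← hh] at hor hver
  have hiv : ((inc1 L hN h : F0 L N) : LaurentSeries L) = y ^ m := by
    rw [coe_inc1, hh]
  have hne : inc1 L hN h ≠ 0 := (map_ne_zero (inc1 L hN)).mpr hh0
  refine ⟨?_, ?_⟩
  · obtain ⟨n, hn⟩ := T.uni0.exists_vl hne
    have hn' := hn
    rw [hh] at hn'
    have hmn := dvd_level C hq D hX₁ T hNE hm hχ hχm hy hy0 hn'
    exact scale_of_vl (hθ := D.hgK) hπ D.θC hn hmn hiv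
  intro hx hx0
  have h0 : inc1 L hN h ∈ D.PP 0 := by
    change ((inc1 L hN h : F0 L N) : LaurentSeries L) ∈ gV O L
    rw [hiv]
    exact hx
  have hyinv : (y ^ m)⁻¹ ∈ gV O L := isUnit_of_gR_ne_zero (x := (⟨y ^ m, hx⟩ : gV O L)) hx0
  have h0' : (inc1 L hN h)⁻¹ ∈ D.PP 0 := by
    change (algebraMap (F0 L N) (LaurentSeries L)) (inc1 L hN h)⁻¹ ∈ gV O L
    have : (algebraMap (F0 L N) (LaurentSeries L)) (inc1 L hN h) = y ^ m := hiv
    rw [map_inv₀, this]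
    exact hyinv
  -- the reduction
  obtain ⟨ρ, hρ⟩ : ∃ ρ : D.PP 0 →+* Fb, ∀ x : D.PP 0, ((ρ x : Fb) : LaurentSeries κ') =
      coeffMap r (gR (⟨(algebraMap (F0 L N) (LaurentSeries L)) (x : F0 L N), x.2⟩ : gV O L)) :=
    exists_red (O := O) (L := L) (M := F0 L M) (F := F0 L N)
    (θ := algebraMap (F0 L N) (LaurentSeries L)) (hθ := D.hgK) (r := r) (Fb := Fb)
    (fun x hx => T.res0 x hx) (by
      intro f hf
      have e : (algebraMap (F0 L N) (LaurentSeries L)) (algebraMap (F0 L M) (F0 L N) f) =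
        (f : LaurentSeries L) := C.MF f
      have hf' : (f : LaurentSeries L) ∈ gV O L := by rw [← e]; exact hf
      have h1 := hFb f f.2 hf'
      have e2 : (⟨_, hf⟩ : gV O L) = ⟨(f : LaurentSeries L), hf'⟩ := Subtype.ext e
      rw [e2]
      exact h1)
  have hρ0 : ∀ x : D.PP 0, (x : F0 L N) ∈ (D.PP 0).nonunits → ρ x = 0 := by
    intro x hx
    apply Subtype.ext
    rw [hρ x]
    have h1 := (mem_nonunits_iff_gR (hθ := D.hgK) x.2).mp hx
    rw [h1, map_zero]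
    rfl
  have hval : ((ρ ⟨inc1 L hN h, h0⟩ : Fb) : LaurentSeries κ') =
      coeffMap r (gR (⟨y ^ m, hx⟩ : gV O L)) := by
    rw [hρ]
    congr 2
    exact Subtype.ext hiv
  have hmem : coeffMap r (gR (⟨y ^ m, hx⟩ : gV O L)) ∈ Fb := by
    rw [← hval]
    exact (ρ _).2
  refine ⟨hmem, ?_⟩
  have hcst : ∀ (a : O) (h : algebraMap O (F0 L N) a ∈ D.PP 0),
      ρ ⟨_, h⟩ = algebraMap κ' Fb (r (residue O a)) := by
    intro a h
    apply Subtype.ext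
    rw [hρ]
    have h1 : (⟨(algebraMap (F0 L N) (LaurentSeries L)) (algebraMap O (F0 L N) a), h⟩ : gV O L) =
        ⟨HahnSeries.C (algebraMap O L a), C_mem_gV a⟩ := Subtype.ext (D.θC a)
    have h2 : gR (⟨(algebraMap (F0 L N) (LaurentSeries L)) (algebraMap O (F0 L N) a), h⟩ :
        gV O L) = HahnSeries.C (residue O a) := by
      rw [h1, gR_C]
    refine (congrArg (coeffMap r) h2).trans ?_
    rw [coeffMap_C']
    exact (algL κ' _).symm
  have htr : ∀ (h : algebraMap (Kt L p κ) (F0 L N) (tK L p κ) ∈ D.PP 0),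
      ρ ⟨_, h⟩ = ⟨tS κ' p κ, htb⟩ := by
    intro h
    apply Subtype.ext
    rw [hρ]
    have h1 : (⟨(algebraMap (F0 L N) (LaurentSeries L)) (algebraMap (Kt L p κ) (F0 L N)
        (tK L p κ)), h⟩ : gV O L) = ⟨toL O L (tS O p κ), toL_mem_gV _⟩ := Subtype.ext D.θt
    have h2 : gR (⟨(algebraMap (F0 L N) (LaurentSeries L)) (algebraMap (Kt L p κ) (F0 L N)
        (tK L p κ)), h⟩ : gV O L) = toK O (tS O p κ) := by
      rw [h1, gR_toL]
    refine (congrArg (coeffMap r) h2).trans ?_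
    change coeffMap r (coeffMap (residue O) (tS O p κ)) = _
    rw [coeffMap_tS, coeffMap_tS]
  intro V hVc hVt
  have hO : ∀ (a : O) (h : algebraMap O (F0 L N) a ∈ D.PP 0), ρ ⟨_, h⟩ ∈ V := by
    intro a h
    rw [hcst]
    exact hVc _
  have hfin : ∀ g : D.PP 0, (g : F0 L N) ≠ 0 → (g : F0 L N)⁻¹ ∈ D.PP 0 →
      ρ ⟨inc1 L hN h, h0⟩ / ρ g ^ m ∈ V → (ρ ⟨inc1 L hN h, h0⟩ / ρ g ^ m)⁻¹ ∈ V →
      ∃ g : Fb, g ≠ 0 ∧ (⟨_, hmem⟩ : Fb) / g ^ m ∈ V ∧ ((⟨_, hmem⟩ : Fb) / g ^ m)⁻¹ ∈ V := by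
    intro g hg hg' h1 h2
    have e : ρ ⟨inc1 L hN h, h0⟩ = ⟨_, hmem⟩ := Subtype.ext hval
    rw [e] at h1 h2
    refine ⟨ρ g, ?_, h1, h2⟩
    intro h3
    have h4 : g * ⟨(g : F0 L N)⁻¹, hg'⟩ = 1 := Subtype.ext (mul_inv_cancel₀ hg)
    have h5 := congrArg ρ h4
    rw [map_mul, h3, zero_mul, map_one] at h5
    exact zero_ne_one h5
  rcases hVt with ⟨b, hb⟩ | hb
  · obtain ⟨g, hg, hg', h1, h2⟩ := ord_dvd_fin T hNC' (ρ := ρ) hρ0 (V := V) hO (b := b) (by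
      intro hd
      have ht0 : algebraMap (Kt L p κ) (F0 L N) (tK L p κ) ∈ D.PP 0 :=
        chart_mem_over (T.sys.ov 0) (self_mem_chart _)
      have hb0 : algebraMap O (F0 L N) b ∈ D.PP 0 := T.O_mem 0 b
      have e : (⟨_, hd⟩ : D.PP 0) = ⟨_, ht0⟩ - ⟨_, hb0⟩ := Subtype.ext rfl
      rw [e, map_sub, htr, hcst]
      exact hb) hm h0 h0' hne hor hver
    exact hfin g hg hg' h1 h2
  · obtain ⟨g, hg, hg', h1, h2⟩ := ord_dvd_inf T (ρ := ρ) hρ0 (V := V) hO (by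
      intro hd
      have ht0 : algebraMap (Kt L p κ) (F0 L N) (tK L p κ) ∈ D.PP 0 :=
        chart_mem_over (T.sys.ov 0) (self_mem_chart _)
      have h3 : (⟨_, hd⟩ : D.PP 0) * ⟨_, ht0⟩ = 1 := by
        apply Subtype.ext
        change algebraMap (Kt L p κ) (F0 L N) (tK L p κ)⁻¹ *
          algebraMap (Kt L p κ) (F0 L N) (tK L p κ) = 1
        rw [map_inv₀, inv_mul_cancel₀ T.tF_ne]
      have h4 := congrArg ρ h3
      rw [map_mul, map_one, htr] at h4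
      rw [eq_inv_of_mul_eq_one_left h4]
      exact hb) hm h0 h0' hne hor hver
    exact hfin g hg hg' h1 h2

end

end Fermat.Agent.MZ
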