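import Mathlib
import Fermat.Agent.MZ.OrdC
import Fermat.Agent.CA.NC5
import Fermat.Agent.CA.CarJ

/-!
Orders of the reductions of the classes of level `qM`: the two levels.
-/

set_option autoImplicit false
set_option linter.unusedSectionVars false
set_option linter.unusedVariables false

open IsLocalRing Polynomial ModularCurve IntermediateField

noncomputable section

universe u v

namespace Fermat.Agent.MZ

open Fermat.Agent.Geo Fermat.Agent.LG Fermat.Agent.ModFun Fermat.Agent.CA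
open Fermat.Agent.ESCore (HauptFn haupt2 haupt3)
open CongruenceSubgroup (Gamma0)

variable {O L O' L' : Type u} [CommRing O] [IsDomain O] [IsDiscreteValuationRing O]
    [Field L] [Algebra O L] [IsFractionRing O L] [CommRing O'] [IsDomain O']
    [IsDiscreteValuationRing O'] [Field L'] [Algebra O' L'] [IsFractionRing O' L']
    {q M N : ℕ} [NeZero q] [NeZero M] [NeZero N]
    {i : L →+* L'} {i' : O →+* O'} {ζ : O'ˣ} {ι : L →+* ℂ} {ι' : L' →+* ℂ} {π : O}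

set_option maxHeartbeats 4000000 in
theorem ord_two [CharZero O] [PerfectField (ResidueField O)] [ExpChar (ResidueField O) q]
    (B₂ : Bez (q ^ 2) M) (B : Bez q M) (hι : ι'.comp i = ι)
    {ζM : Lˣ} (hζM : ι ζM = Complex.exp (2 * Real.pi * Complex.I / M)) (hMu : IsUnit (M : O))
    (hq0 : (q : ResidueField O) = 0) (hq : q.Prime) (hq2 : q ≠ 2)
    (hN : N = q ^ 2 * M) (hqM : ¬ q ∣ M) (h4 : 4 ∣ M) (hπ : Prime π) (hqπ : (q : O) = π)
    (comp : ∀ a, i (algebraMap O L a) = algebraMap O' L' (i' a)) (loc : IsLocalHom i')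
    (inj' : Function.Injective i') (hζ : IsPrimitiveRoot ζ q) (ζirr : Irreducible ((ζ : O') - 1))
    (ζpow : ∃ v : O'ˣ, ((ζ : O') - 1) ^ (q - 1) = v * q)
    (hNE : NoEll N) {m : ℕ} (hm : 0 < m)
    {χ : Gamma0 (q * M) →* ℂˣ} (hχ : IsPar χ) (hχm : χ ^ m = 1) {y : LaurentSeries L}
    (hy : XSer ι (q * M) χ y) (hy0 : y ≠ 0)
    {y'' : LaurentSeries L} (hy'' : XSer ι (q * M) (B.wChar dvd_rfl rfl χ) y'')
    (hyy : y'' ^ m = (B.wF ι hq rfl ⟨y ^ m, hy.pow_mem_F0 hχm⟩ : LaurentSeries L))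
    {κ' : Type v} [Field κ'] {r : ResidueField O →+* κ'}
    {Fb : IntermediateField κ' (LaurentSeries κ')}
    (hFb : ∀ f ∈ F0 L M, ∀ hf : f ∈ gV O L, coeffMap r (gR (⟨f, hf⟩ : gV O L)) ∈ Fb)
    (htb : tS κ' 2 16 ∈ Fb) :
    (∃ c : L, c ≠ 0 ∧ ∃ hx : (HahnSeries.C c * y) ^ m ∈ gV O L, gR (⟨_, hx⟩ : gV O L) ≠ 0) ∧
    ∀ hx : y ^ m ∈ gV O L, gR (⟨y ^ m, hx⟩ : gV O L) ≠ 0 →
    ∃ hmem : coeffMap r (gR (⟨y ^ m, hx⟩ : gV O L)) ∈ Fb, ∀ V : ValuationSubring Fb,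
      (∀ a : κ', algebraMap κ' Fb a ∈ V) →
      ((∃ b : O, (⟨tS κ' 2 16, htb⟩ : Fb) - algebraMap κ' Fb (r (residue O b)) ∈ V.nonunits) ∨
        (⟨tS κ' 2 16, htb⟩ : Fb)⁻¹ ∈ V.nonunits) →
      ∃ g : Fb, g ≠ 0 ∧ (⟨_, hmem⟩ : Fb) / g ^ m ∈ V ∧ ((⟨_, hmem⟩ : Fb) / g ^ m)⁻¹ ∈ V := by
  have h2M : 2 ∣ M := (by norm_num : 2 ∣ 4).trans h4
  have hqp : ¬ q ∣ 2 := fun hd => hq2 ((Nat.prime_dvd_prime_iff_eq hq Nat.prime_two).mp hd)
  have hle1 : Kt L 2 16 ≤ F0 L M := Kt_le_F0 haupt2 ι h2M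
  have hle2 : F0 L M ≤ F0 L N := F0_mono (K := L) (dvd_sq₁ hN)
  have hle3 : Kt L 2 16 ≤ F0 L N := hle1.trans hle2
  haveI hcL : CharZero L := charZero_of_injective_algebraMap (IsFractionRing.injective O L)
  have hu2 : IsUnit ((2 : ℕ) : O) := isUnit_of_dvd_natCast h2M hMu
  let iOK := algO O (Kt L 2 16)
  let iOM := algO O (F0 L M)
  let iOF := algO O (F0 L N)
  let iKM := algI hle1
  let iMF := algI hle2
  let iKF := algI hle3
  haveI t1 : IsScalarTower O (Kt L 2 16) (F0 L M) := tower_O O hle1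
  haveI t2 : IsScalarTower O (Kt L 2 16) (F0 L N) := tower_O O hle3
  haveI t3 : IsScalarTower O (F0 L M) (F0 L N) := tower_O O hle2
  haveI t4 : IsScalarTower (Kt L 2 16) (F0 L M) (F0 L N) := tower_I hle1 _ _
  have C : Cpt O (Kt L 2 16) (F0 L M) (F0 L N) :=
    { OK := coe_algO O _, OM := coe_algO O _, OF := coe_algO O _, KM := coe_algI _,
      KF := coe_algI _, MF := coe_algI _ }
  obtain ⟨ht, hgood, hfinM, huniq, -⟩ := goodRed_F0_two ι hζM hMu hπ h2M hle1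
  haveI := hfinM
  haveI hfinF : FiniteDimensional (F0 L M) (F0 L N) := (finrank_lev ι hq hqM hN).1
  haveI hfin : FiniteDimensional (Kt L 2 16) (F0 L N) :=
    FiniteDimensional.trans (Kt L 2 16) (F0 L M) (F0 L N)
  haveI : CharZero (Kt L 2 16) :=
    charZero_of_injective_algebraMap (algebraMap L (Kt L 2 16)).injective
  have hC0 : IsUnit ((((16 : ℤ) ^ 2 * ((2 : ℕ) : ℤ) ^ 4 : ℤ)) : O) := by
    have : ((((16 : ℤ) ^ 2 * ((2 : ℕ) : ℤ) ^ 4 : ℤ)) : O) = ((2 : ℕ) : O) ^ 12 := by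
      push_cast; norm_num
    rw [this]
    exact hu2.pow 12
  exact ord_core_gen C B₂ B haut2 hι hζM hMu (sep2 h2M hMu) hq0 hq hqp hN hqM h2M hπ hqπ comp loc
    inj' hζ ζirr ζpow hC0 ht ⟨_, hgood⟩ huniq
    (fun θ₁ hθ D c C₀ X₁ T => nc_conc_two C B₂ hq hN hq2 h4 hθ hζ hπ hqπ D ht T)
    hNE hm hχ hχm hy hy0 hy'' hyy hFb htb

set_option maxHeartbeats 4000000 in
theorem ord_three [CharZero O] [PerfectField (ResidueField O)] [ExpChar (ResidueField O) q]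
    (B₂ : Bez (q ^ 2) M) (B : Bez q M) (hι : ι'.comp i = ι)
    {ζM : Lˣ} (hζM : ι ζM = Complex.exp (2 * Real.pi * Complex.I / M)) (hMu : IsUnit (M : O))
    (hq0 : (q : ResidueField O) = 0) (hq : q.Prime) (hq2 : q = 2)
    (hN : N = q ^ 2 * M) (hqM : ¬ q ∣ M) (h4 : 9 ∣ M) (hπ : Prime π) (hqπ : (q : O) = π)
    (comp : ∀ a, i (algebraMap O L a) = algebraMap O' L' (i' a)) (loc : IsLocalHom i')
    (inj' : Function.Injective i') (hζ : IsPrimitiveRoot ζ q) (ζirr : Irreducible ((ζ : O') - 1))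
    (ζpow : ∃ v : O'ˣ, ((ζ : O') - 1) ^ (q - 1) = v * q)
    (hNE : NoEll N) {m : ℕ} (hm : 0 < m)
    {χ : Gamma0 (q * M) →* ℂˣ} (hχ : IsPar χ) (hχm : χ ^ m = 1) {y : LaurentSeries L}
    (hy : XSer ι (q * M) χ y) (hy0 : y ≠ 0)
    {y'' : LaurentSeries L} (hy'' : XSer ι (q * M) (B.wChar dvd_rfl rfl χ) y'')
    (hyy : y'' ^ m = (B.wF ι hq rfl ⟨y ^ m, hy.pow_mem_F0 hχm⟩ : LaurentSeries L))
    {κ' : Type v} [Field κ'] {r : ResidueField O →+* κ'}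
    {Fb : IntermediateField κ' (LaurentSeries κ')}
    (hFb : ∀ f ∈ F0 L M, ∀ hf : f ∈ gV O L, coeffMap r (gR (⟨f, hf⟩ : gV O L)) ∈ Fb)
    (htb : tS κ' 3 3 ∈ Fb) :
    (∃ c : L, c ≠ 0 ∧ ∃ hx : (HahnSeries.C c * y) ^ m ∈ gV O L, gR (⟨_, hx⟩ : gV O L) ≠ 0) ∧
    ∀ hx : y ^ m ∈ gV O L, gR (⟨y ^ m, hx⟩ : gV O L) ≠ 0 →
    ∃ hmem : coeffMap r (gR (⟨y ^ m, hx⟩ : gV O L)) ∈ Fb, ∀ V : ValuationSubring Fb,
      (∀ a : κ', algebraMap κ' Fb a ∈ V) →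
      ((∃ b : O, (⟨tS κ' 3 3, htb⟩ : Fb) - algebraMap κ' Fb (r (residue O b)) ∈ V.nonunits) ∨
        (⟨tS κ' 3 3, htb⟩ : Fb)⁻¹ ∈ V.nonunits) →
      ∃ g : Fb, g ≠ 0 ∧ (⟨_, hmem⟩ : Fb) / g ^ m ∈ V ∧ ((⟨_, hmem⟩ : Fb) / g ^ m)⁻¹ ∈ V := by
  have h2M : 3 ∣ M := (by norm_num : 3 ∣ 9).trans h4
  have hqp : ¬ q ∣ 3 := by rw [hq2]; decide
  have hle1 : Kt L 3 3 ≤ F0 L M := Kt_le_F0 haupt3 ι h2M
  have hle2 : F0 L M ≤ F0 L N := F0_mono (K := L) (dvd_sq₁ hN)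
  have hle3 : Kt L 3 3 ≤ F0 L N := hle1.trans hle2
  haveI hcL : CharZero L := charZero_of_injective_algebraMap (IsFractionRing.injective O L)
  have hu2 : IsUnit ((3 : ℕ) : O) := isUnit_of_dvd_natCast h2M hMu
  let iOK := algO O (Kt L 3 3)
  let iOM := algO O (F0 L M)
  let iOF := algO O (F0 L N)
  let iKM := algI hle1
  let iMF := algI hle2
  let iKF := algI hle3
  haveI t1 : IsScalarTower O (Kt L 3 3) (F0 L M) := tower_O O hle1
  haveI t2 : IsScalarTower O (Kt L 3 3) (F0 L N) := tower_O O hle3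
  haveI t3 : IsScalarTower O (F0 L M) (F0 L N) := tower_O O hle2
  haveI t4 : IsScalarTower (Kt L 3 3) (F0 L M) (F0 L N) := tower_I hle1 _ _
  have C : Cpt O (Kt L 3 3) (F0 L M) (F0 L N) :=
    { OK := coe_algO O _, OM := coe_algO O _, OF := coe_algO O _, KM := coe_algI _,
      KF := coe_algI _, MF := coe_algI _ }
  obtain ⟨ht, hgood, hfinM, huniq, -⟩ := goodRed_F0_three ι hζM hMu hπ h2M hle1
  haveI := hfinM
  haveI hfinF : FiniteDimensional (F0 L M) (F0 L N) := (finrank_lev ι hq hqM hN).1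
  haveI hfin : FiniteDimensional (Kt L 3 3) (F0 L N) :=
    FiniteDimensional.trans (Kt L 3 3) (F0 L M) (F0 L N)
  haveI : CharZero (Kt L 3 3) :=
    charZero_of_injective_algebraMap (algebraMap L (Kt L 3 3)).injective
  have hC0 : IsUnit ((((3 : ℤ) ^ 2 * ((3 : ℕ) : ℤ) ^ 4 : ℤ)) : O) := by
    have : ((((3 : ℤ) ^ 2 * ((3 : ℕ) : ℤ) ^ 4 : ℤ)) : O) = ((3 : ℕ) : O) ^ 6 := by
      push_cast; norm_num
    rw [this]
    exact hu2.pow 6
  exact ord_core_gen C B₂ B haut3 hι hζM hMu (sep3 h2M hMu) hq0 hq hqp hN hqM h2M hπ hqπ comp loc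
    inj' hζ ζirr ζpow hC0 ht ⟨_, hgood⟩ huniq
    (fun θ₁ hθ D c C₀ X₁ T => nc_conc_three C B₂ hq hN hq2 h4 hθ hπ hqπ D ht T)
    hNE hm hχ hχm hy hy0 hy'' hyy hFb htb

end Fermat.Agent.MZ
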