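import Mathlib
import Fermat.Agent.MZ.OrdD
import Fermat.Agent.MZ.Frob
import Fermat.Agent.CD.Dvr
import Fermat.Agent.CD.Desc
import Fermat.Agent.LG.R36c

/-!
Orders of the reductions of the classes of level `qM`: over the inertia field.
-/

set_option autoImplicit false
set_option linter.unusedSectionVars false
set_option linter.unusedVariables false

open IsLocalRing Polynomial ModularCurve IntermediateField

noncomputable section

universe u v

namespace Fermat.Agent.MZ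

open Fermat.Agent.Geo Fermat.Agent.LG Fermat.Agent.ModFun Fermat.Agent.FunField
open Fermat.Agent.ESCore (HauptFn haupt2 haupt3 ιC XG)
open CongruenceSubgroup (Gamma0)
open AlgebraicCurve
open Fermat.Agent.Flat (Sep gA gAR W0 ρ0 subA subK mem_gA_of_gV residueComp_surjective
  isAlgClosed_residueA tF)
open Fermat.Agent.Lf (FbK exists_pre haut2_isUnit haut3_isUnit)

local notation "Qb" => AlgebraicClosure ℚ

section

variable {K F : Type*} [Field K] [Field F] [Algebra K F]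

theorem mem_nonunits_of_ord_pos (v : Place K F) {x : F} (hx : 0 < v.ord x) :
    x ∈ v.toValuationSubring.nonunits := by
  rw [ValuationSubring.mem_nonunits_iff_or]
  by_contra hcon
  rw [not_or, not_not] at hcon
  have h1 := ord_nonneg_of_mem v hcon.2
  rw [v.ord_inv] at h1
  omega

theorem dvd_ord_of_val (v : Place K F) {h g : F} (hg : g ≠ 0) (hh : h ≠ 0) {m : ℕ}
    (h1 : h / g ^ m ∈ v.toValuationSubring) (h2 : (h / g ^ m)⁻¹ ∈ v.toValuationSubring) :
    (m : ℤ) ∣ v.ord h := by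
  have h3 := ord_nonneg_of_mem v h1
  have h4 := ord_nonneg_of_mem v h2
  rw [v.ord_inv] at h4
  have h5 : v.ord (h / g ^ m) = 0 := by omega
  have h6 : h = h / g ^ m * g ^ m := (div_mul_cancel₀ _ (pow_ne_zero m hg)).symm
  rw [h6, v.ord_mul (div_ne_zero hh (pow_ne_zero m hg)) (pow_ne_zero m hg), h5, zero_add,
    Flat.ord_pow]
  exact dvd_mul_right _ _

theorem dvd_ord_of_t [IsAlgClosed K] {t : F} (hS : Sep K t) {h : F} (hh : h ≠ 0) {m : ℕ}
    (H : ∀ V : ValuationSubring F, (∀ a : K, algebraMap K F a ∈ V) →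
      ((∃ b : K, t - algebraMap K F b ∈ V.nonunits) ∨ t⁻¹ ∈ V.nonunits) →
      ∃ g : F, g ≠ 0 ∧ h / g ^ m ∈ V ∧ (h / g ^ m)⁻¹ ∈ V) (v : Place K F) :
    (m : ℤ) ∣ v.ord h := by
  obtain ⟨g, hg, h1, h2⟩ := H v.toValuationSubring v.algebraMap_mem' (by
    rcases hS.exists_point v with h1 | ⟨c, h1⟩
    · right
      apply mem_nonunits_of_ord_pos
      rw [v.ord_inv]
      omega
    · exact Or.inl ⟨c, mem_nonunits_of_ord_pos v h1⟩)
  exact dvd_ord_of_val v hg hh h1 h2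

end

section

variable {A : ValuationSubring Qb} {q M : ℕ} [NeZero q] [NeZero M]

theorem red_mem_FbK {L : IntermediateField ℚ Qb} [IsDiscreteValuationRing (OL A L)] {f : LaurentSeries L} (hf : f ∈ F0 L M)
    (hf' : f ∈ gV (OL A L) L) :
    coeffMap (subK : ResidueField (OL A L) →+* ResidueField A)
      (gR (⟨f, hf'⟩ : gV (OL A L) L)) ∈ FbK A M := by
  obtain ⟨h, h1⟩ := mem_gA_of_gV (A := A) (L := L) hf'
  rw [← h1]
  exact IntermediateField.subset_adjoin _ _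
    ⟨⟨⟨coeffMap (algebraMap L Qb) f, coeffMap_mem_adjoin _ hf⟩, h⟩, rfl⟩

theorem C_ne' {L : Type*} [Field L] {c : L} (hc : c ≠ 0) :
    (HahnSeries.C c : LaurentSeries L) ≠ 0 :=
  fun h => hc (HahnSeries.C_injective (h.trans (map_zero _).symm))

theorem xSer_C_mul' {L : Type*} [Field L] {ι : L →+* ℂ} {N : ℕ} [NeZero N]
    {χ : Gamma0 N →* ℂˣ} {z : LaurentSeries L} (c : L) (hz : XSer ι N χ z) :
    XSer ι N χ (HahnSeries.C c * z) := by
  rw [← xSer_coeffMap_iff (ι' := RingHom.id ℂ) ι (RingHom.id_comp ι)] at hz ⊢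
  rw [map_mul, coeffMap_C']
  exact CD.xSer_C_mul _ hz

theorem ord_of_gen {O L : Type} [CommRing O] [IsDomain O] [IsDiscreteValuationRing O] [Field L]
    [Algebra O L] [IsFractionRing O L] {p : ℕ} [Fact p.Prime] {κ : ℤ}
    {κ' : Type} [Field κ'] [IsAlgClosed κ'] {r : ResidueField O →+* κ'}
    (hr : Function.Surjective r)
    {Fb : IntermediateField κ' (LaurentSeries κ')} {htb : tS κ' p κ ∈ Fb}
    (hS : Sep κ' (⟨tS κ' p κ, htb⟩ : Fb)) {m : ℕ} {y : LaurentSeries L}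
    (hscale : ∃ c : L, c ≠ 0 ∧ ∃ hx : (HahnSeries.C c * y) ^ m ∈ gV O L,
      gR (⟨_, hx⟩ : gV O L) ≠ 0)
    (hmain : ∀ c : L, c ≠ 0 → ∀ hx : (HahnSeries.C c * y) ^ m ∈ gV O L,
      gR (⟨_, hx⟩ : gV O L) ≠ 0 →
      ∃ hmem : coeffMap r (gR (⟨_, hx⟩ : gV O L)) ∈ Fb, ∀ V : ValuationSubring Fb,
      (∀ a : κ', algebraMap κ' Fb a ∈ V) →
      ((∃ b : O, (⟨tS κ' p κ, htb⟩ : Fb) - algebraMap κ' Fb (r (residue O b)) ∈ V.nonunits) ∨
        (⟨tS κ' p κ, htb⟩ : Fb)⁻¹ ∈ V.nonunits) →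
      ∃ g : Fb, g ≠ 0 ∧ (⟨_, hmem⟩ : Fb) / g ^ m ∈ V ∧ ((⟨_, hmem⟩ : Fb) / g ^ m)⁻¹ ∈ V) :
    ∃ c : L, c ≠ 0 ∧ ∃ (hx : (HahnSeries.C c * y) ^ m ∈ gV O L)
      (hmem : coeffMap r (gR (⟨_, hx⟩ : gV O L)) ∈ Fb), gR (⟨_, hx⟩ : gV O L) ≠ 0 ∧
      ∀ v : Place κ' Fb, (m : ℤ) ∣ v.ord (⟨_, hmem⟩ : Fb) := by
  obtain ⟨c, hc, hx, hx0⟩ := hscale
  obtain ⟨hmem, H⟩ := hmain c hc hx hx0
  refine ⟨c, hc, hx, hmem, hx0, ?_⟩
  refine dvd_ord_of_t hS ?_ ?_
  · intro h0
    have h1 : coeffMap r (gR (⟨_, hx⟩ : gV O L)) = 0 := congrArg Subtype.val h0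
    exact hx0 ((map_eq_zero _).mp h1)
  · intro V hV hVt
    refine H V hV ?_
    rcases hVt with ⟨b, hb⟩ | hb
    · obtain ⟨b', rfl⟩ := hr b
      obtain ⟨b'', rfl⟩ := IsLocalRing.residue_surjective b'
      exact Or.inl ⟨b'', hb⟩
    · exact Or.inr hb

set_option synthInstance.maxHeartbeats 400000 in
set_option maxHeartbeats 4000000 in
/-- **Orders of reductions.** -/
theorem ord_KI (hq : q.Prime) (hqM : ¬ q ∣ M) (hG : GoodLev q M) (hA : A.LiesOverPrime q)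
    (B : Bez q M) {m : ℕ} (hm : 0 < m) {χ : Gamma0 (q * M) →* ℂˣ} (hχ : IsPar χ)
    (hχm : χ ^ m = 1) {y : LaurentSeries (KI A)} (hy : XSer (ιL (KI A)) (q * M) χ y)
    (hy0 : y ≠ 0) {y'' : LaurentSeries (KI A)}
    (hy'' : XSer (ιL (KI A)) (q * M) (B.wChar dvd_rfl rfl χ) y'')
    (hyy : y'' ^ m = (B.wF (ιL (KI A)) hq rfl ⟨y ^ m, hy.pow_mem_F0 hχm⟩ :
      LaurentSeries (KI A))) :
    haveI := CD.dvr_KI hq hA
    ∃ c : KI A, c ≠ 0 ∧ ∃ (hx : (HahnSeries.C c * y) ^ m ∈ gV (OL A (KI A)) (KI A))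
      (hmem : coeffMap (subK : ResidueField (OL A (KI A)) →+* ResidueField A)
        (gR (⟨_, hx⟩ : gV (OL A (KI A)) (KI A))) ∈ FbK A M),
      gR (⟨_, hx⟩ : gV (OL A (KI A)) (KI A)) ≠ 0 ∧
      ∀ v : Place (ResidueField A) (FbK A M), (m : ℤ) ∣ v.ord (⟨_, hmem⟩ : FbK A M) := by
  haveI i0 := CD.dvr_KI hq hA
  have h := CD.ar_KI hq hA
  haveI i1 := h.isAlgClosed
  haveI i2 := h.expChar_residue
  haveI i3 := Ar.charZero A (KI A)
  haveI i4 : IsAlgClosed (ResidueField A) := isAlgClosed_residueA hq hA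
  obtain ⟨ζM, hζM⟩ := h.exists_zeta hqM
  have hMu : IsUnit (M : OL A (KI A)) := h.isUnit_natCast hqM
  have hq0 := h.natCast_residue
  obtain ⟨L', hle, dvr', ζ, hprim, hirr, hv⟩ := CD.exists_ram hq hA
  haveI := dvr'
  have hζ : IsPrimitiveRoot ζ q := by
    have h1 : IsPrimitiveRoot ((Units.map (algebraMap (OL A L') L' : OL A L' →* L')) ζ : L'ˣ) q :=
      IsPrimitiveRoot.coe_units_iff.mp hprim
    exact IsPrimitiveRoot.of_map_of_injective h1
      (Units.map_injective (IsFractionRing.injective (OL A L') L'))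
  have hι : (ιL L').comp (IntermediateField.inclusion hle : KI A →+* L') = ιL (KI A) := by
    apply RingHom.ext
    intro x
    rfl
  obtain ⟨N, hN⟩ : ∃ N, N = q ^ 2 * M := ⟨_, rfl⟩
  haveI : NeZero N := ⟨by rw [hN]; exact mul_ne_zero (pow_ne_zero 2 (NeZero.ne q)) (NeZero.ne M)⟩
  have hNE := noEll_sq hG hN
  obtain ⟨B₂⟩ := nonempty_bez (q := q ^ 2) (M := M)
    (((Nat.Prime.coprime_iff_not_dvd hq).mpr hqM).pow_left 2)
  have hr0 := residueComp_surjective (L := KI A) hq hA le_rfl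
  have hr : Function.Surjective (subK : ResidueField (OL A (KI A)) →+* ResidueField A) := by
    intro b
    obtain ⟨a, ha⟩ := hr0 b
    exact ⟨residue _ a, ha⟩
  have hwF : ∀ c : KI A, ∀ hχm' : (HahnSeries.C c * y) ^ m ∈ F0 (KI A) (q * M),
      (HahnSeries.C c * y'') ^ m = (B.wF (ιL (KI A)) hq rfl ⟨(HahnSeries.C c * y) ^ m, hχm'⟩ :
        LaurentSeries (KI A)) := by
    intro c hχm'
    have e : (⟨(HahnSeries.C c * y) ^ m, hχm'⟩ : F0 (KI A) (q * M)) =
        algebraMap (KI A) (F0 (KI A) (q * M)) (c ^ m) * ⟨y ^ m, hy.pow_mem_F0 hχm⟩ := by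
      apply Subtype.ext
      change (HahnSeries.C c * y) ^ m = algebraMap (KI A) (LaurentSeries (KI A)) (c ^ m) * y ^ m
      rw [algL, mul_pow, C_pow']
    rw [e, map_mul, B.wF_C, mul_pow, hyy, C_pow']
    change _ = algebraMap (KI A) (LaurentSeries (KI A)) (c ^ m) * _
    rw [algL]
  have hCX : ∀ (c : KI A) {ψ : Gamma0 (q * M) →* ℂˣ} {z : LaurentSeries (KI A)},
      XSer (ιL (KI A)) (q * M) ψ z → XSer (ιL (KI A)) (q * M) ψ (HahnSeries.C c * z) := by
    intro c ψ z hz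
    exact xSer_C_mul' c hz
  have aux : ∀ z z' : LaurentSeries (KI A), z = z' →
      (∃ hx : z ^ m ∈ gV (OL A (KI A)) (KI A), gR (⟨_, hx⟩ : gV (OL A (KI A)) (KI A)) ≠ 0) →
      ∃ hx : z' ^ m ∈ gV (OL A (KI A)) (KI A), gR (⟨_, hx⟩ : gV (OL A (KI A)) (KI A)) ≠ 0 := by
    rintro z _ rfl h
    exact h
  rcases hG with ⟨hq2, h4⟩ | ⟨hq2, h9⟩
  · have h2M : 2 ∣ M := (by norm_num : 2 ∣ 4).trans h4
    haveI : Fact (Nat.Prime 2) := ⟨Nat.prime_two⟩
    obtain ⟨d, e, hpre⟩ := exists_pre (N := M) hq hA hqM h2M haut2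
      (haut2_isUnit hq hA hq2)
    obtain ⟨t, ht, hSep⟩ := exists_sepK hpre
    have htb : tS (ResidueField A) 2 16 ∈ FbK A M := by rw [← ht]; exact t.2
    have ht' : t = ⟨tS (ResidueField A) 2 16, htb⟩ := Subtype.ext ht
    rw [ht'] at hSep
    have key := fun (c : KI A) (hc : c ≠ 0) => ord_two (O := OL A (KI A)) (L := KI A)
        (O' := OL A L') (L' := L') (N := N) (m := m) (χ := χ) (y := HahnSeries.C c * y)
        (y'' := HahnSeries.C c * y'') (r := (subK : ResidueField (OL A (KI A)) →+* ResidueField A))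
        (Fb := FbK A M)
        B₂ B hι hζM hMu hq0 hq
        hq2 hN hqM h4 (CD.prime_q hq hA) rfl (fun a => (CD.algebraMap_incO hle a).symm)
        inferInstance (CD.incO_injective hle) hζ hirr hv hNE hm hχ hχm
        (hCX c hy) (mul_ne_zero (C_ne' hc) hy0)
        (hCX c hy'') (hwF c _) (fun f hf hf' => red_mem_FbK hf hf') htb
    refine ord_of_gen hr hSep ?_ (fun c hc => (key c hc).2)
    obtain ⟨c, hc, hx⟩ := (key 1 one_ne_zero).1
    exact ⟨c, hc, aux _ _ (by rw [HahnSeries.C_one, one_mul]) hx⟩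
  · have h3M : 3 ∣ M := (by norm_num : 3 ∣ 9).trans h9
    haveI : Fact (Nat.Prime 3) := ⟨Nat.prime_three⟩
    obtain ⟨d, e, hpre⟩ := exists_pre (N := M) hq hA hqM h3M haut3
      (haut3_isUnit hq hA (by rw [hq2]; decide))
    obtain ⟨t, ht, hSep⟩ := exists_sepK hpre
    have htb : tS (ResidueField A) 3 3 ∈ FbK A M := by rw [← ht]; exact t.2
    have ht' : t = ⟨tS (ResidueField A) 3 3, htb⟩ := Subtype.ext ht
    rw [ht'] at hSep
    have key := fun (c : KI A) (hc : c ≠ 0) => ord_three (O := OL A (KI A)) (L := KI A)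
        (O' := OL A L') (L' := L') (N := N) (m := m) (χ := χ) (y := HahnSeries.C c * y)
        (y'' := HahnSeries.C c * y'') (r := (subK : ResidueField (OL A (KI A)) →+* ResidueField A))
        (Fb := FbK A M)
        B₂ B hι hζM hMu hq0 hq
        hq2 hN hqM h9 (CD.prime_q hq hA) rfl (fun a => (CD.algebraMap_incO hle a).symm)
        inferInstance (CD.incO_injective hle) hζ hirr hv hNE hm hχ hχm
        (hCX c hy) (mul_ne_zero (C_ne' hc) hy0)
        (hCX c hy'') (hwF c _) (fun f hf hf' => red_mem_FbK hf hf') htb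
    refine ord_of_gen hr hSep ?_ (fun c hc => (key c hc).2)
    obtain ⟨c, hc, hx⟩ := (key 1 one_ne_zero).1
    exact ⟨c, hc, aux _ _ (by rw [HahnSeries.C_one, one_mul]) hx⟩

end

end Fermat.Agent.MZ
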