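import Mathlib
import Fermat.Agent.MZ.OrdE
import Fermat.Agent.LG.Coef

/-!
Orders of the reductions of the classes of level `qM`, over the algebraic numbers.
-/

set_option autoImplicit false
set_option linter.unusedSectionVars false
set_option linter.unusedVariables false
set_option synthInstance.maxHeartbeats 400000
set_option maxHeartbeats 1000000

open IsLocalRing Polynomial ModularCurve IntermediateField

noncomputable section

namespace Fermat.Agent.MZ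

open Fermat.Agent.Geo Fermat.Agent.LG Fermat.Agent.ModFun Fermat.Agent.FunField
open Fermat.Agent.ESCore (HauptFn haupt2 haupt3 ιC XG heckeX heckeChar galX)
open CongruenceSubgroup (Gamma0)
open AlgebraicCurve
open Fermat.Agent.Flat (Sep gA gAR W0 ρ0 subA subK mem_gA_of_gV)
open Fermat.Agent.Lf (FbK)

local notation "Qb" => AlgebraicClosure ℚ

/-- The function `h` has, after scaling by an `m`-th power, a reduction in the field of reductions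
of level `M` whose orders are divisible by `m`. -/
def OrdOK (A : ValuationSubring Qb) (M : ℕ) [NeZero M] (m : ℕ) (h : LaurentSeries Qb) : Prop :=
  ∃ c : Qb, c ≠ 0 ∧ ∃ (hx : HahnSeries.C (c ^ m) * h ∈ gA A)
    (hmem : gAR ⟨_, hx⟩ ∈ FbK A M), gAR ⟨_, hx⟩ ≠ 0 ∧
    ∀ v : Place (ResidueField A) (FbK A M), (m : ℤ) ∣ v.ord (⟨_, hmem⟩ : FbK A M)

variable {A : ValuationSubring Qb} {q M : ℕ} [NeZero q] [NeZero M]

theorem ordOK_of_KI [IsDiscreteValuationRing (OL A (KI A))] {m : ℕ} {y : LaurentSeries (KI A)}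
    (H : ∃ c : KI A, c ≠ 0 ∧ ∃ (hx : (HahnSeries.C c * y) ^ m ∈ gV (OL A (KI A)) (KI A))
      (hmem : coeffMap (subK : ResidueField (OL A (KI A)) →+* ResidueField A)
        (gR (⟨_, hx⟩ : gV (OL A (KI A)) (KI A))) ∈ FbK A M),
      gR (⟨_, hx⟩ : gV (OL A (KI A)) (KI A)) ≠ 0 ∧
      ∀ v : Place (ResidueField A) (FbK A M), (m : ℤ) ∣ v.ord (⟨_, hmem⟩ : FbK A M)) :
    OrdOK A M m (coeffMap (algebraMap (KI A) Qb) (y ^ m)) := by
  obtain ⟨c, hc, hx, hmem, h0, hv⟩ := H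
  obtain ⟨h1, h2⟩ := mem_gA_of_gV (A := A) (L := KI A) hx
  have e : coeffMap (algebraMap (KI A) Qb) ((HahnSeries.C c * y) ^ m) =
      HahnSeries.C ((algebraMap (KI A) Qb c) ^ m) * coeffMap (algebraMap (KI A) Qb) (y ^ m) := by
    rw [mul_pow, map_mul, C_pow', coeffMap_C', map_pow]
  have key : ∀ z : LaurentSeries Qb, coeffMap (algebraMap (KI A) Qb) ((HahnSeries.C c * y) ^ m) = z →
      ∃ (hx : z ∈ gA A) (hmem : gAR ⟨_, hx⟩ ∈ FbK A M), gAR ⟨_, hx⟩ ≠ 0 ∧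
      ∀ v : Place (ResidueField A) (FbK A M), (m : ℤ) ∣ v.ord (⟨_, hmem⟩ : FbK A M) := by
    rintro _ rfl
    have key2 : ∀ w : LaurentSeries (ResidueField A),
        coeffMap (subK : ResidueField (OL A (KI A)) →+* ResidueField A)
          (gR (⟨_, hx⟩ : gV (OL A (KI A)) (KI A))) = w →
        ∃ (hmem : w ∈ FbK A M), w ≠ 0 ∧
        ∀ v : Place (ResidueField A) (FbK A M), (m : ℤ) ∣ v.ord (⟨_, hmem⟩ : FbK A M) := by
      rintro _ rfl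
      exact ⟨hmem, fun h => h0 ((map_eq_zero _).mp h), hv⟩
    obtain ⟨h3, h4, h5⟩ := key2 _ h2.symm
    exact ⟨h1, h3, h4, h5⟩
  exact ⟨algebraMap (KI A) Qb c, (_root_.map_ne_zero _).mpr hc, key _ e⟩

/-- **Orders of reductions**, for a class and for its transform. -/
theorem ord_pair (hq : q.Prime) (hqM : ¬ q ∣ M) (hG : GoodLev q M) (hA : A.LiesOverPrime q)
    (B : Bez q M) {m : ℕ} (hm : 0 < m) {χ : Gamma0 (q * M) →* ℂˣ} (hχ : IsPar χ)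
    (hχm : χ ^ m = 1) {y : LaurentSeries (KI A)} (hy : XSer (ιL (KI A)) (q * M) χ y)
    (hy0 : y ≠ 0) {c : KI A}
    (hlc : (B.wF (ιL (KI A)) hq rfl ⟨y ^ m, hy.pow_mem_F0 hχm⟩ :
      LaurentSeries (KI A)).leadingCoeff = c ^ m) :
    OrdOK A M m (coeffMap (algebraMap (KI A) Qb) (y ^ m)) ∧
    OrdOK A M m (coeffMap (algebraMap (KI A) Qb)
      (B.wF (ιL (KI A)) hq rfl ⟨y ^ m, hy.pow_mem_F0 hχm⟩ : LaurentSeries (KI A))) := by
  haveI := CD.dvr_KI hq hA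
  obtain ⟨y₂, hy₂, hyy⟩ := exists_wSer_L B hq rfl hχ hm hχm hy hy0 hlc
  have hwm : (B.wChar dvd_rfl rfl χ) ^ m = 1 := by rw [← B.wChar_pow, hχm, B.wChar_one]
  have hh0 : (⟨y ^ m, hy.pow_mem_F0 hχm⟩ : F0 (KI A) (q * M)) ≠ 0 := fun h0 =>
    pow_ne_zero m hy0 (congrArg Subtype.val h0)
  have hy₂0 : y₂ ≠ 0 := by
    rintro rfl
    rw [zero_pow hm.ne'] at hyy
    exact wF_ne_zero B hq rfl (ιL (KI A)) hh0 (Subtype.ext hyy.symm)
  have hw : B.wF (ιL (KI A)) hq rfl ⟨y ^ m, hy.pow_mem_F0 hχm⟩ =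
      ⟨y₂ ^ m, hy₂.pow_mem_F0 hwm⟩ := Subtype.ext hyy.symm
  have hww : B.wF (ιL (KI A)) hq rfl ⟨y₂ ^ m, hy₂.pow_mem_F0 hwm⟩ =
      ⟨y ^ m, hy.pow_mem_F0 hχm⟩ := by rw [← hw, B.wF_wF]
  have hlc2 : (B.wF (ιL (KI A)) hq rfl ⟨y₂ ^ m, hy₂.pow_mem_F0 hwm⟩ :
      LaurentSeries (KI A)).leadingCoeff = y.leadingCoeff ^ m := by
    rw [hww]
    exact CA.leadingCoeff_pow' _ _
  have hpar := B.wChar_isPar dvd_rfl rfl hχ
  obtain ⟨y₃, hy₃, hyy₃⟩ := exists_wSer_L B hq rfl hpar hm hwm hy₂ hy₂0 hlc2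
  refine ⟨ordOK_of_KI (ord_KI hq hqM hG hA B hm hχ hχm hy hy0 hy₂ hyy), ?_⟩
  rw [hw]
  exact ordOK_of_KI (ord_KI hq hqM hG hA B hm hpar hwm hy₂ hy₂0 hy₃ hyy₃)

/-- the series for a class of the form `T_l ψ / ψ ^ (l + 1)` -/
theorem exists_series (hq : q.Prime) (hA : A.LiesOverPrime q) {N : ℕ} [NeZero N]
    (B : Bez q M) (hN : N = q * M) {m : ℕ} (hm : 0 < m) (hqm : ¬ q ∣ m) {χ ψ : XG N m}
    (hψ : ∀ σ ∈ A.inertiaSubgroupIn ℚ, galX N hm σ ψ = ψ) {l : ℕ} (hl : l.Prime) (hlN : ¬ l ∣ N)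
    (hχ : χ = heckeX hl hlN m ψ * (ψ ^ (l + 1))⁻¹) :
    ∃ (y : LaurentSeries (KI A)) (hy : XSer (ιL (KI A)) N χ.1 y) (c : KI A), y ≠ 0 ∧
      (B.wF (ιL (KI A)) hq hN ⟨y ^ m, hy.pow_mem_F0 χ.2.1⟩ :
        LaurentSeries (KI A)).leadingCoeff = c ^ m := by
  haveI : NeZero l := ⟨hl.ne_zero⟩
  obtain ⟨y, hy0, hy⟩ := CD.exists_xSer_KI hm ψ hψ
  have hql : ¬ q ∣ l := by
    intro h
    have h1 := (Nat.prime_dvd_prime_iff_eq hq hl).mp h
    exact hlN (hN ▸ h1 ▸ dvd_mul_right q M)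
  obtain ⟨ζ, hζ⟩ := CD.exists_root (A := A) hq hA hl.pos hql
  have hζu : IsUnit ζ := IsUnit.of_pow_eq_one hζ.pow_eq_one hl.ne_zero
  obtain ⟨ζu, rfl⟩ := hζu
  have hζL : IsPrimitiveRoot (Units.map (algebraMap (OL A (KI A)) (KI A) :
      OL A (KI A) →* KI A) ζu) l :=
    (IsPrimitiveRoot.coe_units_iff.mp hζ).map_of_injective
      (Units.map_injective (IsFractionRing.injective (OL A (KI A)) (KI A)))
  have hroot : ∀ k : ℤ, ∃ v : KI A, v ^ m = (((Units.map (algebraMap (OL A (KI A)) (KI A) :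
      OL A (KI A) →* KI A) ζu) ^ k : (KI A)ˣ) : KI A) := by
    intro k
    obtain ⟨v, hv⟩ := CD.unit_root hq hA hm hqm (ζu ^ k).isUnit
    refine ⟨algebraMap (OL A (KI A)) (KI A) v, ?_⟩
    rw [← map_pow, hv, ← map_zpow]
    rfl
  have hψm : ψ.1 ^ m = 1 := ψ.2.1
  have e : χ.1 = heckeChar hl hlN ψ.1 * ψ.1 ^ ((m - 1) * (l + 1)) := by
    have h1 : (ψ ^ (l + 1))⁻¹ = ψ ^ ((m - 1) * (l + 1)) := by
      rw [inv_eq_iff_mul_eq_one, ← pow_add]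
      have h2 : l + 1 + (m - 1) * (l + 1) = m * (l + 1) := by
        obtain ⟨m', rfl⟩ : ∃ m', m = m' + 1 := ⟨m - 1, by omega⟩
        rw [Nat.add_sub_cancel]
        ring
      have h3 : ψ ^ m = 1 := Subtype.ext hψm
      rw [h2, pow_mul, h3, one_pow]
    rw [hχ, h1]
    rfl
  obtain ⟨y', hy', c, hy'0, hc⟩ := exists_ser_hecke B hq hN hm hψm hy hy0 hl hlN hζL hroot e χ.2.1
  exact ⟨y', hy', c, hy'0, hc⟩

end Fermat.Agent.MZ
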