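import Mathlib
import Fermat.Agent.MZ.OrdP
import Fermat.Agent.MZ.URel
import Fermat.Agent.MZ.Frob
import Fermat.Agent.LG.MazProps

/-!
Classes with finite image in the class group of the reduction: assembly.
-/

set_option autoImplicit false
set_option linter.unusedSectionVars false
set_option linter.unusedVariables false
set_option synthInstance.maxHeartbeats 400000
set_option maxHeartbeats 1000000

open IsLocalRing Polynomial ModularCurve IntermediateField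

noncomputable section

namespace Fermat.Agent.MZ

open Fermat.Agent.Geo Fermat.Agent.LG Fermat.Agent.ModFun Fermat.Agent.FunField
open Fermat.Agent.ESCore
open CongruenceSubgroup (Gamma0 Gamma0_mem)
open AlgebraicCurve
open Fermat.Agent.Flat (Sep gA gAR W0 ρ0 subA subK mem_gA_of_gV)
open Fermat.Agent.Lf (FbK)

local notation "Qb" => AlgebraicClosure ℚ

theorem mzc_core {q M : ℕ} [NeZero q] [NeZero M] (hq : q.Prime) (hqM : ¬ q ∣ M)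
    (hG : GoodLev q M) (hqN : q ∣ q * M) {e : ℕ} {m : ℕ} (hm : 0 < m) (hqm : ¬ q ∣ m)
    {A : ValuationSubring Qb} (hA : A.LiesOverPrime q) (hE : ExpP A q M e)
    (B : Bez q M) (χ : XG (q * M) m) (ε : ℤ) (hε : ε = 1 ∨ ε = -1) (hχ : IsPar χ.1)
    (hU : heckeXU hq.ne_zero hqN m χ = χ ^ ε)
    (hW : B.wChar dvd_rfl rfl χ.1 = (χ ^ (-ε)).1)
    (hψ : ∃ (l : ℕ) (hl : l.Prime) (hlN : ¬ l ∣ q * M) (ψ : XG (q * M) m), IsPar ψ.1 ∧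
        (∀ σ ∈ A.inertiaSubgroupIn ℚ, galX (q * M) hm σ ψ = ψ) ∧
        χ = heckeX hl hlN m ψ * (ψ ^ (l + 1))⁻¹) :
    ∃ (y : LaurentSeries Qb) (hy : XSer ιC (q * M) (χ ^ e).1 y), y ≠ 0 ∧
      (∃ c : Qb, c ≠ 0 ∧ ∃ hx : (HahnSeries.C c * y) ^ m ∈ gA A,
        ∃ g ∈ FbK A M, g ≠ 0 ∧ gAR (⟨_, hx⟩ : gA A) = g ^ m) ∧
      (∃ c : Qb, c ≠ 0 ∧ ∃ hx : HahnSeries.C (c ^ m) *
          (B.wF ιC hq rfl ⟨y ^ m, hy.pow_mem_F0 (χ ^ e).2.1⟩ : LaurentSeries Qb) ∈ gA A,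
        ∃ g ∈ FbK A M, g ≠ 0 ∧ gAR (⟨_, hx⟩ : gA A) = g ^ m) := by
  obtain ⟨l, hl, hlN, ψ, hψpar, hψI, hχψ⟩ := hψ
  obtain ⟨y, hy, c, hy0, hlc⟩ := exists_series hq hA B rfl hm hqm hψI hl hlN hχψ
  obtain ⟨O1, -⟩ := ord_pair hq hqM hG hA B hm hχ χ.2.1 hy hy0 hlc
  rw [map_pow] at O1
  obtain ⟨c₁, hc₁, hx, hmem, h0, hv⟩ := O1
  have hyQ : XSer ιC (q * M) χ.1 (HahnSeries.C c₁ * coeffMap (algebraMap (KI A) Qb) y) :=
    CD.xSer_C_mul c₁ (hy.coeffMap _ rfl)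
  obtain ⟨z, hz⟩ : ∃ z, z = HahnSeries.C c₁ * coeffMap (algebraMap (KI A) Qb) y := ⟨_, rfl⟩
  rw [← hz] at hyQ
  have hyQ0 : z ≠ 0 := by
    rw [hz]
    exact mul_ne_zero (C_ne' hc₁) ((_root_.map_ne_zero _).mpr hy0)
  have e1 : HahnSeries.C (c₁ ^ m) * coeffMap (algebraMap (KI A) Qb) y ^ m = z ^ m := by
    rw [hz, mul_pow, C_pow']
  have key : ∀ w : LaurentSeries Qb, HahnSeries.C (c₁ ^ m) *
      coeffMap (algebraMap (KI A) Qb) y ^ m = w → ∃ (hx : w ∈ gA A) (hmem : gAR ⟨_, hx⟩ ∈ FbK A M),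
      gAR ⟨_, hx⟩ ≠ 0 ∧
      ∀ v : Place (ResidueField A) (FbK A M), (m : ℤ) ∣ v.ord (⟨_, hmem⟩ : FbK A M) := by
    rintro _ rfl
    exact ⟨hx, hmem, h0, hv⟩
  obtain ⟨hx', hmem', h0', hv'⟩ := key _ e1
  have hye : XSer ιC (q * M) (χ ^ e).1 (z ^ e) := hyQ.pow e
  have hlev : (q ≠ 2 ∧ 2 ∣ M) ∨ (q ≠ 3 ∧ 3 ∣ M) := by
    rcases hG with ⟨h1, h2⟩ | ⟨h1, h2⟩
    · exact Or.inl ⟨h1, (by norm_num : 2 ∣ 4).trans h2⟩
    · exact Or.inr ⟨by omega, (by norm_num : 3 ∣ 9).trans h2⟩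
  obtain ⟨r1, r2⟩ := h12_of_expP hq hA B rfl hqM hlev hm hχ hε hqN hU hW hyQ0 hyQ hx' h0' hmem' hv'
    hE (hye.pow_mem_F0 (χ ^ e).2.1)
  exact ⟨z ^ e, hye, pow_ne_zero e hyQ0, r1, r2⟩

/-- the exponent -/
theorem mzc_exp {q M : ℕ} [NeZero q] [NeZero M] (hq : q.Prime) (hqM : ¬ q ∣ M)
    (hG : GoodLev q M) : ∃ e : ℕ, 0 < e ∧
      ∀ A : ValuationSubring Qb, A.LiesOverPrime q → ExpP A q M e := by
  refine exists_expP hq hqM ?_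
  rcases hG with ⟨h1, h2⟩ | ⟨h1, h2⟩
  · exact Or.inl ((by norm_num : 2 ∣ 4).trans h2)
  · exact Or.inr ((by norm_num : 3 ∣ 9).trans h2)

end Fermat.Agent.MZ
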