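import Mathlib
import Fermat.Agent.MZ.MZcA
import Fermat.Agent.MZ.LwRed

/-!
The statement (MZc).
-/

set_option autoImplicit false
set_option linter.unusedSectionVars false
set_option linter.unusedVariables false

open Fermat.Agent.LG

noncomputable section

namespace Fermat.Agent.MZ

theorem mzc_prop : MZcPropT := by
  intro q M N _ _ _ hq hqM hG hN hqN
  subst hN
  obtain ⟨e, he, hE⟩ := mzc_exp hq hqM hG
  refine ⟨e, he, ?_⟩
  intro m hm hqm A hA B χ ε hε hχ hU hW hI hψ φ hφ
  obtain ⟨y, hy, hy0, h1, h2⟩ := mzc_core hq hqM hG hqN hm hqm hA (hE A hA) B χ ε hε hχ hU hW hψ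
  have hpar : IsPar (χ ^ e).1 := by
    intro γ hγ
    change (χ.1 ^ e) γ = 1
    rw [MonoidHom.pow_apply, hχ γ hγ, one_pow]
  exact cstar_red hq hA hqM hG B rfl hm hqm hpar hy hy0 h1 h2 hφ

end Fermat.Agent.MZ
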