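import Mathlib
import Fermat.Agent.MZ.HRed

/-!
The reduction of an eigenclass of level `q M` whose eigenvalues do not occur at level `M` is a
`p`-th power.
-/

set_option autoImplicit false
set_option linter.unusedSectionVars false
set_option synthInstance.maxHeartbeats 400000
set_option maxHeartbeats 1000000

noncomputable section

open Matrix.SpecialLinearGroup
open scoped MatrixGroups

namespace Fermat.Agent.MZ

open IntermediateField
open Fermat.Agent.Flat Fermat.Agent.Conn Fermat.Agent.RJ Fermat.Agent.Lf Fermat.Agent.CD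
open Fermat.Agent.LG Fermat.Agent.ModFun Fermat.Agent.Geo
open Fermat.Agent.ESCore
open IsLocalRing ModularCurve
open CongruenceSubgroup (Gamma0)

/-- The field of algebraic numbers. -/
local notation "Qb" => AlgebraicClosure ℚ

section Orb

theorem prod_eq_one_of_orbits {X B : Type*} [Fintype X] [CommGroup B] (s : X → X)
    (hs : Function.Injective s) (c : X → B)
    (h : ∀ x n, 0 < n → s^[n] x = x → ∏ i ∈ Finset.range n, c (s^[i] x) = 1) :
    ∏ x, c x = 1 := by
  classical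
  have key : ∀ (k : ℕ) (T : Finset X), T.card = k → (∀ x ∈ T, s x ∈ T) → ∏ x ∈ T, c x = 1 := by
    intro k
    induction k using Nat.strong_induction_on with
    | _ k ih =>
      intro T hT hinv
      rcases T.eq_empty_or_nonempty with rfl | ⟨x, hx⟩
      · rw [Finset.prod_empty]
      · have hper : x ∈ Function.periodicPts s := hs.mem_periodicPts x
        set n := Function.minimalPeriod s x with hn
        have hn0 : 0 < n := Function.minimalPeriod_pos_of_mem_periodicPts hper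
        have hnx : s^[n] x = x := Function.iterate_minimalPeriod
        set O := (Finset.range n).image fun i => s^[i] x with hO
        have hmem : ∀ i, s^[i] x ∈ T := by
          intro i
          induction i with
          | zero => exact hx
          | succ i ih' => rw [Function.iterate_succ_apply']; exact hinv _ ih'
        have hOT : O ⊆ T := by
          intro y hy
          obtain ⟨i, -, rfl⟩ := Finset.mem_image.mp hy
          exact hmem i
        have hOc : ∏ y ∈ O, c y = 1 := by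
          rw [hO, Finset.prod_image]
          · exact h x n hn0 hnx
          · intro i hi j hj hij
            exact Function.iterate_injOn_Iio_minimalPeriod
              (by simpa using hi) (by simpa using hj) hij
        have hlt : (T \ O).card < k := by
          rw [← hT]
          apply Finset.card_lt_card
          refine ⟨Finset.sdiff_subset, fun hle => ?_⟩
          have h1 := hle hx
          rw [Finset.mem_sdiff] at h1
          exact h1.2 (Finset.mem_image.mpr ⟨0, Finset.mem_range.mpr hn0, rfl⟩)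
        have hrest := ih _ hlt (T \ O) rfl (by
          intro y hy
          rw [Finset.mem_sdiff] at hy ⊢
          refine ⟨hinv y hy.1, fun hsy => hy.2 ?_⟩
          obtain ⟨i, hi, hiy⟩ := Finset.mem_image.mp hsy
          rw [Finset.mem_range] at hi
          rcases Nat.eq_zero_or_pos i with rfl | hi0
          · refine Finset.mem_image.mpr ⟨n - 1, Finset.mem_range.mpr (by omega), ?_⟩
            apply hs
            rw [← Function.iterate_succ_apply' s (n - 1) x, Nat.succ_eq_add_one,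
              Nat.sub_add_cancel hn0, hnx]
            exact hiy
          · refine Finset.mem_image.mpr ⟨i - 1, Finset.mem_range.mpr (by omega), ?_⟩
            apply hs
            rw [← Function.iterate_succ_apply' s (i - 1) x, Nat.succ_eq_add_one,
              Nat.sub_add_cancel hi0]
            exact hiy)
        rw [← Finset.prod_sdiff hOT, hrest, hOc, one_mul]
  exact key _ Finset.univ rfl fun _ _ => Finset.mem_univ _

theorem trS_sq_mul (a b : SL(2, ℤ)) : LG.trS (a * (a * b)) = LG.trS a * LG.trS (a * b) - LG.trS b := by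
  have hdet := a.det_coe
  rw [Matrix.det_fin_two] at hdet
  simp only [LG.trS, Matrix.SpecialLinearGroup.coe_mul, Matrix.mul_apply, Fin.sum_univ_two]
  linear_combination (-(b 0 0) - b 1 1) * hdet

theorem trS_pow_sq {γ : SL(2, ℤ)} (h : LG.trS γ ^ 2 = 4) (n : ℕ) : LG.trS (γ ^ n) ^ 2 = 4 := by
  obtain ⟨ε, hε, hγ⟩ : ∃ ε : ℤ, ε ^ 2 = 1 ∧ LG.trS γ = 2 * ε := by
    have h1 : (LG.trS γ - 2) * (LG.trS γ + 2) = 0 := by linear_combination h
    rcases mul_eq_zero.mp h1 with h2 | h2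
    · exact ⟨1, by norm_num, by linarith⟩
    · exact ⟨-1, by norm_num, by linarith⟩
  have key : ∀ n, LG.trS (γ ^ n) = 2 * ε ^ n ∧ LG.trS (γ ^ (n + 1)) = 2 * ε ^ (n + 1) := by
    intro n
    induction n with
    | zero =>
      refine ⟨?_, ?_⟩
      · rw [pow_zero, pow_zero]
        simp [LG.trS]
      · rw [zero_add, pow_one, pow_one, hγ]
    | succ n ih =>
      refine ⟨ih.2, ?_⟩
      have h1 := trS_sq_mul γ (γ ^ n)
      rw [← pow_succ', ← pow_succ', ih.1, ih.2, hγ] at h1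
      rw [h1]
      ring_nf
      have : ε ^ 2 = 1 := hε
      linear_combination (2 * ε ^ n) * this
  rw [(key n).1]
  have : (ε ^ n) ^ 2 = 1 := by rw [← pow_mul, mul_comm, pow_mul, hε, one_pow]
  linear_combination 4 * this

theorem isPar_heckeChar {N l : ℕ} (hl : l.Prime) (hN : ¬ l ∣ N) {χ : Gamma0 N →* ℂˣ}
    (hχ : IsPar χ) : IsPar (heckeChar hl hN χ) := by
  intro γ hγ
  set S := heckeSys hl hN with hS
  change ∏ x, χ (S.coc γ x) = 1
  have hφ := gam_injective N
  refine prod_eq_one_of_orbits (S.tgt γ) (S.tgt_bijective γ).injective (fun x => χ (S.coc γ x)) ?_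
  intro x n hn hx
  -- the cocycle of the powers
  have key : ∀ k : ℕ, S.tgt (γ ^ k) x = (S.tgt γ)^[k] x ∧
      χ (S.coc (γ ^ k) x) = ∏ i ∈ Finset.range k, χ (S.coc γ ((S.tgt γ)^[i] x)) := by
    intro k
    induction k with
    | zero =>
      refine ⟨?_, ?_⟩
      · rw [pow_zero]
        exact S.tgt_eq hφ (γ' := 1) (by simp)
      · rw [pow_zero, S.coc_eq hφ (γ' := 1) (y := x) (by simp), map_one, Finset.prod_range_zero]
    | succ k ih =>
      refine ⟨?_, ?_⟩
      · rw [Function.iterate_succ_apply', ← ih.1, pow_succ]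
        refine S.tgt_eq hφ (γ' := S.coc (γ ^ k) x * S.coc γ (S.tgt (γ ^ k) x)) ?_
        rw [map_mul, ← mul_assoc, S.spec, mul_assoc, S.spec, map_mul, mul_assoc]
      · rw [pow_succ, S.coc_mul hφ, map_mul, ih.2, ih.1, Finset.prod_range_succ]
  rw [← (key n).2]
  apply hχ
  -- the trace
  have h1 := S.spec (γ ^ n) x
  rw [(key n).1, hx] at h1
  have h2 : gam N (S.coc (γ ^ n) x) = S.δ x * gam N (γ ^ n) * (S.δ x)⁻¹ := by
    rw [h1, mul_inv_cancel_right]
  have h3 : ∀ g : Gamma0 N, ((LG.trS (g : SL(2, ℤ)) : ℤ) : ℝ) =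
      Matrix.trace ((gam N g : GL (Fin 2) ℝ) : Matrix (Fin 2) (Fin 2) ℝ) := by
    intro g
    rw [Matrix.trace_fin_two, gam_apply, LG.trS]
    push_cast
    rfl
  have h4 : ((LG.trS ((S.coc (γ ^ n) x : Gamma0 N) : SL(2, ℤ)) : ℤ) : ℝ) =
      ((LG.trS ((γ ^ n : Gamma0 N) : SL(2, ℤ)) : ℤ) : ℝ) := by
    rw [h3, h3, h2]
    rw [Units.val_mul, Units.val_mul, Matrix.trace_mul_cycle, ← Units.val_mul, inv_mul_cancel,
      Units.val_one, one_mul]
  have h5 : LG.trS ((S.coc (γ ^ n) x : Gamma0 N) : SL(2, ℤ)) =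
      LG.trS ((γ ^ n : Gamma0 N) : SL(2, ℤ)) := by exact_mod_cast h4
  rw [h5]
  exact trS_pow_sq hγ n

end Orb


section Root

variable {A : ValuationSubring Qb} {q : ℕ}

/-- a primitive `l`-th root of unity with primitive reduction -/
theorem exists_zeta_l (hq : q.Prime) (hA : A.LiesOverPrime q) {l : ℕ} (hl : l.Prime)
    (hlq : l ≠ q) : ∃ ζ : Aˣ, IsPrimitiveRoot (zQ ζ) l ∧ IsPrimitiveRoot (zK ζ) l := by
  have : NeZero l := ⟨hl.ne_zero⟩
  have : NeZero (l : Qb) := ⟨by exact_mod_cast hl.ne_zero⟩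
  have : Fact l.Prime := ⟨hl⟩
  obtain ⟨z, hz⟩ := HasEnoughRootsOfUnity.exists_primitiveRoot Qb l
  have hmem : ∀ w : Qb, w ^ l = 1 → w ∈ A := by
    intro w hw
    rw [← A.valuation_le_one_iff]
    by_contra hcon
    rw [not_le] at hcon
    have h1 : 1 < A.valuation (w ^ l) := by
      rw [map_pow]
      exact one_lt_pow' hcon hl.ne_zero
    rw [hw, map_one] at h1
    exact lt_irrefl _ h1
  have hzl := hz.pow_eq_one
  have hz0 : z ≠ 0 := hz.ne_zero hl.ne_zero
  let ζ : Aˣ := ⟨⟨z, hmem z hzl⟩, ⟨z⁻¹, hmem _ (by rw [inv_pow, hzl, inv_one])⟩,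
    Subtype.ext (mul_inv_cancel₀ hz0), Subtype.ext (inv_mul_cancel₀ hz0)⟩
  have hζA : IsPrimitiveRoot (ζ : A) l :=
    IsPrimitiveRoot.of_map_of_injective (f := A.subtype) (by exact hz) Subtype.val_injective
  refine ⟨ζ, ?_, ?_⟩
  · rw [← IsPrimitiveRoot.coe_units_iff]
    exact hz
  · have h1 : (zK ζ) ^ l = 1 := by
      apply Units.ext
      change (residue A (ζ : A)) ^ l = 1
      rw [← map_pow, hζA.pow_eq_one, map_one]
    have h2 : zK ζ ≠ 1 := by
      intro h3
      have h4 : residue A (ζ : A) = 1 := congrArg Units.val h3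
      obtain ⟨n, hn⟩ : ∃ n, l = n + 1 := ⟨l - 1, (Nat.succ_pred_eq_of_pos hl.pos).symm⟩
      have hn0 : 0 < n := by have := hl.two_le; omega
      have h5 := (hn ▸ hζA).prod_one_sub_pow_eq_order
      have h6 := congrArg (residue A) h5
      rw [map_prod, Finset.prod_eq_zero (Finset.mem_range.mpr hn0) (by
        rw [zero_add, pow_one, map_sub, map_one, h4, sub_self])] at h6
      have h7 : residue A (l : A) = 0 := by
        rw [hn, Nat.cast_add, Nat.cast_one, ← h6]
      have h8 : IsUnit ((l : ℕ) : A.comap (algebraMap (KI A) Qb)) := isUnit_natCast hq hA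
        fun h => hlq ((Nat.prime_dvd_prime_iff_eq hq hl).mp h).symm
      obtain ⟨u, hu⟩ := h8.exists_right_inv
      have h9 := congrArg (fun x : A.comap (algebraMap (KI A) Qb) =>
        algebraMap (KI A) Qb (x : KI A)) hu
      have h10 : IsUnit (l : A) := by
        refine IsUnit.of_mul_eq_one ⟨algebraMap (KI A) Qb (u : KI A), u.2⟩ (Subtype.ext ?_)
        push_cast at h9 ⊢
        exact h9
      exact (residue_ne_zero_iff_isUnit _).mpr h10 h7
    rw [← orderOf_eq_prime h1 h2]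
    exact IsPrimitiveRoot.orderOf _

end Root

section Main

variable {A : ValuationSubring Qb} {q M N : ℕ} [NeZero M] [NeZero N]

theorem resultR_mul {x y : gA A} {z : LaurentSeries Qb} (hz : z ∈ gA A)
    (h : z = (x : LaurentSeries Qb) * y) : gAR ⟨z, hz⟩ = gAR x * gAR y := by
  rw [← map_mul]
  congr 1
  exact Subtype.ext h

/-- **(PARPOW)** -/
theorem parpow (hq : q.Prime) (hA : A.LiesOverPrime q) (hqM : ¬ q ∣ M) (hN : N = q * M) {p : ℕ}
    (hp : p.Prime) (hp5 : 5 ≤ p) (hqp : q ≠ p) (S : Finset ℕ) (a : ℕ → ℤ)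
    (hyp : ∀ χ' : XG M p, IsPar χ'.1 →
      (∀ (l : ℕ) (hl : l.Prime) (hlM : ¬ l ∣ M), l ≠ q → l ∉ S →
        heckeX hl hlM p χ' = χ' ^ (a l)) → χ' = 1)
    {χ : XG N p} (hχ : ∀ (l : ℕ) (hl : l.Prime) (hlN : ¬ l ∣ N), l ∉ S →
      heckeX hl hlN p χ = χ ^ (a l))
    {y : LaurentSeries Qb} (hy0 : y ≠ 0) (hy : XSer ιC N χ.1 y) (hyA : y ^ p ∈ gA A)
    (hb0 : gAR ⟨_, hyA⟩ ≠ 0) (hFb : FbK A N ≤ FbK A M)
    {χ' : XG M p} (hχ' : IsPar χ'.1) {y' : LaurentSeries Qb} (hy0' : y' ≠ 0)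
    (hy' : XSer ιC M χ'.1 y') (hyA' : y' ^ p ∈ gA A) {f : LaurentSeries (ResidueField A)}
    (hf : f ∈ FbK A M) (hf0 : f ≠ 0) (hlift : gAR ⟨_, hyA'⟩ = f ^ p * gAR ⟨_, hyA⟩) :
    ∃ g ∈ FbK A M, gAR ⟨_, hyA⟩ = g ^ p := by
  set hb := gAR ⟨_, hyA⟩ with hhb
  have hχp' : χ'.1 ^ p = 1 := χ'.2.1
  have hχ'1 : χ' = 1 := by
    refine hyp χ' hχ' fun l hl hlM hlq hlS => ?_
    have : NeZero l := ⟨hl.ne_zero⟩
    have hlN : ¬ l ∣ N := by
      rw [hN]
      intro h
      rcases (Nat.Prime.dvd_mul hl).mp h with h | h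
      · exact hlq ((Nat.prime_dvd_prime_iff_eq hl hq).mp h)
      · exact hlM h
    obtain ⟨ζ, hζ, hζK⟩ := exists_zeta_l hq hA hl hlq
    -- the eigenvalue
    obtain ⟨b, c, hbc⟩ : ∃ (b : ℕ) (c : ℤ), a l + b = p * c := by
      have hp0 : (0 : ℤ) < p := by exact_mod_cast hp.pos
      refine ⟨((-(a l)) % p).toNat, -((-(a l)) / p), ?_⟩
      rw [Int.toNat_of_nonneg (Int.emod_nonneg _ hp0.ne')]
      have := Int.emod_add_mul_ediv (-(a l)) p
      linarith
    set δ : Gamma0 M →* ℂˣ := heckeChar hl hlM χ'.1 * χ'.1 ^ b with hδ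
    have hT := heckeX hl hlM p χ'
    have hTp : (heckeChar hl hlM χ'.1) ^ p = 1 := (heckeX hl hlM p χ').2.1
    have hδp : δ ^ p = 1 := char_mul_pow hTp (char_pow_pow hχp' b)
    have hpow : ∀ k : ℕ, IsPar (χ'.1 ^ k) := by
      intro k γ hγ
      rw [MonoidHom.pow_apply, hχ' γ hγ, one_pow]
    have hδpar : IsPar δ := (isPar_heckeChar hl hlM hχ').mul (hpow b)
    have hyδ : XSer ιC M δ (tN l (zQ ζ) y' * y' ^ b) := (hy'.tN hl hlM hζ).mul (hy'.pow b)
    have hyδ0 : tN l (zQ ζ) y' * y' ^ b ≠ 0 := mul_ne_zero (tN_ne_zero hζ hy0') (pow_ne_zero b hy0')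
    obtain ⟨h1, h2⟩ := tN_gA hζ hζK hyA'
    have e1 : (tN l (zQ ζ) y' * y' ^ b) ^ p = tN l (zQ ζ) (y' ^ p) * (y' ^ p) ^ b := by
      rw [mul_pow, tN_pow hζ, ← pow_mul, ← pow_mul, mul_comm b p]
    have h3 : (tN l (zQ ζ) y' * y' ^ b) ^ p ∈ gA A := by
      rw [e1]; exact mul_mem h1 (pow_mem hyA' b)
    have h4 : gAR ⟨_, h3⟩ = tN l (zK ζ) (gAR ⟨_, hyA'⟩) * gAR ⟨_, hyA'⟩ ^ b := by
      have e2 : (⟨_, h3⟩ : gA A) = ⟨_, h1⟩ * ⟨_, hyA'⟩ ^ b := Subtype.ext e1
      rw [e2, map_mul, map_pow, h2]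
    obtain ⟨g, hg, hg0, hgl⟩ := hred hq hA hp.pos hl hlN hζ hζK (χ := χ.1) χ.2.1 (a := a l)
      (congrArg Subtype.val (hχ l hl hlN hlS)) hy0 hy hyA hb0
    rw [← hhb] at hgl
    -- the reduction is a `p`-th power
    have h5 : gAR ⟨_, h3⟩ = (tN l (zK ζ) f * f ^ b * g * hb ^ c) ^ p := by
      rw [h4, hlift, tN_mul hζK, tN_pow hζK, hgl]
      have e3 : hb ^ (a l) * hb ^ b = (hb ^ c) ^ p := by
        rw [← zpow_natCast hb b, ← zpow_add₀ hb0, hbc, ← zpow_natCast (hb ^ c), ← zpow_mul,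
          mul_comm]
      rw [mul_pow, mul_pow, mul_pow, ← e3]
      ring
    have hδ1 : δ = 1 := by
      have hbM : hb ∈ FbK A M := by
        have h6 : gAR ⟨_, hyA'⟩ ∈ FbK A M :=
          (mem_FbK hq hA).mpr ⟨_, hy'.pow_mem_F0 hχp', hyA', rfl⟩
        rw [hlift] at h6
        have h7 := div_mem h6 (pow_mem hf p)
        rwa [mul_div_cancel_left₀ _ (pow_ne_zero p hf0)] at h7
      refine inj_level' hq hA hqM hp hp5 hqp hδp hδpar hyδ0 hyδ h3
        (g := tN l (zK ζ) f * f ^ b * g * hb ^ c) ?_ ?_ h5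
      · exact mul_mem (mul_mem (mul_mem (tN_FbK hq hA hl hlM hζ hζK hf) (pow_mem hf b))
          (hFb hg)) (zpow_mem hbM c)
      · exact mul_ne_zero (mul_ne_zero (mul_ne_zero (tN_ne_zero hζK hf0) (pow_ne_zero b hf0)) hg0)
          (zpow_ne_zero c hb0)
    apply Subtype.ext
    refine MonoidHom.ext fun γ => ?_
    change heckeChar hl hlM χ'.1 γ = χ'.1 γ ^ (a l)
    have h6 : heckeChar hl hlM χ'.1 γ * χ'.1 γ ^ b = 1 :=
      congrArg (fun φ : Gamma0 M →* ℂˣ => φ γ) hδ1
    have h7 : χ'.1 γ ^ p = 1 := congrArg (fun φ : Gamma0 M →* ℂˣ => φ γ) hχp'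
    have h8 : χ'.1 γ ^ (a l) * χ'.1 γ ^ b = 1 := by
      rw [← zpow_natCast (χ'.1 γ) b, ← zpow_add, hbc, zpow_mul, zpow_natCast, h7, one_zpow]
    exact mul_right_cancel (h6.trans h8.symm)
  -- the character is trivial
  have hF : y' ∈ F0 Qb M := by
    have h1 : XSer ιC M 1 y' := by
      rw [hχ'1] at hy'
      exact hy'
    exact h1.mem_F0
  have h0 : gAR ⟨_, hyA'⟩ ≠ 0 := by
    rw [hlift]; exact mul_ne_zero (pow_ne_zero p hf0) hb0
  obtain ⟨h1, h2⟩ := mem_of_pow hq hA hF hp.pos hyA' h0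
  refine ⟨gAR ⟨y', h1⟩ / f, div_mem ((mem_FbK hq hA).mpr ⟨_, hF, h1, rfl⟩) hf, ?_⟩
  rw [div_pow, h2, hlift, mul_div_cancel_left₀ _ (pow_ne_zero p hf0)]

end Main

end Fermat.Agent.MZ
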