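import Mathlib
import Fermat.Agent.MZ.Hecke
import Fermat.Agent.MZ.Ver
import Fermat.Agent.MZ.ParPow
import Fermat.Agent.LG.Coef

/-!
`T_l` and `w_q` commute on characters; `w_q` and the change of level.
-/

set_option autoImplicit false
set_option linter.unusedSectionVars false
set_option linter.unusedVariables false
set_option synthInstance.maxHeartbeats 400000

open IsLocalRing ModularCurve IntermediateField

noncomputable section

namespace Fermat.Agent.MZ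

open Fermat.Agent.Geo Fermat.Agent.LG Fermat.Agent.ModFun
open Fermat.Agent.ESCore
open CongruenceSubgroup (Gamma0)

section

/-- the inclusion of levels -/
def incN (K : Type*) [Field K] {N N₁ : ℕ} [NeZero N] [NeZero N₁] (hNN : N ∣ N₁) : F0 K N →+* F0 K N₁ :=
  (inclusion (F0_mono (K := K) hNN)).toRingHom

theorem coe_incN {K : Type*} [Field K] {N N₁ : ℕ} [NeZero N] [NeZero N₁] (hNN : N ∣ N₁) (x : F0 K N) :
    ((incN K hNN x : F0 K N₁) : LaurentSeries K) = (x : LaurentSeries K) :=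
  coe_inclusion (F0_mono (K := K) hNN) x

theorem incN_algebraMap {K : Type*} [Field K] {N N₁ : ℕ} [NeZero N] [NeZero N₁] (hNN : N ∣ N₁) (a : K) :
    incN K hNN (algebraMap K (F0 K N) a) = algebraMap K (F0 K N₁) a := by
  apply Subtype.ext
  rw [coe_incN]
  exact (algebraMap_apply (F0 K N) a).trans (algebraMap_apply (F0 K N₁) a).symm

theorem incN_mk {K : Type*} [Field K] {N N₁ : ℕ} [NeZero N] [NeZero N₁] (hNN : N ∣ N₁) {x : LaurentSeries K}
    (hx : x ∈ F0 K N) (hx' : x ∈ F0 K N₁) : incN K hNN ⟨x, hx⟩ = ⟨x, hx'⟩ :=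
  Subtype.ext (coe_incN hNN ⟨x, hx⟩)

variable {K : Type} [Field K] {q M M₁ N N₁ : ℕ} [NeZero q] [NeZero M] [NeZero M₁]
    [NeZero N] [NeZero N₁] (B : Bez q M) (B₁ : Bez q M₁) (ι : K →+* ℂ) (hq : q.Prime)
    (hMM : M ∣ M₁) (hN : N = q * M) (hN₁ : N₁ = q * M₁) (hNN : N ∣ N₁)

theorem wF_mono_C (a : K) :
    (B₁.wF ι hq hN₁ (incN K hNN (algebraMap K (F0 K N) a)) : LaurentSeries K) =
      (B.wF ι hq hN (algebraMap K (F0 K N) a) : LaurentSeries K) := by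
  rw [incN_algebraMap, B₁.wF_C, B.wF_C, ← incN_algebraMap hNN, coe_incN]

include hMM in
theorem wF_mono_gen₁ {d : ℕ} [NeZero d] (hd : d ∣ M)
    (h : ModularCurve.qExpand K d (ModularCurve.jqModC K) ∈ F0 K N) :
    (B₁.wF ι hq hN₁ (incN K hNN ⟨_, h⟩) : LaurentSeries K) =
      (B.wF ι hq hN ⟨_, h⟩ : LaurentSeries K) := by
  rw [B.wF_gen₁ hq hN hd, incN_mk hNN h (F0_mono (K := K) hNN h), B₁.wF_gen₁ hq hN₁ (hd.trans hMM)]


include hMM in
theorem wF_mono_gen₂ {d : ℕ} [NeZero d] (hd : d ∣ M)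
    (h : ModularCurve.qExpand K (q * d) (ModularCurve.jqModC K) ∈ F0 K N) :
    (B₁.wF ι hq hN₁ (incN K hNN ⟨_, h⟩) : LaurentSeries K) =
      (B.wF ι hq hN ⟨_, h⟩ : LaurentSeries K) := by
  rw [B.wF_gen₂ hq hN hd, incN_mk hNN h (F0_mono (K := K) hNN h),
    B₁.wF_gen₂ hq hN₁ (hd.trans hMM)]

/-- the two compositions -/
def wM₁ : F0 K N →+* LaurentSeries K :=
  ((F0 K N₁).val.toRingHom.comp (B₁.wF ι hq hN₁ : F0 K N₁ →+* F0 K N₁)).comp (incN K hNN)

def wM₂ : F0 K N →+* LaurentSeries K :=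
  (F0 K N).val.toRingHom.comp (B.wF ι hq hN : F0 K N →+* F0 K N)

theorem wM₁_apply (x : F0 K N) :
    wM₁ B₁ ι hq hN₁ hNN x = (B₁.wF ι hq hN₁ (incN K hNN x) : LaurentSeries K) := rfl

theorem wM₂_apply (x : F0 K N) :
    wM₂ B ι hq hN x = (B.wF ι hq hN x : LaurentSeries K) := rfl

include hMM in
/-- change of level and `w_q` -/
theorem wF_mono (x : F0 K N) :
    (B₁.wF ι hq hN₁ (incN K hNN x) : LaurentSeries K) = (B.wF ι hq hN x : LaurentSeries K) := by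
  rw [← wM₁_apply, ← wM₂_apply]
  congr 1
  apply ringHom_ext_adjoin
  · intro a
    rw [wM₁_apply, wM₂_apply]
    exact wF_mono_C B B₁ ι hq hN hN₁ hNN a
  · rintro x ⟨d, hd0, hd, rfl⟩
    rw [wM₁_apply, wM₂_apply]
    rcases dvd_cases hq (hN ▸ hd) with h | ⟨e, he, rfl⟩
    · exact wF_mono_gen₁ B B₁ ι hq hMM hN hN₁ hNN h _
    · haveI he0 : NeZero e := ⟨by rintro rfl; exact hd0.1 (Nat.mul_zero q)⟩
      exact wF_mono_gen₂ B B₁ ι hq hMM hN hN₁ hNN he _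


end

theorem algL' (k : Type*) [Field k] (a : k) :
    algebraMap k (LaurentSeries k) a = HahnSeries.C a := by
  rw [ModularCurve.algebraMap_laurentSeries_eq_single, HahnSeries.C_apply]

/-- two series with the same `m`-th power -/
theorem exists_const_of_pow_eq {m : ℕ} (hm : 0 < m) {y z : LaurentSeries Qb} (hz : z ≠ 0)
    (h : y ^ m = z ^ m) : ∃ a : Qb, y = HahnSeries.C a * z := by
  have h1 : (y / z) ^ m = 1 := by
    rw [div_pow, h, div_self (pow_ne_zero m hz)]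
  have h3 : IsIntegral Qb (y / z) := by
    refine IsIntegral.of_pow hm ?_
    rw [h1]
    exact isIntegral_one
  obtain ⟨a, ha⟩ := minpoly.mem_range_of_degree_eq_one Qb _
    (IsAlgClosed.degree_eq_one_of_irreducible Qb (minpoly.irreducible h3))
  refine ⟨a, ?_⟩
  rw [← algL', ha, div_mul_cancel₀ _ hz]

/-- `T_l` and `w_q` commute on characters -/
theorem wChar_hecke {q M N : ℕ} [NeZero q] [NeZero M] [NeZero N] (B : Bez q M) (hq : q.Prime)
    (hN : N = q * M) {m : ℕ} (hm : 0 < m) {ψ : XG N m} (hψ : IsPar ψ.1) {l : ℕ} (hl : l.Prime)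
    (hlN : ¬ l ∣ N) :
    B.wChar dvd_rfl hN (heckeChar hl hlN ψ.1) = heckeChar hl hlN (B.wChar dvd_rfl hN ψ.1) := by
  haveI : NeZero l := ⟨hl.ne_zero⟩
  have hψm : ψ.1 ^ m = 1 := ψ.2.1
  obtain ⟨y, hy0, hy⟩ := exists_xSer hm ψ
  obtain ⟨z, hz, hzm⟩ := B.exists_wSer hq hN hψ hm hψm hy
  obtain ⟨ζ₀, hζ₀⟩ : ∃ ζ₀ : Qb, IsPrimitiveRoot ζ₀ l := by
    have : NeZero (l : Qb) := ⟨by exact_mod_cast hl.ne_zero⟩
    exact HasEnoughRootsOfUnity.exists_primitiveRoot Qb l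
  obtain ⟨ζ, rfl⟩ := hζ₀.isUnit hl.ne_zero
  have hζ : IsPrimitiveRoot ζ l := IsPrimitiveRoot.coe_units_iff.mp hζ₀
  have hty := hy.tN hl hlN hζ
  have hpar2 := isPar_heckeChar hl hlN hψ
  have hhm : (heckeChar hl hlN ψ.1) ^ m = 1 := by rw [← heckeChar_pow, hψm, heckeChar_one]
  obtain ⟨z', hz', hzm'⟩ := B.exists_wSer hq hN hpar2 hm hhm hty
  have htz := hz.tN hl hlN hζ
  have hx : XSer ιC N 1 (y ^ m) := by
    have := hy.pow m
    rwa [hψm] at this
  have hx' : XSer ιC N 1 (tN l ζ (y ^ m)) := by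
    have := hx.tN hl hlN hζ
    rwa [heckeChar_one] at this
  have e1 : (⟨tN l ζ y ^ m, hty.pow_mem_F0 hhm⟩ : F0 Qb N) =
      ⟨tN l ζ (y ^ m), hx'.mem_F0⟩ := Subtype.ext (tN_pow hζ y m).symm
  have e2 : z' ^ m = (tN l ζ z) ^ m := by
    rw [hzm', e1, wF_tN B hq hN hl hlN hζ hx hx', ← tN_pow hζ, hzm]
  have hz0 : z ≠ 0 := by
    rintro rfl
    rw [zero_pow hm.ne'] at hzm
    have hh0 : (⟨y ^ m, hy.pow_mem_F0 hψm⟩ : F0 Qb N) ≠ 0 := fun h0 =>
      pow_ne_zero m hy0 (congrArg Subtype.val h0)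
    exact wF_ne_zero B hq hN ιC hh0 (Subtype.ext hzm.symm)
  have htz0 := tN_ne_zero hζ hz0
  obtain ⟨a, ha⟩ := exists_const_of_pow_eq hm htz0 e2
  have hz'0 : z' ≠ 0 := by
    rintro rfl
    rw [zero_pow hm.ne'] at e2
    exact pow_ne_zero m htz0 e2.symm
  have h3 : XSer ιC N (heckeChar hl hlN (B.wChar dvd_rfl hN ψ.1)) z' := by
    rw [ha]
    exact CD.xSer_C_mul a htz
  exact XSer.char_unique hz'0 hz' h3

end Fermat.Agent.MZ
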