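import Mathlib
import Fermat.Agent.MZ.OrdP
import Fermat.Agent.MZ.WHecke
import Fermat.Agent.MZ.LiftM
import Fermat.Agent.MZ.ParPow
import Fermat.Agent.LG.MazProps

/-!
Mazur's principle modulo `p` away from `p`: assembly.
-/

set_option autoImplicit false
set_option linter.unusedSectionVars false
set_option linter.unusedVariables false
set_option synthInstance.maxHeartbeats 400000
set_option maxHeartbeats 1000000

open IsLocalRing Polynomial ModularCurve IntermediateField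

noncomputable section

namespace Fermat.Agent.MZ

open Fermat.Agent.Geo Fermat.Agent.LG Fermat.Agent.ModFun Fermat.Agent.FunField
open Fermat.Agent.ESCore
open CongruenceSubgroup (Gamma0 Gamma0_mem)
open AlgebraicCurve
open Fermat.Agent.Flat (Sep gA gAR W0 ρ0 subA subK mem_gA_of_gV)
open Fermat.Agent.Lf (FbK)
open scoped MatrixGroups

/-- the element of `XG` given by a parabolic character of finite order -/
def mkXG {N m : ℕ} (χ : Gamma0 N →* ℂˣ) (hχ : IsPar χ) (hχm : χ ^ m = 1) : XG N m :=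
  ⟨χ, hχm, fun g hg => hχ g (by
    have h1 := Matrix.det_fin_two (g : SL(2, ℤ)).1
    rw [(g : SL(2, ℤ)).2, hg, mul_zero, sub_zero] at h1
    have h2 : trS (g : SL(2, ℤ)) = (g : SL(2, ℤ)).1 0 0 + (g : SL(2, ℤ)).1 1 1 := rfl
    rw [h2]
    have h3 := Int.eq_one_or_neg_one_of_mul_eq_one h1.symm
    rcases h3 with h3 | h3
    · rw [h3, one_mul] at h1
      rw [h3, ← h1]
      norm_num
    · rw [h3] at h1
      rw [h3]
      have h4 : (g : SL(2, ℤ)).1 1 1 = -1 := by linarith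
      rw [h4]
      norm_num)⟩

theorem wChar_zpow {q M : ℕ} [NeZero q] [NeZero M] (B : Bez q M) (c : Gamma0 (q * M) →* ℂˣ) (n : ℤ) :
    B.wChar dvd_rfl rfl (c ^ n) = (B.wChar dvd_rfl rfl c) ^ n := by
  let f : (Gamma0 (q * M) →* ℂˣ) →* (Gamma0 (q * M) →* ℂˣ) :=
    { toFun := B.wChar dvd_rfl rfl
      map_one' := B.wChar_one dvd_rfl rfl
      map_mul' := B.wChar_mul dvd_rfl rfl }
  exact map_zpow f c n

/-- the data of a trivial reduction along both components -/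
def RedTriv (A : ValuationSubring Qb) (M : ℕ) [NeZero M] (m : ℕ) (h : LaurentSeries Qb) : Prop :=
  ∃ c : Qb, c ≠ 0 ∧ ∃ hx : HahnSeries.C (c ^ m) * h ∈ gA A, ∃ g ∈ FbK A M, g ≠ 0 ∧
    gAR ⟨_, hx⟩ = g ^ m

section

variable {A : ValuationSubring Qb} {q M M₁ : ℕ} [NeZero q] [NeZero M] [NeZero M₁]

/-- the reduction of an eigenclass is a power -/
theorem redTriv_of_ordOK (hq : q.Prime) (hA : A.LiesOverPrime q) (hqM : ¬ q ∣ M)
    (hFb : FbK A (q * M) ≤ FbK A M)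
    (hM : M ∣ M₁) (hM' : M₁ ∣ 36 * M)
    (hqM₁ : ¬ q ∣ M₁) (h49 : 4 ∣ M₁ ∨ 9 ∣ M₁) {p : ℕ} (hp : p.Prime) (hp5 : 5 ≤ p)
    (hqp : q ≠ p) {S : Finset ℕ} {a : ℕ → ℤ} (hqS : q ∈ S)
    (hyp : ∀ χ' : XG M p, IsPar χ'.1 →
      (∀ (l : ℕ) (hl : l.Prime) (hlM : ¬ l ∣ M), l ∉ S → heckeX hl hlM p χ' = χ' ^ (a l)) →
      χ' = 1)
    {χ : XG (q * M) p} (hχ : IsPar χ.1) (heig : ∀ (l : ℕ) (hl : l.Prime) (hlN : ¬ l ∣ q * M),
      l ∉ S → heckeX hl hlN p χ = χ ^ (a l))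
    {z : LaurentSeries Qb} (hz : XSer ιC (q * M) χ.1 z) (hz0 : z ≠ 0)
    (hO : OrdOK A M₁ p (z ^ p)) : RedTriv A M p (z ^ p) := by
  obtain ⟨c, hc, hx, hmem, h0, hv⟩ := hO
  have hcz : XSer ιC (q * M) χ.1 (HahnSeries.C c * z) := CD.xSer_C_mul c hz
  have hcz0 : HahnSeries.C c * z ≠ 0 := mul_ne_zero (C_ne' hc) hz0
  have e : (HahnSeries.C c * z) ^ p = HahnSeries.C (c ^ p) * z ^ p := by rw [mul_pow, C_pow']
  have hx' : (HahnSeries.C c * z) ^ p ∈ gA A := by rw [e]; exact hx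
  have e2 : (⟨_, hx'⟩ : gA A) = ⟨_, hx⟩ := Subtype.ext e
  have hbM : gAR ⟨_, hx⟩ ∈ FbK A M := by
    apply hFb
    rw [← e2]
    exact IntermediateField.subset_adjoin _ _ ⟨⟨⟨_, hcz.pow_mem_F0 χ.2.1⟩, hx'⟩, rfl⟩
  obtain ⟨χ', hχ'm, hχ'p, y', hy'0, hy', hy'A, f, hf, hf0, hlift⟩ :=
    liftM hq hA hM hM' hqM₁ h49 hp hp5 hqp hbM h0 hmem hv
  have hb0 : gAR ⟨_, hx'⟩ ≠ 0 := by rw [e2]; exact h0
  obtain ⟨g, hg, hgp⟩ := parpow (χ := χ) (χ' := ⟨χ', hχ'm⟩) hq hA hqM rfl hp hp5 hqp S a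
    (fun χ'' h1 h2 => hyp χ'' h1 fun l hl hlM hlS => h2 l hl hlM
      (fun h => hlS (h ▸ hqS)) hlS) heig hcz0 hcz hx' hb0 hFb hχ'p hy'0 hy' hy'A hf hf0
      (by rw [e2]; exact hlift)
  refine ⟨c, hc, hx, g, hg, ?_, ?_⟩
  · rintro rfl
    rw [zero_pow hp.ne_zero] at hgp
    exact hb0 hgp
  · rw [← e2]
    exact hgp

/-- auxiliary level -/
theorem exists_aux (hq : q.Prime) (hqM : ¬ q ∣ M) : ∃ M₁ : ℕ, M₁ ≠ 0 ∧ M ∣ M₁ ∧ M₁ ∣ 36 * M ∧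
    ¬ q ∣ M₁ ∧ GoodLev q M₁ := by
  have hM0 := NeZero.ne M
  by_cases h2 : q = 2
  · refine ⟨9 * M, by omega, dvd_mul_left M 9, mul_dvd_mul_right (by norm_num) M, ?_,
      Or.inr ⟨h2, dvd_mul_right 9 M⟩⟩
    intro h
    rcases (Nat.Prime.dvd_mul hq).mp h with h | h
    · rw [h2] at h
      norm_num at h
    · exact hqM h
  · refine ⟨4 * M, by omega, dvd_mul_left M 4, mul_dvd_mul_right (by norm_num) M, ?_,
      Or.inl ⟨h2, dvd_mul_right 4 M⟩⟩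
    intro h
    rcases (Nat.Prime.dvd_mul hq).mp h with h | h
    · have h3 : q ∣ 2 ^ 2 := by norm_num; exact h
      exact h2 ((Nat.prime_dvd_prime_iff_eq hq Nat.prime_two).mp (hq.dvd_of_dvd_pow h3))
    · exact hqM h

/-- **Both reductions are trivial.** -/
theorem mzb_core (hq : q.Prime) (hA : A.LiesOverPrime q) (hqM : ¬ q ∣ M)
    (hFb : FbK A (q * M) ≤ FbK A M) {p : ℕ} (hp : p.Prime) (hp5 : 5 ≤ p)
    (hqp : q ≠ p) (B : Bez q M) {S : Finset ℕ} {a : ℕ → ℤ} (hqS : q ∈ S)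
    (hyp : ∀ χ' : XG M p, IsPar χ'.1 →
      (∀ (l : ℕ) (hl : l.Prime) (hlM : ¬ l ∣ M), l ∉ S → heckeX hl hlM p χ' = χ' ^ (a l)) →
      χ' = 1)
    (hne : ∃ l : ℕ, l.Prime ∧ ¬ l ∣ q * M ∧ l ≠ p ∧ l ∉ S ∧ ¬ (p : ℤ) ∣ a l - (1 + l))
    {χ : XG (q * M) p} (hχ : IsPar χ.1) (heig : ∀ (l : ℕ) (hl : l.Prime) (hlN : ¬ l ∣ q * M),
      l ∉ S → heckeX hl hlN p χ = χ ^ (a l))
    (hI : ∀ σ ∈ A.inertiaSubgroupIn ℚ, galX (q * M) hp.pos σ χ = χ) :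
    ∃ (y : LaurentSeries Qb) (hy : XSer ιC (q * M) χ.1 y), y ≠ 0 ∧
      RedTriv A M p (y ^ p) ∧
      RedTriv A M p (B.wF ιC hq rfl ⟨y ^ p, hy.pow_mem_F0 χ.2.1⟩ : LaurentSeries Qb) := by
  obtain ⟨l, hl, hlN, hlp, hlS, hla⟩ := hne
  have hqp' : ¬ q ∣ p := fun h => hqp ((Nat.prime_dvd_prime_iff_eq hq hp).mp h)
  -- the auxiliary character
  obtain ⟨u, v, huv⟩ : IsCoprime (p : ℤ) (a l - (1 + l)) :=
    (Nat.prime_iff_prime_int.mp hp).irreducible.coprime_iff_not_dvd.mpr hla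
  have hχp : χ ^ (p : ℤ) = 1 := by
    rw [zpow_natCast]
    exact Subtype.ext χ.2.1
  have hψI : ∀ σ ∈ A.inertiaSubgroupIn ℚ, galX (q * M) hp.pos σ (χ ^ v) = χ ^ v := by
    intro σ hσ
    rw [map_zpow, hI σ hσ]
  have hχψ : χ = heckeX hl hlN p (χ ^ v) * ((χ ^ v) ^ (l + 1))⁻¹ := by
    rw [map_zpow, heig l hl hlN hlS, ← zpow_mul, ← zpow_natCast, ← zpow_mul, ← zpow_neg,
      ← zpow_add]
    have e : a l * v + -(v * ((l + 1 : ℕ) : ℤ)) = 1 + -(p * u) := by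
      push_cast
      linear_combination huv
    rw [e, zpow_add, zpow_one, zpow_neg, zpow_mul, hχp, one_zpow, inv_one, mul_one]
  obtain ⟨y, hy, c, hy0, hlc⟩ := exists_series hq hA B rfl hp.pos hqp' hψI hl hlN hχψ
  -- the auxiliary level
  obtain ⟨M₁, hM₁, hMM, hM36, hqM₁, hG⟩ := exists_aux (M := M) hq hqM
  haveI : NeZero M₁ := ⟨hM₁⟩
  have hNN : q * M ∣ q * M₁ := mul_dvd_mul_left q hMM
  obtain ⟨B₁⟩ := nonempty_bez (q := q) (M := M₁) ((Nat.Prime.coprime_iff_not_dvd hq).mpr hqM₁)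
  have hχ₁ := isPar_resChar hNN hχ
  have hχ₁p := resChar_pow hNN χ.2.1
  have hy₁ : XSer (ιL (KI A)) (q * M₁) (resChar hNN χ.1) y := xSer_resChar hNN hy
  have hw := wF_mono B B₁ (ιL (KI A)) hq hMM rfl rfl hNN ⟨y ^ p, hy.pow_mem_F0 χ.2.1⟩
  have e1 : incN (KI A) hNN ⟨y ^ p, hy.pow_mem_F0 χ.2.1⟩ = ⟨y ^ p, hy₁.pow_mem_F0 hχ₁p⟩ :=
    incN_mk hNN _ _
  rw [e1] at hw
  have hlc₁ : (B₁.wF (ιL (KI A)) hq rfl ⟨y ^ p, hy₁.pow_mem_F0 hχ₁p⟩ :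
      LaurentSeries (KI A)).leadingCoeff = c ^ p := by rw [hw]; exact hlc
  obtain ⟨O1, O2⟩ := ord_pair hq hqM₁ hG hA B₁ hp.pos hχ₁ hχ₁p hy₁ hy0 hlc₁
  rw [hw] at O2
  -- over the algebraic numbers
  have hyQ : XSer ιC (q * M) χ.1 (coeffMap (algebraMap (KI A) Qb) y) := hy.coeffMap _ rfl
  have hyQ0 : coeffMap (algebraMap (KI A) Qb) y ≠ 0 := (_root_.map_ne_zero _).mpr hy0
  have hwQ := B.wF_coeffMap hq rfl (ιL (KI A)) ιC (algebraMap (KI A) Qb)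
    (h := ⟨y ^ p, hy.pow_mem_F0 χ.2.1⟩)
    (h' := ⟨(coeffMap (algebraMap (KI A) Qb) y) ^ p, hyQ.pow_mem_F0 χ.2.1⟩)
    (map_pow (coeffMap (algebraMap (KI A) Qb)) y p)
  rw [hwQ] at O2
  rw [map_pow] at O1
  obtain ⟨z, hz, hzp⟩ := B.exists_wSer hq rfl hχ hp.pos χ.2.1 hyQ
  rw [← hzp] at O2
  have hwm : (B.wChar dvd_rfl rfl χ.1) ^ p = 1 := by rw [← B.wChar_pow, χ.2.1, B.wChar_one]
  have hpar2 := B.wChar_isPar dvd_rfl rfl hχ
  have hz0 : z ≠ 0 := by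
    rintro rfl
    rw [zero_pow hp.ne_zero] at hzp
    have hh0 : (⟨(coeffMap (algebraMap (KI A) Qb) y) ^ p, hyQ.pow_mem_F0 χ.2.1⟩ :
        F0 Qb (q * M)) ≠ 0 := fun h0 => pow_ne_zero p hyQ0 (congrArg Subtype.val h0)
    exact wF_ne_zero B hq rfl ιC hh0 (Subtype.ext hzp.symm)
  have h49 : 4 ∣ M₁ ∨ 9 ∣ M₁ := hG.imp (fun h => h.2) (fun h => h.2)
  refine ⟨_, hyQ, hyQ0, ?_, ?_⟩
  · exact redTriv_of_ordOK hq hA hqM hFb hMM hM36 hqM₁ h49 hp hp5 hqp hqS hyp hχ heig hyQ hyQ0 O1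
  · rw [← hzp]
    refine redTriv_of_ordOK (χ := mkXG _ hpar2 hwm) hq hA hqM hFb hMM hM36 hqM₁ h49 hp hp5 hqp
      hqS hyp hpar2 ?_ hz hz0 O2
    intro l' hl' hlN' hlS'
    apply Subtype.ext
    change heckeChar hl' hlN' (B.wChar dvd_rfl rfl χ.1) = _
    rw [← wChar_hecke B hq rfl hp.pos hχ hl' hlN']
    have h1 : heckeChar hl' hlN' χ.1 = (χ ^ (a l')).1 := congrArg Subtype.val (heig l' hl' hlN' hlS')
    rw [h1]
    exact wChar_zpow B χ.1 (a l')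

end

end Fermat.Agent.MZ
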