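import Mathlib
import Fermat.Agent.MZ.MZb
import Fermat.Agent.MZ.LwRed

/-!
The statement (MZb), up to the residue field of the component at infinity.
-/

set_option autoImplicit false
set_option linter.unusedSectionVars false
set_option linter.unusedVariables false
set_option synthInstance.maxHeartbeats 400000
set_option maxHeartbeats 1000000

open IsLocalRing Polynomial ModularCurve IntermediateField

noncomputable section

namespace Fermat.Agent.MZ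

open Fermat.Agent.Geo Fermat.Agent.LG Fermat.Agent.ModFun Fermat.Agent.FunField
open Fermat.Agent.ESCore
open CongruenceSubgroup (Gamma0 Gamma0_mem)
open AlgebraicCurve
open Fermat.Agent.Flat (Sep gA gAR W0 ρ0 subA subK mem_gA_of_gV)
open Fermat.Agent.Lf (FbK)
open scoped MatrixGroups

section

variable {A : ValuationSubring Qb} {q M M₁ : ℕ} [NeZero q] [NeZero M] [NeZero M₁]

/-- restriction to a deeper level -/
def resXG {N N₁ : ℕ} (hNN : N ∣ N₁) {m : ℕ} (χ : XG N m) (hχ : IsPar χ.1) : XG N₁ m :=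
  mkXG (resChar hNN χ.1) (isPar_resChar hNN hχ) (resChar_pow hNN χ.2.1)

theorem wChar_res (hq : q.Prime) (hMM : M ∣ M₁) (B : Bez q M) (B₁ : Bez q M₁)
    (hNN : q * M ∣ q * M₁) {m : ℕ} (hm : 0 < m) (χ : XG (q * M) m) (hχ : IsPar χ.1) :
    B₁.wChar dvd_rfl rfl (resChar hNN χ.1) = resChar hNN (B.wChar dvd_rfl rfl χ.1) := by
  obtain ⟨y, hy0, hy⟩ := exists_xSer hm χ
  obtain ⟨z, hz, hzm⟩ := B.exists_wSer hq rfl hχ hm χ.2.1 hy
  have hχ₁ := isPar_resChar hNN hχ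
  have hχ₁m := resChar_pow hNN χ.2.1
  have hy₁ := xSer_resChar hNN hy
  obtain ⟨z₁, hz₁, hz₁m⟩ := B₁.exists_wSer hq rfl hχ₁ hm hχ₁m hy₁
  have hw := wF_mono B B₁ ιC hq hMM rfl rfl hNN ⟨y ^ m, hy.pow_mem_F0 χ.2.1⟩
  have e1 : incN Qb hNN ⟨y ^ m, hy.pow_mem_F0 χ.2.1⟩ = ⟨y ^ m, hy₁.pow_mem_F0 hχ₁m⟩ :=
    incN_mk hNN _ _
  rw [e1] at hw
  have e2 : z₁ ^ m = z ^ m := by rw [hz₁m, hw, hzm]
  have hz0 : z ≠ 0 := by
    rintro rfl
    rw [zero_pow hm.ne'] at hzm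
    have hh0 : (⟨y ^ m, hy.pow_mem_F0 χ.2.1⟩ : F0 Qb (q * M)) ≠ 0 := fun h0 =>
      pow_ne_zero m hy0 (congrArg Subtype.val h0)
    exact wF_ne_zero B hq rfl ιC hh0 (Subtype.ext hzm.symm)
  obtain ⟨a, ha⟩ := exists_const_of_pow_eq hm hz0 e2
  have hz₁0 : z₁ ≠ 0 := by
    rintro rfl
    rw [zero_pow hm.ne'] at e2
    exact pow_ne_zero m hz0 e2.symm
  have h3 : XSer ιC (q * M₁) (resChar hNN (B.wChar dvd_rfl rfl χ.1)) z₁ := by
    rw [ha]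
    exact CD.xSer_C_mul a (xSer_resChar hNN hz)
  exact XSer.char_unique hz₁0 hz₁ h3

theorem galX_res {N N₁ : ℕ} [NeZero N] [NeZero N₁] (hNN : N ∣ N₁) {m : ℕ} (hm : 0 < m)
    (σ : Qb ≃ₐ[ℚ] Qb) (χ : XG N m) (hχ : IsPar χ.1) :
    (galX N₁ hm σ (resXG hNN χ hχ)).1 = resChar hNN (galX N hm σ χ).1 := by
  obtain ⟨y, hy0, hy⟩ := exists_xSer hm χ
  have hy₁ : XSer ιC N₁ (resXG hNN χ hχ).1 y := xSer_resChar hNN hy
  have h1 := xSer_galX hm σ _ hy₁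
  have h2 := xSer_resChar hNN (xSer_galX hm σ _ hy)
  exact XSer.char_unique ((_root_.map_ne_zero _).mpr hy0) h1 h2

theorem entry_sq_mul (a b : SL(2, ℤ)) :
    (a * (a * b)).1 1 0 = trS a * (a * b).1 1 0 - b.1 1 0 := by
  have hdet := a.det_coe
  rw [Matrix.det_fin_two] at hdet
  simp only [LG.trS, Matrix.SpecialLinearGroup.coe_mul, Matrix.mul_apply, Fin.sum_univ_two]
  linear_combination (-(b 1 0)) * hdet

theorem entry_pow {γ : SL(2, ℤ)} {ε : ℤ} (hε : ε ^ 2 = 1) (h : trS γ = 2 * ε) (n : ℕ) :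
    (γ ^ n).1 1 0 = n * ε ^ (n + 1) * γ.1 1 0 := by
  have key : ∀ n : ℕ, (γ ^ n).1 1 0 = n * ε ^ (n + 1) * γ.1 1 0 ∧
      (γ ^ (n + 1)).1 1 0 = (n + 1 : ℕ) * ε ^ (n + 2) * γ.1 1 0 := by
    intro n
    induction n with
    | zero =>
      constructor
      · simp
      · rw [zero_add, pow_one, zero_add, hε]
        simp
    | succ n ih =>
      refine ⟨ih.2, ?_⟩
      have e : γ ^ (n + 1 + 1) = γ * (γ * γ ^ n) := by rw [pow_succ', pow_succ']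
      have e2 : γ * γ ^ n = γ ^ (n + 1) := (pow_succ' γ n).symm
      rw [e, entry_sq_mul, e2, ih.1, ih.2, h]
      have e3 : ε ^ (n + 1 + 2) = ε ^ (n + 1) := by rw [pow_add, hε, mul_one]
      have e4 : ε * ε ^ (n + 2) = ε ^ (n + 1) := by
        have : ε * ε ^ (n + 2) = ε ^ (n + 1) * ε ^ 2 := by ring
        rw [this, hε, mul_one]
      push_cast
      rw [e3]
      linear_combination 2 * ((n : ℤ) + 1) * γ.1 1 0 * e4
  exact (key n).1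

theorem isPar_galX' {N N₁ r p : ℕ} [NeZero N] [NeZero N₁] (hp : p.Prime) (hrp : Nat.Coprime r p)
    (hN₁ : N₁ = r ^ 2 * N) (hNN : N ∣ N₁) (hNE : NoEll N₁) (σ : Qb ≃ₐ[ℚ] Qb) (χ : XG N p)
    (hχ : IsPar χ.1) : IsPar (galX N hp.pos σ χ).1 := by
  intro γ hγ
  obtain ⟨ε, hε, hγε⟩ : ∃ ε : ℤ, ε ^ 2 = 1 ∧ trS (γ : SL(2, ℤ)) = 2 * ε := by
    have h1 : (trS (γ : SL(2, ℤ)) - 2) * (trS (γ : SL(2, ℤ)) + 2) = 0 := by
      linear_combination hγ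
    rcases mul_eq_zero.mp h1 with h2 | h2
    · exact ⟨1, by norm_num, by linarith⟩
    · exact ⟨-1, by norm_num, by linarith⟩
  have h1 := entry_pow hε hγε (r ^ 2)
  have hmem : (γ : SL(2, ℤ)) ^ (r ^ 2) ∈ Gamma0 N₁ := by
    rw [Gamma0_mem, ZMod.intCast_zmod_eq_zero_iff_dvd]
    change (N₁ : ℤ) ∣ ((γ : SL(2, ℤ)) ^ (r ^ 2)).1 1 0
    rw [h1, hN₁]
    have h2 : (N : ℤ) ∣ (γ : SL(2, ℤ)).1 1 0 := by
      have := (Gamma0_mem (N := N)).mp γ.2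
      rwa [ZMod.intCast_zmod_eq_zero_iff_dvd] at this
    obtain ⟨d, hd⟩ := h2
    rw [hd]
    push_cast
    exact ⟨ε ^ (r ^ 2 + 1) * d, by ring⟩
  have h3 := isPar_galX hNE hp.pos σ (resXG hNN χ hχ) (isPar_resChar hNN hχ)
    ⟨_, hmem⟩ (trS_pow_sq hγ _)
  rw [galX_res hNN hp.pos σ χ hχ] at h3
  have h4 : ((galX N hp.pos σ χ).1 γ) ^ (r ^ 2) = 1 := by
    rw [← map_pow]
    exact h3
  have h5 : ((galX N hp.pos σ χ).1 γ) ^ p = 1 := by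
    rw [← MonoidHom.pow_apply, (galX N hp.pos σ χ).2.1, MonoidHom.one_apply]
  have h6 := pow_gcd_eq_one.mpr ⟨h4, h5⟩
  rwa [Nat.Coprime.gcd_eq_one (hrp.pow_left 2), pow_one] at h6

/-- auxiliary level -/
theorem exists_aux' (hq : q.Prime) (hqM : ¬ q ∣ M) : ∃ r M₁ : ℕ, (r = 2 ∨ r = 3) ∧
    M₁ = r ^ 2 * M ∧ ¬ q ∣ M₁ ∧ GoodLev q M₁ := by
  by_cases h2 : q = 2
  · refine ⟨3, 9 * M, Or.inr rfl, rfl, ?_, Or.inr ⟨h2, dvd_mul_right 9 M⟩⟩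
    intro h
    rcases (Nat.Prime.dvd_mul hq).mp h with h | h
    · rw [h2] at h
      norm_num at h
    · exact hqM h
  · refine ⟨2, 4 * M, Or.inl rfl, rfl, ?_, Or.inl ⟨h2, dvd_mul_right 4 M⟩⟩
    intro h
    rcases (Nat.Prime.dvd_mul hq).mp h with h | h
    · have h3 : q ∣ 2 ^ 2 := by norm_num; exact h
      exact h2 ((Nat.prime_dvd_prime_iff_eq hq Nat.prime_two).mp (hq.dvd_of_dvd_pow h3))
    · exact hqM h

/-- **Frobenius on a class with trivial reductions**, at any level. -/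
theorem swap_red' (hq : q.Prime) (hA : A.LiesOverPrime q) (hqM : ¬ q ∣ M) (B : Bez q M)
    {p : ℕ} (hp : p.Prime) (hp5 : 5 ≤ p) (hqp : q ≠ p) {χ : XG (q * M) p} (hχ : IsPar χ.1)
    {y : LaurentSeries Qb} (hy : XSer ιC (q * M) χ.1 y) (hy0 : y ≠ 0)
    (h1 : RedTriv A M p (y ^ p))
    (h2 : RedTriv A M p (B.wF ιC hq rfl ⟨y ^ p, hy.pow_mem_F0 χ.2.1⟩ : LaurentSeries Qb))
    {φ : Qb ≃ₐ[ℚ] Qb} (hφ : A.IsFrobeniusAt φ q) :
    B.wChar dvd_rfl rfl (galX (q * M) hp.pos φ χ).1 * χ.1 ^ q = 1 := by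
  have hqp' : ¬ q ∣ p := fun h => hqp ((Nat.prime_dvd_prime_iff_eq hq hp).mp h)
  obtain ⟨r, M₁, hr, hM₁, hqM₁, hG⟩ := exists_aux' (M := M) hq hqM
  have hr0 : r ≠ 0 := by rcases hr with rfl | rfl <;> norm_num
  haveI : NeZero M₁ := ⟨by rw [hM₁]; exact mul_ne_zero (pow_ne_zero 2 hr0) (NeZero.ne M)⟩
  have hMM : M ∣ M₁ := hM₁ ▸ dvd_mul_left M (r ^ 2)
  have hNN : q * M ∣ q * M₁ := mul_dvd_mul_left q hMM
  obtain ⟨B₁⟩ := nonempty_bez (q := q) (M := M₁) ((Nat.Prime.coprime_iff_not_dvd hq).mpr hqM₁)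
  have hy₁ : XSer ιC (q * M₁) (resXG hNN χ hχ).1 y := xSer_resChar hNN hy
  have hFm : FbK A M ≤ FbK A M₁ := FbK_mono hMM
  have hw := wF_mono B B₁ ιC hq hMM rfl rfl hNN ⟨y ^ p, hy.pow_mem_F0 χ.2.1⟩
  have e1 : incN Qb hNN ⟨y ^ p, hy.pow_mem_F0 χ.2.1⟩ =
      ⟨y ^ p, hy₁.pow_mem_F0 (resXG hNN χ hχ).2.1⟩ := incN_mk hNN _ _
  rw [e1] at hw
  rw [← hw] at h2
  have k1 : ∃ c : Qb, c ≠ 0 ∧ ∃ hx : (HahnSeries.C c * y) ^ p ∈ gA A,
      ∃ g ∈ FbK A M₁, g ≠ 0 ∧ gAR (⟨_, hx⟩ : gA A) = g ^ p := by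
    obtain ⟨c, hc, hx, g, hg, hg0, hgx⟩ := h1
    have e : (HahnSeries.C c * y) ^ p = HahnSeries.C (c ^ p) * y ^ p := by rw [mul_pow, C_pow']
    refine ⟨c, hc, by rw [e]; exact hx, g, hFm hg, hg0, ?_⟩
    rw [← hgx]
    congr 1
    exact Subtype.ext e
  have k2 : ∃ c : Qb, c ≠ 0 ∧ ∃ hx : HahnSeries.C (c ^ p) *
        (B₁.wF ιC hq rfl ⟨y ^ p, hy₁.pow_mem_F0 (resXG hNN χ hχ).2.1⟩ : LaurentSeries Qb) ∈ gA A,
      ∃ g ∈ FbK A M₁, g ≠ 0 ∧ gAR (⟨_, hx⟩ : gA A) = g ^ p := by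
    obtain ⟨c, hc, hx, g, hg, hg0, hgx⟩ := h2
    exact ⟨c, hc, hx, g, hFm hg, hg0, hgx⟩
  have key := swap_red hq hA hqM₁ hG B₁ rfl hp.pos hqp' (ψ := resXG hNN χ hχ)
    (isPar_resChar hNN hχ) hy₁ hy0 k1 k2 hφ
  have e3 : B₁.wChar dvd_rfl rfl (galX (q * M₁) hp.pos φ (resXG hNN χ hχ)).1 =
      resChar hNN (B.wChar dvd_rfl rfl (galX (q * M) hp.pos φ χ).1) := by
    have hrp : Nat.Coprime r p := by
      have hr' : r.Prime := by rcases hr with rfl | rfl <;> norm_num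
      rw [Nat.coprime_primes hr' hp]
      rcases hr with rfl | rfl <;> omega
    have hpar2 : IsPar (galX (q * M) hp.pos φ χ).1 :=
      isPar_galX' hp hrp (by rw [hM₁]; ring) hNN (hG.noEll rfl) φ χ hχ
    rw [galX_res hNN hp.pos φ χ hχ, wChar_res hq hMM B B₁ hNN hp.pos _ hpar2]
  rw [e3] at key
  have key2 : resChar hNN (B.wChar dvd_rfl rfl (galX (q * M) hp.pos φ χ).1 * χ.1 ^ q) = 1 := by
    refine (map_mul (resChar hNN) _ _).trans ?_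
    exact (congrArg (fun z => resChar hNN (B.wChar dvd_rfl rfl (galX (q * M) hp.pos φ χ).1) * z)
      (map_pow (resChar hNN) χ.1 q)).trans key
  refine eq_one_of_resChar hp hp5 hr (by rw [hM₁]; ring) hNN ?_ key2
  have h3 : (B.wChar dvd_rfl rfl (galX (q * M) hp.pos φ χ).1) ^ p = 1 := by
    rw [← B.wChar_pow, (galX (q * M) hp.pos φ χ).2.1, B.wChar_one]
  have h4 : χ.1 ^ p = 1 := χ.2.1
  ext γ
  have h5 := congrArg (fun f : Gamma0 (q * M) →* ℂˣ => f γ) h3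
  have h6 := congrArg (fun f : Gamma0 (q * M) →* ℂˣ => f γ) h4
  simp only [MonoidHom.pow_apply, MonoidHom.one_apply] at h5 h6
  rw [MonoidHom.pow_apply, MonoidHom.mul_apply, MonoidHom.pow_apply, mul_pow, h5, one_mul,
    ← pow_mul, mul_comm _ p, pow_mul, h6, one_pow]
  rfl

/-- **(MZb)**, up to the residue field. -/
theorem mzb_of (hFb : ∀ {A : ValuationSubring Qb} {q M : ℕ} [NeZero q] [NeZero M],
    q.Prime → A.LiesOverPrime q → ¬ q ∣ M → FbK A (q * M) ≤ FbK A M) : MZbProp := by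
  intro q M N p _ _ _ hq hqM hp hp5 hqp hN A hA B S a hqS hyp hne χ hχ heig hI φ hφ
  subst hN
  obtain ⟨y, hy, hy0, h1, h2⟩ := mzb_core hq hA hqM (hFb hq hA hqM) hp hp5 hqp B hqS hyp hne hχ
    heig hI
  exact swap_red' hq hA hqM B hp hp5 hqp hχ hy hy0 h1 h2 hφ

end

end Fermat.Agent.MZ
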