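import Mathlib
import Fermat.Agent.MZ.MZbF
import Fermat.Agent.MZ.FbKMul

/-!
The statement (MZb).
-/

set_option autoImplicit false

open Fermat.Agent.LG

noncomputable section

namespace Fermat.Agent.MZ

theorem mzb_prop : MZbProp := mzb_of fun hq hA hqM => FbK_mul_le hq hA rfl hqM

end Fermat.Agent.MZ
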